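import Mathlib

/-! # S52: the Rubin-Silverberg family (constant mod 5 representation), explicit form.

`a = z₁⁵`, `b = z₂⁵` are the fifth powers of the icosahedral coordinates.
`c4F, c6F` are Klein's forms `-H, T`; `c4F ^ 3 - c6F ^ 2 = -1728 * a * b * dF ^ 5`.
The family: `a' = a * (u + v * g1) ^ 5`, `b' = b * (u - v * g2) ^ 5`. Then
`c4F a' b' = HH (c4F a b) (c6F a b) u v`, `c6F a' b' = TT (c4F a b) (c6F a b) u v`,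
`(u + v g1) (u - v g2) dF a' b' = dF a b * DD (c4F a b) (c6F a b) u v`.
Generated by a script (helper52). -/

set_option autoImplicit false
set_option linter.unusedVariables false

namespace Fermat.Agent.S52

variable {R : Type*} [CommRing R]

def c4F (a b : R) : R := a ^ 4 - 228 * a ^ 3 * b + 494 * a ^ 2 * b ^ 2 + 228 * a * b ^ 3 + b ^ 4

def c6F (a b : R) : R :=
  a ^ 6 + 522 * a ^ 5 * b - 10005 * a ^ 4 * b ^ 2 - 10005 * a ^ 2 * b ^ 4 - 522 * a * b ^ 5 + b ^ 6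

def dF (a b : R) : R := a ^ 2 + 11 * a * b - b ^ 2

def g1 (a b : R) : R := a ^ 2 + 66 * a * b - 11 * b ^ 2

def g2 (a b : R) : R := 11 * a ^ 2 + 66 * a * b - b ^ 2

def hc0 (c4 c6 : R) : R := 1 * c4
def hc1 (c4 c6 : R) : R := 20 * c6
def hc2 (c4 c6 : R) : R := 190 * c4 ^ 2
def hc3 (c4 c6 : R) : R := 1140 * c4 * c6
def hc4 (c4 c6 : R) : R := -855 * c4 ^ 3 + 5700 * c6 ^ 2
def hc5 (c4 c6 : R) : R := 15504 * c4 ^ 2 * c6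
def hc6 (c4 c6 : R) : R := 102600 * c4 ^ 4 - 63840 * c4 * c6 ^ 2
def hc7 (c4 c6 : R) : R := 259920 * c4 ^ 3 * c6 - 182400 * c6 ^ 3
def hc8 (c4 c6 : R) : R := -1000350 * c4 ^ 5 + 1126320 * c4 ^ 2 * c6 ^ 2
def hc9 (c4 c6 : R) : R := -7736040 * c4 ^ 4 * c6 + 7904000 * c4 * c6 ^ 3
def hc10 (c4 c6 : R) : R := -10003500 * c4 ^ 6 - 5619744 * c4 ^ 3 * c6 ^ 2 + 15808000 * c6 ^ 4
def hc11 (c4 c6 : R) : R := -54685800 * c4 ^ 5 * c6 + 54853760 * c4 ^ 2 * c6 ^ 3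
def hc12 (c4 c6 : R) : R := -45015750 * c4 ^ 7 + 7202520 * c4 ^ 4 * c6 ^ 2 + 37939200 * c4 * c6 ^ 4
def hc13 (c4 c6 : R) : R := -35089200 * c4 ^ 6 * c6 - 23201280 * c4 ^ 3 * c6 ^ 3 + 58368000 * c6 ^ 5
def hc14 (c4 c6 : R) : R := 207765000 * c4 ^ 8 - 495188640 * c4 ^ 5 * c6 ^ 2 + 287462400 * c4 ^ 2 * c6 ^ 4
def hc15 (c4 c6 : R) : R := 415530000 * c4 ^ 7 * c6 - 882458496 * c4 ^ 4 * c6 ^ 3 + 466944000 * c4 * c6 ^ 5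
def hc16 (c4 c6 : R) : R := -77911875 * c4 ^ 9 + 714711600 * c4 ^ 6 * c6 ^ 2 - 1220474880 * c4 ^ 3 * c6 ^ 4 + 583680000 * c6 ^ 6
def hc17 (c4 c6 : R) : R := 353200500 * c4 ^ 8 * c6 - 715080960 * c4 ^ 5 * c6 ^ 3 + 361881600 * c4 ^ 2 * c6 ^ 5
def hc18 (c4 c6 : R) : R := 779118750 * c4 ^ 10 - 2182917600 * c4 ^ 7 * c6 ^ 2 + 2026391040 * c4 ^ 4 * c6 ^ 4 - 622592000 * c4 * c6 ^ 6
def hc19 (c4 c6 : R) : R := 694372500 * c4 ^ 9 * c6 - 2044414080 * c4 ^ 6 * c6 ^ 3 + 2005401600 * c4 ^ 3 * c6 ^ 5 - 655360000 * c6 ^ 7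
def hc20 (c4 c6 : R) : R := 184528125 * c4 ^ 11 - 549301500 * c4 ^ 8 * c6 ^ 2 + 544997376 * c4 ^ 5 * c6 ^ 4 - 180224000 * c4 ^ 2 * c6 ^ 6

def Hpart0 (c4 c6 u v : R) : R :=
  hc0 c4 c6 * u ^ 20 * v ^ 0 + hc1 c4 c6 * u ^ 19 * v ^ 1 + hc2 c4 c6 * u ^ 18 * v ^ 2 + hc3 c4 c6 * u ^ 17 * v ^ 3 + hc4 c4 c6 * u ^ 16 * v ^ 4 + hc5 c4 c6 * u ^ 15 * v ^ 5 + hc6 c4 c6 * u ^ 14 * v ^ 6 + hc7 c4 c6 * u ^ 13 * v ^ 7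
def Hpart1 (c4 c6 u v : R) : R :=
  hc8 c4 c6 * u ^ 12 * v ^ 8 + hc9 c4 c6 * u ^ 11 * v ^ 9 + hc10 c4 c6 * u ^ 10 * v ^ 10 + hc11 c4 c6 * u ^ 9 * v ^ 11 + hc12 c4 c6 * u ^ 8 * v ^ 12 + hc13 c4 c6 * u ^ 7 * v ^ 13 + hc14 c4 c6 * u ^ 6 * v ^ 14 + hc15 c4 c6 * u ^ 5 * v ^ 15
def Hpart2 (c4 c6 u v : R) : R :=
  hc16 c4 c6 * u ^ 4 * v ^ 16 + hc17 c4 c6 * u ^ 3 * v ^ 17 + hc18 c4 c6 * u ^ 2 * v ^ 18 + hc19 c4 c6 * u ^ 1 * v ^ 19 + hc20 c4 c6 * u ^ 0 * v ^ 20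

def HH (c4 c6 u v : R) : R := Hpart0 c4 c6 u v + Hpart1 c4 c6 u v + Hpart2 c4 c6 u v

def tc0 (c4 c6 : R) : R := 1 * c6
def tc1 (c4 c6 : R) : R := 30 * c4 ^ 2
def tc2 (c4 c6 : R) : R := 435 * c4 * c6
def tc3 (c4 c6 : R) : R := 1160 * c4 ^ 3 + 2900 * c6 ^ 2
def tc4 (c4 c6 : R) : R := 27405 * c4 ^ 2 * c6
def tc5 (c4 c6 : R) : R := 95526 * c4 ^ 4 + 46980 * c4 * c6 ^ 2
def tc6 (c4 c6 : R) : R := 437175 * c4 ^ 3 * c6 + 156600 * c6 ^ 3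
def tc7 (c4 c6 : R) : R := -1879200 * c4 ^ 5 + 3915000 * c4 ^ 2 * c6 ^ 2
def tc8 (c4 c6 : R) : R := -8554275 * c4 ^ 4 * c6 + 14407200 * c4 * c6 ^ 3
def tc9 (c4 c6 : R) : R := 24312150 * c4 ^ 6 - 42021000 * c4 ^ 3 * c6 ^ 2 + 32016000 * c6 ^ 4
def tc10 (c4 c6 : R) : R := 246633255 * c4 ^ 5 * c6 - 216588240 * c4 ^ 2 * c6 ^ 3
def tc11 (c4 c6 : R) : R := 162081000 * c4 ^ 7 + 1352475900 * c4 ^ 4 * c6 ^ 2 - 1459929600 * c4 * c6 ^ 4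
def tc12 (c4 c6 : R) : R := 4131714825 * c4 ^ 6 * c6 - 1612005600 * c4 ^ 3 * c6 ^ 3 - 2433216000 * c6 ^ 5
def tc13 (c4 c6 : R) : R := 6928962750 * c4 ^ 8 + 5235216300 * c4 ^ 5 * c6 ^ 2 - 12044419200 * c4 ^ 2 * c6 ^ 4
def tc14 (c4 c6 : R) : R := 43190534475 * c4 ^ 7 * c6 - 43045111800 * c4 ^ 4 * c6 ^ 3
def tc15 (c4 c6 : R) : R := 79575287760 * c4 ^ 6 * c6 ^ 2 - 79420170240 * c4 ^ 3 * c6 ^ 4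
def tc16 (c4 c6 : R) : R := -176688550125 * c4 ^ 8 * c6 + 474659611200 * c4 ^ 5 * c6 ^ 3 - 297825638400 * c4 ^ 2 * c6 ^ 5
def tc17 (c4 c6 : R) : R := -311803323750 * c4 ^ 10 + 77604382800 * c4 ^ 7 * c6 ^ 2 + 935084908800 * c4 ^ 4 * c6 ^ 4 - 700766208000 * c4 * c6 ^ 6
def tc18 (c4 c6 : R) : R := -1694131392375 * c4 ^ 9 * c6 + 2776512362400 * c4 ^ 6 * c6 ^ 3 - 303665356800 * c4 ^ 3 * c6 ^ 5 - 778629120000 * c6 ^ 7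
def tc19 (c4 c6 : R) : R := -328214025000 * c4 ^ 11 - 3481840250100 * c4 ^ 8 * c6 ^ 2 + 8100765158400 * c4 ^ 5 * c6 ^ 4 - 4290656256000 * c4 ^ 2 * c6 ^ 6
def tc20 (c4 c6 : R) : R := -2874607835625 * c4 ^ 10 * c6 + 2424887357760 * c4 ^ 7 * c6 ^ 3 + 3892110842880 * c4 ^ 4 * c6 ^ 5 - 3442360320000 * c4 * c6 ^ 7
def tc21 (c4 c6 : R) : R := -2215444668750 * c4 ^ 12 + 3077188825500 * c4 ^ 9 * c6 ^ 2 - 2709129888000 * c4 ^ 6 * c6 ^ 4 + 5125838438400 * c4 ^ 3 * c6 ^ 6 - 3278438400000 * c6 ^ 8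
def tc22 (c4 c6 : R) : R := -1403114956875 * c4 ^ 11 * c6 - 1724509423800 * c4 ^ 8 * c6 ^ 3 + 7701051801600 * c4 ^ 5 * c6 ^ 5 - 4573421568000 * c4 ^ 2 * c6 ^ 7
def tc23 (c4 c6 : R) : R := 7705894500000 * c4 ^ 13 - 33414470973000 * c4 ^ 10 * c6 ^ 2 + 49888700928000 * c4 ^ 7 * c6 ^ 4 - 30337884979200 * c4 ^ 4 * c6 ^ 6 + 6157762560000 * c4 * c6 ^ 8
def tc24 (c4 c6 : R) : R := 5089101159375 * c4 ^ 12 * c6 - 22687218914400 * c4 ^ 9 * c6 ^ 3 + 35246094796800 * c4 ^ 6 * c6 ^ 5 - 22779445248000 * c4 ^ 3 * c6 ^ 7 + 5131468800000 * c6 ^ 9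
def tc25 (c4 c6 : R) : R := -17627233668750 * c4 ^ 14 + 70097953635000 * c4 ^ 11 * c6 ^ 2 - 105528606261120 * c4 ^ 8 * c6 ^ 4 + 71274600677376 * c4 ^ 5 * c6 ^ 6 - 18216714240000 * c4 ^ 2 * c6 ^ 8
def tc26 (c4 c6 : R) : R := -40985726371875 * c4 ^ 13 * c6 + 163672057566000 * c4 ^ 10 * c6 ^ 3 - 245438120632320 * c4 ^ 7 * c6 ^ 5 + 163803539865600 * c4 ^ 4 * c6 ^ 7 - 41051750400000 * c4 * c6 ^ 9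
def tc27 (c4 c6 : R) : R := -9632368125000 * c4 ^ 15 + 8104032382500 * c4 ^ 12 * c6 ^ 2 + 63806176396800 * c4 ^ 9 * c6 ^ 4 - 143803576074240 * c4 ^ 6 * c6 ^ 6 + 111934439424000 * c4 ^ 3 * c6 ^ 8 - 30408704000000 * c6 ^ 10
def tc28 (c4 c6 : R) : R := -21432019078125 * c4 ^ 14 * c6 + 85719228804000 * c4 ^ 11 * c6 ^ 3 - 128580522647040 * c4 ^ 8 * c6 ^ 5 + 85731449241600 * c4 ^ 5 * c6 ^ 7 - 21438136320000 * c4 ^ 2 * c6 ^ 9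
def tc29 (c4 c6 : R) : R := -11210083593750 * c4 ^ 16 + 49873523512500 * c4 ^ 13 * c6 ^ 2 - 87394892457600 * c4 ^ 10 * c6 ^ 4 + 75042714746880 * c4 ^ 7 * c6 ^ 6 - 31344427008000 * c4 ^ 4 * c6 ^ 8 + 5033164800000 * c4 * c6 ^ 10
def tc30 (c4 c6 : R) : R := -4110363984375 * c4 ^ 15 * c6 + 19796866155000 * c4 ^ 12 * c6 ^ 3 - 38083944628224 * c4 ^ 9 * c6 ^ 5 + 36574189977600 * c4 ^ 6 * c6 ^ 7 - 17532190720000 * c4 ^ 3 * c6 ^ 9 + 3355443200000 * c6 ^ 11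

def Tpart0 (c4 c6 u v : R) : R :=
  tc0 c4 c6 * u ^ 30 * v ^ 0 + tc1 c4 c6 * u ^ 29 * v ^ 1 + tc2 c4 c6 * u ^ 28 * v ^ 2 + tc3 c4 c6 * u ^ 27 * v ^ 3 + tc4 c4 c6 * u ^ 26 * v ^ 4 + tc5 c4 c6 * u ^ 25 * v ^ 5 + tc6 c4 c6 * u ^ 24 * v ^ 6 + tc7 c4 c6 * u ^ 23 * v ^ 7
def Tpart1 (c4 c6 u v : R) : R :=
  tc8 c4 c6 * u ^ 22 * v ^ 8 + tc9 c4 c6 * u ^ 21 * v ^ 9 + tc10 c4 c6 * u ^ 20 * v ^ 10 + tc11 c4 c6 * u ^ 19 * v ^ 11 + tc12 c4 c6 * u ^ 18 * v ^ 12 + tc13 c4 c6 * u ^ 17 * v ^ 13 + tc14 c4 c6 * u ^ 16 * v ^ 14 + tc15 c4 c6 * u ^ 15 * v ^ 15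
def Tpart2 (c4 c6 u v : R) : R :=
  tc16 c4 c6 * u ^ 14 * v ^ 16 + tc17 c4 c6 * u ^ 13 * v ^ 17 + tc18 c4 c6 * u ^ 12 * v ^ 18 + tc19 c4 c6 * u ^ 11 * v ^ 19 + tc20 c4 c6 * u ^ 10 * v ^ 20 + tc21 c4 c6 * u ^ 9 * v ^ 21 + tc22 c4 c6 * u ^ 8 * v ^ 22 + tc23 c4 c6 * u ^ 7 * v ^ 23
def Tpart3 (c4 c6 u v : R) : R :=
  tc24 c4 c6 * u ^ 6 * v ^ 24 + tc25 c4 c6 * u ^ 5 * v ^ 25 + tc26 c4 c6 * u ^ 4 * v ^ 26 + tc27 c4 c6 * u ^ 3 * v ^ 27 + tc28 c4 c6 * u ^ 2 * v ^ 28 + tc29 c4 c6 * u ^ 1 * v ^ 29 + tc30 c4 c6 * u ^ 0 * v ^ 30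

def TT (c4 c6 u v : R) : R := Tpart0 c4 c6 u v + Tpart1 c4 c6 u v + Tpart2 c4 c6 u v + Tpart3 c4 c6 u v

def dc0 (c4 c6 : R) : R := 1
def dc1 (c4 c6 : R) : R := 0
def dc2 (c4 c6 : R) : R := -66 * c4
def dc3 (c4 c6 : R) : R := -440 * c6
def dc4 (c4 c6 : R) : R := -1485 * c4 ^ 2
def dc5 (c4 c6 : R) : R := -3168 * c4 * c6
def dc6 (c4 c6 : R) : R := 5940 * c4 ^ 3 - 10560 * c6 ^ 2
def dc7 (c4 c6 : R) : R := -4752 * c4 ^ 2 * c6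
def dc8 (c4 c6 : R) : R := -66825 * c4 ^ 4 + 63360 * c4 * c6 ^ 2
def dc9 (c4 c6 : R) : R := -142560 * c4 ^ 3 * c6 + 140800 * c6 ^ 3
def dc10 (c4 c6 : R) : R := -133650 * c4 ^ 5 + 133056 * c4 ^ 2 * c6 ^ 2
def dc11 (c4 c6 : R) : R := -61560 * c4 ^ 4 * c6 + 61440 * c4 * c6 ^ 3
def dc12 (c4 c6 : R) : R := 91125 * c4 ^ 6 - 193536 * c4 ^ 3 * c6 ^ 2 + 102400 * c6 ^ 4

def Dpart0 (c4 c6 u v : R) : R :=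
  dc0 c4 c6 * u ^ 12 * v ^ 0 + dc1 c4 c6 * u ^ 11 * v ^ 1 + dc2 c4 c6 * u ^ 10 * v ^ 2 + dc3 c4 c6 * u ^ 9 * v ^ 3 + dc4 c4 c6 * u ^ 8 * v ^ 4 + dc5 c4 c6 * u ^ 7 * v ^ 5 + dc6 c4 c6 * u ^ 6 * v ^ 6 + dc7 c4 c6 * u ^ 5 * v ^ 7
def Dpart1 (c4 c6 u v : R) : R :=
  dc8 c4 c6 * u ^ 4 * v ^ 8 + dc9 c4 c6 * u ^ 3 * v ^ 9 + dc10 c4 c6 * u ^ 2 * v ^ 10 + dc11 c4 c6 * u ^ 1 * v ^ 11 + dc12 c4 c6 * u ^ 0 * v ^ 12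

def DD (c4 c6 u v : R) : R := Dpart0 c4 c6 u v + Dpart1 c4 c6 u v

end Fermat.Agent.S52
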