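import Mathlib
import Fermat.Prelude.Def_FLTPrelim_GaloisRep
import Fermat.Prelude.Def_FLTPrelim_Modularity
import Fermat.Prelude.Def_FLTPrelim_ModularRep
import Fermat.Agent.S52.Defs

/-! # S52 (3-5 switch): interface (statements as `Prop`s).  Architect: helper52.
See report #483 (kind = route, stmt = S52) for the mathematics. -/

set_option autoImplicit false

open WeierstrassCurve WeierstrassCurve.Affine WeierstrassCurve.Affine.Point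

namespace Fermat.Agent.S52

abbrev Qb : Type := AlgebraicClosure ℚ
abbrev GQ : Type := Qb ≃ₐ[ℚ] Qb

/-- The curve over `Qb` attached to an integral model (same expression as in the prelude). -/
noncomputable abbrev EQb (W : WeierstrassCurve ℤ) : Affine Qb := ((W.map (Int.castRingHom ℚ) : Affine ℚ)⁄Qb)

/-! ## Top level -/

/-- (A) Frobenius trace relation on 5-torsion; the SAME `σ` works for all models good at `ℓ`. -/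
def Stmt_Trace : Prop :=
  ∀ ℓ : ℕ, ℓ.Prime → ℓ ≠ 5 → ∃ σ : GQ, ∀ W : WeierstrassCurve ℤ, W.IsGoodPrimeFor ℓ →
    ∀ P : (EQb W).Point, (5 : ℕ) • P = 0 →
      σ • σ • P - W.apOfModel ℓ • σ • P + (ℓ : ℤ) • P = 0

/-- (B) members of the family have "the same" 5-torsion point. -/
def Stmt_Cong : Prop :=
  ∀ (W W' : WeierstrassCurve ℤ) (u v : ℤ), W.Δ ≠ 0 → W'.Δ ≠ 0 → u ≠ 0 →
    W'.c₄ = HH W.c₄ W.c₆ u v → W'.c₆ = TT W.c₄ W.c₆ u v →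
    ∃ (P : (EQb W).Point) (P' : (EQb W').Point), (5 : ℕ) • P = 0 ∧ (5 : ℕ) • P' = 0 ∧ P' ≠ 0 ∧
      ∀ (σ : GQ) (α β γ : ℤ), α • σ • σ • P + β • σ • P + γ • P = 0 →
        α • σ • σ • P' + β • σ • P' + γ • P' = 0

/-- (C) choice of the member. -/
def Stmt_Choice : Prop :=
  ∀ W : WeierstrassCurve ℤ, W.Δ ≠ 0 → W.IsSemistableModel → ¬ W.ModRepIsIrreducible 3 →
    ∃ (W' : WeierstrassCurve ℤ) (u v : ℤ), u ≠ 0 ∧ W'.Δ ≠ 0 ∧ W'.IsSemistableModel ∧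
      W'.ModRepIsIrreducible 3 ∧ W'.c₄ = HH W.c₄ W.c₆ u v ∧ W'.c₆ = TT W.c₄ W.c₆ u v

/-! ## Block RT: the reduction homomorphism -/

/-- `Wk` is the reduction of `WK` along `π : V → k`. -/
structure IsRed {K k : Type*} [Field K] [Field k] (V : ValuationSubring K) (π : V →+* k)
    (WK : Affine K) (Wk : Affine k) : Prop where
  a₁ : ∃ a : V, (a : K) = WK.a₁ ∧ π a = Wk.a₁
  a₂ : ∃ a : V, (a : K) = WK.a₂ ∧ π a = Wk.a₂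
  a₃ : ∃ a : V, (a : K) = WK.a₃ ∧ π a = Wk.a₃
  a₄ : ∃ a : V, (a : K) = WK.a₄ ∧ π a = Wk.a₄
  a₆ : ∃ a : V, (a : K) = WK.a₆ ∧ π a = Wk.a₆

/-- (RT) good reduction gives a group homomorphism, whose kernel has no torsion prime to the
residue characteristic. `π` is any local ring hom from `V` to a field. -/
def Stmt_RT : Prop :=
  ∀ (K k : Type) [Field K] [Field k] [DecidableEq K] [DecidableEq k] (V : ValuationSubring K)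
    (π : V →+* k), (∀ a : V, ¬ IsUnit a → π a = 0) → ∀ (WK : Affine K) (Wk : Affine k),
    IsRed V π WK Wk → Wk.Δ ≠ 0 →
    ∃ red : WK.Point →+ Wk.Point,
      (∀ (x y : K) (h : WK.Nonsingular x y), x ∈ V → y ∈ V) ∧
      (∀ (x y : V) (h : WK.Nonsingular (x : K) (y : K)),
        ∃ h' : Wk.Nonsingular (π x) (π y), red (Point.some _ _ h) = Point.some _ _ h') ∧
      (∀ (x y : K) (h : WK.Nonsingular x y), x ∉ V → red (Point.some _ _ h) = 0) ∧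
      (∀ (n : ℕ), (n : k) ≠ 0 → ∀ P : WK.Point, red P = 0 → n • P = 0 → P = 0)

/-! ## Block A2: the Frobenius relation over finite fields -/

/-- (A2) `φ² - a φ + ℓ = 0` on `E(Ω)`, `a = ℓ + 1 - #E(𝔽_ℓ)`, any field `Ω ⊇ 𝔽_ℓ`, any
Weierstrass equation, `ℓ = 2, 3` included. -/
def Stmt_Frob : Prop :=
  ∀ (ℓ : ℕ) [Fact ℓ.Prime] (W₀ : Affine (ZMod ℓ)), W₀.Δ ≠ 0 →
    ∀ (Ω : Type) [Field Ω] [DecidableEq Ω] [Algebra (ZMod ℓ) Ω] (P : (W₀⁄Ω).Point),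
      Point.map (W' := W₀) (FiniteField.frobeniusAlgHom (ZMod ℓ) Ω)
          (Point.map (W' := W₀) (FiniteField.frobeniusAlgHom (ZMod ℓ) Ω) P)
        - ((ℓ : ℤ) + 1 - (Nat.card W₀.Point : ℤ)) •
          Point.map (W' := W₀) (FiniteField.frobeniusAlgHom (ZMod ℓ) Ω) P
        + (ℓ : ℤ) • P = 0


/-! ### pure algebra packages of block A2 -/

/-- (A2-1) abstract quadratic form argument. -/
def Stmt_QuadAbs : Prop :=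
  ∀ (Λ : Type) [AddCommGroup Λ] (d : Λ → ℤ) (e₀ e₁ e₂ : Λ) (ℓ N : ℤ),
    (∀ P Q, d (P + Q) + d (P - Q) = 2 * d P + 2 * d Q) →
    d e₀ = 1 → d e₁ = ℓ → d e₂ = ℓ ^ 2 → d (e₁ + e₂) = ℓ * d (e₀ + e₁) →
    d (e₀ - e₁) = N → d (e₀ - (2 : ℤ) • e₁ + e₂) = N ^ 2 →
    d (e₂ - (ℓ + 1 - N) • e₁ + ℓ • e₀) = 0

open Polynomial in
/-- degree of a fraction `p / q` -/
def dg {F : Type*} [Semiring F] (p q : F[X]) : ℕ := max p.natDegree q.natDegree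

open Polynomial in
/-- (A2-2) exact parallelogram law for degrees of `x`-coordinates (`xᵢ = pᵢ / qᵢ`,
`x₃ = x(P+Q)`, `x₄ = x(P-Q)`). -/
def Stmt_PolyPar : Prop :=
  ∀ (F : Type) [Field F] (W : Affine F), W.Δ ≠ 0 → ∀ (p₁ q₁ p₂ q₂ p₃ q₃ p₄ q₄ : F[X]),
    IsCoprime p₁ q₁ → IsCoprime p₂ q₂ → IsCoprime p₃ q₃ → IsCoprime p₄ q₄ →
    p₁ * q₂ - p₂ * q₁ ≠ 0 → q₃ ≠ 0 → q₄ ≠ 0 →
    (p₁ * q₂ - p₂ * q₁) ^ 2 * (p₃ * q₄ + p₄ * q₃) =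
      (2 * p₁ * p₂ * (p₁ * q₂ + p₂ * q₁) + C W.b₂ * p₁ * p₂ * q₁ * q₂
        + C W.b₄ * (p₁ * q₂ + p₂ * q₁) * q₁ * q₂ + C W.b₆ * q₁ ^ 2 * q₂ ^ 2) * (q₃ * q₄) →
    (p₁ * q₂ - p₂ * q₁) ^ 2 * (p₃ * p₄) =
      (p₁ ^ 2 * p₂ ^ 2 - C W.b₄ * p₁ * p₂ * q₁ * q₂ - C W.b₆ * (p₁ * q₂ + p₂ * q₁) * q₁ * q₂
        - C W.b₈ * q₁ ^ 2 * q₂ ^ 2) * (q₃ * q₄) →
    dg p₃ q₃ + dg p₄ q₄ = 2 * dg p₁ q₁ + 2 * dg p₂ q₂

open Polynomial in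
/-- (A2-3) duplication multiplies the degree by 4. -/
def Stmt_PolyDup : Prop :=
  ∀ (F : Type) [Field F] (W : Affine F), W.Δ ≠ 0 → ∀ (p₁ q₁ p₃ q₃ : F[X]),
    IsCoprime p₁ q₁ → IsCoprime p₃ q₃ → q₃ ≠ 0 →
    p₃ * (4 * p₁ ^ 3 * q₁ + C W.b₂ * p₁ ^ 2 * q₁ ^ 2 + 2 * C W.b₄ * p₁ * q₁ ^ 3 + C W.b₆ * q₁ ^ 4) =
      (p₁ ^ 4 - C W.b₄ * p₁ ^ 2 * q₁ ^ 2 - 2 * C W.b₆ * p₁ * q₁ ^ 3 - C W.b₈ * q₁ ^ 4) * q₃ →
    dg p₃ q₃ = 4 * dg p₁ q₁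

open Polynomial in
/-- homogenised evaluation `∑ pᵢ sⁱ tⁿ⁻ⁱ` -/
noncomputable def homEval {F : Type*} [CommSemiring F] (p : F[X]) (n : ℕ) (s t : F[X]) : F[X] :=
  ∑ i ∈ Finset.range (n + 1), C (p.coeff i) * s ^ i * t ^ (n - i)

open Polynomial in
/-- (A2-4) degree of a composite of rational functions. -/
def Stmt_PolyComp : Prop :=
  ∀ (F : Type) [Field F] (p q s t : F[X]), IsCoprime p q → IsCoprime s t →
    IsCoprime (homEval p (dg p q) s t) (homEval q (dg p q) s t) ∧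
      dg (homEval p (dg p q) s t) (homEval q (dg p q) s t) = dg p q * dg s t

/-- (A2-5) `x`-coordinate identities for `P ± Q` and `2P`. -/
def Stmt_XId : Prop :=
  ∀ (K : Type) [Field K] [DecidableEq K] (W : Affine K) (x₁ y₁ x₂ y₂ : K)
    (h₁ : W.Nonsingular x₁ y₁) (h₂ : W.Nonsingular x₂ y₂),
    (x₁ ≠ x₂ → ∃ (x₃ y₃ x₄ y₄ : K) (h₃ : W.Nonsingular x₃ y₃) (h₄ : W.Nonsingular x₄ y₄),
      Point.some _ _ h₁ + Point.some _ _ h₂ = Point.some _ _ h₃ ∧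
      Point.some _ _ h₁ - Point.some _ _ h₂ = Point.some _ _ h₄ ∧
      (x₁ - x₂) ^ 2 * (x₃ + x₄) =
        2 * x₁ * x₂ * (x₁ + x₂) + W.b₂ * x₁ * x₂ + W.b₄ * (x₁ + x₂) + W.b₆ ∧
      (x₁ - x₂) ^ 2 * (x₃ * x₄) =
        x₁ ^ 2 * x₂ ^ 2 - W.b₄ * x₁ * x₂ - W.b₆ * (x₁ + x₂) - W.b₈) ∧
    ((2 : ℕ) • Point.some _ _ h₁ = 0 ↔ 4 * x₁ ^ 3 + W.b₂ * x₁ ^ 2 + 2 * W.b₄ * x₁ + W.b₆ = 0) ∧
    (∀ (x₃ y₃ : K) (h₃ : W.Nonsingular x₃ y₃), (2 : ℕ) • Point.some _ _ h₁ = Point.some _ _ h₃ →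
      x₃ * (4 * x₁ ^ 3 + W.b₂ * x₁ ^ 2 + 2 * W.b₄ * x₁ + W.b₆) =
        x₁ ^ 4 - W.b₄ * x₁ ^ 2 - 2 * W.b₆ * x₁ - W.b₈)

/-! ## Block B -/

/-- (B-1) -/
def Stmt_I1 : Prop := ∀ (R : Type) [CommRing R] (a b u v : R),
  c4F (a * (u + v * g1 a b) ^ 5) (b * (u - v * g2 a b) ^ 5) = HH (c4F a b) (c6F a b) u v

/-- (B-2) -/
def Stmt_I2 : Prop := ∀ (R : Type) [CommRing R] (a b u v : R),
  c6F (a * (u + v * g1 a b) ^ 5) (b * (u - v * g2 a b) ^ 5) = TT (c4F a b) (c6F a b) u v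

/-- (B-3) -/
def Stmt_I3 : Prop := ∀ (R : Type) [CommRing R] (a b u v : R),
  (u + v * g1 a b) * (u - v * g2 a b) * dF (a * (u + v * g1 a b) ^ 5) (b * (u - v * g2 a b) ^ 5)
    = dF a b * DD (c4F a b) (c6F a b) u v

/-- (B-4) every `(c4, c6)` with nonzero discriminant comes from some `(a, b)`. -/
def Stmt_ExistsAB : Prop :=
  ∀ (K : Type) [Field K] [IsAlgClosed K], (30 : K) ≠ 0 → ∀ c4 c6 : K, c4 ^ 3 ≠ c6 ^ 2 →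
    ∃ a b : K, c4F a b = c4 ∧ c6F a b = c6

/-- (B-5) the curve with invariants `(c4F a b, c6F a b)` has a point of order 5
(Tate normal form `λ = p / q`, `p = -(r a + b)`, `q = a - r b`, `r = (-11 - 5 s) / 2`; the point is
`(3 (p² - 6 p q + q²) / ρ², -108 p q² / ρ³)`). -/
def Stmt_FiveAB : Prop :=
  ∀ (K : Type) [Field K] [DecidableEq K] (s ρ : K), s ^ 2 = 5 → ρ ^ 2 = (25 + 11 * s) / 2 →
    (30 : K) ≠ 0 → ∀ a b : K, a * b * dF a b ≠ 0 → ∀ W : Affine K, W.a₁ = 0 → W.a₂ = 0 →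
    W.a₃ = 0 → W.a₄ = -27 * c4F a b → W.a₆ = -54 * c6F a b → ∃ P : W.Point, P ≠ 0 ∧ (5 : ℕ) • P = 0

/-- short Weierstrass curve over `ℚ` -/
def shortQ (A B : ℚ) : Affine ℚ := ⟨0, 0, 0, A, B⟩

/-- (B-6) passage to the short model, Galois equivariantly. -/
def Stmt_ShortIso : Prop :=
  ∀ W : WeierstrassCurve ℤ,
    ∃ e : (EQb W).Point ≃+ ((shortQ (-27 * W.c₄) (-54 * W.c₆))⁄Qb).Point,
      ∀ (σ : GQ) (P : (EQb W).Point), e (σ • P) = σ • e P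

open Polynomial in
/-- embedding `ℚ[t] → Qb(t)` -/
noncomputable def iotaT : ℚ[X] →+* RatFunc Qb :=
  (algebraMap Qb[X] (RatFunc Qb)).comp (Polynomial.mapRingHom (algebraMap ℚ Qb))

open Polynomial in
/-- (B-7) rigidity / specialisation: a 5-torsion point of the generic fibre links the Galois
modules generated by its specialisations at two rational points of good reduction. -/
def Stmt_Spec : Prop :=
  ∀ (A B : ℚ[X]) (WK : Affine (RatFunc Qb)), WK.a₁ = 0 → WK.a₂ = 0 → WK.a₃ = 0 →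
    WK.a₄ = iotaT A → WK.a₆ = iotaT B → ∀ [DecidableEq (RatFunc Qb)] (P : WK.Point), P ≠ 0 →
    (5 : ℕ) • P = 0 → ∀ t₀ t₁ : ℚ, 4 * A.eval t₀ ^ 3 + 27 * B.eval t₀ ^ 2 ≠ 0 →
    4 * A.eval t₁ ^ 3 + 27 * B.eval t₁ ^ 2 ≠ 0 →
    ∃ (P₀ : ((shortQ (A.eval t₀) (B.eval t₀))⁄Qb).Point)
      (P₁ : ((shortQ (A.eval t₁) (B.eval t₁))⁄Qb).Point),
      (5 : ℕ) • P₀ = 0 ∧ (5 : ℕ) • P₁ = 0 ∧ P₁ ≠ 0 ∧
      ∀ (σ : GQ) (α β γ : ℤ), α • σ • σ • P₀ + β • σ • P₀ + γ • P₀ = 0 →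
        α • σ • σ • P₁ + β • σ • P₁ + γ • P₁ = 0

/-! ## Block C -/

/-- (C-1) integral model with prescribed invariants close to those of `W`. -/
def Stmt_Model : Prop :=
  ∀ (W : WeierstrassCurve ℤ) (c4' c6' : ℤ), (1728 : ℤ) ∣ c4' - W.c₄ → (1728 : ℤ) ∣ c6' - W.c₆ →
    ∃ W' : WeierstrassCurve ℤ, W'.c₄ = c4' ∧ W'.c₆ = c6'

/-- (C-2) semistability of the members `(u, v) ≡ (1, 0)` modulo `30 Δ`. -/
def Stmt_Semistable : Prop :=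
  ∀ (W W' : WeierstrassCurve ℤ) (u v : ℤ), W.Δ ≠ 0 → W.IsSemistableModel → IsCoprime u v →
    30 * W.Δ ∣ v → 30 * W.Δ ∣ u - 1 → W'.c₄ = HH W.c₄ W.c₆ u v → W'.c₆ = TT W.c₄ W.c₆ u v →
    W'.Δ ≠ 0 ∧ W'.IsSemistableModel

/-- the 3-division quartic in `Y = 3 X = 3 (36 x + 3 b₂)`: `Q3 = 27 * 36 ^ 4 * ψ₃(x)` -/
def Q3 {R : Type*} [CommRing R] (c4 c6 Y : R) : R :=
  Y ^ 4 - 486 * c4 * Y ^ 2 - 5832 * c6 * Y - 19683 * c4 ^ 2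

/-- (C-3) reducible mod 3 gives an integer root of `Q3`. -/
def Stmt_Crit3 : Prop :=
  ∀ W : WeierstrassCurve ℤ, W.Δ ≠ 0 → ¬ W.ModRepIsIrreducible 3 → ∃ Y : ℤ, Q3 W.c₄ W.c₆ Y = 0

/-- (C-4) Hilbert irreducibility by hand. -/
def Stmt_HIT : Prop :=
  ∀ (c4 c6 M : ℤ), c4 ^ 3 ≠ c6 ^ 2 → M ≠ 0 → (∃ Y₀ : ℤ, Q3 c4 c6 Y₀ = 0) →
    ∃ k : ℤ, ∀ Y : ℤ, Q3 (HH c4 c6 (1 + M * k) M) (TT c4 c6 (1 + M * k) M) Y ≠ 0

end Fermat.Agent.S52
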