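import Mathlib
import Fermat.Agent.S52.Interface

/-! # S52, block A2 (Frobenius relation `φ² - a φ + ℓ = 0`): definitions.  Sub-lead: helper72.

`k` is a field containing `𝔽 = ZMod ℓ`, `W₀` a Weierstrass curve over `𝔽`.
* `KK ℓ W₀ k` : the function field `k(x)[y]` of `W₀` over `k` (`AdjoinRoot` over `RatFunc k`);
* `xK, yK`, the generic point `eta`;
* `iota` : the involution `y ↦ -y - a₁ x - a₃`, `IsOdd P : iota P = -P`;
* `Phi` : the `ℓ`-power Frobenius of `KK`;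
* `dP P` : the degree of the rational function `x(P)` (meaningful for odd points);
* `cst` : the constant points `W₀(k) → W₀(KK)`;
* `yPQ, maninN` : the polynomials of Manin's point count.
-/

set_option autoImplicit false

open Polynomial WeierstrassCurve WeierstrassCurve.Affine

namespace Fermat.Agent.S52.A2

noncomputable section

/-- degree of a rational function -/
def ratDeg {k : Type} [Field k] (f : RatFunc k) : ℕ := dg f.num f.denom

/-- The Weierstrass polynomial of `W`, as a polynomial in `Y` over `k(x)`. -/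
def ffPoly {k : Type} [Field k] (W : Affine k) : (RatFunc k)[X] :=
  W.polynomial.map (algebraMap k[X] (RatFunc k))

theorem ffPoly_monic {k : Type} [Field k] (W : Affine k) : (ffPoly W).Monic :=
  monic_polynomial.map _

theorem ffPoly_natDegree {k : Type} [Field k] (W : Affine k) : (ffPoly W).natDegree = 2 := by
  rw [ffPoly, monic_polynomial.natDegree_map, natDegree_polynomial]

theorem ffPoly_irreducible {k : Type} [Field k] (W : Affine k) : Irreducible (ffPoly W) :=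
  (Polynomial.Monic.irreducible_iff_irreducible_map_fraction_map (K := RatFunc k)
    (monic_polynomial (W := W))).1 irreducible_polynomial

instance ffPoly_fact {k : Type} [Field k] (W : Affine k) : Fact (Irreducible (ffPoly W)) :=
  ⟨ffPoly_irreducible W⟩

/-- evaluation of `ffPoly` along any ring hom out of `k(x)` -/
theorem eval₂_ffPoly {k : Type} [Field k] (W : Affine k) {L : Type*} [CommRing L]
    (i : RatFunc k →+* L) (v : L) :
    (ffPoly W).eval₂ i v = v ^ 2 + i (RatFunc.C W.a₁) * i RatFunc.X * v + i (RatFunc.C W.a₃) * v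
      - (i RatFunc.X ^ 3 + i (RatFunc.C W.a₂) * i RatFunc.X ^ 2 + i (RatFunc.C W.a₄) * i RatFunc.X
        + i (RatFunc.C W.a₆)) := by
  rw [ffPoly, eval₂_map, Affine.polynomial]
  simp only [eval₂_add, eval₂_sub, eval₂_mul, eval₂_pow, eval₂_X, eval₂_C, RingHom.comp_apply,
    map_add, map_mul, map_pow, RatFunc.algebraMap_X, RatFunc.algebraMap_C]
  ring

variable (ℓ : ℕ) [Fact ℓ.Prime] (W₀ : Affine (ZMod ℓ)) (k : Type) [Field k] [Algebra (ZMod ℓ) k]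

/-- The function field of `W₀` over `k`. -/
abbrev KK : Type := AdjoinRoot (ffPoly (W₀⁄k))

instance instDecEqKK : DecidableEq (KK ℓ W₀ k) := Classical.decEq _

instance instCharPKK : CharP (KK ℓ W₀ k) ℓ := charP_of_injective_algebraMap' (ZMod ℓ) ℓ

/-- the coordinate function `x` -/
def xK : KK ℓ W₀ k := algebraMap (RatFunc k) (KK ℓ W₀ k) RatFunc.X

/-- the coordinate function `y` -/
def yK : KK ℓ W₀ k := AdjoinRoot.root (ffPoly (W₀⁄k))

theorem algebraMap_C_KK (a : ZMod ℓ) :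
    algebraMap (RatFunc k) (KK ℓ W₀ k) (RatFunc.C (algebraMap (ZMod ℓ) k a))
      = algebraMap (ZMod ℓ) (KK ℓ W₀ k) a := by
  rw [IsScalarTower.algebraMap_apply (ZMod ℓ) k (KK ℓ W₀ k),
    IsScalarTower.algebraMap_apply k (RatFunc k) (KK ℓ W₀ k)]
  rfl

theorem eval₂_ffPoly_eq_zero_iff (v : KK ℓ W₀ k) :
    (ffPoly (W₀⁄k)).eval₂ (algebraMap (RatFunc k) (KK ℓ W₀ k)) v = 0 ↔
      (W₀⁄(KK ℓ W₀ k)).Equation (xK ℓ W₀ k) v := by
  rw [eval₂_ffPoly, equation_iff, sub_eq_zero]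
  simp only [baseChange_a₁, baseChange_a₂, baseChange_a₃, baseChange_a₄, baseChange_a₆,
    algebraMap_C_KK, xK]

theorem equation_xK_yK : (W₀⁄(KK ℓ W₀ k)).Equation (xK ℓ W₀ k) (yK ℓ W₀ k) :=
  (eval₂_ffPoly_eq_zero_iff ℓ W₀ k _).1 (AdjoinRoot.eval₂_root _)

/-- the involution `y ↦ -y - a₁ x - a₃` of `KK` over `k(x)` -/
def iotaF : KK ℓ W₀ k →ₐ[RatFunc k] KK ℓ W₀ k :=
  AdjoinRoot.liftAlgHom (ffPoly (W₀⁄k)) (Algebra.ofId (RatFunc k) (KK ℓ W₀ k))
    ((W₀⁄(KK ℓ W₀ k)).negY (xK ℓ W₀ k) (yK ℓ W₀ k))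
    ((eval₂_ffPoly_eq_zero_iff ℓ W₀ k _).2 ((equation_neg _ _).2 (equation_xK_yK ℓ W₀ k)))

theorem iotaF_yK : iotaF ℓ W₀ k (yK ℓ W₀ k) = (W₀⁄(KK ℓ W₀ k)).negY (xK ℓ W₀ k) (yK ℓ W₀ k) :=
  AdjoinRoot.liftAlgHom_root ..

theorem iotaF_xK : iotaF ℓ W₀ k (xK ℓ W₀ k) = xK ℓ W₀ k := (iotaF ℓ W₀ k).commutes _

/-- the involution, as an `𝔽`-algebra hom -/
def iota : KK ℓ W₀ k →ₐ[ZMod ℓ] KK ℓ W₀ k := (iotaF ℓ W₀ k).restrictScalars (ZMod ℓ)

/-- the `ℓ`-power Frobenius of `KK` -/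
def Phi : KK ℓ W₀ k →ₐ[ZMod ℓ] KK ℓ W₀ k := FiniteField.frobeniusAlgHom (ZMod ℓ) (KK ℓ W₀ k)

theorem Phi_apply (z : KK ℓ W₀ k) : Phi ℓ W₀ k z = z ^ ℓ := by
  simp [Phi, FiniteField.frobeniusAlgHom_apply, ZMod.card]

/-- the group `W₀(KK)` -/
abbrev Pt : Type := (W₀⁄(KK ℓ W₀ k)).Point

theorem Δ_KK_ne_zero (hΔ : W₀.Δ ≠ 0) : (W₀⁄(KK ℓ W₀ k)).Δ ≠ 0 := by
  rw [show (W₀⁄(KK ℓ W₀ k)).Δ = algebraMap (ZMod ℓ) (KK ℓ W₀ k) W₀.Δ from map_Δ ..]
  exact (_root_.map_ne_zero _).2 hΔ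

/-- the generic point `(x, y)` -/
def eta (hΔ : W₀.Δ ≠ 0) : Pt ℓ W₀ k :=
  Point.some _ _ ((equation_iff_nonsingular_of_Δ_ne_zero (Δ_KK_ne_zero ℓ W₀ k hΔ)).1
    (equation_xK_yK ℓ W₀ k))

variable {ℓ W₀ k}

/-- the endomorphism of `W₀(KK)` induced by an `𝔽`-algebra endomorphism of `KK` -/
def mapPt (f : KK ℓ W₀ k →ₐ[ZMod ℓ] KK ℓ W₀ k) : Pt ℓ W₀ k →+ Pt ℓ W₀ k :=
  Point.map (W' := W₀) f

/-- odd points: `ι P = -P` -/
def IsOdd (P : Pt ℓ W₀ k) : Prop := mapPt (iota ℓ W₀ k) P = -P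

/-- a left inverse of `k(x) → KK` -/
def xF (z : KK ℓ W₀ k) : RatFunc k := Function.invFun (algebraMap (RatFunc k) (KK ℓ W₀ k)) z

theorem xF_algebraMap (f : RatFunc k) : xF (algebraMap (RatFunc k) (KK ℓ W₀ k) f) = f :=
  Function.leftInverse_invFun (algebraMap (RatFunc k) (KK ℓ W₀ k)).injective f

/-- the degree of `x(P)` (as a rational function of `x`); `0` at the origin -/
def dP : Pt ℓ W₀ k → ℤ
  | .zero => 0
  | .some u _ _ => (ratDeg (xF u) : ℤ)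

variable (ℓ W₀ k)

/-- constant points -/
def cst [DecidableEq k] : (W₀⁄k).Point →+ Pt ℓ W₀ k :=
  Point.map (W' := W₀) (IsScalarTower.toAlgHom (ZMod ℓ) k (KK ℓ W₀ k))

/-! ### Manin's polynomials (over any commutative ring) -/

section Manin

variable {R : Type} [CommRing R] (W : Affine R)

/-- `x³ + a₂ x² + a₄ x + a₆` -/
def fW : R[X] := X ^ 3 + C W.a₂ * X ^ 2 + C W.a₄ * X + C W.a₆

/-- `a₁ x + a₃` -/
def lW : R[X] := C W.a₁ * X + C W.a₃

/-- `yⁿ = (yPQ n).1 + (yPQ n).2 * y` on the curve `y² + lW y = fW` -/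
def yPQ : ℕ → R[X] × R[X]
  | 0 => (1, 0)
  | n + 1 => ((yPQ n).2 * fW W, (yPQ n).1 - (yPQ n).2 * lW W)

/-- the numerator of `x(Φ η - η)` over the denominator `(x ^ n - x) ^ 2` (for `n = ℓ`) -/
def maninN (n : ℕ) : R[X] :=
  X ^ n * X * (X ^ n + X) + 2 * C W.a₂ * (X ^ n * X) + C W.a₄ * (X ^ n + X) + 2 * C W.a₆
    + (yPQ W n).1 * lW W + 2 * (yPQ W n).2 * fW W + (C W.a₁ * X ^ n + C W.a₃) * lW W

end Manin

/-- number of rational points above `x = c` -/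
def nY (c : ZMod ℓ) : ℕ := Nat.card {y : ZMod ℓ // W₀.Equation c y}

end

end Fermat.Agent.S52.A2
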