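import Mathlib
import Fermat.Agent.S52.A2Defs

/-! # S52, block A2: interface (statements as `Prop`s).  Sub-lead: helper72.

Goal: `Stmt_Frob` (in `Fermat/Agent/S52/Interface.lean`).  The glue theorem is in `A2Glue.lean`.
Mathematics: see the task descriptions (table `tasks`, team `S52`, titles `A2-*`). -/

set_option autoImplicit false

open Polynomial WeierstrassCurve WeierstrassCurve.Affine

namespace Fermat.Agent.S52.A2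

/-! ## Layer R: degrees of rational functions -/

/-- (A2-R) -/
def Stmt_RatDeg : Prop :=
  ∀ (k : Type) [Field k],
    (∀ a b : k[X], IsCoprime a b → b ≠ 0 →
      ratDeg (algebraMap k[X] (RatFunc k) a / algebraMap k[X] (RatFunc k) b) = dg a b) ∧
    (∀ f : RatFunc k, ratDeg f = 0 → ∃ c : k, f = RatFunc.C c) ∧
    (∀ c : k, ratDeg (RatFunc.C c) = 0) ∧
    ratDeg (RatFunc.X : RatFunc k) = 1 ∧
    (∀ (f : RatFunc k) (n : ℕ), ratDeg (f ^ n) = n * ratDeg f)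

/-! ## Layer F: the function field -/

/-- (A2-F1) `{1, y}` is a basis of `KK` over `k(x)`, and `k(x)` is the fixed field of `ι`. -/
def Stmt_Basis : Prop :=
  ∀ (ℓ : ℕ) [Fact ℓ.Prime] (W₀ : Affine (ZMod ℓ)) (k : Type) [Field k] [Algebra (ZMod ℓ) k],
    (∀ z : KK ℓ W₀ k, ∃ p q : RatFunc k,
      z = algebraMap _ (KK ℓ W₀ k) p + algebraMap _ (KK ℓ W₀ k) q * yK ℓ W₀ k) ∧
    (∀ p q : RatFunc k,
      algebraMap _ (KK ℓ W₀ k) p + algebraMap _ (KK ℓ W₀ k) q * yK ℓ W₀ k = 0 → p = 0 ∧ q = 0) ∧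
    (W₀.Δ ≠ 0 → ∀ z : KK ℓ W₀ k, iota ℓ W₀ k z = z →
      ∃ p : RatFunc k, z = algebraMap _ (KK ℓ W₀ k) p)

/-- (A2-F3) a point whose `x`-coordinate is constant is a constant point. -/
def Stmt_Const : Prop :=
  ∀ (ℓ : ℕ) [Fact ℓ.Prime] (W₀ : Affine (ZMod ℓ)) (k : Type) [Field k] [Algebra (ZMod ℓ) k]
    [IsAlgClosed k] [DecidableEq k] (u v : KK ℓ W₀ k) (h : (W₀⁄(KK ℓ W₀ k)).Nonsingular u v),
    (∃ c : k, u = algebraMap k (KK ℓ W₀ k) c) →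
      ∃ P₀ : (W₀⁄k).Point, cst ℓ W₀ k P₀ = Point.some u v h

/-- (A2-F4) substitution homomorphisms: every non-constant point is the image of the generic
point under a `k`-algebra endomorphism of `KK`. -/
def Stmt_Subst : Prop :=
  ∀ (ℓ : ℕ) [Fact ℓ.Prime] (W₀ : Affine (ZMod ℓ)) (k : Type) [Field k] [Algebra (ZMod ℓ) k]
    [IsAlgClosed k] (u v : KK ℓ W₀ k), (W₀⁄(KK ℓ W₀ k)).Equation u v →
    (¬ ∃ c : k, u = algebraMap k (KK ℓ W₀ k) c) →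
      ∃ σ : KK ℓ W₀ k →ₐ[k] KK ℓ W₀ k, σ (xK ℓ W₀ k) = u ∧ σ (yK ℓ W₀ k) = v

/-! ## Layer D: the degree function on odd points -/

/-- (A2-D1) exact parallelogram law. -/
def Stmt_Par : Prop :=
  ∀ (ℓ : ℕ) [Fact ℓ.Prime] (W₀ : Affine (ZMod ℓ)) (k : Type) [Field k] [Algebra (ZMod ℓ) k],
    W₀.Δ ≠ 0 → ∀ P Q : Pt ℓ W₀ k, IsOdd P → IsOdd Q →
      dP (P + Q) + dP (P - Q) = 2 * dP P + 2 * dP Q

/-- (A2-D2) the generic point is odd of degree 1; Frobenius multiplies degrees by `ℓ`. -/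
def Stmt_DegFrob : Prop :=
  ∀ (ℓ : ℕ) [Fact ℓ.Prime] (W₀ : Affine (ZMod ℓ)) (k : Type) [Field k] [Algebra (ZMod ℓ) k]
    (hΔ : W₀.Δ ≠ 0),
    IsOdd (eta ℓ W₀ k hΔ) ∧ dP (eta ℓ W₀ k hΔ) = 1 ∧
    (∀ P : Pt ℓ W₀ k, IsOdd P → dP (mapPt (Phi ℓ W₀ k) P) = ℓ * dP P)

/-- (A2-D4) degrees are multiplicative under substitution. -/
def Stmt_DegSubst : Prop :=
  ∀ (ℓ : ℕ) [Fact ℓ.Prime] (W₀ : Affine (ZMod ℓ)) (k : Type) [Field k] [Algebra (ZMod ℓ) k]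
    (hΔ : W₀.Δ ≠ 0) (σ : KK ℓ W₀ k →ₐ[k] KK ℓ W₀ k) (Q : Pt ℓ W₀ k),
    IsOdd (mapPt (σ.restrictScalars (ZMod ℓ)) (eta ℓ W₀ k hΔ)) → IsOdd Q →
      dP (mapPt (σ.restrictScalars (ZMod ℓ)) Q)
        = dP (mapPt (σ.restrictScalars (ZMod ℓ)) (eta ℓ W₀ k hΔ)) * dP Q

/-- (A2-D5 = A2-M6) Manin's point count. -/
def Stmt_Manin : Prop :=
  ∀ (ℓ : ℕ) [Fact ℓ.Prime] (W₀ : Affine (ZMod ℓ)) (k : Type) [Field k] [Algebra (ZMod ℓ) k]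
    (hΔ : W₀.Δ ≠ 0),
    dP (mapPt (Phi ℓ W₀ k) (eta ℓ W₀ k hΔ) - eta ℓ W₀ k hΔ) = (Nat.card W₀.Point : ℤ)

/-! ## Layer M: the polynomial part of Manin's count (everything over `ZMod ℓ`) -/

/-- (A2-M1) `yⁿ = Pₙ(x) + Qₙ(x) y`, and the numerator of `x(Φη - η)` is `maninN(x)`;
valid for a point `(x, y)` of `W₀` in ANY commutative `ZMod ℓ`-algebra. -/
def Stmt_ManinFormula : Prop :=
  ∀ (ℓ : ℕ) [Fact ℓ.Prime] (W₀ : Affine (ZMod ℓ)) (A : Type) [CommRing A] [Algebra (ZMod ℓ) A]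
    (x y : A), (W₀⁄A).Equation x y →
    (∀ n : ℕ, y ^ n = aeval x (yPQ W₀ n).1 + aeval x (yPQ W₀ n).2 * y) ∧
    (y ^ ℓ - (W₀⁄A).negY x y) ^ 2 + (W₀⁄A).a₁ * (y ^ ℓ - (W₀⁄A).negY x y) * (x ^ ℓ - x)
      - ((W₀⁄A).a₂ + x ^ ℓ + x) * (x ^ ℓ - x) ^ 2 = aeval x (maninN W₀ ℓ)

/-- (A2-M2) -/
def Stmt_ManinDegree : Prop :=
  ∀ (ℓ : ℕ) [Fact ℓ.Prime] (W₀ : Affine (ZMod ℓ)), (maninN W₀ ℓ).natDegree = 2 * ℓ + 1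

/-- (A2-M3a) two rational points above `c`. -/
def Stmt_ManinTwo : Prop :=
  ∀ (ℓ : ℕ) [Fact ℓ.Prime] (W₀ : Affine (ZMod ℓ)) (c : ZMod ℓ), nY ℓ W₀ c = 2 →
    ¬ (X - C c) ∣ maninN W₀ ℓ

/-- (A2-M3b) one rational point above `c` (a 2-torsion point). -/
def Stmt_ManinOne : Prop :=
  ∀ (ℓ : ℕ) [Fact ℓ.Prime] (W₀ : Affine (ZMod ℓ)), W₀.Δ ≠ 0 → ∀ c : ZMod ℓ, nY ℓ W₀ c = 1 →
    (X - C c) ∣ maninN W₀ ℓ ∧ ¬ (X - C c) ^ 2 ∣ maninN W₀ ℓ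

/-- (A2-M3c) no rational point above `c`. -/
def Stmt_ManinZero : Prop :=
  ∀ (ℓ : ℕ) [Fact ℓ.Prime] (W₀ : Affine (ZMod ℓ)) (c : ZMod ℓ), nY ℓ W₀ c = 0 →
    (X - C c) ^ 2 ∣ maninN W₀ ℓ

/-- (A2-M4) cancelling the gcd (abstract). -/
def Stmt_ManinGcd : Prop :=
  ∀ (ℓ : ℕ) [Fact ℓ.Prime] (n : ZMod ℓ → ℕ) (N : (ZMod ℓ)[X]), N.natDegree = 2 * ℓ + 1 →
    (∀ c, n c ≤ 2) → (∀ c, n c = 2 → ¬ (X - C c) ∣ N) →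
    (∀ c, n c = 1 → (X - C c) ∣ N ∧ ¬ (X - C c) ^ 2 ∣ N) → (∀ c, n c = 0 → (X - C c) ^ 2 ∣ N) →
    ∃ g N₁ D₁ : (ZMod ℓ)[X], N = g * N₁ ∧ (X ^ ℓ - X) ^ 2 = g * D₁ ∧ IsCoprime N₁ D₁ ∧
      dg N₁ D₁ = 1 + ∑ c : ZMod ℓ, n c

/-- (A2-M5) counting points fibrewise. -/
def Stmt_ManinCard : Prop :=
  ∀ (ℓ : ℕ) [Fact ℓ.Prime] (W₀ : Affine (ZMod ℓ)), W₀.Δ ≠ 0 →
    (∀ c, nY ℓ W₀ c ≤ 2) ∧ Nat.card W₀.Point = 1 + ∑ c : ZMod ℓ, nY ℓ W₀ c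

end Fermat.Agent.S52.A2
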