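import Mathlib
import Fermat.Agent.S52.A2Interface

/-! # S52, block A2-F1: `{1, y}` is a basis of `KK` over `k(x)`; the fixed field of `ι`. -/

set_option autoImplicit false

open Polynomial WeierstrassCurve WeierstrassCurve.Affine

namespace Fermat.Agent.S52.A2

namespace BS

theorem span_of_deg_two {F : Type*} [Field F] (f : F[X]) (hf : f.Monic) (hd : f.natDegree = 2)
    (z : AdjoinRoot f) :
    ∃ p q : F, z = AdjoinRoot.of f p + AdjoinRoot.of f q * AdjoinRoot.root f := by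
  obtain ⟨g, rfl⟩ := AdjoinRoot.mk_surjective z
  have h1 : AdjoinRoot.mk f g = AdjoinRoot.mk f (g %ₘ f) := by
    rw [AdjoinRoot.mk_eq_mk]
    refine ⟨g /ₘ f, ?_⟩
    have := Polynomial.modByMonic_add_div g f
    linear_combination -this
  have h2 : (g %ₘ f).natDegree ≤ 1 := by
    have := Polynomial.natDegree_modByMonic_lt g hf (by
      intro h
      rw [h] at hd
      simp at hd)
    omega
  have h3 := Polynomial.eq_X_add_C_of_natDegree_le_one h2
  refine ⟨(g %ₘ f).coeff 0, (g %ₘ f).coeff 1, ?_⟩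
  rw [h1]
  conv_lhs => rw [h3]
  rw [map_add, map_mul, AdjoinRoot.mk_C, AdjoinRoot.mk_C, AdjoinRoot.mk_X]
  ring

theorem indep_of_deg_two {F : Type*} [Field F] (f : F[X]) (hd : f.natDegree = 2)
    (p q : F) (h : AdjoinRoot.of f p + AdjoinRoot.of f q * AdjoinRoot.root f = 0) :
    p = 0 ∧ q = 0 := by
  have h1 : AdjoinRoot.mk f (C q * X + C p) = 0 := by
    rw [map_add, map_mul, AdjoinRoot.mk_C, AdjoinRoot.mk_C, AdjoinRoot.mk_X]
    linear_combination h
  rw [AdjoinRoot.mk_eq_zero] at h1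
  have h2 : (C q * X + C p).natDegree < f.natDegree := by
    rw [hd]
    have := Polynomial.natDegree_linear_le (a := q) (b := p)
    omega
  have h3 := Polynomial.eq_zero_of_dvd_of_natDegree_lt h1 h2
  have h4 := congrArg (fun r => r.coeff 0) h3
  have h5 := congrArg (fun r => r.coeff 1) h3
  simp at h4 h5
  exact ⟨h4, h5⟩

end BS

theorem stmt_Basis : Stmt_Basis := by
  intro ℓ _ W₀ k _ _
  have H1 : ∀ z : KK ℓ W₀ k, ∃ p q : RatFunc k,
      z = algebraMap _ (KK ℓ W₀ k) p + algebraMap _ (KK ℓ W₀ k) q * yK ℓ W₀ k :=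
    fun z => BS.span_of_deg_two _ (ffPoly_monic _) (ffPoly_natDegree _) z
  have H2 : ∀ p q : RatFunc k,
      algebraMap _ (KK ℓ W₀ k) p + algebraMap _ (KK ℓ W₀ k) q * yK ℓ W₀ k = 0 → p = 0 ∧ q = 0 :=
    fun p q h => BS.indep_of_deg_two _ (ffPoly_natDegree _) p q h
  refine ⟨H1, H2, ?_⟩
  intro hΔ z hz
  obtain ⟨p, q, rfl⟩ := H1 z
  by_cases hq : q = 0
  · exact ⟨p, by rw [hq]; simp⟩
  exfalso
  have e1 : iota ℓ W₀ k (algebraMap _ (KK ℓ W₀ k) p + algebraMap _ (KK ℓ W₀ k) q * yK ℓ W₀ k)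
      = algebraMap _ (KK ℓ W₀ k) p + algebraMap _ (KK ℓ W₀ k) q *
        (W₀⁄(KK ℓ W₀ k)).negY (xK ℓ W₀ k) (yK ℓ W₀ k) := by
    show iotaF ℓ W₀ k _ = _
    rw [map_add, map_mul, AlgHom.commutes, AlgHom.commutes, iotaF_yK]
  rw [e1] at hz
  have e2 : algebraMap _ (KK ℓ W₀ k)
        (-(q * (RatFunc.C (algebraMap (ZMod ℓ) k W₀.a₁) * RatFunc.X
          + RatFunc.C (algebraMap (ZMod ℓ) k W₀.a₃))))
      + algebraMap _ (KK ℓ W₀ k) (-(2 * q)) * yK ℓ W₀ k = 0 := by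
    simp only [map_neg, map_mul, map_add, algebraMap_C_KK, map_ofNat]
    simp only [negY, baseChange_a₁, baseChange_a₃, xK] at hz
    linear_combination hz
  obtain ⟨h3, h4⟩ := H2 _ _ e2
  have h2 : (2 : RatFunc k) = 0 := by
    rcases mul_eq_zero.1 (neg_eq_zero.1 h4) with h | h
    · exact h
    · exact absurd h hq
  have h5 : RatFunc.C (algebraMap (ZMod ℓ) k W₀.a₁) * RatFunc.X
          + RatFunc.C (algebraMap (ZMod ℓ) k W₀.a₃) = 0 := by
    rcases mul_eq_zero.1 (neg_eq_zero.1 h3) with h | h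
    · exact absurd h hq
    · exact h
  have h2' : (2 : ZMod ℓ) = 0 := by
    apply (algebraMap (ZMod ℓ) (RatFunc k)).injective
    rw [map_ofNat, map_zero]
    exact h2
  have h6 : (C (algebraMap (ZMod ℓ) k W₀.a₁) * X + C (algebraMap (ZMod ℓ) k W₀.a₃) : k[X]) = 0 := by
    apply RatFunc.algebraMap_injective k
    rw [map_add, map_mul, RatFunc.algebraMap_C, RatFunc.algebraMap_C, RatFunc.algebraMap_X,
      map_zero]
    exact h5
  have h7 := congrArg (fun r => r.coeff 0) h6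
  have h8 := congrArg (fun r => r.coeff 1) h6
  simp at h7 h8
  apply hΔ
  simp only [WeierstrassCurve.Δ, WeierstrassCurve.b₂, WeierstrassCurve.b₄, WeierstrassCurve.b₆,
    WeierstrassCurve.b₈, h7, h8]
  linear_combination (-8 * W₀.a₂ ^ 2 * (4 * W₀.a₂ * W₀.a₆ - W₀.a₄ ^ 2) - 32 * W₀.a₄ ^ 3
    - 216 * W₀.a₆ ^ 2 + 144 * W₀.a₂ * W₀.a₄ * W₀.a₆) * h2'

end Fermat.Agent.S52.A2
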