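import Fermat.Agent.S52.A2Interface

/-! # S52, package A2-F3: a point with constant `x`-coordinate is a constant point (helper29) -/

set_option autoImplicit false

open Polynomial WeierstrassCurve WeierstrassCurve.Affine

namespace Fermat.Agent.S52.A2

namespace CS

/-- a monic quadratic over an algebraically closed field has a root -/
theorem exists_root_quadratic {k : Type*} [Field k] [IsAlgClosed k] (β γ : k) :
    ∃ e : k, e ^ 2 + β * e - γ = 0 := by
  have hdeg : (X ^ 2 + C β * X - C γ : k[X]).degree ≠ 0 := by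
    have : (X ^ 2 + C β * X - C γ : k[X]) = C 1 * X ^ 2 + C β * X + C (-γ) := by
      simp [sub_eq_add_neg]
    rw [this, degree_quadratic one_ne_zero]
    decide
  obtain ⟨e, he⟩ := IsAlgClosed.exists_root _ hdeg
  refine ⟨e, ?_⟩
  simpa [IsRoot.def] using he

end CS

theorem stmt_Const : Stmt_Const := by
  intro ℓ _ W₀ k _ _ _ _ u v h hc
  obtain ⟨c, rfl⟩ := hc
  have heq := h.1
  rw [equation_iff] at heq
  simp only [baseChange_a₁, baseChange_a₂, baseChange_a₃, baseChange_a₄, baseChange_a₆] at heq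
  set φ := algebraMap k (KK ℓ W₀ k) with hφ
  have ha : ∀ a : ZMod ℓ, algebraMap (ZMod ℓ) (KK ℓ W₀ k) a = φ (algebraMap (ZMod ℓ) k a) :=
    fun a => IsScalarTower.algebraMap_apply (ZMod ℓ) k (KK ℓ W₀ k) a
  simp only [ha] at heq
  obtain ⟨e, he⟩ := CS.exists_root_quadratic
    (algebraMap (ZMod ℓ) k W₀.a₁ * c + algebraMap (ZMod ℓ) k W₀.a₃)
    (c ^ 3 + algebraMap (ZMod ℓ) k W₀.a₂ * c ^ 2 + algebraMap (ZMod ℓ) k W₀.a₄ * c
      + algebraMap (ZMod ℓ) k W₀.a₆)
  have he' := congrArg φ he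
  simp only [map_add, map_sub, map_mul, map_pow, map_zero] at he'
  have hprod : (v - φ e) * (v - φ (-(algebraMap (ZMod ℓ) k W₀.a₁ * c
      + algebraMap (ZMod ℓ) k W₀.a₃) - e)) = 0 := by
    simp only [map_add, map_sub, map_mul, map_neg]
    linear_combination heq - he'
  obtain ⟨e', rfl⟩ : ∃ e' : k, v = φ e' := by
    rcases mul_eq_zero.1 hprod with h1 | h1
    · exact ⟨_, sub_eq_zero.1 h1⟩
    · exact ⟨_, sub_eq_zero.1 h1⟩
  have hns : (W₀⁄k).Nonsingular c e' :=
    (W₀.baseChange_nonsingular (f := IsScalarTower.toAlgHom (ZMod ℓ) k (KK ℓ W₀ k))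
      (IsScalarTower.toAlgHom (ZMod ℓ) k (KK ℓ W₀ k)).injective c e').1 h
  exact ⟨Point.some c e' hns, rfl⟩

end Fermat.Agent.S52.A2

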