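import Mathlib
import Fermat.Agent.S52.A2Interface

/-! # S52, block A2, package A2-D2: the generic point is odd of degree 1; Frobenius multiplies
degrees by `ℓ`. -/

set_option autoImplicit false

open Polynomial WeierstrassCurve WeierstrassCurve.Affine

namespace Fermat.Agent.S52.A2

namespace DF

variable {ℓ : ℕ} [Fact ℓ.Prime] {W₀ : Affine (ZMod ℓ)} {k : Type} [Field k] [Algebra (ZMod ℓ) k]

theorem mapPt_some (f : KK ℓ W₀ k →ₐ[ZMod ℓ] KK ℓ W₀ k) {u v : KK ℓ W₀ k}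
    (h : (W₀⁄(KK ℓ W₀ k)).Nonsingular u v) :
    mapPt f (Point.some u v h) =
      Point.some (f u) (f v) ((W₀.baseChange_nonsingular f.injective ..).mpr h) := rfl

theorem isOdd_eta (hΔ : W₀.Δ ≠ 0) : IsOdd (eta ℓ W₀ k hΔ) := by
  unfold IsOdd eta
  rw [mapPt_some, Point.neg_some, Point.some.injEq]
  exact ⟨iotaF_xK ℓ W₀ k, iotaF_yK ℓ W₀ k⟩

theorem dP_eta (hR : Stmt_RatDeg) (hΔ : W₀.Δ ≠ 0) : dP (eta ℓ W₀ k hΔ) = 1 := by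
  change ((ratDeg (xF (xK ℓ W₀ k)) : ℕ) : ℤ) = 1
  rw [xK, xF_algebraMap, (hR k).2.2.2.1]
  rfl

theorem dP_Phi (hB : Stmt_Basis) (hR : Stmt_RatDeg) (hΔ : W₀.Δ ≠ 0) (P : Pt ℓ W₀ k)
    (hP : IsOdd P) : dP (mapPt (Phi ℓ W₀ k) P) = ℓ * dP P := by
  rcases P with _ | ⟨u, v, h⟩
  · change (0 : ℤ) = ℓ * 0
    simp
  · unfold IsOdd at hP
    rw [mapPt_some, Point.neg_some, Point.some.injEq] at hP
    obtain ⟨p, rfl⟩ := (hB ℓ W₀ k).2.2 hΔ u hP.1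
    rw [mapPt_some]
    change ((ratDeg (xF (Phi ℓ W₀ k (algebraMap _ (KK ℓ W₀ k) p))) : ℕ) : ℤ) =
      ℓ * ((ratDeg (xF (algebraMap _ (KK ℓ W₀ k) p)) : ℕ) : ℤ)
    rw [Phi_apply, ← map_pow, xF_algebraMap, xF_algebraMap, (hR k).2.2.2.2]
    push_cast
    rfl

end DF

/-- (A2-D2) -/
theorem stmt_DegFrob (hB : Stmt_Basis) (hR : Stmt_RatDeg) : Stmt_DegFrob := by
  intro ℓ _ W₀ k _ _ hΔ
  exact ⟨DF.isOdd_eta hΔ, DF.dP_eta hR hΔ, fun P hP => DF.dP_Phi hB hR hΔ P hP⟩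

end Fermat.Agent.S52.A2
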