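import Mathlib

/-! # S52, block A2: toolkit for the pure polynomial packages (helper29)

* `IsTop p n c`: `p` has degree `≤ n` and `n`-th coefficient `c` (calculus of the place at infinity);
* Bezout relations from "no maximal ideal contains all of them";
* the no-common-zero lemmas for the duplication forms and the biquadratic addition forms, valid in
  all characteristics. -/

set_option autoImplicit false

namespace Fermat.Agent.S52.PT

open Polynomial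

section IsTop

variable {R : Type*} [CommRing R]

/-- `p` has degree `≤ n` and `n`-th coefficient `c`. -/
def IsTop (p : R[X]) (n : ℕ) (c : R) : Prop := p.natDegree ≤ n ∧ p.coeff n = c

theorem isTop_self {p : R[X]} {n : ℕ} (h : p.natDegree ≤ n) : IsTop p n (p.coeff n) := ⟨h, rfl⟩

theorem IsTop.of_eq {p : R[X]} {m n : ℕ} {a b : R} (h : IsTop p m a) (hn : m = n) (hb : a = b) :
    IsTop p n b := by subst hn; subst hb; exact h

theorem IsTop.mul {p q : R[X]} {m n k : ℕ} {a b : R} (hp : IsTop p m a) (hq : IsTop q n b)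
    (hk : m + n = k := by omega) : IsTop (p * q) k (a * b) := by
  subst hk
  refine ⟨natDegree_mul_le_of_le hp.1 hq.1, ?_⟩
  rw [coeff_mul_add_eq_of_natDegree_le hp.1 hq.1, hp.2, hq.2]

theorem IsTop.add {p q : R[X]} {n : ℕ} {a b : R} (hp : IsTop p n a) (hq : IsTop q n b) :
    IsTop (p + q) n (a + b) :=
  ⟨natDegree_add_le_of_degree_le hp.1 hq.1, by rw [coeff_add, hp.2, hq.2]⟩

theorem IsTop.sub {p q : R[X]} {n : ℕ} {a b : R} (hp : IsTop p n a) (hq : IsTop q n b) :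
    IsTop (p - q) n (a - b) :=
  ⟨(natDegree_sub_le_of_le hp.1 hq.1).trans (by simp), by rw [coeff_sub, hp.2, hq.2]⟩

theorem isTop_C (c : R) : IsTop (C c) 0 c := ⟨by simp, by simp⟩

theorem isTop_one : IsTop (1 : R[X]) 0 1 := ⟨by simp, by simp⟩

theorem IsTop.C_mul {p : R[X]} {n : ℕ} {a : R} (c : R) (hp : IsTop p n a) :
    IsTop (C c * p) n (c * a) := (isTop_C c).mul hp

theorem IsTop.pow {p : R[X]} {m : ℕ} {a : R} (hp : IsTop p m a) (k : ℕ) {n : ℕ}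
    (hn : k * m = n := by omega) : IsTop (p ^ k) n (a ^ k) := by
  subst hn
  induction k with
  | zero => simpa using isTop_one (R := R)
  | succ k ih =>
    rw [pow_succ, pow_succ]
    exact ih.mul hp (by ring)

theorem IsTop.sum {ι : Type*} (s : Finset ι) {p : ι → R[X]} {n : ℕ} {a : ι → R}
    (h : ∀ i ∈ s, IsTop (p i) n (a i)) : IsTop (∑ i ∈ s, p i) n (∑ i ∈ s, a i) := by
  refine ⟨natDegree_sum_le_of_forall_le s p fun i hi => (h i hi).1, ?_⟩
  rw [finsetSum_coeff]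
  exact Finset.sum_congr rfl fun i hi => (h i hi).2

theorem IsTop.natDegree_eq {p : R[X]} {n : ℕ} {a : R} (hp : IsTop p n a) (ha : a ≠ 0) :
    p.natDegree = n :=
  le_antisymm hp.1 (le_natDegree_of_ne_zero (by rw [hp.2]; exact ha))

end IsTop

section Bezout

variable {R : Type*} [CommRing R]

theorem isCoprime_of_maximal {a b : R}
    (h : ∀ M : Ideal R, M.IsMaximal → ¬ (a ∈ M ∧ b ∈ M)) : IsCoprime a b := by
  by_contra hc
  have hne : Ideal.span {a, b} ≠ ⊤ := by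
    intro htop
    apply hc
    have h1 : (1 : R) ∈ Ideal.span {a, b} := by rw [htop]; trivial
    obtain ⟨u, v, huv⟩ := Ideal.mem_span_pair.1 h1
    exact ⟨u, v, huv⟩
  obtain ⟨M, hM, hle⟩ := Ideal.exists_le_maximal _ hne
  exact h M hM ⟨hle (Ideal.subset_span (by simp)), hle (Ideal.subset_span (by simp))⟩

theorem bezout3_of_maximal {a b c : R}
    (h : ∀ M : Ideal R, M.IsMaximal → ¬ (a ∈ M ∧ b ∈ M ∧ c ∈ M)) :
    ∃ u v w : R, u * a + v * b + w * c = 1 := by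
  by_contra hc
  have hne : Ideal.span {a, b, c} ≠ ⊤ := by
    intro htop
    apply hc
    have h1 : (1 : R) ∈ Ideal.span {a, b, c} := by rw [htop]; trivial
    obtain ⟨u, z, hz, h1⟩ := Ideal.mem_span_insert.1 h1
    obtain ⟨v, w, hvw⟩ := Ideal.mem_span_pair.1 hz
    exact ⟨u, v, w, by rw [h1, ← hvw]; ring⟩
  obtain ⟨M, hM, hle⟩ := Ideal.exists_le_maximal _ hne
  exact h M hM ⟨hle (Ideal.subset_span (by simp)), hle (Ideal.subset_span (by simp)),
    hle (Ideal.subset_span (by simp))⟩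

theorem not_both_mem_of_isCoprime {a b : R} (h : IsCoprime a b) (M : Ideal R) (hM : M.IsMaximal) :
    Ideal.Quotient.mk M a ≠ 0 ∨ Ideal.Quotient.mk M b ≠ 0 := by
  by_contra hc
  push Not at hc
  obtain ⟨u, v, huv⟩ := h
  have h1 : Ideal.Quotient.mk M (u * a + v * b) = 1 := by rw [huv, map_one]
  rw [map_add, map_mul, map_mul, hc.1, hc.2, mul_zero, mul_zero, add_zero] at h1
  have : (1 : R) ∈ M := Ideal.Quotient.eq_zero_iff_mem.1 (by rw [map_one]; exact h1.symm)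
  exact hM.ne_top ((Ideal.eq_top_iff_one M).2 this)

end Bezout

section Lead

variable {F : Type*} [Field F]

theorem lead_ne_zero {p q : F[X]} (h : IsCoprime p q) :
    p.coeff (max p.natDegree q.natDegree) ≠ 0 ∨ q.coeff (max p.natDegree q.natDegree) ≠ 0 := by
  by_contra hc
  push Not at hc
  obtain ⟨h1, h2⟩ := hc
  rcases le_total p.natDegree q.natDegree with hle | hle
  · rw [max_eq_right hle] at h1 h2
    have hq : q = 0 := leadingCoeff_eq_zero.1 h2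
    subst hq
    have hp : p.natDegree = 0 := by simpa using hle
    rw [natDegree_zero] at h1
    have hp0 : p = 0 := by
      rw [eq_C_of_natDegree_eq_zero hp, h1, C_0]
    subst hp0
    exact not_isCoprime_zero_zero h
  · rw [max_eq_left hle] at h1 h2
    have hp : p = 0 := leadingCoeff_eq_zero.1 h1
    subst hp
    have hq : q.natDegree = 0 := by simpa using hle
    rw [natDegree_zero] at h2
    have hq0 : q = 0 := by
      rw [eq_C_of_natDegree_eq_zero hq, h2, C_0]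
    subst hq0
    exact not_isCoprime_zero_zero h

end Lead

section NCZ

variable {κ : Type*} [Field κ]

/-- the duplication polynomials have no common root (all characteristics). -/
theorem ncz_aff (b2 b4 b6 b8 : κ) (hrel : 4 * b8 = b2 * b6 - b4 ^ 2)
    (hΔ : -b2 ^ 2 * b8 - 8 * b4 ^ 3 - 27 * b6 ^ 2 + 9 * b2 * b4 * b6 ≠ 0) (x : κ)
    (h1 : 4 * x ^ 3 + b2 * x ^ 2 + 2 * b4 * x + b6 = 0)
    (h2 : x ^ 4 - b4 * x ^ 2 - 2 * b6 * x - b8 = 0) : False := by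
  -- translated quantities
  have h8 : b8 + 3 * x * b6 + 3 * x ^ 2 * b4 + x ^ 3 * b2 + 3 * x ^ 4 = 0 := by
    linear_combination x * h1 - h2
  have h4 : (b4 + x * b2 + 6 * x ^ 2) ^ 2 = 0 := by
    linear_combination (b2 + 12 * x) * h1 - 4 * h8 + hrel
  have h4' : b4 + x * b2 + 6 * x ^ 2 = 0 := by simpa using h4
  apply hΔ
  linear_combination (-(b2 + 12 * x) ^ 2) * h8
    + (-8 * (b4 + x * b2 + 6 * x ^ 2) ^ 2 + 9 * (b2 + 12 * x) * (4 * x ^ 3 + b2 * x ^ 2 + 2 * b4 * x + b6)) * h4'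
    - 27 * (4 * x ^ 3 + b2 * x ^ 2 + 2 * b4 * x + b6) * h1 + (6 * b2 * x + 36 * x ^ 2) * hrel

/-- the duplication forms have no common zero. -/
theorem ncz_dup (b2 b4 b6 b8 : κ) (hrel : 4 * b8 = b2 * b6 - b4 ^ 2)
    (hΔ : -b2 ^ 2 * b8 - 8 * b4 ^ 3 - 27 * b6 ^ 2 + 9 * b2 * b4 * b6 ≠ 0) (p q : κ)
    (hpq : p ≠ 0 ∨ q ≠ 0)
    (h1 : 4 * p ^ 3 * q + b2 * p ^ 2 * q ^ 2 + 2 * b4 * p * q ^ 3 + b6 * q ^ 4 = 0)
    (h2 : p ^ 4 - b4 * p ^ 2 * q ^ 2 - 2 * b6 * p * q ^ 3 - b8 * q ^ 4 = 0) : False := by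
  by_cases hq : q = 0
  · subst hq
    have hp : p ≠ 0 := by simpa using hpq
    apply hp
    have : p ^ 4 = 0 := by linear_combination h2
    simpa using this
  · refine ncz_aff b2 b4 b6 b8 hrel hΔ (p / q) ?_ ?_
    · have : (4 * (p / q) ^ 3 + b2 * (p / q) ^ 2 + 2 * b4 * (p / q) + b6) * q ^ 4 = 0 := by
        rw [← h1]; field_simp
      exact (mul_eq_zero.1 this).resolve_right (pow_ne_zero _ hq)
    · have : ((p / q) ^ 4 - b4 * (p / q) ^ 2 - 2 * b6 * (p / q) - b8) * q ^ 4 = 0 := by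
        rw [← h2]; field_simp
      exact (mul_eq_zero.1 this).resolve_right (pow_ne_zero _ hq)

/-- the three biquadratic addition forms have no common zero. -/
theorem ncz_par (b2 b4 b6 b8 : κ) (hrel : 4 * b8 = b2 * b6 - b4 ^ 2)
    (hΔ : -b2 ^ 2 * b8 - 8 * b4 ^ 3 - 27 * b6 ^ 2 + 9 * b2 * b4 * b6 ≠ 0) (p₁ q₁ p₂ q₂ : κ)
    (hpq₁ : p₁ ≠ 0 ∨ q₁ ≠ 0) (hpq₂ : p₂ ≠ 0 ∨ q₂ ≠ 0)
    (h0 : (p₁ * q₂ - p₂ * q₁) ^ 2 = 0)
    (h1 : 2 * p₁ * p₂ * (p₁ * q₂ + p₂ * q₁) + b2 * p₁ * p₂ * q₁ * q₂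
        + b4 * (p₁ * q₂ + p₂ * q₁) * q₁ * q₂ + b6 * q₁ ^ 2 * q₂ ^ 2 = 0)
    (h2 : p₁ ^ 2 * p₂ ^ 2 - b4 * p₁ * p₂ * q₁ * q₂ - b6 * (p₁ * q₂ + p₂ * q₁) * q₁ * q₂
        - b8 * q₁ ^ 2 * q₂ ^ 2 = 0) : False := by
  have h0' : p₁ * q₂ - p₂ * q₁ = 0 := by simpa using h0
  by_cases hq₁ : q₁ = 0
  · subst hq₁
    have hp₁ : p₁ ≠ 0 := by simpa using hpq₁
    have hq₂ : q₂ = 0 := by
      have : p₁ * q₂ = 0 := by linear_combination h0'
      exact (mul_eq_zero.1 this).resolve_left hp₁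
    subst hq₂
    have hp₂ : p₂ ≠ 0 := by simpa using hpq₂
    have : p₁ ^ 2 * p₂ ^ 2 = 0 := by linear_combination h2
    exact (mul_ne_zero (pow_ne_zero _ hp₁) (pow_ne_zero _ hp₂)) this
  · have hq₂ : q₂ ≠ 0 := by
      intro hq₂
      subst hq₂
      have hp₂ : p₂ ≠ 0 := by simpa using hpq₂
      have : p₂ * q₁ = 0 := by linear_combination -h0'
      exact (mul_ne_zero hp₂ hq₁) this
    have hp₂ : p₂ = q₂ / q₁ * p₁ := by
      field_simp
      linear_combination -h0'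
    have hq₂' : q₂ = q₂ / q₁ * q₁ := by field_simp
    have hl : q₂ / q₁ ≠ 0 := div_ne_zero hq₂ hq₁
    generalize q₂ / q₁ = l at hp₂ hq₂' hl
    subst hp₂
    rw [hq₂'] at h1 h2
    refine ncz_dup b2 b4 b6 b8 hrel hΔ p₁ q₁ hpq₁ ?_ ?_
    · have : l ^ 2 * (4 * p₁ ^ 3 * q₁ + b2 * p₁ ^ 2 * q₁ ^ 2 + 2 * b4 * p₁ * q₁ ^ 3 + b6 * q₁ ^ 4)
          = 0 := by linear_combination h1
      exact (mul_eq_zero.1 this).resolve_left (pow_ne_zero _ hl)
    · have : l ^ 2 * (p₁ ^ 4 - b4 * p₁ ^ 2 * q₁ ^ 2 - 2 * b6 * p₁ * q₁ ^ 3 - b8 * q₁ ^ 4)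
          = 0 := by linear_combination h2
      exact (mul_eq_zero.1 this).resolve_left (pow_ne_zero _ hl)

/-- the coefficients of a product of two nonzero linear forms do not all vanish. -/
theorem ncz_prod (p₃ q₃ p₄ q₄ : κ) (h₃ : p₃ ≠ 0 ∨ q₃ ≠ 0) (h₄ : p₄ ≠ 0 ∨ q₄ ≠ 0)
    (h0 : q₃ * q₄ = 0) (h1 : p₃ * q₄ + p₄ * q₃ = 0) (h2 : p₃ * p₄ = 0) : False := by
  rcases mul_eq_zero.1 h0 with hq | hq
  · subst hq
    have hp₃ : p₃ ≠ 0 := by simpa using h₃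
    have hp₄ : p₄ = 0 := (mul_eq_zero.1 h2).resolve_left hp₃
    subst hp₄
    have hq₄ : q₄ ≠ 0 := by simpa using h₄
    exact (mul_ne_zero hp₃ hq₄) (by linear_combination h1)
  · subst hq
    have hp₄ : p₄ ≠ 0 := by simpa using h₄
    have hp₃ : p₃ = 0 := (mul_eq_zero.1 h2).resolve_right hp₄
    subst hp₃
    have hq₃ : q₃ ≠ 0 := by simpa using h₃
    exact (mul_ne_zero hp₄ hq₃) (by linear_combination h1)

end NCZ

section Map

open WeierstrassCurve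

variable {F κ : Type*} [Field F] [Field κ]

theorem map_rel (W : WeierstrassCurve F) (ψ : F →+* κ) :
    4 * ψ W.b₈ = ψ W.b₂ * ψ W.b₆ - ψ W.b₄ ^ 2 := by
  have := congrArg ψ W.b_relation
  simpa only [map_mul, map_sub, map_pow, map_ofNat] using this

theorem map_disc (W : WeierstrassCurve F) (hΔ : W.Δ ≠ 0) (ψ : F →+* κ) :
    -ψ W.b₂ ^ 2 * ψ W.b₈ - 8 * ψ W.b₄ ^ 3 - 27 * ψ W.b₆ ^ 2 + 9 * ψ W.b₂ * ψ W.b₄ * ψ W.b₆ ≠ 0 := by
  have h : ψ W.Δ ≠ 0 := (map_ne_zero ψ).2 hΔ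
  rw [WeierstrassCurve.Δ] at h
  simpa only [map_mul, map_sub, map_add, map_neg, map_pow, map_ofNat] using h

end Map

section Level

variable {F : Type*} [Field F]

theorem level_le3 {P0 P1 P2 : F[X]} {N N' : ℕ} {a0 a1 a2 : F} (t0 : IsTop P0 N a0)
    (t1 : IsTop P1 N a1) (t2 : IsTop P2 N a2) (hne : ¬ (a0 = 0 ∧ a1 = 0 ∧ a2 = 0))
    (h0 : P0.natDegree ≤ N') (h1 : P1.natDegree ≤ N') (h2 : P2.natDegree ≤ N') : N ≤ N' := by
  by_cases ha0 : a0 = 0
  · by_cases ha1 : a1 = 0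
    · have ha2 : a2 ≠ 0 := fun h => hne ⟨ha0, ha1, h⟩
      rw [← t2.natDegree_eq ha2]; exact h2
    · rw [← t1.natDegree_eq ha1]; exact h1
  · rw [← t0.natDegree_eq ha0]; exact h0

theorem level_le2 {P0 P1 : F[X]} {N N' : ℕ} {a0 a1 : F} (t0 : IsTop P0 N a0)
    (t1 : IsTop P1 N a1) (hne : ¬ (a0 = 0 ∧ a1 = 0))
    (h0 : P0.natDegree ≤ N') (h1 : P1.natDegree ≤ N') : N ≤ N' := by
  by_cases ha0 : a0 = 0
  · have ha1 : a1 ≠ 0 := fun h => hne ⟨ha0, h⟩
    rw [← t1.natDegree_eq ha1]; exact h1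
  · rw [← t0.natDegree_eq ha0]; exact h0

theorem isTop_ofNat {R : Type*} [CommRing R] (n : ℕ) [n.AtLeastTwo] :
    IsTop (OfNat.ofNat n : R[X]) 0 (OfNat.ofNat n) := by
  have := isTop_C (OfNat.ofNat n : R)
  rwa [map_ofNat] at this

end Level

end Fermat.Agent.S52.PT
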