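import Fermat.Agent.S52.Interface
import Fermat.Agent.S52.PolyTop

/-! # S52, package A2-4: degree of a composite of rational functions (helper29) -/

set_option autoImplicit false

namespace Fermat.Agent.S52

open Polynomial PT

/-- two coprime polynomials, homogenised in the maximum of their degrees, have no common zero. -/
theorem PT.ncz_form {F κ : Type*} [Field F] [Field κ] (ψ : F →+* κ) (p q : F[X])
    (h : IsCoprime p q) (a b : κ) (hab : a ≠ 0 ∨ b ≠ 0)
    (h1 : ∑ i ∈ Finset.range (max p.natDegree q.natDegree + 1),
      ψ (p.coeff i) * a ^ i * b ^ (max p.natDegree q.natDegree - i) = 0)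
    (h2 : ∑ i ∈ Finset.range (max p.natDegree q.natDegree + 1),
      ψ (q.coeff i) * a ^ i * b ^ (max p.natDegree q.natDegree - i) = 0) : False := by
  have hl := lead_ne_zero h
  have hp : p.natDegree < max p.natDegree q.natDegree + 1 := Nat.lt_succ_of_le (le_max_left _ _)
  have hq : q.natDegree < max p.natDegree q.natDegree + 1 := Nat.lt_succ_of_le (le_max_right _ _)
  generalize max p.natDegree q.natDegree = n at *
  by_cases hb : b = 0
  · subst hb
    have ha : a ≠ 0 := by simpa using hab
    have key : ∀ r : F[X], ∑ i ∈ Finset.range (n + 1), ψ (r.coeff i) * a ^ i * 0 ^ (n - i) = 0 →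
        r.coeff n = 0 := by
      intro r hr
      rw [Finset.sum_eq_single n] at hr
      · rw [Nat.sub_self, pow_zero, mul_one] at hr
        have := (mul_eq_zero.1 hr).resolve_right (pow_ne_zero _ ha)
        exact (map_eq_zero ψ).1 this
      · intro i hi hin
        have : n - i ≠ 0 := by
          have := Finset.mem_range.1 hi
          omega
        rw [zero_pow this, mul_zero]
      · intro hn
        exact absurd (Finset.mem_range.2 (Nat.lt_succ_self n)) hn
    rcases hl with hl | hl
    · exact hl (key p h1)
    · exact hl (key q h2)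
  · have key : ∀ r : F[X], r.natDegree < n + 1 →
        ∑ i ∈ Finset.range (n + 1), ψ (r.coeff i) * a ^ i * b ^ (n - i) = 0 →
        eval₂ ψ (a / b) r = 0 := by
      intro r hrn hr
      have : b ^ n * eval₂ ψ (a / b) r = 0 := by
        rw [eval₂_eq_sum_range' ψ hrn, Finset.mul_sum, ← hr]
        apply Finset.sum_congr rfl
        intro i hi
        have hin : i ≤ n := Nat.lt_succ_iff.1 (Finset.mem_range.1 hi)
        have hbn : b ^ n = b ^ i * b ^ (n - i) := by
          rw [← pow_add, Nat.add_sub_cancel' hin]
        rw [hbn, div_pow]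
        field_simp
      exact (mul_eq_zero.1 this).resolve_left (pow_ne_zero _ hb)
    obtain ⟨u, v, huv⟩ := h
    have := congrArg (eval₂ ψ (a / b)) huv
    rw [eval₂_add, eval₂_mul, eval₂_mul, key p hp h1, key q hq h2, eval₂_one] at this
    simp at this

theorem PT.isTop_homEval {F : Type*} [Field F] (p : F[X]) (n : ℕ) {s t : F[X]} {m : ℕ} {a b : F}
    (hs : IsTop s m a) (ht : IsTop t m b) :
    IsTop (homEval p n s t) (n * m)
      (∑ i ∈ Finset.range (n + 1), p.coeff i * a ^ i * b ^ (n - i)) := by
  apply IsTop.sum
  intro i hi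
  have hin : i ≤ n := Nat.lt_succ_iff.1 (Finset.mem_range.1 hi)
  refine ((isTop_C _).mul (hs.pow i rfl) rfl).mul (ht.pow (n - i) rfl) ?_
  rw [zero_add, ← add_mul, Nat.add_sub_cancel' hin]

theorem stmt_PolyComp : Stmt_PolyComp := by
  intro F _ p q s t cpq cst
  constructor
  · apply isCoprime_of_maximal
    rintro M hM ⟨m0, m1⟩
    let _ := Ideal.Quotient.field M
    have m0' := Ideal.Quotient.eq_zero_iff_mem.2 m0
    have m1' := Ideal.Quotient.eq_zero_iff_mem.2 m1
    simp only [homEval, map_sum, map_mul, map_pow] at m0' m1'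
    exact PT.ncz_form ((Ideal.Quotient.mk M).comp C) p q cpq _ _
      (not_both_mem_of_isCoprime cst M hM) m0' m1'
  · have ts : IsTop s (dg s t) _ := isTop_self (le_max_left _ _)
    have tt : IsTop t (dg s t) _ := isTop_self (le_max_right _ _)
    have t1 := PT.isTop_homEval p (dg p q) ts tt
    have t2 := PT.isTop_homEval q (dg p q) ts tt
    apply le_antisymm
    · exact max_le t1.1 t2.1
    · refine level_le2 t1 t2 ?_ (le_max_left _ _) (le_max_right _ _)
      rintro ⟨z0, z1⟩
      exact PT.ncz_form (RingHom.id F) p q cpq _ _ (lead_ne_zero cst) z0 z1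

end Fermat.Agent.S52

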