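import Fermat.Agent.S52.A2Interface
import Fermat.Agent.S52.PolyComp

/-! # S52, block A2, package D4: degrees are multiplicative under substitution -/

set_option autoImplicit false

open Polynomial WeierstrassCurve WeierstrassCurve.Affine

namespace Fermat.Agent.S52.A2

namespace DS

section RatFunc

variable {k : Type} [Field k]

theorem aeval_mul_pow (h : RatFunc k) (r : k[X]) (n : ℕ) (hn : r.natDegree ≤ n) :
    aeval h r * (algebraMap k[X] (RatFunc k) h.denom) ^ n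
      = algebraMap k[X] (RatFunc k) (homEval r n h.num h.denom) := by
  have ht : algebraMap k[X] (RatFunc k) h.denom ≠ 0 := RatFunc.algebraMap_ne_zero h.denom_ne_zero
  have hh : h * algebraMap k[X] (RatFunc k) h.denom = algebraMap k[X] (RatFunc k) h.num := by
    have h1 := div_mul_cancel₀ (algebraMap k[X] (RatFunc k) h.num) ht
    rwa [RatFunc.num_div_denom h] at h1
  rw [aeval_eq_sum_range' (Nat.lt_succ_of_le hn), Finset.sum_mul, homEval, map_sum]
  refine Finset.sum_congr rfl fun i hi => ?_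
  have hi' : i ≤ n := Nat.lt_succ_iff.mp (Finset.mem_range.mp hi)
  rw [map_mul, map_mul, map_pow, map_pow, Algebra.smul_def, RatFunc.algebraMap_C,
    RatFunc.algebraMap_eq_C, ← hh, mul_pow, mul_assoc, mul_assoc, mul_assoc, ← pow_add,
    Nat.add_sub_cancel' hi']

end RatFunc

variable {ℓ : ℕ} [Fact ℓ.Prime] {W₀ : Affine (ZMod ℓ)} {k : Type} [Field k] [Algebra (ZMod ℓ) k]

theorem algebraMap_poly (r : k[X]) :
    algebraMap (RatFunc k) (KK ℓ W₀ k) (algebraMap k[X] (RatFunc k) r) = aeval (xK ℓ W₀ k) r := by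
  rw [xK, aeval_algebraMap_apply, RatFunc.aeval_X_left_eq_algebraMap]

theorem sigma_poly (σ : KK ℓ W₀ k →ₐ[k] KK ℓ W₀ k) (h : RatFunc k)
    (hσ : σ (xK ℓ W₀ k) = algebraMap (RatFunc k) (KK ℓ W₀ k) h) (r : k[X]) :
    σ (algebraMap (RatFunc k) (KK ℓ W₀ k) (algebraMap k[X] (RatFunc k) r))
      = algebraMap (RatFunc k) (KK ℓ W₀ k) (aeval h r) := by
  rw [algebraMap_poly, ← aeval_algHom_apply, hσ, aeval_algebraMap_apply]

theorem sigma_ratFunc (hR : Stmt_RatDeg) (σ : KK ℓ W₀ k →ₐ[k] KK ℓ W₀ k) (h : RatFunc k)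
    (hσ : σ (xK ℓ W₀ k) = algebraMap (RatFunc k) (KK ℓ W₀ k) h) (g : RatFunc k) :
    ∃ g₂ : RatFunc k, σ (algebraMap (RatFunc k) (KK ℓ W₀ k) g)
      = algebraMap (RatFunc k) (KK ℓ W₀ k) g₂ ∧ ratDeg g₂ = ratDeg h * ratDeg g := by
  set n := dg g.num g.denom with hn
  have ht : algebraMap k[X] (RatFunc k) h.denom ≠ 0 := RatFunc.algebraMap_ne_zero h.denom_ne_zero
  have hp := aeval_mul_pow h g.num n (le_max_left _ _)
  have hq := aeval_mul_pow h g.denom n (le_max_right _ _)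
  have hq0 : aeval h g.denom ≠ 0 := by
    intro h0
    have h1 := sigma_poly σ h hσ g.denom
    rw [h0, map_zero] at h1
    have h2 := (map_eq_zero_iff σ σ.toRingHom.injective).mp h1
    have h3 := (map_eq_zero_iff _ (algebraMap (RatFunc k) (KK ℓ W₀ k)).injective).mp h2
    exact RatFunc.algebraMap_ne_zero g.denom_ne_zero h3
  have hb0 : homEval g.denom n h.num h.denom ≠ 0 := by
    intro h0
    rw [h0, map_zero] at hq
    exact mul_ne_zero hq0 (pow_ne_zero _ ht) hq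
  obtain ⟨hcop, hdg⟩ := stmt_PolyComp k g.num g.denom h.num h.denom g.isCoprime_num_denom
    h.isCoprime_num_denom
  refine ⟨algebraMap k[X] (RatFunc k) (homEval g.num n h.num h.denom) /
    algebraMap k[X] (RatFunc k) (homEval g.denom n h.num h.denom), ?_, ?_⟩
  · conv_lhs => rw [← RatFunc.num_div_denom g]
    rw [map_div₀, map_div₀, sigma_poly σ h hσ, sigma_poly σ h hσ, ← map_div₀, ← hp, ← hq,
      mul_div_mul_right _ _ (pow_ne_zero _ ht)]
  · rw [(hR k).1 _ _ hcop hb0, hdg, mul_comm]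
    rfl

theorem isOdd_some_iff {u v : KK ℓ W₀ k} (h : (W₀⁄(KK ℓ W₀ k)).Nonsingular u v)
    (ho : IsOdd (Point.some u v h)) : iota ℓ W₀ k u = u := by
  unfold IsOdd mapPt at ho
  rw [Point.map_some, Point.neg_some] at ho
  exact (Point.some.inj ho).1

end DS

theorem stmt_DegSubst (hB : Stmt_Basis) (hR : Stmt_RatDeg) : Stmt_DegSubst := by
  intro ℓ _ W₀ k _ _ hΔ σ Q hoη hoQ
  have hη : mapPt (σ.restrictScalars (ZMod ℓ)) (eta ℓ W₀ k hΔ)
      = Point.some (σ (xK ℓ W₀ k)) (σ (yK ℓ W₀ k))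
        ((W₀.baseChange_nonsingular (σ.restrictScalars (ZMod ℓ)).injective ..).mpr
          ((equation_iff_nonsingular_of_Δ_ne_zero (Δ_KK_ne_zero ℓ W₀ k hΔ)).1
            (equation_xK_yK ℓ W₀ k))) := rfl
  rw [hη] at hoη ⊢
  obtain ⟨h, hh⟩ := (hB ℓ W₀ k).2.2 hΔ _ (DS.isOdd_some_iff _ hoη)
  rcases Q with _ | ⟨u, v, hQ⟩
  · show dP (mapPt (σ.restrictScalars (ZMod ℓ)) 0) = _ * dP (0 : Pt ℓ W₀ k)
    rw [map_zero]
    show (0 : ℤ) = _ * 0
    rw [mul_zero]
  · obtain ⟨g, hg⟩ := (hB ℓ W₀ k).2.2 hΔ _ (DS.isOdd_some_iff _ hoQ)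
    obtain ⟨g₂, hg₂, hdeg⟩ := DS.sigma_ratFunc hR σ h hh g
    show (ratDeg (xF (σ u)) : ℤ) = (ratDeg (xF (σ (xK ℓ W₀ k))) : ℤ) * (ratDeg (xF u) : ℤ)
    rw [hg, hg₂, hh, xF_algebraMap, xF_algebraMap, xF_algebraMap, hdeg]
    push_cast
    ring

end Fermat.Agent.S52.A2
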