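/-
TEAM S52, block A2, package A2-M6: Manin's point count, assembly in `KK`.
-/
import Fermat.Agent.S52.A2Interface

set_option autoImplicit false

open Polynomial WeierstrassCurve WeierstrassCurve.Affine

namespace Fermat.Agent.S52.A2

namespace MA

variable (ℓ : ℕ) [Fact ℓ.Prime] (W₀ : Affine (ZMod ℓ)) (k : Type) [Field k] [Algebra (ZMod ℓ) k]

/-- the embedding `𝔽[X] → k(x)` -/
noncomputable def emb : (ZMod ℓ)[X] →+* RatFunc k :=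
  (algebraMap k[X] (RatFunc k)).comp (Polynomial.mapRingHom (algebraMap (ZMod ℓ) k))

lemma emb_apply (r : (ZMod ℓ)[X]) :
    emb ℓ k r = algebraMap k[X] (RatFunc k) (r.map (algebraMap (ZMod ℓ) k)) := rfl

lemma emb_injective : Function.Injective (emb ℓ k) :=
  (RatFunc.algebraMap_injective k).comp
    (Polynomial.map_injective _ (algebraMap (ZMod ℓ) k).injective)

lemma aeval_xK (r : (ZMod ℓ)[X]) :
    aeval (xK ℓ W₀ k) r = algebraMap (RatFunc k) (KK ℓ W₀ k) (emb ℓ k r) := by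
  induction r using Polynomial.induction_on' with
  | add p q hp hq => rw [map_add, map_add, map_add, hp, hq]
  | monomial n a =>
    rw [aeval_monomial, emb_apply, Polynomial.map_monomial, ← C_mul_X_pow_eq_monomial, map_mul,
      map_mul, map_pow, map_pow, RatFunc.algebraMap_X, RatFunc.algebraMap_C, algebraMap_C_KK]
    rfl

lemma xK_pow_ne : xK ℓ W₀ k ^ ℓ ≠ xK ℓ W₀ k := by
  intro h
  have h1 : aeval (xK ℓ W₀ k) (X ^ ℓ : (ZMod ℓ)[X]) = aeval (xK ℓ W₀ k) (X : (ZMod ℓ)[X]) := by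
    simpa using h
  rw [aeval_xK, aeval_xK] at h1
  have h2 := emb_injective ℓ k ((algebraMap (RatFunc k) (KK ℓ W₀ k)).injective h1)
  have h3 := congrArg natDegree h2
  rw [natDegree_X_pow, natDegree_X] at h3
  exact (Fact.out : ℓ.Prime).one_lt.ne' h3

variable {ℓ W₀ k}

lemma dP_sub {x₁ y₁ x₂ y₂ : KK ℓ W₀ k} (h₁ : (W₀⁄(KK ℓ W₀ k)).Nonsingular x₁ y₁)
    (h₂ : (W₀⁄(KK ℓ W₀ k)).Nonsingular x₂ y₂) (hx : x₁ ≠ x₂) :
    dP (Point.some _ _ h₁ - Point.some _ _ h₂ : Pt ℓ W₀ k) =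
      (ratDeg (xF ((W₀⁄(KK ℓ W₀ k)).addX x₁ x₂
        ((W₀⁄(KK ℓ W₀ k)).slope x₁ x₂ y₁ ((W₀⁄(KK ℓ W₀ k)).negY x₂ y₂)))) : ℤ) := by
  rw [sub_eq_add_neg, Point.neg_some, Point.add_of_X_ne hx]
  rfl

end MA

theorem stmt_Manin (hR : Stmt_RatDeg) (hF : Stmt_ManinFormula) (hD : Stmt_ManinDegree)
    (h2 : Stmt_ManinTwo) (h1 : Stmt_ManinOne) (h0 : Stmt_ManinZero) (hG : Stmt_ManinGcd)
    (hC : Stmt_ManinCard) : Stmt_Manin := by
  intro ℓ _ W₀ k _ _ hΔ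
  have hne := MA.xK_pow_ne ℓ W₀ k
  obtain ⟨hn2, hcard⟩ := hC ℓ W₀ hΔ
  obtain ⟨g, N₁, D₁, hN, hDD, hcop, hdg⟩ := hG ℓ (nY ℓ W₀) (maninN W₀ ℓ) (hD ℓ W₀) hn2
    (fun c hc => h2 ℓ W₀ c hc) (fun c hc => h1 ℓ W₀ hΔ c hc) (fun c hc => h0 ℓ W₀ c hc)
  have hform := (hF ℓ W₀ (KK ℓ W₀ k) (xK ℓ W₀ k) (yK ℓ W₀ k) (equation_xK_yK ℓ W₀ k)).2
  -- the point
  have e1 : mapPt (Phi ℓ W₀ k) (eta ℓ W₀ k hΔ) - eta ℓ W₀ k hΔ =
      (Point.some _ _ ((W₀.baseChange_nonsingular (Phi ℓ W₀ k).injective ..).mpr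
        ((equation_iff_nonsingular_of_Δ_ne_zero (Δ_KK_ne_zero ℓ W₀ k hΔ)).1
          (equation_xK_yK ℓ W₀ k))) : Pt ℓ W₀ k) -
      Point.some _ _ ((equation_iff_nonsingular_of_Δ_ne_zero (Δ_KK_ne_zero ℓ W₀ k hΔ)).1
          (equation_xK_yK ℓ W₀ k)) := rfl
  have hne' : Phi ℓ W₀ k (xK ℓ W₀ k) ≠ xK ℓ W₀ k := by rw [Phi_apply]; exact hne
  rw [e1, MA.dP_sub _ _ hne', slope_of_X_ne hne', Phi_apply, Phi_apply]
  set x := xK ℓ W₀ k with hx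
  set y := yK ℓ W₀ k with hy
  set E := (W₀⁄(KK ℓ W₀ k)) with hE
  have hD0 : x ^ ℓ - x ≠ 0 := sub_ne_zero.2 hne
  set u := E.addX (x ^ ℓ) x ((y ^ ℓ - E.negY x y) / (x ^ ℓ - x)) with hu
  have hu1 : u * (x ^ ℓ - x) ^ 2 = aeval x (maninN W₀ ℓ) := by
    rw [← hform, hu, addX]
    field_simp
    ring
  have hD2 : (x ^ ℓ - x) ^ 2 = aeval x ((X ^ ℓ - X) ^ 2 : (ZMod ℓ)[X]) := by simp
  rw [hD2, MA.aeval_xK, MA.aeval_xK, hN, hDD, map_mul, map_mul, map_mul, map_mul] at hu1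
  have hgD : g * D₁ ≠ 0 := by
    rw [← hDD]
    refine pow_ne_zero _ (sub_ne_zero.2 fun h => ?_)
    have h3 := congrArg natDegree h
    rw [natDegree_X_pow, natDegree_X] at h3
    exact (Fact.out : ℓ.Prime).one_lt.ne' h3
  have hg0 : g ≠ 0 := left_ne_zero_of_mul hgD
  have hD10 : D₁ ≠ 0 := right_ne_zero_of_mul hgD
  have hg' : algebraMap (RatFunc k) (KK ℓ W₀ k) (MA.emb ℓ k g) ≠ 0 :=
    (_root_.map_ne_zero _).2 ((map_ne_zero_iff _ (MA.emb_injective ℓ k)).2 hg0)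
  have hD1' : MA.emb ℓ k D₁ ≠ 0 := (map_ne_zero_iff _ (MA.emb_injective ℓ k)).2 hD10
  have hu2 : u = algebraMap (RatFunc k) (KK ℓ W₀ k) (MA.emb ℓ k N₁ / MA.emb ℓ k D₁) := by
    rw [map_div₀, eq_div_iff ((_root_.map_ne_zero _).2 hD1')]
    apply mul_left_cancel₀ hg'
    rw [← hu1]
    ring
  have hcop' : IsCoprime (N₁.map (algebraMap (ZMod ℓ) k)) (D₁.map (algebraMap (ZMod ℓ) k)) :=
    hcop.map (Polynomial.mapRingHom (algebraMap (ZMod ℓ) k))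
  rw [hu2, xF_algebraMap, MA.emb_apply, MA.emb_apply, (hR k).1 _ _ hcop'
      ((Polynomial.map_ne_zero_iff (algebraMap (ZMod ℓ) k).injective).2 hD10), hcard, ← hdg]
  simp [dg]

end Fermat.Agent.S52.A2
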