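import Fermat.Agent.S52.A2Interface

/-! # S52, block A2, package M5: counting the points of `W₀(𝔽_ℓ)` fibrewise. -/

set_option autoImplicit false

open Polynomial WeierstrassCurve WeierstrassCurve.Affine

namespace Fermat.Agent.S52.A2

namespace MC

variable (ℓ : ℕ) [Fact ℓ.Prime] (W₀ : Affine (ZMod ℓ))

theorem nY_le_two (c : ZMod ℓ) : nY ℓ W₀ c ≤ 2 := by
  classical
  unfold nY
  rw [Nat.card_eq_fintype_card, Fintype.card_subtype]
  by_cases h : ∃ y, W₀.Equation c y
  · obtain ⟨y₁, h₁⟩ := h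
    refine (Finset.card_le_card (t := {y₁, W₀.negY c y₁}) ?_).trans Finset.card_le_two
    intro y hy
    rw [Finset.mem_filter] at hy
    rcases Y_eq_of_X_eq hy.2 h₁ rfl with h | h
    · simp [h]
    · simp [h]
  · have : (Finset.univ.filter fun y => W₀.Equation c y) = ∅ := by
      rw [Finset.filter_eq_empty_iff]
      intro y _ hy
      exact h ⟨y, hy⟩
    rw [this]
    simp

/-- The points of `W₀`, fibred over the `x`-line. -/
noncomputable def pointEquiv (hΔ : W₀.Δ ≠ 0) :
    W₀.Point ≃ Option (Σ c : ZMod ℓ, {y : ZMod ℓ // W₀.Equation c y}) where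
  toFun P := match P with
    | .zero => none
    | .some x y h => some ⟨x, y, h.1⟩
  invFun Q := match Q with
    | none => .zero
    | some ⟨x, y, h⟩ => .some x y ((equation_iff_nonsingular_of_Δ_ne_zero hΔ).1 h)
  left_inv P := by
    cases P <;> rfl
  right_inv Q := by
    rcases Q with _ | ⟨x, y, h⟩ <;> rfl

theorem card_point (hΔ : W₀.Δ ≠ 0) : Nat.card W₀.Point = 1 + ∑ c : ZMod ℓ, nY ℓ W₀ c := by
  rw [Nat.card_congr (pointEquiv ℓ W₀ hΔ), Finite.card_option, Nat.card_sigma, add_comm]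
  rfl

end MC

theorem stmt_ManinCard : Stmt_ManinCard := fun ℓ _ W₀ hΔ =>
  ⟨MC.nY_le_two ℓ W₀, MC.card_point ℓ W₀ hΔ⟩

end Fermat.Agent.S52.A2

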