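import Fermat.Agent.S52.A2Interface

/-! # S52, block A2, package M1 : `yⁿ = Pₙ + Qₙ y` and Manin's numerator formula -/

set_option autoImplicit false

open Polynomial WeierstrassCurve WeierstrassCurve.Affine

namespace Fermat.Agent.S52.A2

namespace MF

variable {ℓ : ℕ} [Fact ℓ.Prime] (W₀ : Affine (ZMod ℓ)) {A : Type} [CommRing A]
  [Algebra (ZMod ℓ) A]

theorem aeval_fW (x : A) : aeval x (fW W₀) =
    x ^ 3 + algebraMap (ZMod ℓ) A W₀.a₂ * x ^ 2 + algebraMap (ZMod ℓ) A W₀.a₄ * x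
      + algebraMap (ZMod ℓ) A W₀.a₆ := by
  simp [fW]

theorem aeval_lW (x : A) : aeval x (lW W₀) =
    algebraMap (ZMod ℓ) A W₀.a₁ * x + algebraMap (ZMod ℓ) A W₀.a₃ := by
  simp [lW]

theorem equation_iff' (x y : A) : (W₀⁄A).Equation x y ↔
    y ^ 2 + algebraMap (ZMod ℓ) A W₀.a₁ * x * y + algebraMap (ZMod ℓ) A W₀.a₃ * y =
      x ^ 3 + algebraMap (ZMod ℓ) A W₀.a₂ * x ^ 2 + algebraMap (ZMod ℓ) A W₀.a₄ * x
      + algebraMap (ZMod ℓ) A W₀.a₆ := by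
  rw [equation_iff]
  simp only [baseChange_a₁, baseChange_a₂, baseChange_a₃, baseChange_a₄, baseChange_a₆]

theorem pow_eq (x y : A) (h : (W₀⁄A).Equation x y) (n : ℕ) :
    y ^ n = aeval x (yPQ W₀ n).1 + aeval x (yPQ W₀ n).2 * y := by
  rw [equation_iff'] at h
  induction n with
  | zero => simp [yPQ]
  | succ n ih =>
    rw [pow_succ, ih]
    simp only [yPQ, map_mul, map_sub, aeval_fW, aeval_lW]
    linear_combination (aeval x (yPQ W₀ n).2) * h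

theorem frob_apply (z : A) : FiniteField.frobeniusAlgHom (ZMod ℓ) A z = z ^ ℓ := by
  simp [FiniteField.frobeniusAlgHom_apply, ZMod.card]

end MF

open MF in
theorem stmt_ManinFormula : Stmt_ManinFormula := by
  intro ℓ _ W₀ A _ _ x y h
  refine ⟨pow_eq W₀ x y h, ?_⟩
  have hneg : (W₀⁄A).Equation x ((W₀⁄A).negY x y) := (equation_neg _ _).2 h
  have hy1 := pow_eq W₀ x y h ℓ
  have hy2 := pow_eq W₀ x _ hneg ℓ
  have hnegY : (W₀⁄A).negY x y =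
      -y - algebraMap (ZMod ℓ) A W₀.a₁ * x - algebraMap (ZMod ℓ) A W₀.a₃ := by
    simp only [negY, baseChange_a₁, baseChange_a₃]
  rw [hnegY] at hy2
  have hE := (equation_iff' W₀ x y).1 h
  set φ := FiniteField.frobeniusAlgHom (ZMod ℓ) A with hφ
  set P := aeval x (yPQ W₀ ℓ).1 with hP
  set Q := aeval x (yPQ W₀ ℓ).2 with hQ
  set a₁ := algebraMap (ZMod ℓ) A W₀.a₁ with ha₁
  set a₂ := algebraMap (ZMod ℓ) A W₀.a₂ with ha₂
  set a₃ := algebraMap (ZMod ℓ) A W₀.a₃ with ha₃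
  set a₄ := algebraMap (ZMod ℓ) A W₀.a₄ with ha₄
  set a₆ := algebraMap (ZMod ℓ) A W₀.a₆ with ha₆
  -- (R1)
  have hR1 : 2 * P - Q * (a₁ * x + a₃) = -(a₁ * x ^ ℓ + a₃) := by
    have h1 : φ (-y - a₁ * x - a₃) = -y ^ ℓ - a₁ * x ^ ℓ - a₃ := by
      simp only [map_sub, map_neg, map_mul, ha₁, ha₃, AlgHom.commutes]
      simp only [hφ, frob_apply]
    rw [hφ, frob_apply, hy2, hy1] at h1
    linear_combination h1
  -- (R2)
  have hR2 : (y ^ ℓ) ^ 2 + a₁ * x ^ ℓ * y ^ ℓ + a₃ * y ^ ℓ =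
      (x ^ ℓ) ^ 3 + a₂ * (x ^ ℓ) ^ 2 + a₄ * x ^ ℓ + a₆ := by
    have h1 := congrArg φ hE
    simp only [map_add, map_mul, map_pow, ha₁, ha₂, ha₃, ha₄, ha₆, AlgHom.commutes] at h1
    simp only [hφ, frob_apply] at h1
    exact h1
  have hN : aeval x (maninN W₀ ℓ) =
      x ^ ℓ * x * (x ^ ℓ + x) + 2 * a₂ * (x ^ ℓ * x) + a₄ * (x ^ ℓ + x) + 2 * a₆
        + P * (a₁ * x + a₃) + 2 * Q * (x ^ 3 + a₂ * x ^ 2 + a₄ * x + a₆)
        + (a₁ * x ^ ℓ + a₃) * (a₁ * x + a₃) := by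
    simp only [maninN, map_add, map_mul, map_pow, aeval_X, aeval_C, aeval_fW, aeval_lW,
      map_ofNat]
    rfl
  rw [hN, hnegY]
  simp only [baseChange_a₁, baseChange_a₂]
  rw [hy1] at hR2 ⊢
  linear_combination hR2 + (1 + 2 * Q) * hE + y * hR1

end Fermat.Agent.S52.A2
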