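import Mathlib
import Fermat.Agent.S52.A2Interface
import Fermat.Agent.S52.A2_ManinFormula

/-! # S52, block A2-M2 (helper50): `natDegree (maninN W₀ ℓ) = 2 ℓ + 1`. -/

set_option autoImplicit false

open Polynomial WeierstrassCurve WeierstrassCurve.Affine

namespace Fermat.Agent.S52.A2

namespace MD

variable {R : Type} [CommRing R] (W : Affine R)

theorem natDegree_fW_le : (fW W).natDegree ≤ 3 := by
  unfold fW
  compute_degree

theorem natDegree_lW_le : (lW W).natDegree ≤ 1 := by
  unfold lW
  compute_degree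

theorem yPQ_bound (n : ℕ) :
    2 * (yPQ W n).1.natDegree ≤ 3 * n ∧
      ((yPQ W n).2 = 0 ∨ 2 * (yPQ W n).2.natDegree + 3 ≤ 3 * n) := by
  induction n with
  | zero => simp [yPQ]
  | succ n ih =>
    obtain ⟨hP, hQ⟩ := ih
    have hf := natDegree_fW_le W
    have hl := natDegree_lW_le W
    rcases hQ with hQ | hQ
    · refine ⟨by simp [yPQ, hQ], Or.inr ?_⟩
      simp only [yPQ, hQ, zero_mul, sub_zero]
      omega
    · refine ⟨?_, Or.inr ?_⟩
      · have h1 : ((yPQ W n).2 * fW W).natDegree ≤ (yPQ W n).2.natDegree + (fW W).natDegree :=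
          natDegree_mul_le
        simp only [yPQ]
        omega
      · have h1 : ((yPQ W n).2 * lW W).natDegree ≤ (yPQ W n).2.natDegree + (lW W).natDegree :=
          natDegree_mul_le
        have h2 : ((yPQ W n).1 - (yPQ W n).2 * lW W).natDegree ≤
            max (yPQ W n).1.natDegree ((yPQ W n).2 * lW W).natDegree := natDegree_sub_le _ _
        simp only [yPQ]
        rcases max_cases (yPQ W n).1.natDegree ((yPQ W n).2 * lW W).natDegree with h | h <;> omega

theorem natDegree_maninN [Nontrivial R] (n : ℕ) (hn : 2 ≤ n) :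
    (maninN W n).natDegree = 2 * n + 1 := by
  obtain ⟨hP, hQ⟩ := yPQ_bound W n
  have hf := natDegree_fW_le W
  have hl := natDegree_lW_le W
  have e : maninN W n = X ^ (2 * n + 1) + (X ^ (n + 2) + C (2 * W.a₂) * X ^ (n + 1)
      + C W.a₄ * (X ^ n + X) + C (2 * W.a₆) + (yPQ W n).1 * lW W + C 2 * ((yPQ W n).2 * fW W)
      + (C W.a₁ * X ^ n + C W.a₃) * lW W) := by
    unfold maninN
    simp only [C_mul, C_ofNat]
    ring
  have h1 : (X ^ (n + 2) : R[X]).natDegree ≤ 2 * n := (natDegree_X_pow_le _).trans (by omega)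
  have h2 : (C (2 * W.a₂) * X ^ (n + 1) : R[X]).natDegree ≤ 2 * n :=
    (natDegree_C_mul_X_pow_le _ _).trans (by omega)
  have h3 : (C W.a₄ * (X ^ n + X) : R[X]).natDegree ≤ 2 * n := by
    refine (natDegree_C_mul_le _ _).trans ?_
    refine natDegree_add_le_of_degree_le ((natDegree_X_pow_le _).trans (by omega))
      (natDegree_X_le.trans (by omega))
  have h4 : (C (2 * W.a₆) : R[X]).natDegree ≤ 2 * n := by
    rw [natDegree_C]
    exact Nat.zero_le _
  have h5 : ((yPQ W n).1 * lW W).natDegree ≤ 2 * n := by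
    refine natDegree_mul_le.trans ?_
    omega
  have h6 : (C 2 * ((yPQ W n).2 * fW W)).natDegree ≤ 2 * n := by
    refine (natDegree_C_mul_le _ _).trans ?_
    rcases hQ with hQ | hQ
    · simp [hQ]
    · refine natDegree_mul_le.trans ?_
      omega
  have h7 : ((C W.a₁ * X ^ n + C W.a₃) * lW W).natDegree ≤ 2 * n := by
    refine natDegree_mul_le.trans ?_
    have : (C W.a₁ * X ^ n + C W.a₃ : R[X]).natDegree ≤ n :=
      natDegree_add_le_of_degree_le (natDegree_C_mul_X_pow_le _ _) (by simp)
    omega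
  rw [e, natDegree_add_eq_left_of_natDegree_lt, natDegree_X_pow]
  rw [natDegree_X_pow]
  refine Nat.lt_succ_of_le ?_
  exact natDegree_add_le_of_degree_le (natDegree_add_le_of_degree_le (natDegree_add_le_of_degree_le
    (natDegree_add_le_of_degree_le (natDegree_add_le_of_degree_le
    (natDegree_add_le_of_degree_le h1 h2) h3) h4) h5) h6) h7

end MD

/-- (A2-M2) -/
theorem stmt_ManinDegree : Stmt_ManinDegree := by
  intro ℓ _ W₀
  exact MD.natDegree_maninN W₀ ℓ (Fact.out : ℓ.Prime).two_le

end Fermat.Agent.S52.A2
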