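import Fermat.Agent.S52.A2Interface

/-! # S52, block A2, package M4: cancelling the gcd with `(X^ℓ - X)^2` -/

set_option autoImplicit false

open Polynomial

namespace Fermat.Agent.S52.A2

namespace MG

variable (ℓ : ℕ) [Fact ℓ.Prime]

theorem X_pow_sub_X_eq_prod : (X ^ ℓ - X : (ZMod ℓ)[X]) = ∏ c : ZMod ℓ, (X - C c) := by
  have hl : 1 < ℓ := (Fact.out : ℓ.Prime).one_lt
  have hroots : (X ^ ℓ - X : (ZMod ℓ)[X]).roots = Finset.univ.val := by
    have := FiniteField.roots_X_pow_card_sub_X (ZMod ℓ)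
    rwa [ZMod.card] at this
  have hmonic : (X ^ ℓ - X : (ZMod ℓ)[X]).Monic := by
    apply Polynomial.monic_X_pow_sub
    rw [degree_X]
    exact_mod_cast hl
  have hcard : Multiset.card (X ^ ℓ - X : (ZMod ℓ)[X]).roots = (X ^ ℓ - X : (ZMod ℓ)[X]).natDegree := by
    rw [hroots, FiniteField.X_pow_card_sub_X_natDegree_eq _ hl]
    simp [ZMod.card]
  have := Polynomial.prod_multiset_X_sub_C_of_monic_of_roots_card_eq hmonic hcard
  rw [hroots] at this
  rw [← this]
  rfl

end MG

theorem stmt_ManinGcd : Stmt_ManinGcd := by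
  intro ℓ _ n N hdeg hn2 h2 h1 h0
  have hN0 : N ≠ 0 := by
    intro h
    rw [h, natDegree_zero] at hdeg
    omega
  set g : (ZMod ℓ)[X] := ∏ c : ZMod ℓ, (X - C c) ^ (2 - n c) with hg
  set D₁ : (ZMod ℓ)[X] := ∏ c : ZMod ℓ, (X - C c) ^ (n c) with hD
  have hgD : (X ^ ℓ - X : (ZMod ℓ)[X]) ^ 2 = g * D₁ := by
    rw [MG.X_pow_sub_X_eq_prod, hg, hD, ← Finset.prod_mul_distrib, ← Finset.prod_pow]
    apply Finset.prod_congr rfl
    intro c _
    rw [← pow_add]
    congr 1
    have := hn2 c
    omega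
  have hfac : ∀ c, (X - C c) ^ (2 - n c) ∣ N := by
    intro c
    have := hn2 c
    rcases Nat.lt_or_ge (n c) 1 with h | h
    · have e : n c = 0 := by omega
      rw [e]
      exact h0 c e
    · rcases Nat.lt_or_ge (n c) 2 with h' | h'
      · have e : n c = 1 := by omega
        rw [e]
        simpa using (h1 c e).1
      · have e : n c = 2 := by omega
        rw [e]
        simp
  have hgN : g ∣ N := by
    apply Finset.prod_dvd_of_coprime
    · intro c _ d _ hcd
      exact IsCoprime.pow (Polynomial.pairwise_coprime_X_sub_C (fun a b h => h) hcd)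
    · intro c _
      exact hfac c
  obtain ⟨N₁, hN₁⟩ := hgN
  have hN₁0 : N₁ ≠ 0 := by
    intro h
    rw [h, mul_zero] at hN₁
    exact hN0 hN₁
  have hgmonic : g.Monic := monic_prod_of_monic _ _ fun c _ => (monic_X_sub_C c).pow _
  have hDmonic : D₁.Monic := monic_prod_of_monic _ _ fun c _ => (monic_X_sub_C c).pow _
  have hcop : IsCoprime N₁ D₁ := by
    apply IsCoprime.prod_right
    intro c _
    rcases Nat.eq_zero_or_pos (n c) with e | hpos
    · rw [e, pow_zero]
      exact isCoprime_one_right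
    · apply IsCoprime.pow_right
      apply IsCoprime.symm
      rw [(Polynomial.irreducible_X_sub_C c).coprime_iff_not_dvd]
      intro hdvd
      have hdvd2 : (X - C c) ^ (2 - n c) * (X - C c) ∣ N := by
        rw [hN₁]
        exact mul_dvd_mul (Finset.dvd_prod_of_mem (fun c => (X - C c) ^ (2 - n c))
          (Finset.mem_univ c)) hdvd
      have := hn2 c
      rcases Nat.lt_or_ge (n c) 2 with h' | h'
      · have e : n c = 1 := by omega
        rw [e] at hdvd2
        apply (h1 c e).2
        have e2 : (X - C c : (ZMod ℓ)[X]) ^ (2 - 1) * (X - C c) = (X - C c) ^ 2 := by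
          ring
        rwa [e2] at hdvd2
      · have e : n c = 2 := by omega
        rw [e] at hdvd2
        apply h2 c e
        simpa using hdvd2
  have hdegg : g.natDegree = ∑ c : ZMod ℓ, (2 - n c) := by
    rw [hg, natDegree_prod_of_monic _ _ fun c _ => (monic_X_sub_C c).pow _]
    apply Finset.sum_congr rfl
    intro c _
    rw [(monic_X_sub_C c).natDegree_pow, natDegree_X_sub_C, mul_one]
  have hdegD : D₁.natDegree = ∑ c : ZMod ℓ, n c := by
    rw [hD, natDegree_prod_of_monic _ _ fun c _ => (monic_X_sub_C c).pow _]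
    apply Finset.sum_congr rfl
    intro c _
    rw [(monic_X_sub_C c).natDegree_pow, natDegree_X_sub_C, mul_one]
  have hsum : ∑ c : ZMod ℓ, (2 - n c) + ∑ c : ZMod ℓ, n c = 2 * ℓ := by
    rw [← Finset.sum_add_distrib]
    have : ∀ c ∈ (Finset.univ : Finset (ZMod ℓ)), 2 - n c + n c = 2 := by
      intro c _
      have := hn2 c
      omega
    rw [Finset.sum_congr rfl this]
    simp [ZMod.card, mul_comm]
  have hdegN₁ : g.natDegree + N₁.natDegree = 2 * ℓ + 1 := by
    rw [← hdeg, hN₁, natDegree_mul hgmonic.ne_zero hN₁0]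
  refine ⟨g, N₁, D₁, hN₁, hgD, hcop, ?_⟩
  unfold dg
  rw [hdegD]
  rw [hdegg] at hdegN₁
  omega

end Fermat.Agent.S52.A2
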