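import Fermat.Agent.S52.A2Interface

/-! # S52 / A2-M3a : two rational points above `c` -/

set_option autoImplicit false

open Polynomial WeierstrassCurve WeierstrassCurve.Affine

namespace Fermat.Agent.S52.A2

namespace M2

theorem baseChange_self' {R : Type} [CommRing R] (W : Affine R) : (W⁄R) = W := by
  ext <;> simp

end M2

theorem stmt_ManinTwo (hF : Stmt_ManinFormula) : Stmt_ManinTwo := by
  intro ℓ _ W₀ c hn hdvd
  rw [nY, Nat.card_eq_two_iff] at hn
  obtain ⟨⟨y₁, h₁⟩, ⟨y₂, h₂⟩, hne, -⟩ := hn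
  have hne' : y₁ ≠ y₂ := fun h => hne (Subtype.ext h)
  have hy₂ : y₂ = W₀.negY c y₁ := by
    rcases Y_eq_of_X_eq h₂ h₁ rfl with h | h
    · exact absurd h.symm hne'
    · exact h
  have key := (hF ℓ W₀ (ZMod ℓ) c y₁ (by rw [M2.baseChange_self']; exact h₁)).2
  rw [M2.baseChange_self', ZMod.pow_card, ZMod.pow_card, sub_self] at key
  have h0 : eval c (maninN W₀ ℓ) = 0 := by
    rw [← IsRoot.def, ← dvd_iff_isRoot]; exact hdvd
  rw [Polynomial.coe_aeval_eq_eval, h0] at key
  have : (y₁ - W₀.negY c y₁) ^ 2 = 0 := by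
    rw [← key]; ring
  have h3 : y₁ - W₀.negY c y₁ = 0 := by simpa using this
  exact hne' (by rw [hy₂]; exact sub_eq_zero.1 h3)

end Fermat.Agent.S52.A2
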