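import Fermat.Agent.S52.A2Interface
import Fermat.Agent.S52.A2_ManinFormula
import Fermat.Agent.S52.A2_Basis
import Fermat.Agent.S52.A2_Manin

/-! # S52 / A2-M3c (shadow, helper50) : no rational point above `c` ⇒ `(X - c)² ∣ maninN` -/

set_option autoImplicit false

open Polynomial WeierstrassCurve WeierstrassCurve.Affine

namespace Fermat.Agent.S52.A2

namespace M0B

variable {ℓ : ℕ} [Fact ℓ.Prime] (W₀ : Affine (ZMod ℓ))

/-- `P_ℓ + (a₁ x + a₃)` -/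
noncomputable def m0 : (ZMod ℓ)[X] := (yPQ W₀ ℓ).1 + lW W₀

/-- `Q_ℓ + 1` -/
noncomputable def m1 : (ZMod ℓ)[X] := (yPQ W₀ ℓ).2 + 1

/-- The polynomial identity for `maninN` (comparison of coefficients at the generic point). -/
theorem maninN_eq : maninN W₀ ℓ = m0 W₀ ^ 2 + m1 W₀ ^ 2 * fW W₀ + C W₀.a₁ * m0 W₀ * (X ^ ℓ - X)
    - (C W₀.a₂ + X ^ ℓ + X) * (X ^ ℓ - X) ^ 2 := by
  set N' : (ZMod ℓ)[X] := m0 W₀ ^ 2 + m1 W₀ ^ 2 * fW W₀ + C W₀.a₁ * m0 W₀ * (X ^ ℓ - X)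
    - (C W₀.a₂ + X ^ ℓ + X) * (X ^ ℓ - X) ^ 2 with hN'
  set N'' : (ZMod ℓ)[X] := 2 * m0 W₀ * m1 W₀ - m1 W₀ ^ 2 * lW W₀ + C W₀.a₁ * m1 W₀ * (X ^ ℓ - X)
    with hN''
  have hE := equation_xK_yK ℓ W₀ (ZMod ℓ)
  obtain ⟨h1, h2⟩ := stmt_ManinFormula ℓ W₀ (KK ℓ W₀ (ZMod ℓ)) _ _ hE
  have hy := h1 ℓ
  rw [MF.equation_iff'] at hE
  have hnegY : (W₀⁄(KK ℓ W₀ (ZMod ℓ))).negY (xK ℓ W₀ (ZMod ℓ)) (yK ℓ W₀ (ZMod ℓ)) =
      -(yK ℓ W₀ (ZMod ℓ)) - algebraMap (ZMod ℓ) (KK ℓ W₀ (ZMod ℓ)) W₀.a₁ * (xK ℓ W₀ (ZMod ℓ))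
        - algebraMap (ZMod ℓ) (KK ℓ W₀ (ZMod ℓ)) W₀.a₃ := by
    simp only [negY, baseChange_a₁, baseChange_a₃]
  rw [hnegY, hy] at h2
  simp only [baseChange_a₁, baseChange_a₂] at h2
  have key : aeval (xK ℓ W₀ (ZMod ℓ)) (maninN W₀ ℓ - N')
      + aeval (xK ℓ W₀ (ZMod ℓ)) (-N'') * yK ℓ W₀ (ZMod ℓ) = 0 := by
    rw [map_sub, ← h2]
    simp only [hN', hN'', m0, m1, map_sub, map_add, map_mul, map_pow, map_neg, aeval_X, aeval_C,
      MF.aeval_fW, MF.aeval_lW, map_one, map_ofNat]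
    linear_combination (aeval (xK ℓ W₀ (ZMod ℓ)) (yPQ W₀ ℓ).2 + 1) ^ 2 * hE
  rw [MA.aeval_xK, MA.aeval_xK] at key
  have h3 := ((stmt_Basis ℓ W₀ (ZMod ℓ)).2.1 _ _ key).1
  have h4 : maninN W₀ ℓ - N' = 0 := MA.emb_injective ℓ (ZMod ℓ) (by rw [h3, map_zero])
  exact sub_eq_zero.1 h4

/-- an element of a field extension fixed by Frobenius lies in the prime field -/
theorem mem_of_pow_eq {L : Type} [Field L] [Algebra (ZMod ℓ) L] {z : L} (hz : z ^ ℓ = z) :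
    ∃ a : ZMod ℓ, algebraMap (ZMod ℓ) L a = z := by
  have : CharP L ℓ := charP_of_injective_algebraMap' (ZMod ℓ) ℓ
  obtain ⟨n, hn⟩ := (mem_bot_iff_intCast ℓ L).1 ((Subfield.mem_bot_iff_pow_eq_self L ℓ).2 hz)
  exact ⟨n, by rw [map_intCast, hn]⟩

theorem eval_m (c : ZMod ℓ) (hn : nY ℓ W₀ c = 0) :
    eval c (m0 W₀) = 0 ∧ eval c (m1 W₀) = 0 := by
  set L := AlgebraicClosure (ZMod ℓ) with hL
  have hno : ∀ y : ZMod ℓ, ¬ W₀.Equation c y := by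
    intro y hy
    rw [nY, Nat.card_eq_zero] at hn
    rcases hn with hn | hn
    · exact hn.false ⟨y, hy⟩
    · exact hn.false
  set φ := algebraMap (ZMod ℓ) L with hφ
  -- no point above `c` with `y`-coordinate in the prime field
  have hno' : ∀ y : ZMod ℓ, ¬ (W₀⁄L).Equation (φ c) (φ y) := by
    intro y hy
    apply hno y
    rw [MF.equation_iff'] at hy
    rw [equation_iff]
    apply φ.injective
    simpa only [map_add, map_mul, map_pow] using hy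
  -- a root
  obtain ⟨y₁, hy₁⟩ : ∃ y₁ : L, (W₀⁄L).Equation (φ c) y₁ := by
    obtain ⟨y₁, hy₁⟩ := IsAlgClosed.exists_root
      (X ^ 2 + C (φ W₀.a₁ * φ c + φ W₀.a₃) * X
        - C (φ c ^ 3 + φ W₀.a₂ * φ c ^ 2 + φ W₀.a₄ * φ c + φ W₀.a₆) : L[X]) (by
        intro h
        have : (X ^ 2 + C (φ W₀.a₁ * φ c + φ W₀.a₃) * X
          - C (φ c ^ 3 + φ W₀.a₂ * φ c ^ 2 + φ W₀.a₄ * φ c + φ W₀.a₆) : L[X]).degree = 2 := by
          compute_degree!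
        rw [this] at h
        exact absurd h (by decide))
    refine ⟨y₁, ?_⟩
    rw [MF.equation_iff']
    simp only [IsRoot.def, eval_sub, eval_add, eval_mul, eval_pow, eval_X, eval_C] at hy₁
    linear_combination hy₁
  -- Frobenius
  have hy₂ : (W₀⁄L).Equation (φ c) (y₁ ^ ℓ) := by
    have hE := (MF.equation_iff' W₀ (φ c) y₁).1 hy₁
    rw [MF.equation_iff']
    have h1 := congrArg (FiniteField.frobeniusAlgHom (ZMod ℓ) L) hE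
    simp only [map_add, map_mul, map_pow, hφ, AlgHom.commutes] at h1
    simp only [MF.frob_apply] at h1
    exact h1
  have hne : y₁ ^ ℓ ≠ y₁ := by
    intro h
    obtain ⟨a, ha⟩ := mem_of_pow_eq h
    exact hno' a (by rw [hφ, ha]; exact hy₁)
  have hneg : y₁ ^ ℓ = (W₀⁄L).negY (φ c) y₁ :=
    (Y_eq_of_X_eq hy₂ hy₁ rfl).resolve_left hne
  have hpow := MF.pow_eq W₀ (φ c) y₁ hy₁ ℓ
  have hev : ∀ r : (ZMod ℓ)[X], aeval (φ c) r = φ (eval c r) := by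
    intro r
    rw [hφ, aeval_algebraMap_apply, coe_aeval_eq_eval]
  have hrel : φ (eval c (m0 W₀)) + φ (eval c (m1 W₀)) * y₁ = 0 := by
    rw [hneg, hev, hev] at hpow
    simp only [negY, baseChange_a₁, baseChange_a₃] at hpow
    simp only [m0, m1, lW, eval_add, eval_mul, eval_C, eval_X, eval_one, map_add, map_mul, map_one]
    linear_combination -hpow
  have h1 : eval c (m1 W₀) = 0 := by
    by_contra h1
    have h1' : φ (eval c (m1 W₀)) ≠ 0 := (map_ne_zero φ).2 h1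
    apply hno' (-(eval c (m0 W₀)) / eval c (m1 W₀))
    have : φ (-(eval c (m0 W₀)) / eval c (m1 W₀)) = y₁ := by
      rw [map_div₀, map_neg, div_eq_iff h1']
      linear_combination -hrel
    rw [this]
    exact hy₁
  refine ⟨?_, h1⟩
  rw [h1, map_zero, zero_mul, add_zero] at hrel
  exact (map_eq_zero φ).1 hrel

end M0B

open M0B in
/-- (A2-M3c) -/
theorem stmt_ManinZeroB (_hF : Stmt_ManinFormula) : Stmt_ManinZero := by
  intro ℓ _ W₀ c hn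
  obtain ⟨h0, h1⟩ := eval_m W₀ c hn
  obtain ⟨u₀, hu₀⟩ : (X - C c) ∣ m0 W₀ := dvd_iff_isRoot.2 h0
  obtain ⟨u₁, hu₁⟩ : (X - C c) ∣ m1 W₀ := dvd_iff_isRoot.2 h1
  obtain ⟨d, hd⟩ : (X - C c) ∣ (X ^ ℓ - X : (ZMod ℓ)[X]) :=
    dvd_iff_isRoot.2 (by simp [ZMod.pow_card])
  rw [maninN_eq, hu₀, hu₁, hd]
  exact ⟨u₀ ^ 2 + u₁ ^ 2 * fW W₀ + C W₀.a₁ * u₀ * d - (C W₀.a₂ + X ^ ℓ + X) * d ^ 2, by ring⟩

end Fermat.Agent.S52.A2
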