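import Fermat.Agent.S52.Interface
import Fermat.Agent.S52.PolyTop

/-! # S52, package A2-3: duplication multiplies the degree of the `x`-coordinate by 4 (helper29) -/

set_option autoImplicit false

namespace Fermat.Agent.S52

open Polynomial PT

theorem stmt_PolyDup : Stmt_PolyDup := by
  intro F _ W hΔ p₁ q₁ p₃ q₃ c₁ c₃ hq₃ e
  obtain ⟨v0, v1, hv⟩ : IsCoprime
      (4 * p₁ ^ 3 * q₁ + C W.b₂ * p₁ ^ 2 * q₁ ^ 2 + 2 * C W.b₄ * p₁ * q₁ ^ 3 + C W.b₆ * q₁ ^ 4)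
      (p₁ ^ 4 - C W.b₄ * p₁ ^ 2 * q₁ ^ 2 - 2 * C W.b₆ * p₁ * q₁ ^ 3 - C W.b₈ * q₁ ^ 4) := by
    apply isCoprime_of_maximal
    rintro M hM ⟨m0, m1⟩
    let _ := Ideal.Quotient.field M
    have m0' := Ideal.Quotient.eq_zero_iff_mem.2 m0
    have m1' := Ideal.Quotient.eq_zero_iff_mem.2 m1
    simp only [map_mul, map_sub, map_add, map_pow, map_ofNat] at m0' m1'
    exact ncz_dup _ _ _ _ (map_rel W ((Ideal.Quotient.mk M).comp C))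
      (map_disc W hΔ ((Ideal.Quotient.mk M).comp C)) _ _
      (not_both_mem_of_isCoprime c₁ M hM) m0' m1'
  obtain ⟨u0, u1, hu⟩ := c₃
  have tp₁ : IsTop p₁ (dg p₁ q₁) _ := isTop_self (le_max_left _ _)
  have tq₁ : IsTop q₁ (dg p₁ q₁) _ := isTop_self (le_max_right _ _)
  have l₁ := lead_ne_zero c₁
  change p₁.coeff (dg p₁ q₁) ≠ 0 ∨ q₁.coeff (dg p₁ q₁) ≠ 0 at l₁
  generalize dg p₁ q₁ = n₁ at *
  generalize p₁.coeff n₁ = a₁ at *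
  generalize q₁.coeff n₁ = d₁ at *
  have tG0 : IsTop (4 * p₁ ^ 3 * q₁ + C W.b₂ * p₁ ^ 2 * q₁ ^ 2 + 2 * C W.b₄ * p₁ * q₁ ^ 3
      + C W.b₆ * q₁ ^ 4) (4 * n₁)
      (4 * a₁ ^ 3 * d₁ + W.b₂ * a₁ ^ 2 * d₁ ^ 2 + 2 * W.b₄ * a₁ * d₁ ^ 3 + W.b₆ * d₁ ^ 4) := by
    refine IsTop.add (IsTop.add (IsTop.add ?_ ?_) ?_) ?_
    · exact (((isTop_ofNat 4).mul (tp₁.pow 3 rfl) rfl).mul tq₁)
    · exact (((isTop_C _).mul (tp₁.pow 2 rfl) rfl).mul (tq₁.pow 2 rfl))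
    · exact ((((isTop_ofNat 2).mul (isTop_C _) rfl).mul tp₁ rfl).mul (tq₁.pow 3 rfl))
    · exact ((isTop_C _).mul (tq₁.pow 4 rfl))
  have tG1 : IsTop (p₁ ^ 4 - C W.b₄ * p₁ ^ 2 * q₁ ^ 2 - 2 * C W.b₆ * p₁ * q₁ ^ 3
      - C W.b₈ * q₁ ^ 4) (4 * n₁)
      (a₁ ^ 4 - W.b₄ * a₁ ^ 2 * d₁ ^ 2 - 2 * W.b₆ * a₁ * d₁ ^ 3 - W.b₈ * d₁ ^ 4) := by
    refine IsTop.sub (IsTop.sub (IsTop.sub ?_ ?_) ?_) ?_
    · exact tp₁.pow 4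
    · exact (((isTop_C _).mul (tp₁.pow 2 rfl) rfl).mul (tq₁.pow 2 rfl))
    · exact ((((isTop_ofNat 2).mul (isTop_C _) rfl).mul tp₁ rfl).mul (tq₁.pow 3 rfl))
    · exact ((isTop_C _).mul (tq₁.pow 4 rfl))
  have hneG : ¬ (4 * a₁ ^ 3 * d₁ + W.b₂ * a₁ ^ 2 * d₁ ^ 2 + 2 * W.b₄ * a₁ * d₁ ^ 3
      + W.b₆ * d₁ ^ 4 = 0 ∧
      a₁ ^ 4 - W.b₄ * a₁ ^ 2 * d₁ ^ 2 - 2 * W.b₆ * a₁ * d₁ ^ 3 - W.b₈ * d₁ ^ 4 = 0) := by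
    rintro ⟨z0, z1⟩
    exact ncz_dup _ _ _ _ (map_rel W (RingHom.id F)) (map_disc W hΔ (RingHom.id F)) _ _ l₁ z0 z1
  generalize 4 * p₁ ^ 3 * q₁ + C W.b₂ * p₁ ^ 2 * q₁ ^ 2 + 2 * C W.b₄ * p₁ * q₁ ^ 3
      + C W.b₆ * q₁ ^ 4 = G0 at *
  generalize p₁ ^ 4 - C W.b₄ * p₁ ^ 2 * q₁ ^ 2 - 2 * C W.b₆ * p₁ * q₁ ^ 3
      - C W.b₈ * q₁ ^ 4 = G1 at *
  -- e : p₃ * G0 = G1 * q₃
  have hq : q₃ = G0 * (v0 * q₃ + v1 * p₃) := by linear_combination (-q₃) * hv - v1 * e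
  have hp : p₃ = G1 * (v0 * q₃ + v1 * p₃) := by linear_combination (-p₃) * hv + v0 * e
  have hunit : IsUnit (v0 * q₃ + v1 * p₃) := by
    apply IsUnit.of_mul_eq_one (u0 * G1 + u1 * G0)
    linear_combination hu - u0 * hp - u1 * hq
  obtain ⟨c, hc, hcs⟩ := Polynomial.isUnit_iff.1 hunit
  have hc0 : c ≠ 0 := hc.ne_zero
  rw [← hcs] at hq hp
  have d0 : q₃.natDegree = G0.natDegree := by rw [hq, natDegree_mul_C hc0]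
  have d1 : p₃.natDegree = G1.natDegree := by rw [hp, natDegree_mul_C hc0]
  unfold dg
  rw [d0, d1]
  apply le_antisymm
  · exact max_le tG1.1 tG0.1
  · exact level_le2 tG0 tG1 hneG (le_max_right _ _) (le_max_left _ _)

end Fermat.Agent.S52

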