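import Fermat.Agent.S52.Interface
import Fermat.Agent.S52.PolyTop

/-! # S52, package A2-2: exact parallelogram law for degrees of `x`-coordinates (helper29) -/

set_option autoImplicit false

namespace Fermat.Agent.S52

open Polynomial PT

theorem stmt_PolyPar : Stmt_PolyPar := by
  intro F _ W hΔ p₁ q₁ p₂ q₂ p₃ q₃ p₄ q₄ c₁ c₂ c₃ c₄ hD hq₃ hq₄ e1 e2
  -- Bezout relation for the three biquadratic forms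
  obtain ⟨v0, v1, v2, hv⟩ : ∃ u v w : F[X], u * (p₁ * q₂ - p₂ * q₁) ^ 2
      + v * (2 * p₁ * p₂ * (p₁ * q₂ + p₂ * q₁) + C W.b₂ * p₁ * p₂ * q₁ * q₂
        + C W.b₄ * (p₁ * q₂ + p₂ * q₁) * q₁ * q₂ + C W.b₆ * q₁ ^ 2 * q₂ ^ 2)
      + w * (p₁ ^ 2 * p₂ ^ 2 - C W.b₄ * p₁ * p₂ * q₁ * q₂ - C W.b₆ * (p₁ * q₂ + p₂ * q₁) * q₁ * q₂
        - C W.b₈ * q₁ ^ 2 * q₂ ^ 2) = 1 := by
    apply bezout3_of_maximal
    rintro M hM ⟨m0, m1, m2⟩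
    let _ := Ideal.Quotient.field M
    have m0' := Ideal.Quotient.eq_zero_iff_mem.2 m0
    have m1' := Ideal.Quotient.eq_zero_iff_mem.2 m1
    have m2' := Ideal.Quotient.eq_zero_iff_mem.2 m2
    simp only [map_mul, map_sub, map_add, map_pow, map_ofNat] at m0' m1' m2'
    exact ncz_par _ _ _ _ (map_rel W ((Ideal.Quotient.mk M).comp C))
      (map_disc W hΔ ((Ideal.Quotient.mk M).comp C)) _ _ _ _
      (not_both_mem_of_isCoprime c₁ M hM) (not_both_mem_of_isCoprime c₂ M hM) m0' m1' m2'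
  obtain ⟨u0, u1, u2, hu⟩ : ∃ u v w : F[X], u * (q₃ * q₄) + v * (p₃ * q₄ + p₄ * q₃)
      + w * (p₃ * p₄) = 1 := by
    apply bezout3_of_maximal
    rintro M hM ⟨m0, m1, m2⟩
    let _ := Ideal.Quotient.field M
    have m0' := Ideal.Quotient.eq_zero_iff_mem.2 m0
    have m1' := Ideal.Quotient.eq_zero_iff_mem.2 m1
    have m2' := Ideal.Quotient.eq_zero_iff_mem.2 m2
    simp only [map_mul, map_add] at m0' m1' m2'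
    exact ncz_prod _ _ _ _ (not_both_mem_of_isCoprime c₃ M hM) (not_both_mem_of_isCoprime c₄ M hM)
      m0' m1' m2'
  -- top coefficients
  have tp₁ : IsTop p₁ (dg p₁ q₁) _ := isTop_self (le_max_left _ _)
  have tq₁ : IsTop q₁ (dg p₁ q₁) _ := isTop_self (le_max_right _ _)
  have tp₂ : IsTop p₂ (dg p₂ q₂) _ := isTop_self (le_max_left _ _)
  have tq₂ : IsTop q₂ (dg p₂ q₂) _ := isTop_self (le_max_right _ _)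
  have tp₃ : IsTop p₃ (dg p₃ q₃) _ := isTop_self (le_max_left _ _)
  have tq₃ : IsTop q₃ (dg p₃ q₃) _ := isTop_self (le_max_right _ _)
  have tp₄ : IsTop p₄ (dg p₄ q₄) _ := isTop_self (le_max_left _ _)
  have tq₄ : IsTop q₄ (dg p₄ q₄) _ := isTop_self (le_max_right _ _)
  have l₁ := lead_ne_zero c₁
  have l₂ := lead_ne_zero c₂
  have l₃ := lead_ne_zero c₃
  have l₄ := lead_ne_zero c₄
  change p₁.coeff (dg p₁ q₁) ≠ 0 ∨ q₁.coeff (dg p₁ q₁) ≠ 0 at l₁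
  change p₂.coeff (dg p₂ q₂) ≠ 0 ∨ q₂.coeff (dg p₂ q₂) ≠ 0 at l₂
  change p₃.coeff (dg p₃ q₃) ≠ 0 ∨ q₃.coeff (dg p₃ q₃) ≠ 0 at l₃
  change p₄.coeff (dg p₄ q₄) ≠ 0 ∨ q₄.coeff (dg p₄ q₄) ≠ 0 at l₄
  generalize dg p₁ q₁ = n₁ at *
  generalize dg p₂ q₂ = n₂ at *
  generalize dg p₃ q₃ = n₃ at *
  generalize dg p₄ q₄ = n₄ at *
  generalize p₁.coeff n₁ = a₁ at *
  generalize q₁.coeff n₁ = d₁ at *
  generalize p₂.coeff n₂ = a₂ at *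
  generalize q₂.coeff n₂ = d₂ at *
  generalize p₃.coeff n₃ = a₃ at *
  generalize q₃.coeff n₃ = d₃ at *
  generalize p₄.coeff n₄ = a₄ at *
  generalize q₄.coeff n₄ = d₄ at *
  have t12 : IsTop (p₁ * q₂) (n₁ + n₂) (a₁ * d₂) := tp₁.mul tq₂
  have t21 : IsTop (p₂ * q₁) (n₁ + n₂) (a₂ * d₁) := tp₂.mul tq₁
  have tpp : IsTop (p₁ * p₂) (n₁ + n₂) (a₁ * a₂) := tp₁.mul tp₂
  have tqq : IsTop (q₁ * q₂) (n₁ + n₂) (d₁ * d₂) := tq₁.mul tq₂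
  have tD : IsTop ((p₁ * q₂ - p₂ * q₁) ^ 2) (2 * n₁ + 2 * n₂) ((a₁ * d₂ - a₂ * d₁) ^ 2) :=
    (t12.sub t21).pow 2
  have tG1 : IsTop (2 * p₁ * p₂ * (p₁ * q₂ + p₂ * q₁) + C W.b₂ * p₁ * p₂ * q₁ * q₂
        + C W.b₄ * (p₁ * q₂ + p₂ * q₁) * q₁ * q₂ + C W.b₆ * q₁ ^ 2 * q₂ ^ 2) (2 * n₁ + 2 * n₂)
      (2 * a₁ * a₂ * (a₁ * d₂ + a₂ * d₁) + W.b₂ * a₁ * a₂ * d₁ * d₂
        + W.b₄ * (a₁ * d₂ + a₂ * d₁) * d₁ * d₂ + W.b₆ * d₁ ^ 2 * d₂ ^ 2) := by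
    refine IsTop.add (IsTop.add (IsTop.add ?_ ?_) ?_) ?_
    · exact ((((isTop_ofNat 2).mul tp₁ rfl).mul tp₂ rfl).mul (t12.add t21))
    · exact (((((isTop_C _).mul tp₁ rfl).mul tp₂ rfl).mul tq₁ rfl).mul tq₂)
    · exact ((((isTop_C _).mul (t12.add t21) rfl).mul tq₁ rfl).mul tq₂)
    · exact (((isTop_C _).mul (tq₁.pow 2 rfl) rfl).mul (tq₂.pow 2 rfl))
  have tG2 : IsTop (p₁ ^ 2 * p₂ ^ 2 - C W.b₄ * p₁ * p₂ * q₁ * q₂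
        - C W.b₆ * (p₁ * q₂ + p₂ * q₁) * q₁ * q₂ - C W.b₈ * q₁ ^ 2 * q₂ ^ 2) (2 * n₁ + 2 * n₂)
      (a₁ ^ 2 * a₂ ^ 2 - W.b₄ * a₁ * a₂ * d₁ * d₂ - W.b₆ * (a₁ * d₂ + a₂ * d₁) * d₁ * d₂
        - W.b₈ * d₁ ^ 2 * d₂ ^ 2) := by
    refine IsTop.sub (IsTop.sub (IsTop.sub ?_ ?_) ?_) ?_
    · exact ((tp₁.pow 2 rfl).mul (tp₂.pow 2 rfl))
    · exact (((((isTop_C _).mul tp₁ rfl).mul tp₂ rfl).mul tq₁ rfl).mul tq₂)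
    · exact ((((isTop_C _).mul (t12.add t21) rfl).mul tq₁ rfl).mul tq₂)
    · exact (((isTop_C _).mul (tq₁.pow 2 rfl) rfl).mul (tq₂.pow 2 rfl))
  have tA0 : IsTop (q₃ * q₄) (n₃ + n₄) (d₃ * d₄) := tq₃.mul tq₄
  have tA1 : IsTop (p₃ * q₄ + p₄ * q₃) (n₃ + n₄) (a₃ * d₄ + a₄ * d₃) :=
    (tp₃.mul tq₄).add (tp₄.mul tq₃)
  have tA2 : IsTop (p₃ * p₄) (n₃ + n₄) (a₃ * a₄) := tp₃.mul tp₄
  have hneG : ¬ ((a₁ * d₂ - a₂ * d₁) ^ 2 = 0 ∧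
      2 * a₁ * a₂ * (a₁ * d₂ + a₂ * d₁) + W.b₂ * a₁ * a₂ * d₁ * d₂
        + W.b₄ * (a₁ * d₂ + a₂ * d₁) * d₁ * d₂ + W.b₆ * d₁ ^ 2 * d₂ ^ 2 = 0 ∧
      a₁ ^ 2 * a₂ ^ 2 - W.b₄ * a₁ * a₂ * d₁ * d₂ - W.b₆ * (a₁ * d₂ + a₂ * d₁) * d₁ * d₂
        - W.b₈ * d₁ ^ 2 * d₂ ^ 2 = 0) := by
    rintro ⟨z0, z1, z2⟩
    exact ncz_par _ _ _ _ (map_rel W (RingHom.id F)) (map_disc W hΔ (RingHom.id F)) _ _ _ _
      l₁ l₂ z0 z1 z2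
  have hneA : ¬ (d₃ * d₄ = 0 ∧ a₃ * d₄ + a₄ * d₃ = 0 ∧ a₃ * a₄ = 0) := by
    rintro ⟨z0, z1, z2⟩
    exact ncz_prod _ _ _ _ l₃ l₄ z0 z1 z2
  have hD2 : (p₁ * q₂ - p₂ * q₁) ^ 2 ≠ 0 := pow_ne_zero 2 hD
  -- name the six polynomials
  generalize (p₁ * q₂ - p₂ * q₁) ^ 2 = D at *
  generalize 2 * p₁ * p₂ * (p₁ * q₂ + p₂ * q₁) + C W.b₂ * p₁ * p₂ * q₁ * q₂
        + C W.b₄ * (p₁ * q₂ + p₂ * q₁) * q₁ * q₂ + C W.b₆ * q₁ ^ 2 * q₂ ^ 2 = G1 at *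
  generalize p₁ ^ 2 * p₂ ^ 2 - C W.b₄ * p₁ * p₂ * q₁ * q₂
        - C W.b₆ * (p₁ * q₂ + p₂ * q₁) * q₁ * q₂ - C W.b₈ * q₁ ^ 2 * q₂ ^ 2 = G2 at *
  generalize q₃ * q₄ = A0 at *
  generalize p₃ * q₄ + p₄ * q₃ = A1 at *
  generalize p₃ * p₄ = A2 at *
  have hA0 : A0 = D * (v0 * A0 + v1 * A1 + v2 * A2) := by
    linear_combination (-A0) * hv - v1 * e1 - v2 * e2
  have hDr : D = A0 * (u0 * D + u1 * G1 + u2 * G2) := by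
    linear_combination (-D) * hu + u1 * e1 + u2 * e2
  have hunit : IsUnit (v0 * A0 + v1 * A1 + v2 * A2) := by
    apply IsUnit.of_mul_eq_one (u0 * D + u1 * G1 + u2 * G2)
    apply mul_left_cancel₀ hD2
    rw [mul_one, ← mul_assoc, ← hA0, ← hDr]
  obtain ⟨c, hc, hcs⟩ := Polynomial.isUnit_iff.1 hunit
  have hc0 : c ≠ 0 := hc.ne_zero
  rw [← hcs] at hA0
  have hA1 : A1 = G1 * C c := by
    apply mul_left_cancel₀ hD2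
    rw [e1, hA0]; ring
  have hA2 : A2 = G2 * C c := by
    apply mul_left_cancel₀ hD2
    rw [e2, hA0]; ring
  have d0 : A0.natDegree = D.natDegree := by rw [hA0, natDegree_mul_C hc0]
  have d1 : A1.natDegree = G1.natDegree := by rw [hA1, natDegree_mul_C hc0]
  have d2 : A2.natDegree = G2.natDegree := by rw [hA2, natDegree_mul_C hc0]
  apply le_antisymm
  · exact level_le3 tA0 tA1 tA2 hneA (d0 ▸ tD.1) (d1 ▸ tG1.1) (d2 ▸ tG2.1)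
  · exact level_le3 tD tG1 tG2 hneG (d0 ▸ tA0.1) (d1 ▸ tA1.1) (d2 ▸ tA2.1)

end Fermat.Agent.S52

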