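import Fermat.Agent.S52.Interface
import Fermat.Agent.S13.Theta

/-! # S52, package A2-5: `x`-coordinate identities for `P ± Q` and `2P` (helper29) -/

set_option autoImplicit false

open WeierstrassCurve WeierstrassCurve.Affine

namespace Fermat.Agent.S52

open Fermat.Agent.S13 in
theorem stmt_XId : Stmt_XId := by
  intro K _ _ W x₁ y₁ x₂ y₂ h₁ h₂
  refine ⟨?_, ?_, ?_⟩
  · intro hx
    have hsub : Point.some x₁ y₁ h₁ - Point.some x₂ y₂ h₂ =
        Point.some x₁ y₁ h₁ + Point.some x₂ (W.negY x₂ y₂) ((nonsingular_neg ..).2 h₂) := by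
      rw [sub_eq_add_neg, Point.neg_some]
    have t0 := theta_addX h₁.1 h₂.1 hx 0
    have t1 := theta_addX h₁.1 h₂.1 hx 1
    simp only [Theta] at t0 t1
    refine ⟨_, _, _, _, _, _, Point.add_of_X_ne hx, hsub.trans (Point.add_of_X_ne hx), ?_, ?_⟩
    · linear_combination t0 - t1
    · linear_combination t0
  · have hsq := sq_sub_negY h₁.1
    rw [← hsq, two_nsmul]
    constructor
    · intro h
      by_contra hne
      have hy : y₁ ≠ W.negY x₁ y₁ := by
        intro hy
        apply hne
        rw [← hy, sub_self]; simp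
      rw [Point.add_self_of_Y_ne hy] at h
      exact Point.some_ne_zero _ h
    · intro h
      have hy : y₁ = W.negY x₁ y₁ := by
        have : y₁ - W.negY x₁ y₁ = 0 := by simpa using h
        exact sub_eq_zero.1 this
      exact Point.add_self_of_Y_eq hy
  · intro x₃ y₃ h₃ h
    have hsq := sq_sub_negY h₁.1
    have hy : y₁ ≠ W.negY x₁ y₁ := by
      intro hy
      rw [two_nsmul, Point.add_self_of_Y_eq hy] at h
      exact Point.some_ne_zero _ h.symm
    rw [two_nsmul, Point.add_self_of_Y_ne hy] at h
    have hx₃ : W.addX x₁ x₁ (W.slope x₁ x₁ y₁ y₁) = x₃ := by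
      injection h
    have t0 := theta_dupX h₁.1 hy 0
    simp only [Theta] at t0
    rw [hx₃, hsq] at t0
    linear_combination t0

end Fermat.Agent.S52

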