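import Fermat.Agent.S52.A2Glue
import Fermat.Agent.S52.A2_DegSubst
import Fermat.Agent.S52.PolyPar
import Fermat.Agent.S52.PolyDup
import Fermat.Agent.S52.XId

/-! # S52, block A2, package D1 (parallel attempt by helper72): exact parallelogram law. -/

set_option autoImplicit false
set_option linter.unusedSectionVars false

open Polynomial WeierstrassCurve WeierstrassCurve.Affine

namespace Fermat.Agent.S52.A2

namespace PRB

section RatFunc

variable {k : Type} [Field k]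

/-- an element of `k(x)` which is algebraic over `k` has degree `0` -/
theorem ratDeg_eq_zero_of_root (h : RatFunc k) (g : k[X]) (hg : g ≠ 0) (h0 : aeval h g = 0) :
    ratDeg h = 0 := by
  obtain ⟨hcop, hdg⟩ := stmt_PolyComp k g 1 h.num h.denom isCoprime_one_right
    h.isCoprime_num_denom
  have hz : homEval g (dg g 1) h.num h.denom = 0 := by
    apply RatFunc.algebraMap_injective k
    rw [← DS.aeval_mul_pow h g (dg g 1) (le_max_left _ _), h0, zero_mul, map_zero]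
  rw [hz] at hcop hdg
  have hu : IsUnit (homEval (1 : k[X]) (dg g 1) h.num h.denom) := isCoprime_zero_left.1 hcop
  have hd : dg (0 : k[X]) (homEval (1 : k[X]) (dg g 1) h.num h.denom) = 0 := by
    rw [dg, natDegree_zero, natDegree_eq_zero_of_isUnit hu]; rfl
  rw [hd] at hdg
  rcases Nat.mul_eq_zero.1 hdg.symm with h1 | h1
  · exfalso
    have h2 : g.natDegree = 0 := by
      have : g.natDegree ≤ dg g 1 := le_max_left _ _
      omega
    rw [eq_C_of_natDegree_eq_zero h2, aeval_C] at h0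
    have h3 : g.coeff 0 = 0 := by
      exact (map_eq_zero_iff _ (algebraMap k (RatFunc k)).injective).1 h0
    apply hg
    rw [eq_C_of_natDegree_eq_zero h2, h3, C_0]
  · exact h1

theorem mul_denom (f : RatFunc k) :
    f * algebraMap k[X] (RatFunc k) f.denom = algebraMap k[X] (RatFunc k) f.num := by
  have ht : algebraMap k[X] (RatFunc k) f.denom ≠ 0 := RatFunc.algebraMap_ne_zero f.denom_ne_zero
  have h1 := div_mul_cancel₀ (algebraMap k[X] (RatFunc k) f.num) ht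
  rwa [RatFunc.num_div_denom f] at h1

/-- parallelogram law for rational functions -/
theorem ratDeg_par (W : Affine k) (hΔ : W.Δ ≠ 0) (f₁ f₂ f₃ f₄ : RatFunc k) (hne : f₁ ≠ f₂)
    (e1 : (f₁ - f₂) ^ 2 * (f₃ + f₄) = 2 * f₁ * f₂ * (f₁ + f₂) + RatFunc.C W.b₂ * f₁ * f₂
      + RatFunc.C W.b₄ * (f₁ + f₂) + RatFunc.C W.b₆)
    (e2 : (f₁ - f₂) ^ 2 * (f₃ * f₄) = f₁ ^ 2 * f₂ ^ 2 - RatFunc.C W.b₄ * f₁ * f₂
      - RatFunc.C W.b₆ * (f₁ + f₂) - RatFunc.C W.b₈) :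
    ratDeg f₃ + ratDeg f₄ = 2 * ratDeg f₁ + 2 * ratDeg f₂ := by
  have m₁ := mul_denom f₁
  have m₂ := mul_denom f₂
  have m₃ := mul_denom f₃
  have m₄ := mul_denom f₄
  apply stmt_PolyPar k W hΔ f₁.num f₁.denom f₂.num f₂.denom f₃.num f₃.denom f₄.num f₄.denom
    f₁.isCoprime_num_denom f₂.isCoprime_num_denom f₃.isCoprime_num_denom f₄.isCoprime_num_denom
    ?_ f₃.denom_ne_zero f₄.denom_ne_zero ?_ ?_
  · intro h
    apply hne
    have h' := congrArg (algebraMap k[X] (RatFunc k)) h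
    simp only [map_sub, map_mul, map_zero] at h'
    rw [← m₁, ← m₂] at h'
    have d₁ : algebraMap k[X] (RatFunc k) f₁.denom ≠ 0 :=
      RatFunc.algebraMap_ne_zero f₁.denom_ne_zero
    have d₂ : algebraMap k[X] (RatFunc k) f₂.denom ≠ 0 :=
      RatFunc.algebraMap_ne_zero f₂.denom_ne_zero
    have h3 : (f₁ - f₂) * (algebraMap k[X] (RatFunc k) f₁.denom *
        algebraMap k[X] (RatFunc k) f₂.denom) = 0 := by linear_combination h'
    rcases mul_eq_zero.1 h3 with h4 | h4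
    · exact sub_eq_zero.1 h4
    · exact absurd h4 (mul_ne_zero d₁ d₂)
  · apply RatFunc.algebraMap_injective k
    simp only [map_sub, map_mul, map_add, map_pow, map_ofNat, RatFunc.algebraMap_C]
    rw [← m₁, ← m₂, ← m₃, ← m₄]
    linear_combination ((algebraMap k[X] (RatFunc k) f₁.denom) ^ 2 *
      (algebraMap k[X] (RatFunc k) f₂.denom) ^ 2 * (algebraMap k[X] (RatFunc k) f₃.denom) *
      (algebraMap k[X] (RatFunc k) f₄.denom)) * e1
  · apply RatFunc.algebraMap_injective k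
    simp only [map_sub, map_mul, map_add, map_pow, map_ofNat, RatFunc.algebraMap_C]
    rw [← m₁, ← m₂, ← m₃, ← m₄]
    linear_combination ((algebraMap k[X] (RatFunc k) f₁.denom) ^ 2 *
      (algebraMap k[X] (RatFunc k) f₂.denom) ^ 2 * (algebraMap k[X] (RatFunc k) f₃.denom) *
      (algebraMap k[X] (RatFunc k) f₄.denom)) * e2

/-- duplication for rational functions -/
theorem ratDeg_dup (W : Affine k) (hΔ : W.Δ ≠ 0) (f₁ f₃ : RatFunc k)
    (e : f₃ * (4 * f₁ ^ 3 + RatFunc.C W.b₂ * f₁ ^ 2 + 2 * RatFunc.C W.b₄ * f₁ + RatFunc.C W.b₆) =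
      f₁ ^ 4 - RatFunc.C W.b₄ * f₁ ^ 2 - 2 * RatFunc.C W.b₆ * f₁ - RatFunc.C W.b₈) :
    ratDeg f₃ = 4 * ratDeg f₁ := by
  have m₁ := mul_denom f₁
  have m₃ := mul_denom f₃
  apply stmt_PolyDup k W hΔ f₁.num f₁.denom f₃.num f₃.denom
    f₁.isCoprime_num_denom f₃.isCoprime_num_denom f₃.denom_ne_zero ?_
  apply RatFunc.algebraMap_injective k
  simp only [map_sub, map_mul, map_add, map_pow, map_ofNat, RatFunc.algebraMap_C]
  rw [← m₁, ← m₃]
  linear_combination ((algebraMap k[X] (RatFunc k) f₁.denom) ^ 4 *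
    (algebraMap k[X] (RatFunc k) f₃.denom)) * e

/-- the 2-torsion case -/
theorem ratDeg_two_torsion (W : Affine k) (hΔ : W.Δ ≠ 0) (f₁ : RatFunc k)
    (e : 4 * f₁ ^ 3 + RatFunc.C W.b₂ * f₁ ^ 2 + 2 * RatFunc.C W.b₄ * f₁ + RatFunc.C W.b₆ = 0) :
    ratDeg f₁ = 0 := by
  apply ratDeg_eq_zero_of_root f₁ (C 4 * X ^ 3 + C W.b₂ * X ^ 2 + C (2 * W.b₄) * X + C W.b₆)
  · intro h
    have c3 := congrArg (fun p => p.coeff 3) h
    have c2 := congrArg (fun p => p.coeff 2) h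
    have c1 := congrArg (fun p => p.coeff 1) h
    have c0 := congrArg (fun p => p.coeff 0) h
    simp [coeff_X, coeff_C] at c3 c2 c1 c0
    apply hΔ
    rw [WeierstrassCurve.Δ, c2, c0]
    rcases c1 with c1 | c1
    · linear_combination (-W.b₄ ^ 3 * 4) * c1
    · rw [c1]; ring
  · simp only [map_add, map_mul, map_pow, aeval_C, aeval_X, RatFunc.algebraMap_eq_C, map_ofNat]
    linear_combination e

end RatFunc

variable {ℓ : ℕ} [Fact ℓ.Prime] {W₀ : Affine (ZMod ℓ)} {k : Type} [Field k] [Algebra (ZMod ℓ) k]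

theorem b₂_KK : (W₀⁄(KK ℓ W₀ k)).b₂ =
    algebraMap (RatFunc k) (KK ℓ W₀ k) (RatFunc.C (W₀⁄k).b₂) := by
  rw [show (W₀⁄(KK ℓ W₀ k)).b₂ = algebraMap (ZMod ℓ) (KK ℓ W₀ k) W₀.b₂ from map_b₂ ..,
    show (W₀⁄k).b₂ = algebraMap (ZMod ℓ) k W₀.b₂ from map_b₂ .., algebraMap_C_KK]

theorem b₄_KK : (W₀⁄(KK ℓ W₀ k)).b₄ =
    algebraMap (RatFunc k) (KK ℓ W₀ k) (RatFunc.C (W₀⁄k).b₄) := by
  rw [show (W₀⁄(KK ℓ W₀ k)).b₄ = algebraMap (ZMod ℓ) (KK ℓ W₀ k) W₀.b₄ from map_b₄ ..,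
    show (W₀⁄k).b₄ = algebraMap (ZMod ℓ) k W₀.b₄ from map_b₄ .., algebraMap_C_KK]

theorem b₆_KK : (W₀⁄(KK ℓ W₀ k)).b₆ =
    algebraMap (RatFunc k) (KK ℓ W₀ k) (RatFunc.C (W₀⁄k).b₆) := by
  rw [show (W₀⁄(KK ℓ W₀ k)).b₆ = algebraMap (ZMod ℓ) (KK ℓ W₀ k) W₀.b₆ from map_b₆ ..,
    show (W₀⁄k).b₆ = algebraMap (ZMod ℓ) k W₀.b₆ from map_b₆ .., algebraMap_C_KK]

theorem b₈_KK : (W₀⁄(KK ℓ W₀ k)).b₈ =
    algebraMap (RatFunc k) (KK ℓ W₀ k) (RatFunc.C (W₀⁄k).b₈) := by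
  rw [show (W₀⁄(KK ℓ W₀ k)).b₈ = algebraMap (ZMod ℓ) (KK ℓ W₀ k) W₀.b₈ from map_b₈ ..,
    show (W₀⁄k).b₈ = algebraMap (ZMod ℓ) k W₀.b₈ from map_b₈ .., algebraMap_C_KK]

theorem Δ_k_ne_zero (hΔ : W₀.Δ ≠ 0) : (W₀⁄k).Δ ≠ 0 := by
  rw [show (W₀⁄k).Δ = algebraMap (ZMod ℓ) k W₀.Δ from map_Δ ..]
  exact (_root_.map_ne_zero _).2 hΔ

theorem exists_x (hB : Stmt_Basis) (hΔ : W₀.Δ ≠ 0) {u v : KK ℓ W₀ k}
    (h : (W₀⁄(KK ℓ W₀ k)).Nonsingular u v) (ho : IsOdd (Point.some u v h)) :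
    ∃ f : RatFunc k, u = algebraMap (RatFunc k) (KK ℓ W₀ k) f :=
  (hB ℓ W₀ k).2.2 hΔ u (DS.isOdd_some_iff h ho)

theorem dP_some (f : RatFunc k) {v : KK ℓ W₀ k}
    (h : (W₀⁄(KK ℓ W₀ k)).Nonsingular (algebraMap (RatFunc k) (KK ℓ W₀ k) f) v) :
    dP (Point.some _ v h) = (ratDeg f : ℤ) := by
  show ((ratDeg (xF (algebraMap (RatFunc k) (KK ℓ W₀ k) f)) : ℕ) : ℤ) = _
  rw [xF_algebraMap]

theorem dP_zero : dP (0 : Pt ℓ W₀ k) = 0 := rfl

theorem dP_dup (hB : Stmt_Basis) (hΔ : W₀.Δ ≠ 0) (P : Pt ℓ W₀ k) (ho : IsOdd P) :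
    dP (P + P) = 4 * dP P := by
  match P, ho with
  | .zero, _ => rfl
  | .some u v h, ho =>
    obtain ⟨f₁, rfl⟩ := exists_x hB hΔ h ho
    obtain ⟨-, hX2, hX3⟩ := stmt_XId (KK ℓ W₀ k) (W₀⁄(KK ℓ W₀ k)) _ v _ v h h
    have ho2 : IsOdd ((2 : ℕ) • Point.some _ v h) := by
      rw [two_nsmul]; exact Glue.IsOdd.add ho ho
    rw [← two_nsmul, dP_some]
    generalize hP2 : (2 : ℕ) • Point.some _ v h = P2 at ho2
    match P2, hP2, ho2 with
    | .zero, hP2, _ =>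
      have e := hX2.1 hP2
      rw [b₂_KK, b₄_KK, b₆_KK] at e
      have e' : 4 * f₁ ^ 3 + RatFunc.C (W₀⁄k).b₂ * f₁ ^ 2 + 2 * RatFunc.C (W₀⁄k).b₄ * f₁
          + RatFunc.C (W₀⁄k).b₆ = 0 := by
        apply (algebraMap (RatFunc k) (KK ℓ W₀ k)).injective
        simp only [map_add, map_mul, map_pow, map_ofNat, map_zero]
        exact e
      rw [ratDeg_two_torsion _ (Δ_k_ne_zero hΔ) f₁ e']
      rfl
    | .some x₃ y₃ h₃, hP2, ho2 =>
      obtain ⟨f₃, rfl⟩ := exists_x hB hΔ h₃ ho2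
      have e := hX3 _ y₃ h₃ hP2
      rw [b₂_KK, b₄_KK, b₆_KK, b₈_KK] at e
      rw [dP_some, ratDeg_dup _ (Δ_k_ne_zero hΔ) f₁ f₃ ?_]
      · push_cast; ring
      · apply (algebraMap (RatFunc k) (KK ℓ W₀ k)).injective
        simp only [map_add, map_sub, map_mul, map_pow, map_ofNat]
        exact e

end PRB

theorem stmt_ParB (hB : Stmt_Basis) : Stmt_Par := by
  intro ℓ _ W₀ k _ _ hΔ P Q hP hQ
  match P, Q, hP, hQ with
  | .zero, Q, _, _ =>
    show dP (0 + Q) + dP (0 - Q) = 2 * dP (0 : Pt ℓ W₀ k) + 2 * dP Q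
    rw [zero_add, zero_sub, Glue.dP_neg, PRB.dP_zero]; ring
  | .some u v h, .zero, _, _ =>
    show dP (Point.some u v h + 0) + dP (Point.some u v h - 0) =
      2 * dP (Point.some u v h) + 2 * dP (0 : Pt ℓ W₀ k)
    rw [add_zero, sub_zero, PRB.dP_zero]; ring
  | .some u v h, .some w z h', hP, hQ =>
    by_cases huw : u = w
    · subst huw
      rcases Y_eq_of_X_eq h.1 h'.1 rfl with hvz | hvz
      · subst hvz
        rw [sub_self, PRB.dP_dup hB hΔ _ hP, PRB.dP_zero]; ring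
      · have hPQ : Point.some u v h = -Point.some u z h' := by
          rw [Point.neg_some]; subst hvz; rfl
        rw [hPQ, neg_add_cancel, ← neg_add', Glue.dP_neg, PRB.dP_dup hB hΔ _ hQ, Glue.dP_neg,
          PRB.dP_zero]
        ring
    · obtain ⟨f₁, rfl⟩ := PRB.exists_x hB hΔ h hP
      obtain ⟨f₂, rfl⟩ := PRB.exists_x hB hΔ h' hQ
      obtain ⟨hX1, -, -⟩ := stmt_XId (KK ℓ W₀ k) (W₀⁄(KK ℓ W₀ k)) _ v _ z h h'
      obtain ⟨x₃, y₃, x₄, y₄, h₃, h₄, hs, hd, e1, e2⟩ := hX1 huw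
      have ho3 : IsOdd (Point.some x₃ y₃ h₃) := hs ▸ Glue.IsOdd.add hP hQ
      have ho4 : IsOdd (Point.some x₄ y₄ h₄) := by
        rw [← hd, sub_eq_add_neg]; exact Glue.IsOdd.add hP (Glue.IsOdd.neg hQ)
      obtain ⟨f₃, rfl⟩ := PRB.exists_x hB hΔ h₃ ho3
      obtain ⟨f₄, rfl⟩ := PRB.exists_x hB hΔ h₄ ho4
      rw [hs, hd, PRB.dP_some, PRB.dP_some, PRB.dP_some, PRB.dP_some]
      rw [PRB.b₂_KK, PRB.b₄_KK, PRB.b₆_KK] at e1
      rw [PRB.b₄_KK, PRB.b₆_KK, PRB.b₈_KK] at e2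
      have := PRB.ratDeg_par _ (PRB.Δ_k_ne_zero hΔ) f₁ f₂ f₃ f₄ (fun hh => huw (by rw [hh]))
        (by
          apply (algebraMap (RatFunc k) (KK ℓ W₀ k)).injective
          simp only [map_add, map_sub, map_mul, map_pow, map_ofNat]
          exact e1)
        (by
          apply (algebraMap (RatFunc k) (KK ℓ W₀ k)).injective
          simp only [map_add, map_sub, map_mul, map_pow, map_ofNat]
          exact e2)
      exact_mod_cast this

end Fermat.Agent.S52.A2
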