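import Fermat.Agent.S52.A2Interface

/-! # S52, block A2, package A2-R : degrees of rational functions -/

set_option autoImplicit false

open Polynomial

namespace Fermat.Agent.S52.A2

namespace RD

variable {k : Type} [Field k]

theorem natDegree_eq_of_dvd_dvd {a b : k[X]} (h1 : a ∣ b) (h2 : b ∣ a) :
    a.natDegree = b.natDegree :=
  natDegree_eq_of_degree_eq (degree_eq_degree_of_associated (associated_of_dvd_dvd h1 h2))

theorem ratDeg_div (a b : k[X]) (hab : IsCoprime a b) (hb : b ≠ 0) :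
    ratDeg (algebraMap k[X] (RatFunc k) a / algebraMap k[X] (RatFunc k) b) = dg a b := by
  set f : RatFunc k := algebraMap k[X] (RatFunc k) a / algebraMap k[X] (RatFunc k) b with hf
  have key : f.num * b = a * f.denom := (RatFunc.num_mul_eq_mul_denom_iff hb).2 hf
  have hcop : IsCoprime f.num f.denom := RatFunc.isCoprime_num_denom f
  have h1 : f.num ∣ a := hcop.dvd_of_dvd_mul_right (Dvd.intro _ key)
  have h2 : a ∣ f.num := hab.dvd_of_dvd_mul_right (Dvd.intro _ key.symm)
  have h3 : f.denom ∣ b := hcop.symm.dvd_of_dvd_mul_left (Dvd.intro_left _ key.symm)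
  have h4 : b ∣ f.denom := hab.symm.dvd_of_dvd_mul_left (Dvd.intro_left _ key)
  unfold ratDeg dg
  rw [natDegree_eq_of_dvd_dvd h1 h2, natDegree_eq_of_dvd_dvd h3 h4]

theorem eq_C_of_ratDeg_eq_zero (f : RatFunc k) (h : ratDeg f = 0) : ∃ c : k, f = RatFunc.C c := by
  unfold ratDeg dg at h
  have h1 : f.num.natDegree = 0 := by omega
  have h2 : f.denom.natDegree = 0 := by omega
  have h3 : f.denom = 1 := (Polynomial.Monic.natDegree_eq_zero (RatFunc.monic_denom f)).1 h2
  refine ⟨f.num.coeff 0, ?_⟩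
  conv_lhs => rw [← RatFunc.num_div_denom f, h3, eq_C_of_natDegree_eq_zero h1]
  simp

theorem ratDeg_C (c : k) : ratDeg (RatFunc.C c) = 0 := by
  unfold ratDeg dg
  simp

theorem ratDeg_X : ratDeg (RatFunc.X : RatFunc k) = 1 := by
  unfold ratDeg dg
  simp

theorem ratDeg_pow (f : RatFunc k) (n : ℕ) : ratDeg (f ^ n) = n * ratDeg f := by
  have h1 : f ^ n = algebraMap k[X] (RatFunc k) (f.num ^ n) /
      algebraMap k[X] (RatFunc k) (f.denom ^ n) := by
    conv_lhs => rw [← RatFunc.num_div_denom f]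
    rw [div_pow, map_pow, map_pow]
  rw [h1, ratDeg_div _ _ (RatFunc.isCoprime_num_denom f).pow
    (pow_ne_zero n (RatFunc.denom_ne_zero f))]
  unfold ratDeg dg
  rw [natDegree_pow, natDegree_pow, Nat.mul_max_mul_left]

end RD

theorem stmt_RatDeg : Stmt_RatDeg := by
  intro k _
  exact ⟨RD.ratDeg_div, RD.eq_C_of_ratDeg_eq_zero, RD.ratDeg_C, RD.ratDeg_X, RD.ratDeg_pow⟩

end Fermat.Agent.S52.A2
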