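import Fermat.Agent.S52.A2Interface

/-! # S52, block A2, package F4: substitution homomorphisms `σ : KK →ₐ[k] KK`. -/

set_option autoImplicit false

open Polynomial WeierstrassCurve WeierstrassCurve.Affine
open scoped nonZeroDivisors

namespace Fermat.Agent.S52.A2

namespace SB

theorem transcendental_of_not_const {k L : Type} [Field k] [IsAlgClosed k] [Field L] [Algebra k L]
    (u : L) (hu : ¬ ∃ c : k, u = algebraMap k L c) : Transcendental k u := by
  intro halg
  have hint : IsIntegral k u := halg.isIntegral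
  have hdeg := IsAlgClosed.degree_eq_one_of_irreducible k (minpoly.irreducible hint)
  obtain ⟨c, hc⟩ := minpoly.mem_range_of_degree_eq_one k u hdeg
  exact hu ⟨c, hc.symm⟩

end SB

theorem stmt_Subst : Stmt_Subst := by
  intro ℓ _ W₀ k _ _ _ u v huv hu
  have htr : Transcendental k u := SB.transcendental_of_not_const u hu
  have hinj : Function.Injective (aeval u : k[X] →ₐ[k] KK ℓ W₀ k) :=
    transcendental_iff_injective.1 htr
  have hφ : k[X]⁰ ≤ (KK ℓ W₀ k)⁰.comap (aeval u : k[X] →ₐ[k] KK ℓ W₀ k) := by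
    intro p hp
    rw [Submonoid.mem_comap, mem_nonZeroDivisors_iff_ne_zero]
    intro h0
    exact (mem_nonZeroDivisors_iff_ne_zero.1 hp) (hinj (by rw [h0, map_zero]))
  let i : RatFunc k →ₐ[k] KK ℓ W₀ k := RatFunc.liftAlgHom (aeval u) hφ
  have hiX : i RatFunc.X = u := by
    have h := RatFunc.liftAlgHom_apply_div (aeval u : k[X] →ₐ[k] KK ℓ W₀ k) hφ X 1
    rw [map_one, map_one, div_one, div_one, RatFunc.algebraMap_X, aeval_X] at h
    exact h
  have hiC : ∀ a : k, i (RatFunc.C a) = algebraMap k (KK ℓ W₀ k) a := by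
    intro a
    exact i.commutes a
  have hev : (ffPoly (W₀⁄k)).eval₂ (i : RatFunc k →+* KK ℓ W₀ k) v = 0 := by
    rw [eval₂_ffPoly]
    simp only [AlgHom.coe_toRingHom, hiX, hiC, baseChange_a₁, baseChange_a₂, baseChange_a₃,
      baseChange_a₄, baseChange_a₆, ← IsScalarTower.algebraMap_apply (ZMod ℓ) k (KK ℓ W₀ k)]
    rw [equation_iff] at huv
    simp only [baseChange_a₁, baseChange_a₂, baseChange_a₃, baseChange_a₄, baseChange_a₆] at huv
    rw [huv, sub_self]
  refine ⟨AdjoinRoot.liftAlgHom (ffPoly (W₀⁄k)) i v hev, ?_, ?_⟩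
  · rw [xK, AdjoinRoot.algebraMap_eq, AdjoinRoot.liftAlgHom_of, hiX]
  · rw [yK, AdjoinRoot.liftAlgHom_root]

end Fermat.Agent.S52.A2
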