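import Fermat.Agent.S52.Interface

/-! # S52, package A2-1: the abstract quadratic form argument (helper29) -/

set_option autoImplicit false

namespace Fermat.Agent.S52

namespace QuadAbs

variable {Λ : Type*} [AddCommGroup Λ] (d : Λ → ℤ)

theorem d_zero (par : ∀ P Q, d (P + Q) + d (P - Q) = 2 * d P + 2 * d Q) : d 0 = 0 := by
  have := par 0 0
  simp only [add_zero, sub_zero] at this
  omega

theorem d_neg (par : ∀ P Q, d (P + Q) + d (P - Q) = 2 * d P + 2 * d Q) (Q : Λ) :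
    d (-Q) = d Q := by
  have := par 0 Q
  have h0 := d_zero d par
  simp only [zero_add, zero_sub] at this
  omega

theorem cube (par : ∀ P Q, d (P + Q) + d (P - Q) = 2 * d P + 2 * d Q) (P Q R : Λ) :
    d (P + Q + R) = d (P + Q) + d (P + R) + d (Q + R) - d P - d Q - d R := by
  have e1 := par (P + Q) R
  have e3 := par (P + R) Q
  have e5 := par (Q + R) P
  have e2 := par (P - Q) R
  have e4 := par (P - R) Q
  have e6 := par (Q - R) P
  have f1 := par P Q
  have f2 := par P R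
  have f3 := par Q R
  have g1 : P + R + Q = P + Q + R := by abel
  have g2 : Q + R + P = P + Q + R := by abel
  have g3 : P + R - Q = P - Q + R := by abel
  have g4 : P - R + Q = P + Q - R := by abel
  have g5 : Q - R + P = P + Q - R := by abel
  have g6 : d (Q + R - P) = d (P - Q - R) := by
    rw [← d_neg d par]; congr 1; abel
  have g7 : P - R - Q = P - Q - R := by abel
  have g8 : d (Q - R - P) = d (P - Q + R) := by
    rw [← d_neg d par]; congr 1; abel
  rw [g1, g3] at e3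
  rw [g2, g6] at e5
  rw [g4, g7] at e4
  rw [g5, g8] at e6
  omega

/-- the associated bilinear form -/
def B (par : ∀ P Q, d (P + Q) + d (P - Q) = 2 * d P + 2 * d Q) : Λ →+ Λ →+ ℤ :=
  AddMonoidHom.mk' (fun P => AddMonoidHom.mk' (fun Q => d (P + Q) - d P - d Q) (by
    intro Q R
    have := cube d par P Q R
    have h2 : P + (Q + R) = P + Q + R := by abel
    rw [h2]
    omega)) (by
    intro P Q
    ext R
    simp only [AddMonoidHom.mk'_apply, AddMonoidHom.add_apply]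
    have := cube d par P Q R
    omega)

theorem B_apply (par : ∀ P Q, d (P + Q) + d (P - Q) = 2 * d P + 2 * d Q) (P Q : Λ) :
    B d par P Q = d (P + Q) - d P - d Q := rfl

theorem B_comm (par : ∀ P Q, d (P + Q) + d (P - Q) = 2 * d P + 2 * d Q) (P Q : Λ) :
    B d par P Q = B d par Q P := by
  rw [B_apply, B_apply, add_comm]; omega

theorem B_self (par : ∀ P Q, d (P + Q) + d (P - Q) = 2 * d P + 2 * d Q) (P : Λ) :
    B d par P P = 2 * d P := by
  have := par P P
  have h0 := d_zero d par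
  rw [sub_self] at this
  rw [B_apply]; omega

theorem expand (par : ∀ P Q, d (P + Q) + d (P - Q) = 2 * d P + 2 * d Q) (e₀ e₁ e₂ : Λ)
    (x y z : ℤ) : d (x • e₀ + y • e₁ + z • e₂) = x ^ 2 * d e₀ + y ^ 2 * d e₁ + z ^ 2 * d e₂
      + x * y * B d par e₀ e₁ + x * z * B d par e₀ e₂ + y * z * B d par e₁ e₂ := by
  have h := B_self d par (x • e₀ + y • e₁ + z • e₂)
  simp only [map_add, map_zsmul, AddMonoidHom.add_apply, AddMonoidHom.coe_smul, Pi.smul_apply,
    smul_eq_mul] at h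
  rw [B_self, B_self, B_self, B_comm d par e₁ e₀, B_comm d par e₂ e₀, B_comm d par e₂ e₁] at h
  have : 2 * d (x • e₀ + y • e₁ + z • e₂) = 2 * (x ^ 2 * d e₀ + y ^ 2 * d e₁ + z ^ 2 * d e₂
      + x * y * B d par e₀ e₁ + x * z * B d par e₀ e₂ + y * z * B d par e₁ e₂) := by
    rw [← h]; ring
  omega

end QuadAbs

open QuadAbs in
theorem stmt_QuadAbs : Stmt_QuadAbs := by
  intro Λ _ d e₀ e₁ e₂ ℓ N par h0 h1 h2 h12 hN hN2
  have E := expand d par e₀ e₁ e₂
  have v1 : e₁ + e₂ = (0 : ℤ) • e₀ + (1 : ℤ) • e₁ + (1 : ℤ) • e₂ := by simp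
  have v2 : e₀ + e₁ = (1 : ℤ) • e₀ + (1 : ℤ) • e₁ + (0 : ℤ) • e₂ := by simp
  have v3 : e₀ - e₁ = (1 : ℤ) • e₀ + (-1 : ℤ) • e₁ + (0 : ℤ) • e₂ := by simp [sub_eq_add_neg]
  have v4 : e₀ - (2 : ℤ) • e₁ + e₂ = (1 : ℤ) • e₀ + (-2 : ℤ) • e₁ + (1 : ℤ) • e₂ := by
    simp [sub_eq_add_neg]
  have v5 : e₂ - (ℓ + 1 - N) • e₁ + ℓ • e₀ = ℓ • e₀ + (-(ℓ + 1 - N)) • e₁ + (1 : ℤ) • e₂ := by
    rw [neg_smul, one_smul]; abel
  rw [v1, v2, E, E, h0, h1, h2] at h12
  rw [v3, E, h0, h1, h2] at hN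
  rw [v4, E, h0, h1, h2] at hN2
  rw [v5, E, h0, h1, h2]
  generalize B d par e₀ e₁ = T at *
  generalize B d par e₀ e₂ = U at *
  generalize B d par e₁ e₂ = V at *
  have hT : T = ℓ + 1 - N := by linear_combination -hN
  have hV : V = ℓ * T := by linear_combination h12
  have hU : U = N ^ 2 - 1 - 4 * ℓ - ℓ ^ 2 + 2 * T + 2 * V := by linear_combination hN2
  rw [hU, hV, hT]
  ring

end Fermat.Agent.S52

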