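import Fermat.Agent.S52.A2Glue
import Fermat.Agent.S52.QuadAbs
import Fermat.Agent.S52.A2_RatDeg
import Fermat.Agent.S52.A2_Basis
import Fermat.Agent.S52.A2_Const
import Fermat.Agent.S52.A2_Subst
import Fermat.Agent.S52.A2_ParB
import Fermat.Agent.S52.A2_DegFrob
import Fermat.Agent.S52.A2_DegSubst
import Fermat.Agent.S52.A2_Manin
import Fermat.Agent.S52.A2_ManinFormula
import Fermat.Agent.S52.A2_ManinDegree
import Fermat.Agent.S52.A2_ManinTwo
import Fermat.Agent.S52.A2_ManinOneB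
import Fermat.Agent.S52.A2_ManinZeroB
import Fermat.Agent.S52.A2_ManinGcd
import Fermat.Agent.S52.A2_ManinCard

/-! # S52, block A2: final assembly: the Frobenius relation `φ² - a φ + ℓ = 0`. -/

set_option autoImplicit false

namespace Fermat.Agent.S52

open A2 in
/-- **The Frobenius relation** on `E(Ω)`, `Ω ⊇ 𝔽_ℓ` any field, `a = ℓ + 1 - #E(𝔽_ℓ)`. -/
theorem stmt_Frob : Stmt_Frob :=
  stmt_Frob_of stmt_QuadAbs stmt_RatDeg stmt_Basis stmt_Const stmt_Subst (stmt_ParB stmt_Basis)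
    (stmt_DegFrob stmt_Basis stmt_RatDeg) (stmt_DegSubst stmt_Basis stmt_RatDeg)
    (stmt_Manin stmt_RatDeg stmt_ManinFormula stmt_ManinDegree (stmt_ManinTwo stmt_ManinFormula)
      (stmt_ManinOneB stmt_ManinFormula) (stmt_ManinZeroB stmt_ManinFormula) stmt_ManinGcd
      stmt_ManinCard)
    stmt_ManinCard

end Fermat.Agent.S52
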