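/-
S52, package (RT): reduction of points of a Weierstrass curve modulo a valuation ring.
General `a₁,…,a₆`, arbitrary valuation subring `V` of a field `K`, arbitrary "residue map"
`φ : V →+* k` with kernel the maximal ideal.  No hypothesis on the discriminant: the reduction is
a relation `Red P Q` between points of `W/K` and (nonsingular) points of `W/k`.
-/
import Mathlib

set_option autoImplicit false

namespace Fermat.Agent.S52.RT

open WeierstrassCurve WeierstrassCurve.Affine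

variable {K : Type*} [Field K] (V : ValuationSubring K)
  {k : Type*} [Field k] (φ : V →+* k) (W : WeierstrassCurve V)

/-- the curve over `K`. -/
abbrev WK : Affine K := (W.map V.subtype).toAffine

variable {V} in
/-- the curve over `k`. -/
abbrev Wk : Affine k := (W.map φ).toAffine

/-- `Red P Q`: the point `P` of `W(K)` reduces to the nonsingular point `Q` of `W(k)`. -/
inductive Red : (WK V W).Point → (Wk φ W).Point → Prop
  | zero : Red 0 0
  | inf {x y : K} (h : (WK V W).Nonsingular x y) (hx : x ∉ V) : Red (.some x y h) 0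
  | some (x y : V) (h : (WK V W).Nonsingular (x : K) (y : K))
      (h' : (Wk φ W).Nonsingular (φ x) (φ y)) : Red (.some (x : K) (y : K) h) (.some (φ x) (φ y) h')

variable {V φ W}

theorem Red.mk_some {x y : K} {X Y : k} (a b : V) (hx : x = a) (hy : y = b) (hX : X = φ a)
    (hY : Y = φ b) (h : (WK V W).Nonsingular x y) (h' : (Wk φ W).Nonsingular X Y) :
    Red V φ W (.some x y h) (.some X Y h') := by
  subst hx hy hX hY
  exact Red.some a b h h'

/-! ### Elementary facts on valuation subrings -/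

theorem notMem_quad {s : K} (c₁ c₀ : V) (hs : s ∉ V) : s ^ 2 + c₁ * s + c₀ ∉ V := by
  intro h
  have hs0 : s ≠ 0 := by
    rintro rfl
    exact hs V.zero_mem
  have hinv : s⁻¹ ∈ V := (V.mem_or_inv_mem s).resolve_left hs
  apply hs
  have : s = (s ^ 2 + c₁ * s + c₀ - c₀) * s⁻¹ - c₁ := by
    field_simp
    ring
  rw [this]
  exact sub_mem (mul_mem (sub_mem h c₀.2) hinv) c₁.2

theorem div_notMem {n d : V} (hn : IsUnit n) (hd : ¬ IsUnit d) (hd0 : (d : K) ≠ 0) :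
    (n : K) / (d : K) ∉ V := by
  intro h
  apply hd
  have : n = ⟨(n : K) / d, h⟩ * d := by
    apply Subtype.ext
    show (n : K) = (n : K) / d * d
    field_simp
  rw [this] at hn
  exact isUnit_of_mul_isUnit_right hn

theorem mem_of_monic_quad {y : K} (c₁ c₀ : V) (h : y ^ 2 + c₁ * y + c₀ = 0) : y ∈ V := by
  by_contra hy
  apply notMem_quad c₁ c₀ hy
  rw [h]
  exact V.zero_mem

/-! ### Slopes -/

theorem slope_eq_div {F : Type*} [Field F] [DecidableEq F] (E : Affine F) {x₁ x₂ y₁ y₂ : F}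
    (h₁ : E.Equation x₁ y₁) (h₂ : E.Equation x₂ y₂) (hD : y₁ ≠ E.negY x₂ y₂) :
    E.slope x₁ x₂ y₁ y₂ =
      (x₁ ^ 2 + x₁ * x₂ + x₂ ^ 2 + E.a₂ * (x₁ + x₂) + E.a₄ - E.a₁ * y₁) / (y₁ - E.negY x₂ y₂) := by
  by_cases hx : x₁ = x₂
  · subst hx
    have hy : y₁ = y₂ := Y_eq_of_Y_ne h₁ h₂ rfl hD
    subst hy
    rw [slope_of_Y_ne rfl hD]
    congr 1
    ring
  · rw [slope_of_X_ne hx, div_eq_div_iff (sub_ne_zero.mpr hx) (sub_ne_zero.mpr hD)]
    rw [equation_iff] at h₁ h₂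
    simp only [negY]
    linear_combination h₁ - h₂

theorem coe_negY (x y : V) : (WK V W).negY (x : K) (y : K) = ((W.toAffine.negY x y : V) : K) :=
  map_negY (W' := W.toAffine) V.subtype x y

theorem phi_negY (x y : V) : (Wk φ W).negY (φ x) (φ y) = φ (W.toAffine.negY x y) :=
  map_negY (W' := W.toAffine) φ x y

/-- numerator of the "second form" of the slope. -/
def NV (W : WeierstrassCurve V) (x₁ x₂ y₁ : V) : V :=
  x₁ ^ 2 + x₁ * x₂ + x₂ ^ 2 + W.a₂ * (x₁ + x₂) + W.a₄ - W.a₁ * y₁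

theorem chord_identity {F : Type*} [CommRing F] (E : Affine F) {x₁ x₂ y₁ y₂ : F}
    (h₁ : E.Equation x₁ y₁) (h₂ : E.Equation x₂ y₂) :
    (y₁ - y₂) * (y₁ - E.negY x₂ y₂) =
      (x₁ - x₂) * (x₁ ^ 2 + x₁ * x₂ + x₂ ^ 2 + E.a₂ * (x₁ + x₂) + E.a₄ - E.a₁ * y₁) := by
  rw [equation_iff] at h₁ h₂
  simp only [negY]
  linear_combination h₁ - h₂

theorem not_isUnit_of_phi_eq_zero {x : V} (h : φ x = 0) : ¬ IsUnit x := fun hu =>
  (hu.map φ).ne_zero h

variable [DecidableEq K] [DecidableEq k]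

/-- if the slope is integral and reduces to the slope, the sum reduces to the sum. -/
theorem red_add_of_slope {x₁ y₁ x₂ y₂ : V} {h₁ : (WK V W).Nonsingular (x₁ : K) (y₁ : K)}
    {h₂ : (WK V W).Nonsingular (x₂ : K) (y₂ : K)} {h₁' : (Wk φ W).Nonsingular (φ x₁) (φ y₁)}
    {h₂' : (Wk φ W).Nonsingular (φ x₂) (φ y₂)} (l : V)
    (hk : ¬ (φ x₁ = φ x₂ ∧ φ y₁ = (Wk φ W).negY (φ x₂) (φ y₂)))
    (hlK : (WK V W).slope (x₁ : K) x₂ y₁ y₂ = l)
    (hlk : (Wk φ W).slope (φ x₁) (φ x₂) (φ y₁) (φ y₂) = φ l) :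
    Red V φ W (.some _ _ h₁ + .some _ _ h₂) (.some _ _ h₁' + .some _ _ h₂') := by
  have hK : ¬ ((x₁ : K) = x₂ ∧ (y₁ : K) = (WK V W).negY x₂ y₂) := by
    rintro ⟨hx, hy⟩
    apply hk
    rw [coe_negY] at hy
    rw [phi_negY, Subtype.ext hx, Subtype.ext hy]
    exact ⟨rfl, rfl⟩
  rw [Point.add_some hK, Point.add_some hk]
  refine Red.mk_some (W.toAffine.addX x₁ x₂ l) (W.toAffine.addY x₁ x₂ y₁ l) ?_ ?_ ?_ ?_ _ _
  · rw [hlK]
    exact map_addX (W' := W.toAffine) V.subtype x₁ x₂ l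
  · rw [hlK]
    exact map_addY (W' := W.toAffine) V.subtype x₁ y₁ x₂ l
  · rw [hlk]
    exact map_addX (W' := W.toAffine) φ x₁ x₂ l
  · rw [hlk]
    exact map_addY (W' := W.toAffine) φ x₁ y₁ x₂ l

/-- integral + integral. -/
theorem red_add_some_some (hφ : ∀ x : V, φ x ≠ 0 → IsUnit x) {x₁ y₁ x₂ y₂ : V}
    (h₁ : (WK V W).Nonsingular (x₁ : K) (y₁ : K)) (h₂ : (WK V W).Nonsingular (x₂ : K) (y₂ : K))
    (h₁' : (Wk φ W).Nonsingular (φ x₁) (φ y₁)) (h₂' : (Wk φ W).Nonsingular (φ x₂) (φ y₂)) :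
    Red V φ W (.some _ _ h₁ + .some _ _ h₂) (.some _ _ h₁' + .some _ _ h₂') := by
  by_cases hX : φ x₁ = φ x₂
  · by_cases hY : φ y₁ = (Wk φ W).negY (φ x₂) (φ y₂)
    · -- opposite reductions
      rw [Point.add_of_Y_eq hX hY]
      by_cases hK : (x₁ : K) = x₂ ∧ (y₁ : K) = (WK V W).negY x₂ y₂
      · rw [Point.add_of_Y_eq hK.1 hK.2]
        exact Red.zero
      · rw [Point.add_some hK]
        apply Red.inf
        have hsl : (WK V W).slope (x₁ : K) x₂ y₁ y₂ ∉ V := by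
          have hxn : ¬ IsUnit (x₁ - x₂) := not_isUnit_of_phi_eq_zero (φ := φ) (by
            rw [map_sub, hX, sub_self])
          have hDn : ¬ IsUnit (y₁ - W.toAffine.negY x₂ y₂) :=
            not_isUnit_of_phi_eq_zero (φ := φ) (by rw [map_sub, ← phi_negY, hY, sub_self])
          rcases ((nonsingular_iff _ _).mp h₁').2 with hB | hA
          · -- the numerator `N` is a unit
            have hN : IsUnit (NV W x₁ x₂ y₁) := by
              apply hφ
              intro h0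
              apply hB
              have : φ (NV W x₁ x₂ y₁) = 3 * φ x₁ ^ 2 + 2 * (Wk φ W).a₂ * φ x₁ + (Wk φ W).a₄
                  - (Wk φ W).a₁ * φ y₁ := by
                simp only [NV, map_add, map_sub, map_mul, map_pow, ← hX, WeierstrassCurve.map_a₁,
                  WeierstrassCurve.map_a₂, WeierstrassCurve.map_a₄]
                ring
              rw [h0] at this
              linear_combination this
            have hid := chord_identity (WK V W) h₁.1 h₂.1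
            have hD0 : (y₁ : K) ≠ (WK V W).negY x₂ y₂ := by
              intro hD
              have hx : (x₁ : K) ≠ x₂ := fun hx => hK ⟨hx, hD⟩
              rw [sub_eq_zero.mpr hD, mul_zero] at hid
              have hN0 : ((NV W x₁ x₂ y₁ : V) : K) = 0 :=
                (mul_eq_zero.mp hid.symm).resolve_left (sub_ne_zero.mpr hx)
              have : NV W x₁ x₂ y₁ = 0 := Subtype.ext hN0
              rw [this] at hN
              exact not_isUnit_zero hN
            rw [slope_eq_div _ h₁.1 h₂.1 hD0]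
            have := div_notMem hN hDn (by
              show (y₁ : K) - ((W.toAffine.negY x₂ y₂ : V) : K) ≠ 0
              rw [← coe_negY]
              exact sub_ne_zero.mpr hD0)
            exact this
          · -- `y₁ - y₂` is a unit
            have hyu : IsUnit (y₁ - y₂) := by
              apply hφ
              intro h0
              apply hA
              rw [map_sub, sub_eq_zero] at h0
              have := hY
              rw [← h0, ← hX] at this
              exact this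
            have hx : (x₁ : K) ≠ x₂ := by
              intro hx
              rcases Y_eq_of_X_eq h₁.1 h₂.1 hx with hy | hy
              · have : y₁ - y₂ = 0 := sub_eq_zero.mpr (Subtype.ext hy)
                rw [this] at hyu
                exact not_isUnit_zero hyu
              · exact hK ⟨hx, hy⟩
            rw [slope_of_X_ne hx]
            exact div_notMem hyu hxn (sub_ne_zero.mpr hx)
        have := notMem_quad W.a₁ (-W.a₂ - x₁ - x₂) hsl
        have heq : (WK V W).addX (x₁ : K) x₂ ((WK V W).slope (x₁ : K) x₂ y₁ y₂) =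
            (WK V W).slope (x₁ : K) x₂ y₁ y₂ ^ 2 + (W.a₁ : K) * (WK V W).slope (x₁ : K) x₂ y₁ y₂
              + ((-W.a₂ - x₁ - x₂ : V) : K) := by
          simp only [addX]
          show _ ^ 2 + (W.a₁ : K) * _ - (W.a₂ : K) - x₁ - x₂ =
            _ ^ 2 + (W.a₁ : K) * _ + (-(W.a₂ : K) - x₁ - x₂)
          ring
        rw [heq]
        exact this
    · -- same reduction, not of order two
      have hDu : IsUnit (y₁ - W.toAffine.negY x₂ y₂) := by
        apply hφ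
        rw [map_sub, ← phi_negY]
        exact sub_ne_zero.mpr hY
      obtain ⟨e, he⟩ := hDu.exists_right_inv
      have hD0 : (y₁ : K) ≠ (WK V W).negY x₂ y₂ := by
        intro hD
        apply hY
        rw [coe_negY] at hD
        rw [phi_negY, ← Subtype.ext hD]
      apply red_add_of_slope (NV W x₁ x₂ y₁ * e) (fun h => hY h.2)
      · rw [slope_eq_div _ h₁.1 h₂.1 hD0, div_eq_iff (sub_ne_zero.mpr hD0), coe_negY]
        have he' : ((y₁ : K) - ((W.toAffine.negY x₂ y₂ : V) : K)) * (e : K) = 1 :=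
          congrArg Subtype.val he
        show ((NV W x₁ x₂ y₁ : V) : K) = ((NV W x₁ x₂ y₁ : V) : K) * (e : K) * _
        rw [mul_assoc, mul_comm (e : K), he', mul_one]
      · have he2 : φ e * (φ y₁ - φ (W.toAffine.negY x₂ y₂)) = 1 := by
          rw [← map_sub, ← map_mul, mul_comm, he, map_one]
        rw [slope_eq_div _ h₁'.1 h₂'.1 hY, div_eq_iff (sub_ne_zero.mpr hY), phi_negY, map_mul,
          mul_assoc, he2, mul_one]
        simp only [NV, map_add, map_sub, map_mul, map_pow, WeierstrassCurve.map_a₁,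
          WeierstrassCurve.map_a₂, WeierstrassCurve.map_a₄]
  · -- different `x`-coordinates
    have hxu : IsUnit (x₁ - x₂) := by
      apply hφ
      rw [map_sub]
      exact sub_ne_zero.mpr hX
    obtain ⟨e, he⟩ := hxu.exists_right_inv
    have hx : (x₁ : K) ≠ x₂ := fun hx => hX (by rw [Subtype.ext hx])
    apply red_add_of_slope ((y₁ - y₂) * e) (fun h => hX h.1)
    · rw [slope_of_X_ne hx, div_eq_iff (sub_ne_zero.mpr hx)]
      have he' : ((x₁ : K) - (x₂ : K)) * (e : K) = 1 := congrArg Subtype.val he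
      show (y₁ : K) - y₂ = ((y₁ : K) - y₂) * (e : K) * _
      rw [mul_assoc, mul_comm (e : K), he', mul_one]
    · have he2 : φ e * (φ x₁ - φ x₂) = 1 := by
        rw [← map_sub, ← map_mul, mul_comm, he, map_one]
      rw [slope_of_X_ne hX, div_eq_iff (sub_ne_zero.mpr hX), map_mul, mul_assoc, he2, mul_one,
        map_sub]

/-! ### The mixed case: (integral point) + (point of the kernel of reduction) -/

section mixed

variable {R : Type*} [CommRing R]

/-- `(x₃ - x₂) / e ^ 2`. -/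
def mixG (E : Affine R) (x₂ y₂ w θ : R) : R :=
  -(2 * y₂ + E.a₁ * x₂ + E.a₃) * θ + (3 * x₂ ^ 2 + 2 * E.a₂ * x₂ + E.a₄ - E.a₁ * y₂) * w
    + (E.a₆ + y₂ ^ 2 + E.a₁ * x₂ * y₂ - 2 * x₂ ^ 3 - E.a₂ * x₂ ^ 2) * w ^ 2

/-- the `x`-coordinate of `(x₂, y₂) + (1 / w, θ / w ^ 2)`, where `e = 1 / (1 - x₂ w)`. -/
def mixX (E : Affine R) (x₂ y₂ w θ e : R) : R := x₂ + e ^ 2 * mixG E x₂ y₂ w θ

/-- `slope * (x₃ - x₂)`. -/
def mixT (E : Affine R) (x₂ y₂ w θ e : R) : R :=
  e ^ 3 * (-(2 * y₂ + E.a₁ * x₂ + E.a₃) *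
      (1 + E.a₂ * w + E.a₄ * w ^ 2 + E.a₆ * w ^ 3 - E.a₁ * θ - E.a₃ * θ * w)
    + (3 * x₂ ^ 2 + 2 * E.a₂ * x₂ + E.a₄ - E.a₁ * y₂) * θ
    + (E.a₆ + y₂ ^ 2 + E.a₁ * x₂ * y₂ - 2 * x₂ ^ 3 - E.a₂ * x₂ ^ 2) * θ * w
    - y₂ * w * mixG E x₂ y₂ w θ)

/-- the `y`-coordinate of `(x₂, y₂) + (1 / w, θ / w ^ 2)`. -/
def mixY (E : Affine R) (x₂ y₂ w θ e : R) : R :=
  -(mixT E x₂ y₂ w θ e + y₂) - E.a₁ * mixX E x₂ y₂ w θ e - E.a₃

theorem map_mixG {S : Type*} [CommRing S] (f : R →+* S) (E : WeierstrassCurve R)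
    (x₂ y₂ w θ : R) :
    f (mixG E.toAffine x₂ y₂ w θ) = mixG (E.map f).toAffine (f x₂) (f y₂) (f w) (f θ) := by
  simp only [mixG, map_add, map_sub, map_mul, map_pow, map_neg, map_ofNat,
    WeierstrassCurve.map_a₁, WeierstrassCurve.map_a₂, WeierstrassCurve.map_a₃,
    WeierstrassCurve.map_a₄, WeierstrassCurve.map_a₆]

theorem map_mixX {S : Type*} [CommRing S] (f : R →+* S) (E : WeierstrassCurve R)
    (x₂ y₂ w θ e : R) :
    f (mixX E.toAffine x₂ y₂ w θ e) = mixX (E.map f).toAffine (f x₂) (f y₂) (f w) (f θ) (f e) := by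
  simp only [mixX, map_add, map_mul, map_pow, map_mixG]

theorem map_mixT {S : Type*} [CommRing S] (f : R →+* S) (E : WeierstrassCurve R)
    (x₂ y₂ w θ e : R) :
    f (mixT E.toAffine x₂ y₂ w θ e) = mixT (E.map f).toAffine (f x₂) (f y₂) (f w) (f θ) (f e) := by
  simp only [mixT, map_add, map_sub, map_mul, map_pow, map_neg, map_ofNat, map_one, map_mixG,
    WeierstrassCurve.map_a₁, WeierstrassCurve.map_a₂, WeierstrassCurve.map_a₃,
    WeierstrassCurve.map_a₄, WeierstrassCurve.map_a₆]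

theorem map_mixY {S : Type*} [CommRing S] (f : R →+* S) (E : WeierstrassCurve R)
    (x₂ y₂ w θ e : R) :
    f (mixY E.toAffine x₂ y₂ w θ e) = mixY (E.map f).toAffine (f x₂) (f y₂) (f w) (f θ) (f e) := by
  simp only [mixY, map_add, map_sub, map_mul, map_neg, map_mixT, map_mixX,
    WeierstrassCurve.map_a₁, WeierstrassCurve.map_a₃]

theorem mixX_zero (E : Affine R) (x₂ y₂ e : R) : mixX E x₂ y₂ 0 0 e = x₂ := by
  simp only [mixX, mixG]
  ring

theorem mixY_zero (E : Affine R) (x₂ y₂ : R) : mixY E x₂ y₂ 0 0 1 = y₂ := by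
  simp only [mixY, mixT, mixX, mixG]
  ring

end mixed

theorem mixed_slope {F : Type*} [Field F] {x₁ y₁ x₂ y₂ w e : F}
    (hw : x₁ * w = 1) (he : (1 - x₂ * w) * e = 1) :
    (y₂ - y₁) / (x₂ - x₁) = (y₁ - y₂) * w * e := by
  have hne : x₂ - x₁ ≠ 0 := by
    intro h
    have : x₂ = x₁ := sub_eq_zero.mp h
    rw [this, hw, sub_self, zero_mul] at he
    exact zero_ne_one he
  rw [div_eq_iff hne]
  linear_combination (y₁ - y₂) * he + (y₁ - y₂) * e * hw

theorem mixed_addX {F : Type*} [Field F] (E : Affine F) {x₁ y₁ x₂ y₂ w θ e : F}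
    (h₁ : E.Equation x₁ y₁) (hw : x₁ * w = 1) (hθ : θ = y₁ * w ^ 2)
    (he : (1 - x₂ * w) * e = 1) :
    E.addX x₂ x₁ ((y₁ - y₂) * w * e) = mixX E x₂ y₂ w θ e := by
  have hw0 : w ≠ 0 := right_ne_zero_of_mul_eq_one hw
  have hu0 : 1 - x₂ * w ≠ 0 := left_ne_zero_of_mul_eq_one he
  have hx₁ : x₁ = w⁻¹ := eq_inv_of_mul_eq_one_left hw
  have hee : e = (1 - x₂ * w)⁻¹ := eq_inv_of_mul_eq_one_right he
  rw [equation_iff] at h₁
  subst hθ hx₁ hee
  have hu0' : 1 - w * x₂ ≠ 0 := by rwa [mul_comm]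
  simp only [addX, mixX, mixG]
  field_simp
  field_simp at h₁
  linear_combination h₁

theorem mixed_addY {F : Type*} [Field F] (E : Affine F) {x₁ y₁ x₂ y₂ w θ e : F}
    (h₁ : E.Equation x₁ y₁) (hw : x₁ * w = 1) (hθ : θ = y₁ * w ^ 2)
    (he : (1 - x₂ * w) * e = 1) :
    E.addY x₂ x₁ y₂ ((y₁ - y₂) * w * e) = mixY E x₂ y₂ w θ e := by
  have hρ : y₁ * w * θ =
      1 + E.a₂ * w + E.a₄ * w ^ 2 + E.a₆ * w ^ 3 - E.a₁ * θ - E.a₃ * θ * w := by
    rw [equation_iff] at h₁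
    subst hθ
    linear_combination w ^ 3 * h₁ + (-E.a₁ * y₁ * w ^ 2 + (x₁ ^ 2 * w ^ 2 + x₁ * w + 1)
      + E.a₂ * w * (x₁ * w + 1) + E.a₄ * w ^ 2) * hw
  simp only [addY, negAddY, negY]
  rw [mixed_addX E h₁ hw hθ he]
  simp only [mixY, mixT]
  have hX : mixX E x₂ y₂ w θ e - x₂ = e ^ 2 * mixG E x₂ y₂ w θ := by
    simp only [mixX]
    ring
  rw [hX]
  have hG : y₁ * w * mixG E x₂ y₂ w θ = -(2 * y₂ + E.a₁ * x₂ + E.a₃) * (y₁ * w * θ)
      + (3 * x₂ ^ 2 + 2 * E.a₂ * x₂ + E.a₄ - E.a₁ * y₂) * θ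
      + (E.a₆ + y₂ ^ 2 + E.a₁ * x₂ * y₂ - 2 * x₂ ^ 3 - E.a₂ * x₂ ^ 2) * θ * w := by
    simp only [mixG]
    subst hθ
    ring
  rw [hρ] at hG
  linear_combination (-e ^ 3) * hG

omit [DecidableEq K] in
/-- data attached to a point with non-integral `x`-coordinate: `w = 1 / x`, `θ = y / x ^ 2`. -/
theorem exists_w_theta (hφ : ∀ x : V, φ x ≠ 0 → IsUnit x) {x₁ y₁ : K}
    (h₁ : (WK V W).Equation x₁ y₁) (hx₁ : x₁ ∉ V) :
    ∃ w θ : V, x₁ * (w : K) = 1 ∧ (θ : K) = y₁ * (w : K) ^ 2 ∧ φ w = 0 ∧ φ θ = 0 := by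
  have hx0 : x₁ ≠ 0 := by
    rintro rfl
    exact hx₁ V.zero_mem
  have hwV : x₁⁻¹ ∈ V := (V.mem_or_inv_mem x₁).resolve_left hx₁
  set w : V := ⟨x₁⁻¹, hwV⟩ with hw
  have hxw : x₁ * (w : K) = 1 := mul_inv_cancel₀ hx0
  have hφw : φ w = 0 := by
    by_contra h0
    obtain ⟨w', hw'⟩ := (hφ w h0).exists_right_inv
    apply hx₁
    have h1 : (w : K) * (w' : K) = 1 := congrArg Subtype.val hw'
    have : x₁ = (w' : K) := by
      calc x₁ = x₁ * ((w : K) * (w' : K)) := by rw [h1, mul_one]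
        _ = (x₁ * (w : K)) * (w' : K) := by ring
        _ = (w' : K) := by rw [hxw, one_mul]
    rw [this]
    exact w'.2
  have hquad : (y₁ * (w : K) ^ 2) ^ 2 + ((W.a₁ * w + W.a₃ * w ^ 2 : V) : K) * (y₁ * (w : K) ^ 2)
      + ((-(w + W.a₂ * w ^ 2 + W.a₄ * w ^ 3 + W.a₆ * w ^ 4) : V) : K) = 0 := by
    rw [equation_iff] at h₁
    have h₁' : y₁ ^ 2 + (W.a₁ : K) * x₁ * y₁ + (W.a₃ : K) * y₁ =
      x₁ ^ 3 + (W.a₂ : K) * x₁ ^ 2 + (W.a₄ : K) * x₁ + (W.a₆ : K) := h₁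
    show (y₁ * (w : K) ^ 2) ^ 2 + ((W.a₁ : K) * (w : K) + (W.a₃ : K) * (w : K) ^ 2)
      * (y₁ * (w : K) ^ 2) + (-((w : K) + (W.a₂ : K) * (w : K) ^ 2 + (W.a₄ : K) * (w : K) ^ 3
        + (W.a₆ : K) * (w : K) ^ 4)) = 0
    linear_combination (w : K) ^ 4 * h₁' + (-(W.a₁ : K) * y₁ * (w : K) ^ 3
      + (w : K) * (x₁ ^ 2 * (w : K) ^ 2 + x₁ * (w : K) + 1)
      + (W.a₂ : K) * (w : K) ^ 2 * (x₁ * (w : K) + 1) + (W.a₄ : K) * (w : K) ^ 3) * hxw
  have hθV : y₁ * (w : K) ^ 2 ∈ V := mem_of_monic_quad _ _ hquad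
  set θ : V := ⟨y₁ * (w : K) ^ 2, hθV⟩ with hθ
  refine ⟨w, θ, hxw, rfl, hφw, ?_⟩
  have hq : θ ^ 2 + (W.a₁ * w + W.a₃ * w ^ 2) * θ
      + -(w + W.a₂ * w ^ 2 + W.a₄ * w ^ 3 + W.a₆ * w ^ 4) = 0 := Subtype.ext hquad
  have := congrArg φ hq
  simp only [map_add, map_mul, map_pow, map_neg, hφw, map_zero] at this
  have h2 : φ θ ^ 2 = 0 := by
    linear_combination this
  exact pow_eq_zero_iff (two_ne_zero) |>.mp h2

/-- (integral point) + (point with non-integral `x`) is integral, with the same reduction. -/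
theorem add_mixed (hφ : ∀ x : V, φ x ≠ 0 → IsUnit x) {x₂ y₂ : V} {x₁ y₁ : K}
    (h₂ : (WK V W).Nonsingular (x₂ : K) (y₂ : K)) (h₁ : (WK V W).Nonsingular x₁ y₁)
    (hx₁ : x₁ ∉ V) :
    ∃ (X Y : V) (h₃ : (WK V W).Nonsingular (X : K) (Y : K)),
      Point.some _ _ h₂ + Point.some _ _ h₁ = Point.some _ _ h₃ ∧ φ X = φ x₂ ∧ φ Y = φ y₂ := by
  obtain ⟨w, θ, hxw, hθ, hφw, hφθ⟩ := exists_w_theta hφ h₁.1 hx₁
  have hu : IsUnit (1 - x₂ * w) := by
    apply hφ
    rw [map_sub, map_mul, hφw, mul_zero, sub_zero, map_one]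
    exact one_ne_zero
  obtain ⟨e, he⟩ := hu.exists_right_inv
  have heK : (1 - (x₂ : K) * (w : K)) * (e : K) = 1 := congrArg Subtype.val he
  have hφe : φ e = 1 := by
    have := congrArg φ he
    rwa [map_mul, map_sub, map_mul, hφw, mul_zero, sub_zero, map_one, one_mul] at this
  have hne : (x₂ : K) ≠ x₁ := by
    intro h
    apply hx₁
    rw [← h]
    exact x₂.2
  have hxy : ¬ ((x₂ : K) = x₁ ∧ (y₂ : K) = (WK V W).negY x₁ y₁) := fun h => hne h.1
  have hsl : (WK V W).slope (x₂ : K) x₁ y₂ y₁ = (y₁ - y₂) * w * e := by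
    rw [slope_of_X_ne hne]
    exact mixed_slope hxw heK
  have hX : (WK V W).addX (x₂ : K) x₁ ((WK V W).slope (x₂ : K) x₁ y₂ y₁) =
      ((mixX W.toAffine x₂ y₂ w θ e : V) : K) := by
    rw [hsl, mixed_addX (WK V W) h₁.1 hxw hθ heK]
    exact (map_mixX V.subtype W x₂ y₂ w θ e).symm
  have hY : (WK V W).addY (x₂ : K) x₁ y₂ ((WK V W).slope (x₂ : K) x₁ y₂ y₁) =
      ((mixY W.toAffine x₂ y₂ w θ e : V) : K) := by
    rw [hsl, mixed_addY (WK V W) h₁.1 hxw hθ heK]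
    exact (map_mixY V.subtype W x₂ y₂ w θ e).symm
  refine ⟨mixX W.toAffine x₂ y₂ w θ e, mixY W.toAffine x₂ y₂ w θ e, ?_, ?_, ?_, ?_⟩
  · rw [← hX, ← hY]
    exact nonsingular_add h₂ h₁ hxy
  · rw [Point.add_some hxy]
    simp only [Point.some.injEq]
    exact ⟨hX, hY⟩
  · rw [map_mixX, hφw, hφθ, mixX_zero]
  · rw [map_mixY, hφw, hφθ, hφe, mixY_zero]

/-! ### The relation `Red` is compatible with the group laws -/

omit [DecidableEq K] [DecidableEq k] in
theorem Red.inv {P : (WK V W).Point} {Q : (Wk φ W).Point} (h : Red V φ W P Q) :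
    (P = 0 ∧ Q = 0) ∨ (∃ (x y : K) (h : (WK V W).Nonsingular x y), x ∉ V ∧ P = .some x y h ∧ Q = 0) ∨
      ∃ (x y : V) (h : (WK V W).Nonsingular (x : K) (y : K))
        (h' : (Wk φ W).Nonsingular (φ x) (φ y)), P = .some _ _ h ∧ Q = .some _ _ h' := by
  cases h with
  | zero => exact Or.inl ⟨rfl, rfl⟩
  | inf h hx => exact Or.inr (Or.inl ⟨_, _, h, hx, rfl, rfl⟩)
  | some x y h h' => exact Or.inr (Or.inr ⟨x, y, h, h', rfl, rfl⟩)

omit [DecidableEq K] [DecidableEq k] in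
/-- `Red` is functional. -/
theorem Red.unique {P : (WK V W).Point} {Q Q' : (Wk φ W).Point} (h : Red V φ W P Q)
    (h' : Red V φ W P Q') : Q = Q' := by
  rcases h.inv with ⟨hP, hQ⟩ | ⟨x, y, hn, hx, hP, hQ⟩ | ⟨x, y, hn, hn', hP, hQ⟩ <;>
  rcases h'.inv with ⟨hP', hQ'⟩ | ⟨x', y', hm, hx', hP', hQ'⟩ | ⟨x', y', hm, hm', hP', hQ'⟩
  · rw [hQ, hQ']
  · rw [hQ, hQ']
  · rw [hP] at hP'
    exact absurd hP' (by simp [Point.zero_def])
  · rw [hQ, hQ']
  · rw [hQ, hQ']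
  · rw [hP] at hP'
    simp only [Point.some.injEq] at hP'
    exact absurd (hP'.1 ▸ x'.2) hx
  · rw [hP] at hP'
    exact absurd hP' (by simp [Point.zero_def])
  · rw [hP] at hP'
    simp only [Point.some.injEq] at hP'
    exact absurd (hP'.1 ▸ x.2) hx'
  · rw [hP] at hP'
    simp only [Point.some.injEq] at hP'
    obtain rfl : x = x' := Subtype.ext hP'.1
    obtain rfl : y = y' := Subtype.ext hP'.2
    rw [hQ, hQ']

theorem Red.neg {P : (WK V W).Point} {Q : (Wk φ W).Point} (h : Red V φ W P Q) :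
    Red V φ W (-P) (-Q) := by
  cases h with
  | zero => 
    rw [neg_zero, neg_zero]
    exact Red.zero
  | inf h hx => 
    rw [neg_zero, Point.neg_some]
    exact Red.inf _ hx
  | some x y h h' => 
    rw [Point.neg_some, Point.neg_some]
    exact Red.mk_some x (W.toAffine.negY x y) rfl (coe_negY x y) rfl (phi_negY x y) _ _

/-- the sum of two points with non-integral `x` is `0` or has non-integral `x`. -/
theorem red_add_inf_inf (hφ : ∀ x : V, φ x ≠ 0 → IsUnit x) {x₁ y₁ x₂ y₂ : K}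
    (h₁ : (WK V W).Nonsingular x₁ y₁) (h₂ : (WK V W).Nonsingular x₂ y₂) (hx₁ : x₁ ∉ V)
    (hx₂ : x₂ ∉ V) : Red V φ W (.some _ _ h₁ + .some _ _ h₂) 0 := by
  generalize hR : Point.some _ _ h₁ + Point.some _ _ h₂ = R
  rcases R with _ | ⟨x, y, h⟩
  · exact Red.zero
  · by_cases hx : x ∈ V
    · exfalso
      have hy : y ∈ V := by
        have he := h.1
        rw [equation_iff] at he
        have he' : y ^ 2 + (W.a₁ : K) * x * y + (W.a₃ : K) * y =
          x ^ 3 + (W.a₂ : K) * x ^ 2 + (W.a₄ : K) * x + (W.a₆ : K) := he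
        refine mem_of_monic_quad (W.a₁ * ⟨x, hx⟩ + W.a₃)
          (-((⟨x, hx⟩ : V) ^ 3 + W.a₂ * (⟨x, hx⟩ : V) ^ 2 + W.a₄ * ⟨x, hx⟩ + W.a₆)) ?_
        show y ^ 2 + ((W.a₁ : K) * x + (W.a₃ : K)) * y
          + -(x ^ 3 + (W.a₂ : K) * x ^ 2 + (W.a₄ : K) * x + (W.a₆ : K)) = 0
        linear_combination he'
      have h2n : (WK V W).Nonsingular x₂ ((WK V W).negY x₂ y₂) := (nonsingular_neg _ _).mpr h₂
      obtain ⟨X, Y, h₃, hadd, -, -⟩ := add_mixed (φ := φ) (W := W) hφ (x₂ := ⟨x, hx⟩) (y₂ := ⟨y, hy⟩)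
        h h2n hx₂
      have : Point.some _ _ h₁ = Point.some _ _ h₃ := by
        rw [← hadd, ← Point.neg_some h₂]
        show _ = Point.some x y h + _
        rw [← hR, add_neg_cancel_right]
      simp only [Point.some.injEq] at this
      exact hx₁ (this.1 ▸ X.2)
    · exact Red.inf h hx

/-- **The reduction relation is additive.** -/
theorem Red.add (hφ : ∀ x : V, φ x ≠ 0 → IsUnit x) {P₁ P₂ : (WK V W).Point}
    {Q₁ Q₂ : (Wk φ W).Point} (h₁ : Red V φ W P₁ Q₁) (h₂ : Red V φ W P₂ Q₂) :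
    Red V φ W (P₁ + P₂) (Q₁ + Q₂) := by
  cases h₁ with
  | zero => 
    rw [zero_add, zero_add]
    exact h₂
  | inf h₁ hx₁ => 
    cases h₂ with
    | zero => 
      rw [add_zero, add_zero]
      exact Red.inf h₁ hx₁
    | inf h₂ hx₂ => 
      rw [add_zero]
      exact red_add_inf_inf hφ h₁ h₂ hx₁ hx₂
    | some x₂ y₂ h₂ h₂' => 
      rw [zero_add, add_comm]
      obtain ⟨X, Y, h₃, hadd, hX, hY⟩ := add_mixed (φ := φ) hφ h₂ h₁ hx₁
      rw [hadd]
      exact Red.mk_some X Y rfl rfl hX.symm hY.symm _ _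
  | some x₁ y₁ h₁ h₁' => 
    cases h₂ with
    | zero => 
      rw [add_zero, add_zero]
      exact Red.some x₁ y₁ h₁ h₁'
    | inf h₂ hx₂ => 
      rw [add_zero]
      obtain ⟨X, Y, h₃, hadd, hX, hY⟩ := add_mixed (φ := φ) hφ h₁ h₂ hx₂
      rw [hadd]
      exact Red.mk_some X Y rfl rfl hX.symm hY.symm _ _
    | some x₂ y₂ h₂ h₂' => exact red_add_some_some hφ h₁ h₂ h₁' h₂'

theorem Red.nsmul (hφ : ∀ x : V, φ x ≠ 0 → IsUnit x) {P : (WK V W).Point}
    {Q : (Wk φ W).Point} (h : Red V φ W P Q) (n : ℕ) : Red V φ W (n • P) (n • Q) := by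
  induction n with
  | zero => 
    rw [zero_nsmul, zero_nsmul]
    exact Red.zero
  | succ n ih => 
    rw [succ_nsmul, succ_nsmul]
    exact ih.add hφ h

end Fermat.Agent.S52.RT
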