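/-
S52, package (RT), part 2: the reduction homomorphism in the case of good reduction, the kernel of
reduction has no torsion prime to the residue characteristic, and the proof of `Stmt_RT`.
-/
import Mathlib
import Fermat.Agent.S05.VarChange
import Fermat.Agent.S52.RedRel
import Fermat.Agent.S52.Interface

set_option autoImplicit false

namespace Fermat.Agent.S52.RT

open WeierstrassCurve WeierstrassCurve.Affine

variable {K : Type*} [Field K] {V : ValuationSubring K}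
  {k : Type*} [Field k] {φ : V →+* k} {W : WeierstrassCurve V}

/-! ### Totality in the case of good reduction -/

theorem y_mem {x y : K} (h : (WK V W).Equation x y) (hx : x ∈ V) : y ∈ V := by
  rw [equation_iff] at h
  have he' : y ^ 2 + (W.a₁ : K) * x * y + (W.a₃ : K) * y =
    x ^ 3 + (W.a₂ : K) * x ^ 2 + (W.a₄ : K) * x + (W.a₆ : K) := h
  refine mem_of_monic_quad (W.a₁ * ⟨x, hx⟩ + W.a₃)
    (-((⟨x, hx⟩ : V) ^ 3 + W.a₂ * (⟨x, hx⟩ : V) ^ 2 + W.a₄ * ⟨x, hx⟩ + W.a₆)) ?_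
  show y ^ 2 + ((W.a₁ : K) * x + (W.a₃ : K)) * y
    + -(x ^ 3 + (W.a₂ : K) * x ^ 2 + (W.a₄ : K) * x + (W.a₆ : K)) = 0
  linear_combination he'

theorem nonsingular_red (hΔ : (Wk φ W).Δ ≠ 0) {x y : V}
    (h : (WK V W).Equation (x : K) (y : K)) : (Wk φ W).Nonsingular (φ x) (φ y) := by
  rw [← equation_iff_nonsingular_of_Δ_ne_zero hΔ]
  have h0 : W.toAffine.Equation x y :=
    (map_equation (W := W.toAffine) (f := V.subtype) Subtype.val_injective x y).mp h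
  exact h0.map φ

theorem exists_red (hΔ : (Wk φ W).Δ ≠ 0) (P : (WK V W).Point) : ∃ Q, Red V φ W P Q := by
  rcases P with _ | ⟨x, y, h⟩
  · exact ⟨0, Red.zero⟩
  · by_cases hx : x ∈ V
    · have hy := y_mem h.1 hx
      exact ⟨_, Red.some ⟨x, hx⟩ ⟨y, hy⟩ h (nonsingular_red hΔ h.1)⟩
    · exact ⟨0, Red.inf h hx⟩

/-- the reduction map. -/
noncomputable def redFun (hΔ : (Wk φ W).Δ ≠ 0) (P : (WK V W).Point) : (Wk φ W).Point :=
  (exists_red hΔ P).choose

theorem redFun_spec (hΔ : (Wk φ W).Δ ≠ 0) (P : (WK V W).Point) : Red V φ W P (redFun hΔ P) :=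
  (exists_red hΔ P).choose_spec

variable [DecidableEq K] [DecidableEq k]

/-- the reduction homomorphism. -/
noncomputable def redHom (hφ : ∀ x : V, φ x ≠ 0 → IsUnit x) (hΔ : (Wk φ W).Δ ≠ 0) :
    (WK V W).Point →+ (Wk φ W).Point where
  toFun := redFun hΔ
  map_zero' := (redFun_spec hΔ 0).unique Red.zero
  map_add' P Q := (redFun_spec hΔ (P + Q)).unique ((redFun_spec hΔ P).add hφ (redFun_spec hΔ Q))

theorem redHom_spec (hφ : ∀ x : V, φ x ≠ 0 → IsUnit x) (hΔ : (Wk φ W).Δ ≠ 0)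
    (P : (WK V W).Point) : Red V φ W P (redHom hφ hΔ P) := redFun_spec hΔ P

/-! ### The cuspidal cubic `y ^ 2 = x ^ 3` -/

/-- `x / y` on the cuspidal cubic. -/
def cuspParam {F : Type*} [Field F] (E : Affine F) : E.Point → F
  | .zero => 0
  | .some x y _ => x / y

structure IsCusp {F : Type*} [Field F] (E : Affine F) : Prop where
  a₁ : E.a₁ = 0
  a₂ : E.a₂ = 0
  a₃ : E.a₃ = 0
  a₄ : E.a₄ = 0
  a₆ : E.a₆ = 0

theorem IsCusp.ne_zero {F : Type*} [Field F] {E : Affine F} (hE : IsCusp E) {x y : F}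
    (h : E.Nonsingular x y) : y ^ 2 = x ^ 3 ∧ x ≠ 0 ∧ y ≠ 0 := by
  rw [nonsingular_iff, equation_iff, hE.a₁, hE.a₂, hE.a₃, hE.a₄, hE.a₆] at h
  obtain ⟨he, hs⟩ := h
  have he' : y ^ 2 = x ^ 3 := by linear_combination he
  have hx : x ≠ 0 := by
    rintro rfl
    have hy : y = 0 := by
      have : y ^ 2 = 0 := by rw [he']; ring
      exact pow_eq_zero_iff two_ne_zero |>.mp this
    subst hy
    rcases hs with hs | hs <;> exact hs (by ring)
  refine ⟨he', hx, ?_⟩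
  rintro rfl
  exact hx (pow_eq_zero_iff three_ne_zero |>.mp (by rw [← he']; ring))

theorem cuspParam_add {F : Type*} [Field F] [DecidableEq F] {E : Affine F} (hE : IsCusp E)
    (P Q : E.Point) : cuspParam E (P + Q) = cuspParam E P + cuspParam E Q := by
  rcases P with _ | ⟨x₁, y₁, h₁⟩
  · rw [← Point.zero_def, zero_add]
    simp [cuspParam]
  rcases Q with _ | ⟨x₂, y₂, h₂⟩
  · rw [← Point.zero_def, add_zero]
    simp [cuspParam]
  obtain ⟨e₁, hx₁, hy₁⟩ := hE.ne_zero h₁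
  obtain ⟨e₂, hx₂, hy₂⟩ := hE.ne_zero h₂
  by_cases hxy : x₁ = x₂ ∧ y₁ = E.negY x₂ y₂
  · rw [Point.add_of_Y_eq hxy.1 hxy.2]
    obtain ⟨rfl, hy⟩ := hxy
    simp only [negY, hE.a₁, hE.a₃] at hy
    have hy' : y₁ = -y₂ := by linear_combination hy
    subst hy'
    simp only [cuspParam]
    field_simp
    ring
  · rw [Point.add_some hxy]
    obtain ⟨e₃, hx₃, hy₃⟩ := hE.ne_zero (nonsingular_add h₁ h₂ hxy)
    simp only [cuspParam]
    rw [div_eq_iff hy₃]
    -- parametrise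
    obtain ⟨s₁, hs₁, rfl, rfl⟩ : ∃ s : F, s ≠ 0 ∧ x₁ = s ^ 2 ∧ y₁ = s ^ 3 := by
      refine ⟨y₁ / x₁, div_ne_zero hy₁ hx₁, ?_, ?_⟩
      · field_simp
        linear_combination -e₁
      · field_simp
        linear_combination -e₁
    obtain ⟨s₂, hs₂, rfl, rfl⟩ : ∃ s : F, s ≠ 0 ∧ x₂ = s ^ 2 ∧ y₂ = s ^ 3 := by
      refine ⟨y₂ / x₂, div_ne_zero hy₂ hx₂, ?_, ?_⟩
      · field_simp
        linear_combination -e₂
      · field_simp
        linear_combination -e₂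
    by_cases hx : s₁ ^ 2 = s₂ ^ 2
    · have hy : s₁ ^ 3 ≠ E.negY (s₂ ^ 2) (s₂ ^ 3) := fun hy => hxy ⟨hx, hy⟩
      rw [slope_of_Y_ne hx hy]
      have hyy : s₁ ^ 3 = s₂ ^ 3 := Y_eq_of_Y_ne h₁.1 h₂.1 hx hy
      have hss : s₁ = s₂ := by
        have : s₁ * s₂ ^ 2 = s₂ * s₂ ^ 2 := by
          calc s₁ * s₂ ^ 2 = s₁ ^ 3 := by rw [← hx]; ring
            _ = s₂ * s₂ ^ 2 := by rw [hyy]; ring
        exact mul_right_cancel₀ (pow_ne_zero 2 hs₂) this
      subst hss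
      have h2 : (2 : F) ≠ 0 := by
        intro h2
        apply hy
        simp only [negY, hE.a₁, hE.a₃]
        linear_combination s₁ ^ 3 * h2
      have hsl : (3 * (s₁ ^ 2) ^ 2 + 2 * E.a₂ * s₁ ^ 2 + E.a₄ - E.a₁ * s₁ ^ 3) /
          (s₁ ^ 3 - E.negY (s₁ ^ 2) (s₁ ^ 3)) = 3 * s₁ / 2 := by
        rw [div_eq_div_iff (sub_ne_zero.mpr hy) h2]
        simp only [negY, hE.a₁, hE.a₂, hE.a₃, hE.a₄]
        ring
      rw [hsl]
      simp only [addX, addY, negAddY, negY, hE.a₁, hE.a₂, hE.a₃]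
      field_simp
      ring
    · rw [slope_of_X_ne hx]
      have hd : s₁ ^ 2 - s₂ ^ 2 ≠ 0 := sub_ne_zero.mpr hx
      simp only [addX, addY, negAddY, negY, hE.a₁, hE.a₂, hE.a₃]
      field_simp
      ring

theorem cuspParam_nsmul {F : Type*} [Field F] [DecidableEq F] {E : Affine F} (hE : IsCusp E)
    (n : ℕ) (P : E.Point) : cuspParam E (n • P) = n * cuspParam E P := by
  induction n with
  | zero => 
    rw [zero_nsmul, Nat.cast_zero, zero_mul]
    rfl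
  | succ n ih => 
    rw [succ_nsmul, cuspParam_add hE, ih]
    push_cast
    ring

/-! ### The kernel of reduction has no torsion prime to the residue characteristic -/

open Fermat.Agent.S05 in
theorem vc_transport {F : Type*} [Field F] [DecidableEq F] (E E' : WeierstrassCurve F)
    (C : VariableChange F) (hE : E' = C • E) :
    ∃ f : E'.toAffine.Point →+ E.toAffine.Point, Function.Injective f ∧
      ∀ (x y : F) (h' : E.toAffine.Nonsingular (vcX C x) (vcY C x y)),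
        ∃ h : E'.toAffine.Nonsingular x y, f (.some x y h) = .some _ _ h' := by
  subst hE
  refine ⟨(vcEquiv E C).toAddMonoidHom, (vcEquiv E C).injective, fun x y h' => ?_⟩
  exact ⟨(vc_nonsingular E C x y).mpr h', rfl⟩

/-- the rescaled curve. -/
def rescale (W : WeierstrassCurve V) (z : V) : WeierstrassCurve V :=
  ⟨z * W.a₁, z ^ 2 * W.a₂, z ^ 3 * W.a₃, z ^ 4 * W.a₄, z ^ 6 * W.a₆⟩

omit [DecidableEq K] [DecidableEq k] in
theorem isCusp_rescale {z : V} (hz : φ z = 0) : IsCusp (Wk φ (rescale W z)) := by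
  constructor <;> simp [rescale, hz]

theorem rho_identity {F : Type*} [Field F] (E : Affine F) {x₁ y₁ w θ : F}
    (h₁ : E.Equation x₁ y₁) (hw : x₁ * w = 1) (hθ : θ = y₁ * w ^ 2) :
    y₁ * w * θ = 1 + E.a₂ * w + E.a₄ * w ^ 2 + E.a₆ * w ^ 3 - E.a₁ * θ - E.a₃ * θ * w := by
  rw [equation_iff] at h₁
  subst hθ
  linear_combination w ^ 3 * h₁ + (-E.a₁ * y₁ * w ^ 2 + (x₁ ^ 2 * w ^ 2 + x₁ * w + 1)
    + E.a₂ * w * (x₁ * w + 1) + E.a₄ * w ^ 2) * hw

theorem IsCusp.nonsingular_one {F : Type*} [Field F] {E : Affine F} (hE : IsCusp E) :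
    E.Nonsingular 1 1 := by
  rw [nonsingular_iff, equation_iff, hE.a₁, hE.a₂, hE.a₃, hE.a₄, hE.a₆]
  refine ⟨by ring, ?_⟩
  by_contra hcon
  simp only [not_or, ne_eq, not_not] at hcon
  obtain ⟨h3, h2⟩ := hcon
  have : (1 : F) = 0 := by linear_combination -h3 - h2
  exact one_ne_zero this

open Fermat.Agent.S05 in
theorem ker_torsion_free (hφ : ∀ x : V, φ x ≠ 0 → IsUnit x) {x₁ y₁ : K}
    (h₁ : (WK V W).Nonsingular x₁ y₁) (hx₁ : x₁ ∉ V) (n : ℕ) (hn : (n : k) ≠ 0) :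
    n • (Point.some _ _ h₁ : (WK V W).Point) ≠ 0 := by
  obtain ⟨w, θ, hxw, hθ, hφw, hφθ⟩ := exists_w_theta hφ h₁.1 hx₁
  set ρ : V := 1 + W.a₂ * w + W.a₄ * w ^ 2 + W.a₆ * w ^ 3 - W.a₁ * θ - W.a₃ * θ * w with hρ
  have hφρ : φ ρ = 1 := by
    simp [hρ, hφw, hφθ]
  have hρu : IsUnit ρ := hφ ρ (by rw [hφρ]; exact one_ne_zero)
  obtain ⟨r, hr⟩ := hρu.exists_right_inv
  have hφr : φ r = 1 := by
    have := congrArg φ hr
    rwa [map_mul, hφρ, one_mul, map_one] at this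
  have hρK : y₁ * (w : K) * (θ : K) = (ρ : K) := rho_identity (WK V W) h₁.1 hxw hθ
  have hrK : (ρ : K) * (r : K) = 1 := congrArg Subtype.val hr
  set z : V := θ * r with hz
  have hφz : φ z = 0 := by rw [hz, map_mul, hφθ, zero_mul]
  have hzK : y₁ * (w : K) * (z : K) = 1 := by
    show y₁ * (w : K) * ((θ : K) * (r : K)) = 1
    rw [← mul_assoc, hρK, hrK]
  let u : Kˣ := ⟨y₁ * (w : K), (z : K), hzK, by rw [mul_comm]; exact hzK⟩
  let C : VariableChange K := ⟨u, 0, 0, 0⟩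
  have hX : vcX C (r : K) = x₁ := by
    show (y₁ * (w : K)) ^ 2 * (r : K) + 0 = x₁
    have h3 : y₁ * (w : K) * ((θ : K) * (r : K)) = 1 := hzK
    rw [hθ] at h3
    linear_combination x₁ * h3 - y₁ ^ 2 * (w : K) ^ 2 * (r : K) * hxw
  have hY : vcY C (r : K) (r : K) = y₁ := by
    show (y₁ * (w : K)) ^ 3 * (r : K) + (y₁ * (w : K)) ^ 2 * 0 * (r : K) + 0 = y₁
    have h3 : y₁ * (w : K) * ((θ : K) * (r : K)) = 1 := hzK
    rw [hθ] at h3
    linear_combination y₁ * h3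
  have hW' : (rescale W z).map V.subtype = C • (W.map V.subtype) := by
    ext
    · rw [variableChange_a₁]
      show (z : K) * (W.a₁ : K) = (z : K) * ((W.a₁ : K) + 2 * 0)
      ring
    · rw [variableChange_a₂]
      show (z : K) ^ 2 * (W.a₂ : K) = (z : K) ^ 2 * ((W.a₂ : K) - 0 * (W.a₁ : K) + 3 * 0 - 0 ^ 2)
      ring
    · rw [variableChange_a₃]
      show (z : K) ^ 3 * (W.a₃ : K) = (z : K) ^ 3 * ((W.a₃ : K) + 0 * (W.a₁ : K) + 2 * 0)
      ring
    · rw [variableChange_a₄]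
      show (z : K) ^ 4 * (W.a₄ : K) = (z : K) ^ 4 * ((W.a₄ : K) - 0 * (W.a₃ : K) + 2 * 0 * (W.a₂ : K)
        - (0 + 0 * 0) * (W.a₁ : K) + 3 * 0 ^ 2 - 2 * 0 * 0)
      ring
    · rw [variableChange_a₆]
      show (z : K) ^ 6 * (W.a₆ : K) = (z : K) ^ 6 * ((W.a₆ : K) + 0 * (W.a₄ : K) + 0 ^ 2 * (W.a₂ : K)
        + 0 ^ 3 - 0 * (W.a₃ : K) - 0 ^ 2 - 0 * 0 * (W.a₁ : K))
      ring
  obtain ⟨f, hfinj, hf⟩ := vc_transport (W.map V.subtype) ((rescale W z).map V.subtype) C hW'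
  have h' : (W.map V.subtype).toAffine.Nonsingular (vcX C (r : K)) (vcY C (r : K) (r : K)) := by
    rw [hX, hY]
    exact h₁
  obtain ⟨h, hfP⟩ := hf r r h'
  have hcusp : IsCusp (Wk φ (rescale W z)) := isCusp_rescale hφz
  have hQ : (Wk φ (rescale W z)).Nonsingular (φ r) (φ r) := by
    rw [hφr]
    exact hcusp.nonsingular_one
  have hred : Red V φ (rescale W z) (.some _ _ h) (.some _ _ hQ) := Red.some r r h hQ
  intro hn0
  have hPP : (Point.some _ _ h' : (WK V W).Point) = Point.some _ _ h₁ := by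
    simp only [Point.some.injEq]
    exact ⟨hX, hY⟩
  have hP' : n • (Point.some _ _ h : (WK V (rescale W z)).Point) = 0 := by
    apply hfinj
    rw [map_nsmul, hfP, map_zero, hPP]
    exact hn0
  have hr2 := hred.nsmul hφ n
  rw [hP'] at hr2
  have h0 := hr2.unique Red.zero
  have h4 := cuspParam_nsmul hcusp n (.some _ _ hQ)
  rw [h0] at h4
  apply hn
  have h5 : cuspParam (Wk φ (rescale W z)) (.some _ _ hQ) = 1 := by
    show φ r / φ r = 1
    rw [hφr, div_one]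
  rw [h5, mul_one] at h4
  exact h4.symm

end Fermat.Agent.S52.RT

namespace Fermat.Agent.S52

open WeierstrassCurve WeierstrassCurve.Affine RT

/-- **(RT)**: the reduction homomorphism. -/
theorem stmt_RT : Stmt_RT := by
  intro K k _ _ _ _ V π hπ WK₀ Wk₀ hred hΔ
  obtain ⟨a₁, h1K, h1k⟩ := hred.a₁
  obtain ⟨a₂, h2K, h2k⟩ := hred.a₂
  obtain ⟨a₃, h3K, h3k⟩ := hred.a₃
  obtain ⟨a₄, h4K, h4k⟩ := hred.a₄
  obtain ⟨a₆, h6K, h6k⟩ := hred.a₆
  have hφ : ∀ x : V, π x ≠ 0 → IsUnit x := fun x hx => by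
    by_contra hu
    exact hx (hπ x hu)
  let W : WeierstrassCurve V := ⟨a₁, a₂, a₃, a₄, a₆⟩
  obtain rfl : WK₀ = WK V W := by
    ext
    exacts [h1K.symm, h2K.symm, h3K.symm, h4K.symm, h6K.symm]
  obtain rfl : Wk₀ = Wk π W := by
    ext
    exacts [h1k.symm, h2k.symm, h3k.symm, h4k.symm, h6k.symm]
  refine ⟨redHom hφ hΔ, fun x y h hx => y_mem h.1 hx, fun x y h => ?_, fun x y h hx => ?_,
    fun n hn P hP hnP => ?_⟩
  · have h' := nonsingular_red hΔ h.1
    exact ⟨h', (redHom_spec hφ hΔ _).unique (Red.some x y h h')⟩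
  · exact (redHom_spec hφ hΔ _).unique (Red.inf h hx)
  · have hs := redHom_spec hφ hΔ P
    rw [hP] at hs
    rcases hs.inv with ⟨hP0, -⟩ | ⟨x, y, h, hx, hPe, -⟩ | ⟨x, y, h, h', -, h0⟩
    · exact hP0
    · subst hPe
      exact absurd hnP (ker_torsion_free hφ h hx n hn)
    · exact absurd h0 (by simp [Point.zero_def])

end Fermat.Agent.S52
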