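import Fermat.Agent.S52.Interface
import Fermat.Agent.S54.Frob95

/-! # S52 (A): the Frobenius trace relation on 5-torsion, from the reduction theorem and the
Frobenius relation over the residue field (helper2). -/

set_option autoImplicit false

open WeierstrassCurve WeierstrassCurve.Affine WeierstrassCurve.Affine.Point

namespace Fermat.Agent.S52

namespace Trace

theorem five_aux {G : Type*} [AddCommGroup G] (s : G →+ G) (P : G) (h : (5 : ℕ) • P = 0)
    (α β : ℤ) : (5 : ℕ) • (s (s P) - α • s P + β • P) = 0 := by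
  rw [nsmul_add, nsmul_sub, smul_comm (5 : ℕ) α, smul_comm (5 : ℕ) β,
    ← map_nsmul, ← map_nsmul, h]
  simp

variable (A : ValuationSubring Qb) (σ : GQ) (ℓ : ℕ)

theorem sigma_mem (hσ : σ ∈ A.decompositionSubgroup ℚ) {x : Qb} (hx : x ∈ A) : σ x ∈ A :=
  ((⟨σ, hσ⟩ : A.decompositionSubgroup ℚ) • (⟨x, hx⟩ : A)).2

theorem sigma_not_mem (hσ : σ ∈ A.decompositionSubgroup ℚ) {x : Qb} (hx : x ∉ A) : σ x ∉ A := by
  intro h
  apply hx
  have := sigma_mem A σ⁻¹ (inv_mem hσ) h
  simpa using this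

theorem residue_sigma (h : A.IsFrobeniusAt σ ℓ) {x : Qb} (hx : x ∈ A) :
    IsLocalRing.residue A ⟨σ x, sigma_mem A σ h.mem_decompositionSubgroup hx⟩
      = (IsLocalRing.residue A ⟨x, hx⟩) ^ ℓ := by
  rw [← h.smul_residue_eq, ← IsLocalRing.ResidueField.residue_smul]
  rfl

theorem residue_nonunit (a : A) (ha : ¬ IsUnit a) : IsLocalRing.residue A a = 0 := by
  rw [IsLocalRing.residue_eq_zero_iff]
  exact ha

theorem charP_residue [Fact ℓ.Prime] (hl : A.LiesOverPrime ℓ) :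
    CharP (IsLocalRing.ResidueField A) ℓ := by
  have h0 : ((ℓ : ℕ) : IsLocalRing.ResidueField A) = 0 := by
    have : ¬ IsUnit ((ℓ : ℕ) : A) := by
      intro hu
      have h1 : (((ℓ : ℕ) : A) : Qb) ∈ A.nonunits := by
        have : (ℓ : Qb) ∈ A.nonunits := hl
        simpa using this
      rw [ValuationSubring.coe_mem_nonunits_iff] at h1
      exact h1 hu
    have := residue_nonunit A _ this
    simpa using this
  exact (CharP.charP_iff_prime_eq_zero (Fact.out : ℓ.Prime)).mpr h0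

theorem main (hRT : Stmt_RT) (hF : Stmt_Frob) : Stmt_Trace := by
  intro ℓ hℓ h5
  obtain ⟨A, σ, hl, hfr⟩ := Fermat.Agent.S54.Frob95.exists_frobenius ℓ hℓ
  refine ⟨σ, fun W hW P hP => ?_⟩
  have : Fact ℓ.Prime := ⟨hℓ⟩
  have := charP_residue A ℓ hl
  let _ : Algebra (ZMod ℓ) (IsLocalRing.ResidueField A) := ZMod.algebra _ ℓ
  classical
  set W₀ : Affine (ZMod ℓ) := (W.reductionMod ℓ).toAffine with hW₀
  have hred : IsRed A (IsLocalRing.residue A) (EQb W) (W₀⁄(IsLocalRing.ResidueField A)) := by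
    refine ⟨⟨(W.a₁ : A), ?_, ?_⟩, ⟨(W.a₂ : A), ?_, ?_⟩, ⟨(W.a₃ : A), ?_, ?_⟩,
      ⟨(W.a₄ : A), ?_, ?_⟩, ⟨(W.a₆ : A), ?_, ?_⟩⟩ <;>
    simp [hW₀, WeierstrassCurve.reductionMod]
  have hΔ₀ : W₀.Δ ≠ 0 := by
    have : W₀.Δ = ((W.Δ : ℤ) : ZMod ℓ) := by
      show (W.map (Int.castRingHom (ZMod ℓ))).Δ = _
      rw [WeierstrassCurve.map_Δ]
      rfl
    rw [this]
    intro h
    exact hW ((ZMod.intCast_zmod_eq_zero_iff_dvd _ _).mp h)
  have hΔ : (W₀⁄(IsLocalRing.ResidueField A)).Δ ≠ 0 := by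
    show (W₀.map (algebraMap (ZMod ℓ) (IsLocalRing.ResidueField A))).Δ ≠ 0
    rw [WeierstrassCurve.map_Δ]
    intro h
    rw [map_eq_zero] at h
    exact hΔ₀ h
  obtain ⟨red, h1, h2, h3, h4⟩ := hRT Qb (IsLocalRing.ResidueField A) A (IsLocalRing.residue A)
    (residue_nonunit A) _ _ hred hΔ
  set φ := Point.map (W' := W₀)
    (FiniteField.frobeniusAlgHom (ZMod ℓ) (IsLocalRing.ResidueField A)) with hφ
  have hdec := hfr.mem_decompositionSubgroup
  have heq : ∀ P : (EQb W).Point, red (σ • P) = φ (red P) := by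
    intro P
    rcases P with _ | ⟨x, y, h⟩
    · show red 0 = φ (red 0)
      rw [_root_.map_zero, _root_.map_zero]
    · rw [algEquiv_smul_def, Point.map_some]
      by_cases hx : x ∈ A
      · have hy := h1 x y h hx
        obtain ⟨h', e'⟩ := h2 ⟨x, hx⟩ ⟨y, hy⟩ h
        have hx' : σ x ∈ A := sigma_mem A σ hdec hx
        have hy' : σ y ∈ A := sigma_mem A σ hdec hy
        obtain ⟨h'', e''⟩ := h2 ⟨_, hx'⟩ ⟨_, hy'⟩
          ((WeierstrassCurve.Affine.baseChange_nonsingular _ σ.toAlgHom.injective ..).mpr h)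
        have e3 : red (Point.some x y h) = _ := e'
        rw [e3, hφ, Point.map_some]
        refine e''.trans ?_
        simp only [Point.some.injEq]
        refine ⟨?_, ?_⟩
        · rw [residue_sigma A σ ℓ hfr hx, FiniteField.coe_frobeniusAlgHom, ZMod.card]
        · rw [residue_sigma A σ ℓ hfr hy, FiniteField.coe_frobeniusAlgHom, ZMod.card]
      · rw [h3 x y h hx, _root_.map_zero]
        exact h3 _ _ _ (sigma_not_mem A σ hdec hx)
  have h5k : ((5 : ℕ) : IsLocalRing.ResidueField A) ≠ 0 := by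
    intro h
    rw [CharP.cast_eq_zero_iff _ ℓ] at h
    exact h5 ((Nat.prime_dvd_prime_iff_eq hℓ (by norm_num)).mp h)
  set s : (EQb W).Point →+ (EQb W).Point := DistribSMul.toAddMonoidHom _ σ with hs
  have hs' : ∀ Q : (EQb W).Point, s Q = σ • Q := fun _ => rfl
  apply h4 5 h5k
  · rw [map_add, map_sub, map_zsmul, map_zsmul, heq, heq]
    have := hF ℓ W₀ hΔ₀ (IsLocalRing.ResidueField A) (red P)
    have ha : W.apOfModel ℓ = (ℓ : ℤ) + 1 - (Nat.card W₀.Point : ℤ) := by
      simp [WeierstrassCurve.apOfModel, WeierstrassCurve.traceOfFrobenius, WeierstrassCurve.card,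
        hW₀]
    rw [ha]
    exact this
  · exact five_aux s P hP _ _

end Trace

theorem stmt_Trace (hRT : Stmt_RT) (hF : Stmt_Frob) : Stmt_Trace := Trace.main hRT hF

end Fermat.Agent.S52
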