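import Fermat.Agent.S52.Interface
import Fermat.Agent.S05.VarChange

/-!
# S52, package B-6: passage to the short Weierstrass model, Galois equivariantly
`(x, y) ↦ (36 x + 3 b₂, 108 (2 y + a₁ x + a₃))`.
-/

set_option autoImplicit false

open WeierstrassCurve WeierstrassCurve.Affine WeierstrassCurve.Affine.Point

namespace Fermat.Agent.S52

namespace ShortIso

open Fermat.Agent.S05

/-- the equivalence of point groups attached to a change of variables, transported along an
equality of curves. -/
theorem exists_equiv (E S : WeierstrassCurve Qb) (C : VariableChange Qb) (h : C • S = E) :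
    ∃ e : E.toAffine.Point ≃+ S.toAffine.Point,
      ∀ (x y : Qb) (hxy : E.toAffine.Nonsingular x y),
        ∃ h', e (.some x y hxy) = .some (vcX C x) (vcY C x y) h' := by
  subst h
  exact ⟨vcEquiv S C, fun x y hxy => ⟨_, rfl⟩⟩

/-- a change of variables defined over `ℚ` induces a Galois equivariant isomorphism. -/
theorem exists_equivariant (W₁ W₂ : Affine ℚ) (C : VariableChange ℚ) (h : C • W₂ = W₁) :
    ∃ e : (W₁⁄Qb).Point ≃+ (W₂⁄Qb).Point,
      ∀ (σ : GQ) (P : (W₁⁄Qb).Point), e (σ • P) = σ • e P := by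
  have h' : (C.map (algebraMap ℚ Qb)) • (W₂⁄Qb) = (W₁⁄Qb) := by
    rw [← h]; exact map_variableChange ..
  obtain ⟨e, he⟩ := exists_equiv _ _ _ h'
  refine ⟨e, fun σ P => ?_⟩
  rcases P with _ | ⟨x, y, hxy⟩
  · have h0 : σ • (0 : (W₁⁄Qb).Point) = 0 := rfl
    have h0' : σ • (0 : (W₂⁄Qb).Point) = 0 := rfl
    show e (σ • 0) = σ • e 0
    rw [h0, _root_.map_zero, h0']
  · rw [algEquiv_smul_def, Point.map_some]
    obtain ⟨h1, e1⟩ := he x y hxy
    obtain ⟨h2, e2⟩ := he (σ.toAlgHom x) (σ.toAlgHom y)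
      ((baseChange_nonsingular W₁ σ.toAlgHom.injective x y).mpr hxy)
    rw [e2, e1, algEquiv_smul_def, Point.map_some]
    simp only [Point.some.injEq]
    constructor
    · simp [vcX, VariableChange.map]
    · simp [vcY, VariableChange.map]

end ShortIso

theorem stmt_ShortIso : Stmt_ShortIso := by
  intro W
  refine ShortIso.exists_equivariant (W.map (Int.castRingHom ℚ))
    (shortQ (-27 * W.c₄) (-54 * W.c₆))
    ⟨Units.mk0 6 (by norm_num), 3 * (W.b₂ : ℚ), 3 * (W.a₁ : ℚ), 108 * (W.a₃ : ℚ)⟩ ?_
  ext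
  · simp only [variableChange_a₁, shortQ, map_a₁, Units.val_inv_eq_inv_val, Units.val_mk0]
    simp; ring
  · simp only [variableChange_a₂, shortQ, map_a₂, Units.val_inv_eq_inv_val, Units.val_mk0,
      WeierstrassCurve.b₂]
    simp; ring
  · simp only [variableChange_a₃, shortQ, map_a₃, Units.val_inv_eq_inv_val, Units.val_mk0]
    simp; ring
  · simp only [variableChange_a₄, shortQ, map_a₄, Units.val_inv_eq_inv_val, Units.val_mk0,
      WeierstrassCurve.c₄, WeierstrassCurve.b₂, WeierstrassCurve.b₄]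
    simp; ring
  · simp only [variableChange_a₆, shortQ, map_a₆, Units.val_inv_eq_inv_val, Units.val_mk0,
      WeierstrassCurve.c₄, WeierstrassCurve.c₆, WeierstrassCurve.b₂, WeierstrassCurve.b₄,
      WeierstrassCurve.b₆]
    simp; ring

end Fermat.Agent.S52
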