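import Fermat.Agent.S52.Interface2

/-! # S52 (B-8): assembly of `Stmt_Cong1` (helper2). -/

set_option autoImplicit false

open Polynomial WeierstrassCurve WeierstrassCurve.Affine WeierstrassCurve.Affine.Point

namespace Fermat.Agent.S52

namespace Cong

section maps

variable (hM : Stmt_Map) {R S : Type} [CommRing R] [CommRing S] (f : R →+* S)
include hM

theorem map_c4F (a b : R) : f (c4F a b) = c4F (f a) (f b) := (hM R S f a b 0 0).1
theorem map_c6F (a b : R) : f (c6F a b) = c6F (f a) (f b) := (hM R S f a b 0 0).2.1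
theorem map_HH (a b u v : R) : f (HH a b u v) = HH (f a) (f b) (f u) (f v) :=
  (hM R S f a b u v).2.2.2.2.2.1
theorem map_TT (a b u v : R) : f (TT a b u v) = TT (f a) (f b) (f u) (f v) :=
  (hM R S f a b u v).2.2.2.2.2.2.1

end maps

theorem HH_zero (hB : Stmt_Base) {R : Type} [CommRing R] (c4 c6 : R) : HH c4 c6 1 0 = c4 := by
  have := (hB R c4 c6 0).1
  rw [zero_dvd_iff, sub_eq_zero] at this
  exact this

theorem TT_zero (hB : Stmt_Base) {R : Type} [CommRing R] (c4 c6 : R) : TT c4 c6 1 0 = c6 := by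
  have := (hB R c4 c6 0).2.1
  rw [zero_dvd_iff, sub_eq_zero] at this
  exact this

/-- the polynomials of the family -/
noncomputable def polA (c4 c6 : ℚ) : ℚ[X] := -27 * HH (C c4) (C c6) 1 X
noncomputable def polB (c4 c6 : ℚ) : ℚ[X] := -54 * TT (C c4) (C c6) 1 X

theorem eval_polA (hM : Stmt_Map) (c4 c6 t : ℚ) : (polA c4 c6).eval t = -27 * HH c4 c6 1 t := by
  have := map_HH hM (Polynomial.evalRingHom t) (C c4) (C c6) 1 X
  simp only [coe_evalRingHom, eval_C, eval_one, eval_X] at this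
  simp [polA, this]

theorem eval_polB (hM : Stmt_Map) (c4 c6 t : ℚ) : (polB c4 c6).eval t = -54 * TT c4 c6 1 t := by
  have := map_TT hM (Polynomial.evalRingHom t) (C c4) (C c6) 1 X
  simp only [coe_evalRingHom, eval_C, eval_one, eval_X] at this
  simp [polB, this]

theorem iotaT_C (c : ℚ) : iotaT (C c) = algebraMap Qb (RatFunc Qb) (algebraMap ℚ Qb c) := by
  simp [iotaT, RatFunc.algebraMap_eq_C]

theorem iotaT_X : iotaT X = RatFunc.X := by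
  simp [iotaT]

theorem iotaT_injective : Function.Injective iotaT := by
  unfold iotaT
  rw [RingHom.coe_comp]
  exact (RatFunc.algebraMap_injective Qb).comp
    (Polynomial.map_injective _ (algebraMap ℚ Qb).injective)

theorem iotaT_polA (hM : Stmt_Map) (c4 c6 : ℚ) : iotaT (polA c4 c6) =
    -27 * HH (algebraMap Qb (RatFunc Qb) (algebraMap ℚ Qb c4))
      (algebraMap Qb (RatFunc Qb) (algebraMap ℚ Qb c6)) 1 RatFunc.X := by
  unfold polA
  rw [map_mul, map_HH hM, iotaT_C, iotaT_C, iotaT_X, map_one, map_neg, map_ofNat]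

theorem iotaT_polB (hM : Stmt_Map) (c4 c6 : ℚ) : iotaT (polB c4 c6) =
    -54 * TT (algebraMap Qb (RatFunc Qb) (algebraMap ℚ Qb c4))
      (algebraMap Qb (RatFunc Qb) (algebraMap ℚ Qb c6)) 1 RatFunc.X := by
  unfold polB
  rw [map_mul, map_TT hM, iotaT_C, iotaT_C, iotaT_X, map_one, map_neg, map_ofNat]

/-- the generic fibre has a point of order 5 -/
theorem exists_generic (h0 : Stmt_I0) (h1 : Stmt_I1) (h2 : Stmt_I2) (hM : Stmt_Map)
    (hB : Stmt_Base) (hE : Stmt_ExistsAB) (h5 : Stmt_FiveAB) (c4 c6 : ℚ) (hc : c4 ^ 3 ≠ c6 ^ 2)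
    [DecidableEq (RatFunc Qb)] (WK : Affine (RatFunc Qb)) (ha₁ : WK.a₁ = 0) (ha₂ : WK.a₂ = 0)
    (ha₃ : WK.a₃ = 0) (ha₄ : WK.a₄ = iotaT (polA c4 c6)) (ha₆ : WK.a₆ = iotaT (polB c4 c6)) :
    ∃ P : WK.Point, P ≠ 0 ∧ (5 : ℕ) • P = 0 := by
  have h30 : (30 : Qb) ≠ 0 := by norm_num
  have hcb : (algebraMap ℚ Qb c4) ^ 3 ≠ (algebraMap ℚ Qb c6) ^ 2 := by
    rw [← map_pow, ← map_pow]
    exact fun h => hc ((algebraMap ℚ Qb).injective h)
  obtain ⟨a, b, hab4, hab6⟩ := hE Qb h30 _ _ hcb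
  obtain ⟨s, hs⟩ := IsAlgClosed.exists_pow_nat_eq (5 : Qb) (n := 2) (by norm_num)
  obtain ⟨ρ, hρ⟩ := IsAlgClosed.exists_pow_nat_eq ((25 + 11 * s) / 2 : Qb) (n := 2) (by norm_num)
  set j := algebraMap Qb (RatFunc Qb) with hj
  set T : RatFunc Qb := RatFunc.X with hT
  set a' : RatFunc Qb := j a * (1 + T * g1 (j a) (j b)) ^ 5 with ha'
  set b' : RatFunc Qb := j b * (1 - T * g2 (j a) (j b)) ^ 5 with hb'
  have e4 : c4F a' b' = HH (j (algebraMap ℚ Qb c4)) (j (algebraMap ℚ Qb c6)) 1 T := by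
    rw [ha', hb', h1 (RatFunc Qb) (j a) (j b) 1 T, ← map_c4F hM, ← map_c6F hM, hab4, hab6]
  have e6 : c6F a' b' = TT (j (algebraMap ℚ Qb c4)) (j (algebraMap ℚ Qb c6)) 1 T := by
    rw [ha', hb', h2 (RatFunc Qb) (j a) (j b) 1 T, ← map_c4F hM, ← map_c6F hM, hab4, hab6]
  have hne : a' * b' * dF a' b' ≠ 0 := by
    intro hz
    have hI := h0 (RatFunc Qb) a' b'
    have hz' : c4F a' b' ^ 3 - c6F a' b' ^ 2 = 0 := by
      rw [hI]
      linear_combination (-1728 * dF a' b' ^ 4) * hz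
    have e4' : c4F a' b' = iotaT (HH (C c4) (C c6) 1 X) := by
      rw [e4, map_HH hM, iotaT_C, iotaT_C, iotaT_X, map_one]
    have e6' : c6F a' b' = iotaT (TT (C c4) (C c6) 1 X) := by
      rw [e6, map_TT hM, iotaT_C, iotaT_C, iotaT_X, map_one]
    rw [e4', e6', ← map_pow, ← map_pow, ← map_sub] at hz'
    have hz2 := iotaT_injective (hz'.trans (_root_.map_zero iotaT).symm)
    have hz3 := congrArg (Polynomial.evalRingHom (0 : ℚ)) hz2
    rw [map_sub, map_pow, map_pow, map_HH hM, map_TT hM] at hz3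
    simp only [coe_evalRingHom, eval_C, eval_one, eval_X, eval_zero] at hz3
    rw [HH_zero hB, TT_zero hB, sub_eq_zero] at hz3
    exact hc hz3
  have h30K : (30 : RatFunc Qb) ≠ 0 := by
    have : (30 : RatFunc Qb) = j 30 := (map_ofNat j 30).symm
    rw [this]
    exact (map_ne_zero j).mpr h30
  refine h5 (RatFunc Qb) (j s) (j ρ) ?_ ?_ h30K a' b' hne WK ha₁ ha₂ ha₃ ?_ ?_
  · rw [← map_pow, hs, map_ofNat]
  · rw [← map_pow, hρ, map_div₀, map_add, map_mul, map_ofNat, map_ofNat, map_ofNat]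
  · rw [ha₄, iotaT_polA hM, e4]
  · rw [ha₆, iotaT_polB hM, e6]

theorem disc_aux (c4 c6 : ℚ) (hc : c4 ^ 3 ≠ c6 ^ 2) :
    4 * (-27 * c4) ^ 3 + 27 * (-54 * c6) ^ 2 ≠ 0 := by
  intro h
  apply hc
  linarith

theorem c_ne (W : WeierstrassCurve ℤ) (hΔ : W.Δ ≠ 0) : (W.c₄ : ℚ) ^ 3 ≠ (W.c₆ : ℚ) ^ 2 := by
  intro h
  apply hΔ
  have h1 : W.c₄ ^ 3 = W.c₆ ^ 2 := by exact_mod_cast h
  have h2 := W.c_relation
  rw [h1, sub_self] at h2
  simpa using h2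

theorem transport {G₀ G₁ H₀ H₁ : Type*} [AddCommGroup G₀] [AddCommGroup G₁] [AddCommGroup H₀]
    [AddCommGroup H₁] (s₀ : G₀ → G₀) (s₁ : G₁ → G₁) (u₀ : H₀ → H₀) (u₁ : H₁ → H₁)
    (e₀ : G₀ ≃+ H₀) (e₁ : G₁ ≃+ H₁) (he₀ : ∀ P, e₀ (s₀ P) = u₀ (e₀ P))
    (he₁ : ∀ P, e₁ (s₁ P) = u₁ (e₁ P)) (P₀ : H₀) (P₁ : H₁) (α β γ : ℤ)
    (h : α • u₀ (u₀ P₀) + β • u₀ P₀ + γ • P₀ = 0 → α • u₁ (u₁ P₁) + β • u₁ P₁ + γ • P₁ = 0) :
    α • s₀ (s₀ (e₀.symm P₀)) + β • s₀ (e₀.symm P₀) + γ • e₀.symm P₀ = 0 →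
      α • s₁ (s₁ (e₁.symm P₁)) + β • s₁ (e₁.symm P₁) + γ • e₁.symm P₁ = 0 := by
  intro h0
  apply e₁.injective
  rw [map_add, map_add, map_zsmul, map_zsmul, map_zsmul, he₁, he₁, e₁.apply_symm_apply, _root_.map_zero]
  apply h
  have := congrArg e₀ h0
  rw [map_add, map_add, map_zsmul, map_zsmul, map_zsmul, he₀, he₀, e₀.apply_symm_apply,
    _root_.map_zero] at this
  exact this

theorem main (h0 : Stmt_I0) (h1 : Stmt_I1) (h2 : Stmt_I2) (hM : Stmt_Map) (hB : Stmt_Base)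
    (hE : Stmt_ExistsAB) (h5 : Stmt_FiveAB) (hS : Stmt_ShortIso) (hSp : Stmt_Spec) :
    Stmt_Cong1 := by
  intro W W' t hΔ hΔ' hc4 hc6
  classical
  set c4 : ℚ := (W.c₄ : ℚ) with hc4d
  set c6 : ℚ := (W.c₆ : ℚ) with hc6d
  have hc : c4 ^ 3 ≠ c6 ^ 2 := c_ne W hΔ
  have hc' := c_ne W' hΔ'
  obtain ⟨P, hP0, hP5⟩ := exists_generic h0 h1 h2 hM hB hE h5 c4 c6 hc
    ⟨0, 0, 0, iotaT (polA c4 c6), iotaT (polB c4 c6)⟩ rfl rfl rfl rfl rfl
  have eA0 : (polA c4 c6).eval 0 = -27 * (W.c₄ : ℚ) := by rw [eval_polA hM, HH_zero hB]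
  have eB0 : (polB c4 c6).eval 0 = -54 * (W.c₆ : ℚ) := by rw [eval_polB hM, TT_zero hB]
  have eA1 : (polA c4 c6).eval (t : ℚ) = -27 * (W'.c₄ : ℚ) := by
    rw [eval_polA hM, hc4]
    have := map_HH hM (Int.castRingHom ℚ) W.c₄ W.c₆ 1 t
    simp only [eq_intCast, Int.cast_one] at this
    rw [this]
  have eB1 : (polB c4 c6).eval (t : ℚ) = -54 * (W'.c₆ : ℚ) := by
    rw [eval_polB hM, hc6]
    have := map_TT hM (Int.castRingHom ℚ) W.c₄ W.c₆ 1 t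
    simp only [eq_intCast, Int.cast_one] at this
    rw [this]
  have key := hSp (polA c4 c6) (polB c4 c6) _ rfl rfl rfl rfl rfl P hP0 hP5 0 (t : ℚ)
  rw [eA0, eB0, eA1, eB1] at key
  obtain ⟨P₀, P₁, h50, h51, hne, hrel⟩ := key (disc_aux _ _ hc) (disc_aux _ _ hc')
  obtain ⟨e₀, he₀⟩ := hS W
  obtain ⟨e₁, he₁⟩ := hS W'
  refine ⟨e₀.symm P₀, e₁.symm P₁, ?_, ?_, ?_, ?_⟩
  · rw [← map_nsmul, h50, _root_.map_zero]
  · rw [← map_nsmul, h51, _root_.map_zero]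
  · intro h
    apply hne
    have := congrArg e₁ h
    rwa [e₁.apply_symm_apply, _root_.map_zero] at this
  · intro σ α β γ
    exact transport (fun Q => σ • Q) (fun Q => σ • Q) (fun Q => σ • Q) (fun Q => σ • Q) e₀ e₁
      (he₀ σ) (he₁ σ) P₀ P₁ α β γ (hrel σ α β γ)

end Cong

theorem stmt_Cong1 (h0 : Stmt_I0) (h1 : Stmt_I1) (h2 : Stmt_I2) (hM : Stmt_Map) (hB : Stmt_Base)
    (hE : Stmt_ExistsAB) (h5 : Stmt_FiveAB) (hS : Stmt_ShortIso) (hSp : Stmt_Spec) :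
    Stmt_Cong1 := Cong.main h0 h1 h2 hM hB hE h5 hS hSp

end Fermat.Agent.S52
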