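import Fermat.Agent.S52.Interface
import Fermat.Agent.S51.Assembly
import Fermat.Agent.S51.T5Count

/-! # S52, package C-3 : reducible mod 3 gives an integer root of `Q3`. -/

set_option autoImplicit false

open WeierstrassCurve WeierstrassCurve.Affine WeierstrassCurve.Affine.Point

namespace Fermat.Agent.S52

namespace Crit3

open Fermat.Agent.S51 Fermat.Agent.S51.Asm

/-- the 3-torsion facts (same proof as in `S51.lean`). -/
theorem threeFacts {K : Type*} [Field K] [DecidableEq K] [IsAlgClosed K] [CharZero K]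
    (V : Affine K) (hΔ : V.Δ ≠ 0) : Asm.ThreeTorsionFacts V where
  exists_ne := T5.exists_three_torsion (W := V) hΔ
  card_le := T5.card_three_torsion_le (W := V) hΔ
  psi3 := fun _ _ h h3 => (T5.three_nsmul_some_eq_zero_iff (W := V) hΔ h).mp h3

/-- reducible mod 3 gives a rational root of `ψ₃`. -/
theorem exists_rat_root (W : WeierstrassCurve ℤ) (hΔ : W.Δ ≠ 0) (n3 : ¬ W.ModRepIsIrreducible 3) :
    ∃ x : ℚ, 3 * x ^ 4 + (W.b₂ : ℚ) * x ^ 3 + 3 * (W.b₄ : ℚ) * x ^ 2 + 3 * (W.b₆ : ℚ) * x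
      + (W.b₈ : ℚ) = 0 := by
  have hV : ((W.map (Int.castRingHom ℚ) : Affine ℚ)⁄(AlgebraicClosure ℚ)).Δ ≠ 0 := by
    simp [WeierstrassCurve.baseChange, hΔ]
  have h3 := threeFacts _ hV
  have : Fact (Nat.Prime 3) := ⟨by norm_num⟩
  obtain ⟨P0, hP00, hP03, hP0σ⟩ := exists_point_of_reducible (p := 3) h3.exists_ne
    (by simpa using h3.card_le) n3
  obtain ⟨x0, y0, hn0, e0⟩ : ∃ (x0 y0 : Qb) (hn0 : _), P0 = Point.some x0 y0 hn0 := by
    cases P0 with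
    | zero => exact absurd rfl hP00
    | some x y h => exact ⟨x, y, h, rfl⟩
  have hx0 : xc P0 = x0 := by rw [e0]; rfl
  have hpsi := h3.psi3 x0 y0 hn0 (e0 ▸ hP03)
  obtain ⟨x, hx⟩ := exists_rat_of_fixed x0 (fun σ => by
    have := xc_fixed_three hP03 σ (hP0σ σ); rwa [hx0] at this)
  refine ⟨x, ?_⟩
  have hinj : Function.Injective (algebraMap ℚ Qb) := (algebraMap ℚ Qb).injective
  apply hinj
  rw [_root_.map_zero, ← hpsi, ← hx]
  simp [WeierstrassCurve.baseChange]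

/-- a rational root of the monic integral quartic `Q3` is an integer. -/
theorem int_root_of_rat_root (c4 c6 : ℤ) (Y : ℚ) (h : Q3 (c4 : ℚ) (c6 : ℚ) Y = 0) :
    ∃ Z : ℤ, Q3 c4 c6 Z = 0 := by
  have hint : IsIntegral ℤ Y := by
    refine ⟨Polynomial.X ^ 4 - Polynomial.C (486 * c4) * Polynomial.X ^ 2
      - Polynomial.C (5832 * c6) * Polynomial.X - Polynomial.C (19683 * c4 ^ 2), ?_, ?_⟩
    · monicity!
    · simp only [Polynomial.eval₂_sub, Polynomial.eval₂_mul, Polynomial.eval₂_pow,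
        Polynomial.eval₂_X, Polynomial.eval₂_C]
      unfold Q3 at h
      rw [← h]
      simp
  obtain ⟨Z, hZ⟩ := IsIntegrallyClosed.isIntegral_iff.mp hint
  refine ⟨Z, ?_⟩
  have hZ' : ((Z : ℤ) : ℚ) = Y := by simpa using hZ
  have : ((Q3 c4 c6 Z : ℤ) : ℚ) = 0 := by
    rw [← h, ← hZ']
    unfold Q3
    push_cast
    ring
  exact_mod_cast this

end Crit3

theorem stmt_Crit3 : Stmt_Crit3 := by
  intro W hΔ n3
  obtain ⟨x, hx⟩ := Crit3.exists_rat_root W hΔ n3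
  refine Crit3.int_root_of_rat_root W.c₄ W.c₆ (3 * (36 * x + 3 * (W.b₂ : ℚ))) ?_
  have hb8 : (4 : ℚ) * (W.b₈ : ℚ) = (W.b₂ : ℚ) * (W.b₆ : ℚ) - (W.b₄ : ℚ) ^ 2 := by
    exact_mod_cast W.b_relation
  have hc4 : ((W.c₄ : ℤ) : ℚ) = (W.b₂ : ℚ) ^ 2 - 24 * (W.b₄ : ℚ) := by
    rw [WeierstrassCurve.c₄]; push_cast; ring
  have hc6 : ((W.c₆ : ℤ) : ℚ) = -(W.b₂ : ℚ) ^ 3 + 36 * (W.b₂ : ℚ) * (W.b₄ : ℚ) - 216 * (W.b₆ : ℚ) := by
    rw [WeierstrassCurve.c₆]; push_cast; ring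
  unfold Q3
  rw [hc4, hc6]
  linear_combination (27 * 36 ^ 4 : ℚ) * hx - (11337408 : ℚ) * hb8

end Fermat.Agent.S52
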