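import Fermat.Agent.S52.Interface2

/-! # S52: basic lemmas on the forms of `Defs.lean` (task DEFS; helper35).

* `map_c4F, map_c6F, map_dF, map_g1, map_g2, map_HH, map_TT, map_DD, map_Q3` : ring homs commute with
  everything (universe polymorphic); bundled as `stmt_Map`.
* `HH_one_zero, TT_one_zero, DD_one_zero`, `HH_one_eq, TT_one_eq, DD_one_eq` (explicit cofactor),
  `dvd_HH_one_sub` ... ; bundled as `stmt_Base`.
* `HH_C_X, TT_C_X, DD_C_X` : the polynomial `HH (C c4) (C c6) 1 X` as an explicit sum,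
  `natDegree_HH_le`, `coeff_HH_top`, `coeff_HH_zero`, ...; bundled as `stmt_Deg`.
* `eval_HH, eval_TT, eval_DD`, `polyMap_HH, ...`, `eval₂`-free.
* homogeneity `HH_smul, TT_smul, DD_smul`. -/

set_option autoImplicit false
set_option linter.unusedSimpArgs false
set_option linter.unusedVariables false

namespace Fermat.Agent.S52

open Polynomial

section MapSec

variable {R S : Type*} [CommRing R] [CommRing S] (f : R →+* S)

theorem map_c4F (a b : R) : f (c4F a b) = c4F (f a) (f b) := by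
  simp only [c4F, map_add, map_sub, map_mul, map_pow, map_ofNat]

theorem map_c6F (a b : R) : f (c6F a b) = c6F (f a) (f b) := by
  simp only [c6F, map_add, map_sub, map_mul, map_pow, map_ofNat]

theorem map_dF (a b : R) : f (dF a b) = dF (f a) (f b) := by
  simp only [dF, map_add, map_sub, map_mul, map_pow, map_ofNat]

theorem map_g1 (a b : R) : f (g1 a b) = g1 (f a) (f b) := by
  simp only [g1, map_add, map_sub, map_mul, map_pow, map_ofNat]

theorem map_g2 (a b : R) : f (g2 a b) = g2 (f a) (f b) := by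
  simp only [g2, map_add, map_sub, map_mul, map_pow, map_ofNat]

theorem map_Q3 (a b Y : R) : f (Q3 a b Y) = Q3 (f a) (f b) (f Y) := by
  simp only [Q3, map_add, map_sub, map_mul, map_pow, map_ofNat]

namespace DefsLemmas

theorem map_hc0 (a b : R) : f (hc0 a b) = hc0 (f a) (f b) := by
  simp only [hc0, map_add, map_sub, map_mul, map_pow, map_neg, map_ofNat, map_one, map_zero]

theorem map_hc1 (a b : R) : f (hc1 a b) = hc1 (f a) (f b) := by
  simp only [hc1, map_add, map_sub, map_mul, map_pow, map_neg, map_ofNat, map_one, map_zero]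

theorem map_hc2 (a b : R) : f (hc2 a b) = hc2 (f a) (f b) := by
  simp only [hc2, map_add, map_sub, map_mul, map_pow, map_neg, map_ofNat, map_one, map_zero]

theorem map_hc3 (a b : R) : f (hc3 a b) = hc3 (f a) (f b) := by
  simp only [hc3, map_add, map_sub, map_mul, map_pow, map_neg, map_ofNat, map_one, map_zero]

theorem map_hc4 (a b : R) : f (hc4 a b) = hc4 (f a) (f b) := by
  simp only [hc4, map_add, map_sub, map_mul, map_pow, map_neg, map_ofNat, map_one, map_zero]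

theorem map_hc5 (a b : R) : f (hc5 a b) = hc5 (f a) (f b) := by
  simp only [hc5, map_add, map_sub, map_mul, map_pow, map_neg, map_ofNat, map_one, map_zero]

theorem map_hc6 (a b : R) : f (hc6 a b) = hc6 (f a) (f b) := by
  simp only [hc6, map_add, map_sub, map_mul, map_pow, map_neg, map_ofNat, map_one, map_zero]

theorem map_hc7 (a b : R) : f (hc7 a b) = hc7 (f a) (f b) := by
  simp only [hc7, map_add, map_sub, map_mul, map_pow, map_neg, map_ofNat, map_one, map_zero]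

theorem map_hc8 (a b : R) : f (hc8 a b) = hc8 (f a) (f b) := by
  simp only [hc8, map_add, map_sub, map_mul, map_pow, map_neg, map_ofNat, map_one, map_zero]

theorem map_hc9 (a b : R) : f (hc9 a b) = hc9 (f a) (f b) := by
  simp only [hc9, map_add, map_sub, map_mul, map_pow, map_neg, map_ofNat, map_one, map_zero]

theorem map_hc10 (a b : R) : f (hc10 a b) = hc10 (f a) (f b) := by
  simp only [hc10, map_add, map_sub, map_mul, map_pow, map_neg, map_ofNat, map_one, map_zero]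

theorem map_hc11 (a b : R) : f (hc11 a b) = hc11 (f a) (f b) := by
  simp only [hc11, map_add, map_sub, map_mul, map_pow, map_neg, map_ofNat, map_one, map_zero]

theorem map_hc12 (a b : R) : f (hc12 a b) = hc12 (f a) (f b) := by
  simp only [hc12, map_add, map_sub, map_mul, map_pow, map_neg, map_ofNat, map_one, map_zero]

theorem map_hc13 (a b : R) : f (hc13 a b) = hc13 (f a) (f b) := by
  simp only [hc13, map_add, map_sub, map_mul, map_pow, map_neg, map_ofNat, map_one, map_zero]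

theorem map_hc14 (a b : R) : f (hc14 a b) = hc14 (f a) (f b) := by
  simp only [hc14, map_add, map_sub, map_mul, map_pow, map_neg, map_ofNat, map_one, map_zero]

theorem map_hc15 (a b : R) : f (hc15 a b) = hc15 (f a) (f b) := by
  simp only [hc15, map_add, map_sub, map_mul, map_pow, map_neg, map_ofNat, map_one, map_zero]

theorem map_hc16 (a b : R) : f (hc16 a b) = hc16 (f a) (f b) := by
  simp only [hc16, map_add, map_sub, map_mul, map_pow, map_neg, map_ofNat, map_one, map_zero]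

theorem map_hc17 (a b : R) : f (hc17 a b) = hc17 (f a) (f b) := by
  simp only [hc17, map_add, map_sub, map_mul, map_pow, map_neg, map_ofNat, map_one, map_zero]

theorem map_hc18 (a b : R) : f (hc18 a b) = hc18 (f a) (f b) := by
  simp only [hc18, map_add, map_sub, map_mul, map_pow, map_neg, map_ofNat, map_one, map_zero]

theorem map_hc19 (a b : R) : f (hc19 a b) = hc19 (f a) (f b) := by
  simp only [hc19, map_add, map_sub, map_mul, map_pow, map_neg, map_ofNat, map_one, map_zero]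

theorem map_hc20 (a b : R) : f (hc20 a b) = hc20 (f a) (f b) := by
  simp only [hc20, map_add, map_sub, map_mul, map_pow, map_neg, map_ofNat, map_one, map_zero]

theorem map_tc0 (a b : R) : f (tc0 a b) = tc0 (f a) (f b) := by
  simp only [tc0, map_add, map_sub, map_mul, map_pow, map_neg, map_ofNat, map_one, map_zero]

theorem map_tc1 (a b : R) : f (tc1 a b) = tc1 (f a) (f b) := by
  simp only [tc1, map_add, map_sub, map_mul, map_pow, map_neg, map_ofNat, map_one, map_zero]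

theorem map_tc2 (a b : R) : f (tc2 a b) = tc2 (f a) (f b) := by
  simp only [tc2, map_add, map_sub, map_mul, map_pow, map_neg, map_ofNat, map_one, map_zero]

theorem map_tc3 (a b : R) : f (tc3 a b) = tc3 (f a) (f b) := by
  simp only [tc3, map_add, map_sub, map_mul, map_pow, map_neg, map_ofNat, map_one, map_zero]

theorem map_tc4 (a b : R) : f (tc4 a b) = tc4 (f a) (f b) := by
  simp only [tc4, map_add, map_sub, map_mul, map_pow, map_neg, map_ofNat, map_one, map_zero]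

theorem map_tc5 (a b : R) : f (tc5 a b) = tc5 (f a) (f b) := by
  simp only [tc5, map_add, map_sub, map_mul, map_pow, map_neg, map_ofNat, map_one, map_zero]

theorem map_tc6 (a b : R) : f (tc6 a b) = tc6 (f a) (f b) := by
  simp only [tc6, map_add, map_sub, map_mul, map_pow, map_neg, map_ofNat, map_one, map_zero]

theorem map_tc7 (a b : R) : f (tc7 a b) = tc7 (f a) (f b) := by
  simp only [tc7, map_add, map_sub, map_mul, map_pow, map_neg, map_ofNat, map_one, map_zero]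

theorem map_tc8 (a b : R) : f (tc8 a b) = tc8 (f a) (f b) := by
  simp only [tc8, map_add, map_sub, map_mul, map_pow, map_neg, map_ofNat, map_one, map_zero]

theorem map_tc9 (a b : R) : f (tc9 a b) = tc9 (f a) (f b) := by
  simp only [tc9, map_add, map_sub, map_mul, map_pow, map_neg, map_ofNat, map_one, map_zero]

theorem map_tc10 (a b : R) : f (tc10 a b) = tc10 (f a) (f b) := by
  simp only [tc10, map_add, map_sub, map_mul, map_pow, map_neg, map_ofNat, map_one, map_zero]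

theorem map_tc11 (a b : R) : f (tc11 a b) = tc11 (f a) (f b) := by
  simp only [tc11, map_add, map_sub, map_mul, map_pow, map_neg, map_ofNat, map_one, map_zero]

theorem map_tc12 (a b : R) : f (tc12 a b) = tc12 (f a) (f b) := by
  simp only [tc12, map_add, map_sub, map_mul, map_pow, map_neg, map_ofNat, map_one, map_zero]

theorem map_tc13 (a b : R) : f (tc13 a b) = tc13 (f a) (f b) := by
  simp only [tc13, map_add, map_sub, map_mul, map_pow, map_neg, map_ofNat, map_one, map_zero]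

theorem map_tc14 (a b : R) : f (tc14 a b) = tc14 (f a) (f b) := by
  simp only [tc14, map_add, map_sub, map_mul, map_pow, map_neg, map_ofNat, map_one, map_zero]

theorem map_tc15 (a b : R) : f (tc15 a b) = tc15 (f a) (f b) := by
  simp only [tc15, map_add, map_sub, map_mul, map_pow, map_neg, map_ofNat, map_one, map_zero]

theorem map_tc16 (a b : R) : f (tc16 a b) = tc16 (f a) (f b) := by
  simp only [tc16, map_add, map_sub, map_mul, map_pow, map_neg, map_ofNat, map_one, map_zero]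

theorem map_tc17 (a b : R) : f (tc17 a b) = tc17 (f a) (f b) := by
  simp only [tc17, map_add, map_sub, map_mul, map_pow, map_neg, map_ofNat, map_one, map_zero]

theorem map_tc18 (a b : R) : f (tc18 a b) = tc18 (f a) (f b) := by
  simp only [tc18, map_add, map_sub, map_mul, map_pow, map_neg, map_ofNat, map_one, map_zero]

theorem map_tc19 (a b : R) : f (tc19 a b) = tc19 (f a) (f b) := by
  simp only [tc19, map_add, map_sub, map_mul, map_pow, map_neg, map_ofNat, map_one, map_zero]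

theorem map_tc20 (a b : R) : f (tc20 a b) = tc20 (f a) (f b) := by
  simp only [tc20, map_add, map_sub, map_mul, map_pow, map_neg, map_ofNat, map_one, map_zero]

theorem map_tc21 (a b : R) : f (tc21 a b) = tc21 (f a) (f b) := by
  simp only [tc21, map_add, map_sub, map_mul, map_pow, map_neg, map_ofNat, map_one, map_zero]

theorem map_tc22 (a b : R) : f (tc22 a b) = tc22 (f a) (f b) := by
  simp only [tc22, map_add, map_sub, map_mul, map_pow, map_neg, map_ofNat, map_one, map_zero]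

theorem map_tc23 (a b : R) : f (tc23 a b) = tc23 (f a) (f b) := by
  simp only [tc23, map_add, map_sub, map_mul, map_pow, map_neg, map_ofNat, map_one, map_zero]

theorem map_tc24 (a b : R) : f (tc24 a b) = tc24 (f a) (f b) := by
  simp only [tc24, map_add, map_sub, map_mul, map_pow, map_neg, map_ofNat, map_one, map_zero]

theorem map_tc25 (a b : R) : f (tc25 a b) = tc25 (f a) (f b) := by
  simp only [tc25, map_add, map_sub, map_mul, map_pow, map_neg, map_ofNat, map_one, map_zero]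

theorem map_tc26 (a b : R) : f (tc26 a b) = tc26 (f a) (f b) := by
  simp only [tc26, map_add, map_sub, map_mul, map_pow, map_neg, map_ofNat, map_one, map_zero]

theorem map_tc27 (a b : R) : f (tc27 a b) = tc27 (f a) (f b) := by
  simp only [tc27, map_add, map_sub, map_mul, map_pow, map_neg, map_ofNat, map_one, map_zero]

theorem map_tc28 (a b : R) : f (tc28 a b) = tc28 (f a) (f b) := by
  simp only [tc28, map_add, map_sub, map_mul, map_pow, map_neg, map_ofNat, map_one, map_zero]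

theorem map_tc29 (a b : R) : f (tc29 a b) = tc29 (f a) (f b) := by
  simp only [tc29, map_add, map_sub, map_mul, map_pow, map_neg, map_ofNat, map_one, map_zero]

theorem map_tc30 (a b : R) : f (tc30 a b) = tc30 (f a) (f b) := by
  simp only [tc30, map_add, map_sub, map_mul, map_pow, map_neg, map_ofNat, map_one, map_zero]

theorem map_dc0 (a b : R) : f (dc0 a b) = dc0 (f a) (f b) := by
  simp only [dc0, map_add, map_sub, map_mul, map_pow, map_neg, map_ofNat, map_one, map_zero]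

theorem map_dc1 (a b : R) : f (dc1 a b) = dc1 (f a) (f b) := by
  simp only [dc1, map_add, map_sub, map_mul, map_pow, map_neg, map_ofNat, map_one, map_zero]

theorem map_dc2 (a b : R) : f (dc2 a b) = dc2 (f a) (f b) := by
  simp only [dc2, map_add, map_sub, map_mul, map_pow, map_neg, map_ofNat, map_one, map_zero]

theorem map_dc3 (a b : R) : f (dc3 a b) = dc3 (f a) (f b) := by
  simp only [dc3, map_add, map_sub, map_mul, map_pow, map_neg, map_ofNat, map_one, map_zero]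

theorem map_dc4 (a b : R) : f (dc4 a b) = dc4 (f a) (f b) := by
  simp only [dc4, map_add, map_sub, map_mul, map_pow, map_neg, map_ofNat, map_one, map_zero]

theorem map_dc5 (a b : R) : f (dc5 a b) = dc5 (f a) (f b) := by
  simp only [dc5, map_add, map_sub, map_mul, map_pow, map_neg, map_ofNat, map_one, map_zero]

theorem map_dc6 (a b : R) : f (dc6 a b) = dc6 (f a) (f b) := by
  simp only [dc6, map_add, map_sub, map_mul, map_pow, map_neg, map_ofNat, map_one, map_zero]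

theorem map_dc7 (a b : R) : f (dc7 a b) = dc7 (f a) (f b) := by
  simp only [dc7, map_add, map_sub, map_mul, map_pow, map_neg, map_ofNat, map_one, map_zero]

theorem map_dc8 (a b : R) : f (dc8 a b) = dc8 (f a) (f b) := by
  simp only [dc8, map_add, map_sub, map_mul, map_pow, map_neg, map_ofNat, map_one, map_zero]

theorem map_dc9 (a b : R) : f (dc9 a b) = dc9 (f a) (f b) := by
  simp only [dc9, map_add, map_sub, map_mul, map_pow, map_neg, map_ofNat, map_one, map_zero]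

theorem map_dc10 (a b : R) : f (dc10 a b) = dc10 (f a) (f b) := by
  simp only [dc10, map_add, map_sub, map_mul, map_pow, map_neg, map_ofNat, map_one, map_zero]

theorem map_dc11 (a b : R) : f (dc11 a b) = dc11 (f a) (f b) := by
  simp only [dc11, map_add, map_sub, map_mul, map_pow, map_neg, map_ofNat, map_one, map_zero]

theorem map_dc12 (a b : R) : f (dc12 a b) = dc12 (f a) (f b) := by
  simp only [dc12, map_add, map_sub, map_mul, map_pow, map_neg, map_ofNat, map_one, map_zero]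

end DefsLemmas

open DefsLemmas

theorem map_HH (a b u v : R) : f (HH a b u v) = HH (f a) (f b) (f u) (f v) := by
  simp only [HH, Hpart0, Hpart1, Hpart2, map_add, map_mul, map_pow,
    map_hc0, map_hc1, map_hc2, map_hc3, map_hc4, map_hc5, map_hc6, map_hc7, map_hc8, map_hc9, map_hc10, map_hc11, map_hc12, map_hc13, map_hc14, map_hc15, map_hc16, map_hc17, map_hc18, map_hc19, map_hc20]

theorem map_TT (a b u v : R) : f (TT a b u v) = TT (f a) (f b) (f u) (f v) := by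
  simp only [TT, Tpart0, Tpart1, Tpart2, Tpart3, map_add, map_mul, map_pow,
    map_tc0, map_tc1, map_tc2, map_tc3, map_tc4, map_tc5, map_tc6, map_tc7, map_tc8, map_tc9, map_tc10, map_tc11, map_tc12, map_tc13, map_tc14, map_tc15, map_tc16, map_tc17, map_tc18, map_tc19, map_tc20, map_tc21, map_tc22, map_tc23, map_tc24, map_tc25, map_tc26, map_tc27, map_tc28, map_tc29, map_tc30]

theorem map_DD (a b u v : R) : f (DD a b u v) = DD (f a) (f b) (f u) (f v) := by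
  simp only [DD, Dpart0, Dpart1, map_add, map_mul, map_pow,
    map_dc0, map_dc1, map_dc2, map_dc3, map_dc4, map_dc5, map_dc6, map_dc7, map_dc8, map_dc9, map_dc10, map_dc11, map_dc12]

end MapSec

theorem stmt_Map : Stmt_Map := fun _ _ _ _ f a b u v =>
  ⟨map_c4F f a b, map_c6F f a b, map_dF f a b, map_g1 f a b, map_g2 f a b, map_HH f a b u v,
    map_TT f a b u v, map_DD f a b u v⟩

section BaseSec

variable {R : Type*} [CommRing R]

/-- the affine form of `HH` as an explicit sum -/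
theorem HH_one_eq_sum (c4 c6 t : R) : HH c4 c6 1 t =
    hc0 c4 c6 * t ^ 0 + hc1 c4 c6 * t ^ 1 + hc2 c4 c6 * t ^ 2 + hc3 c4 c6 * t ^ 3 + hc4 c4 c6 * t ^ 4 + hc5 c4 c6 * t ^ 5 + hc6 c4 c6 * t ^ 6 + hc7 c4 c6 * t ^ 7 + hc8 c4 c6 * t ^ 8 + hc9 c4 c6 * t ^ 9 + hc10 c4 c6 * t ^ 10 + hc11 c4 c6 * t ^ 11 + hc12 c4 c6 * t ^ 12 + hc13 c4 c6 * t ^ 13 + hc14 c4 c6 * t ^ 14 + hc15 c4 c6 * t ^ 15 + hc16 c4 c6 * t ^ 16 + hc17 c4 c6 * t ^ 17 + hc18 c4 c6 * t ^ 18 + hc19 c4 c6 * t ^ 19 + hc20 c4 c6 * t ^ 20 := by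
  simp only [HH, Hpart0, Hpart1, Hpart2]; ring

/-- cofactor of `HH c4 c6 1 t - c4` -/
def HHcof (c4 c6 t : R) : R :=
  hc1 c4 c6 * t ^ 0 + hc2 c4 c6 * t ^ 1 + hc3 c4 c6 * t ^ 2 + hc4 c4 c6 * t ^ 3 + hc5 c4 c6 * t ^ 4 + hc6 c4 c6 * t ^ 5 + hc7 c4 c6 * t ^ 6 + hc8 c4 c6 * t ^ 7 + hc9 c4 c6 * t ^ 8 + hc10 c4 c6 * t ^ 9 + hc11 c4 c6 * t ^ 10 + hc12 c4 c6 * t ^ 11 + hc13 c4 c6 * t ^ 12 + hc14 c4 c6 * t ^ 13 + hc15 c4 c6 * t ^ 14 + hc16 c4 c6 * t ^ 15 + hc17 c4 c6 * t ^ 16 + hc18 c4 c6 * t ^ 17 + hc19 c4 c6 * t ^ 18 + hc20 c4 c6 * t ^ 19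

theorem HH_one_eq (c4 c6 t : R) : HH c4 c6 1 t = c4 + t * HHcof c4 c6 t := by
  simp only [HH_one_eq_sum, HHcof, hc0]; ring

theorem HH_one_zero (c4 c6 : R) : HH c4 c6 1 0 = c4 := by
  rw [HH_one_eq]; ring

theorem dvd_HH_one_sub (c4 c6 t : R) : t ∣ HH c4 c6 1 t - c4 :=
  ⟨HHcof c4 c6 t, by rw [HH_one_eq]; ring⟩

theorem HH_zero_one (c4 c6 : R) : HH c4 c6 0 1 = hc20 c4 c6 := by
  simp only [HH, Hpart0, Hpart1, Hpart2]; ring

theorem HH_smul (c4 c6 s u v : R) : HH c4 c6 (s * u) (s * v) = s ^ 20 * HH c4 c6 u v := by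
  simp only [HH, Hpart0, Hpart1, Hpart2]; ring

/-- the affine form of `TT` as an explicit sum -/
theorem TT_one_eq_sum (c4 c6 t : R) : TT c4 c6 1 t =
    tc0 c4 c6 * t ^ 0 + tc1 c4 c6 * t ^ 1 + tc2 c4 c6 * t ^ 2 + tc3 c4 c6 * t ^ 3 + tc4 c4 c6 * t ^ 4 + tc5 c4 c6 * t ^ 5 + tc6 c4 c6 * t ^ 6 + tc7 c4 c6 * t ^ 7 + tc8 c4 c6 * t ^ 8 + tc9 c4 c6 * t ^ 9 + tc10 c4 c6 * t ^ 10 + tc11 c4 c6 * t ^ 11 + tc12 c4 c6 * t ^ 12 + tc13 c4 c6 * t ^ 13 + tc14 c4 c6 * t ^ 14 + tc15 c4 c6 * t ^ 15 + tc16 c4 c6 * t ^ 16 + tc17 c4 c6 * t ^ 17 + tc18 c4 c6 * t ^ 18 + tc19 c4 c6 * t ^ 19 + tc20 c4 c6 * t ^ 20 + tc21 c4 c6 * t ^ 21 + tc22 c4 c6 * t ^ 22 + tc23 c4 c6 * t ^ 23 + tc24 c4 c6 * t ^ 24 + tc25 c4 c6 * t ^ 25 + tc26 c4 c6 * t ^ 26 + tc27 c4 c6 * t ^ 27 + tc28 c4 c6 * t ^ 28 + tc29 c4 c6 * t ^ 29 + tc30 c4 c6 * t ^ 30 := by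
  simp only [TT, Tpart0, Tpart1, Tpart2, Tpart3]; ring

/-- cofactor of `TT c4 c6 1 t - c6` -/
def TTcof (c4 c6 t : R) : R :=
  tc1 c4 c6 * t ^ 0 + tc2 c4 c6 * t ^ 1 + tc3 c4 c6 * t ^ 2 + tc4 c4 c6 * t ^ 3 + tc5 c4 c6 * t ^ 4 + tc6 c4 c6 * t ^ 5 + tc7 c4 c6 * t ^ 6 + tc8 c4 c6 * t ^ 7 + tc9 c4 c6 * t ^ 8 + tc10 c4 c6 * t ^ 9 + tc11 c4 c6 * t ^ 10 + tc12 c4 c6 * t ^ 11 + tc13 c4 c6 * t ^ 12 + tc14 c4 c6 * t ^ 13 + tc15 c4 c6 * t ^ 14 + tc16 c4 c6 * t ^ 15 + tc17 c4 c6 * t ^ 16 + tc18 c4 c6 * t ^ 17 + tc19 c4 c6 * t ^ 18 + tc20 c4 c6 * t ^ 19 + tc21 c4 c6 * t ^ 20 + tc22 c4 c6 * t ^ 21 + tc23 c4 c6 * t ^ 22 + tc24 c4 c6 * t ^ 23 + tc25 c4 c6 * t ^ 24 + tc26 c4 c6 * t ^ 25 + tc27 c4 c6 * t ^ 26 + tc28 c4 c6 * t ^ 27 + tc29 c4 c6 * t ^ 28 + tc30 c4 c6 * t ^ 29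

theorem TT_one_eq (c4 c6 t : R) : TT c4 c6 1 t = c6 + t * TTcof c4 c6 t := by
  simp only [TT_one_eq_sum, TTcof, tc0]; ring

theorem TT_one_zero (c4 c6 : R) : TT c4 c6 1 0 = c6 := by
  rw [TT_one_eq]; ring

theorem dvd_TT_one_sub (c4 c6 t : R) : t ∣ TT c4 c6 1 t - c6 :=
  ⟨TTcof c4 c6 t, by rw [TT_one_eq]; ring⟩

theorem TT_zero_one (c4 c6 : R) : TT c4 c6 0 1 = tc30 c4 c6 := by
  simp only [TT, Tpart0, Tpart1, Tpart2, Tpart3]; ring

theorem TT_smul (c4 c6 s u v : R) : TT c4 c6 (s * u) (s * v) = s ^ 30 * TT c4 c6 u v := by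
  simp only [TT, Tpart0, Tpart1, Tpart2, Tpart3]; ring

/-- the affine form of `DD` as an explicit sum -/
theorem DD_one_eq_sum (c4 c6 t : R) : DD c4 c6 1 t =
    dc0 c4 c6 * t ^ 0 + dc1 c4 c6 * t ^ 1 + dc2 c4 c6 * t ^ 2 + dc3 c4 c6 * t ^ 3 + dc4 c4 c6 * t ^ 4 + dc5 c4 c6 * t ^ 5 + dc6 c4 c6 * t ^ 6 + dc7 c4 c6 * t ^ 7 + dc8 c4 c6 * t ^ 8 + dc9 c4 c6 * t ^ 9 + dc10 c4 c6 * t ^ 10 + dc11 c4 c6 * t ^ 11 + dc12 c4 c6 * t ^ 12 := by
  simp only [DD, Dpart0, Dpart1]; ring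

/-- cofactor of `DD c4 c6 1 t - 1` -/
def DDcof (c4 c6 t : R) : R :=
  dc1 c4 c6 * t ^ 0 + dc2 c4 c6 * t ^ 1 + dc3 c4 c6 * t ^ 2 + dc4 c4 c6 * t ^ 3 + dc5 c4 c6 * t ^ 4 + dc6 c4 c6 * t ^ 5 + dc7 c4 c6 * t ^ 6 + dc8 c4 c6 * t ^ 7 + dc9 c4 c6 * t ^ 8 + dc10 c4 c6 * t ^ 9 + dc11 c4 c6 * t ^ 10 + dc12 c4 c6 * t ^ 11

theorem DD_one_eq (c4 c6 t : R) : DD c4 c6 1 t = 1 + t * DDcof c4 c6 t := by
  simp only [DD_one_eq_sum, DDcof, dc0]; ring

theorem DD_one_zero (c4 c6 : R) : DD c4 c6 1 0 = 1 := by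
  rw [DD_one_eq]; ring

theorem dvd_DD_one_sub (c4 c6 t : R) : t ∣ DD c4 c6 1 t - 1 :=
  ⟨DDcof c4 c6 t, by rw [DD_one_eq]; ring⟩

theorem DD_zero_one (c4 c6 : R) : DD c4 c6 0 1 = dc12 c4 c6 := by
  simp only [DD, Dpart0, Dpart1]; ring

theorem DD_smul (c4 c6 s u v : R) : DD c4 c6 (s * u) (s * v) = s ^ 12 * DD c4 c6 u v := by
  simp only [DD, Dpart0, Dpart1]; ring

namespace DefsLemmas

theorem wt_hc0 (s a b : R) : hc0 (s ^ 4 * a) (s ^ 6 * b) = s ^ 4 * hc0 a b := by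
  simp only [hc0]; ring

theorem wt_hc1 (s a b : R) : hc1 (s ^ 4 * a) (s ^ 6 * b) = s ^ 6 * hc1 a b := by
  simp only [hc1]; ring

theorem wt_hc2 (s a b : R) : hc2 (s ^ 4 * a) (s ^ 6 * b) = s ^ 8 * hc2 a b := by
  simp only [hc2]; ring

theorem wt_hc3 (s a b : R) : hc3 (s ^ 4 * a) (s ^ 6 * b) = s ^ 10 * hc3 a b := by
  simp only [hc3]; ring

theorem wt_hc4 (s a b : R) : hc4 (s ^ 4 * a) (s ^ 6 * b) = s ^ 12 * hc4 a b := by
  simp only [hc4]; ring

theorem wt_hc5 (s a b : R) : hc5 (s ^ 4 * a) (s ^ 6 * b) = s ^ 14 * hc5 a b := by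
  simp only [hc5]; ring

theorem wt_hc6 (s a b : R) : hc6 (s ^ 4 * a) (s ^ 6 * b) = s ^ 16 * hc6 a b := by
  simp only [hc6]; ring

theorem wt_hc7 (s a b : R) : hc7 (s ^ 4 * a) (s ^ 6 * b) = s ^ 18 * hc7 a b := by
  simp only [hc7]; ring

theorem wt_hc8 (s a b : R) : hc8 (s ^ 4 * a) (s ^ 6 * b) = s ^ 20 * hc8 a b := by
  simp only [hc8]; ring

theorem wt_hc9 (s a b : R) : hc9 (s ^ 4 * a) (s ^ 6 * b) = s ^ 22 * hc9 a b := by
  simp only [hc9]; ring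

theorem wt_hc10 (s a b : R) : hc10 (s ^ 4 * a) (s ^ 6 * b) = s ^ 24 * hc10 a b := by
  simp only [hc10]; ring

theorem wt_hc11 (s a b : R) : hc11 (s ^ 4 * a) (s ^ 6 * b) = s ^ 26 * hc11 a b := by
  simp only [hc11]; ring

theorem wt_hc12 (s a b : R) : hc12 (s ^ 4 * a) (s ^ 6 * b) = s ^ 28 * hc12 a b := by
  simp only [hc12]; ring

theorem wt_hc13 (s a b : R) : hc13 (s ^ 4 * a) (s ^ 6 * b) = s ^ 30 * hc13 a b := by
  simp only [hc13]; ring

theorem wt_hc14 (s a b : R) : hc14 (s ^ 4 * a) (s ^ 6 * b) = s ^ 32 * hc14 a b := by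
  simp only [hc14]; ring

theorem wt_hc15 (s a b : R) : hc15 (s ^ 4 * a) (s ^ 6 * b) = s ^ 34 * hc15 a b := by
  simp only [hc15]; ring

theorem wt_hc16 (s a b : R) : hc16 (s ^ 4 * a) (s ^ 6 * b) = s ^ 36 * hc16 a b := by
  simp only [hc16]; ring

theorem wt_hc17 (s a b : R) : hc17 (s ^ 4 * a) (s ^ 6 * b) = s ^ 38 * hc17 a b := by
  simp only [hc17]; ring

theorem wt_hc18 (s a b : R) : hc18 (s ^ 4 * a) (s ^ 6 * b) = s ^ 40 * hc18 a b := by
  simp only [hc18]; ring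

theorem wt_hc19 (s a b : R) : hc19 (s ^ 4 * a) (s ^ 6 * b) = s ^ 42 * hc19 a b := by
  simp only [hc19]; ring

theorem wt_hc20 (s a b : R) : hc20 (s ^ 4 * a) (s ^ 6 * b) = s ^ 44 * hc20 a b := by
  simp only [hc20]; ring

theorem wt_tc0 (s a b : R) : tc0 (s ^ 4 * a) (s ^ 6 * b) = s ^ 6 * tc0 a b := by
  simp only [tc0]; ring

theorem wt_tc1 (s a b : R) : tc1 (s ^ 4 * a) (s ^ 6 * b) = s ^ 8 * tc1 a b := by
  simp only [tc1]; ring

theorem wt_tc2 (s a b : R) : tc2 (s ^ 4 * a) (s ^ 6 * b) = s ^ 10 * tc2 a b := by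
  simp only [tc2]; ring

theorem wt_tc3 (s a b : R) : tc3 (s ^ 4 * a) (s ^ 6 * b) = s ^ 12 * tc3 a b := by
  simp only [tc3]; ring

theorem wt_tc4 (s a b : R) : tc4 (s ^ 4 * a) (s ^ 6 * b) = s ^ 14 * tc4 a b := by
  simp only [tc4]; ring

theorem wt_tc5 (s a b : R) : tc5 (s ^ 4 * a) (s ^ 6 * b) = s ^ 16 * tc5 a b := by
  simp only [tc5]; ring

theorem wt_tc6 (s a b : R) : tc6 (s ^ 4 * a) (s ^ 6 * b) = s ^ 18 * tc6 a b := by
  simp only [tc6]; ring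

theorem wt_tc7 (s a b : R) : tc7 (s ^ 4 * a) (s ^ 6 * b) = s ^ 20 * tc7 a b := by
  simp only [tc7]; ring

theorem wt_tc8 (s a b : R) : tc8 (s ^ 4 * a) (s ^ 6 * b) = s ^ 22 * tc8 a b := by
  simp only [tc8]; ring

theorem wt_tc9 (s a b : R) : tc9 (s ^ 4 * a) (s ^ 6 * b) = s ^ 24 * tc9 a b := by
  simp only [tc9]; ring

theorem wt_tc10 (s a b : R) : tc10 (s ^ 4 * a) (s ^ 6 * b) = s ^ 26 * tc10 a b := by
  simp only [tc10]; ring

theorem wt_tc11 (s a b : R) : tc11 (s ^ 4 * a) (s ^ 6 * b) = s ^ 28 * tc11 a b := by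
  simp only [tc11]; ring

theorem wt_tc12 (s a b : R) : tc12 (s ^ 4 * a) (s ^ 6 * b) = s ^ 30 * tc12 a b := by
  simp only [tc12]; ring

theorem wt_tc13 (s a b : R) : tc13 (s ^ 4 * a) (s ^ 6 * b) = s ^ 32 * tc13 a b := by
  simp only [tc13]; ring

theorem wt_tc14 (s a b : R) : tc14 (s ^ 4 * a) (s ^ 6 * b) = s ^ 34 * tc14 a b := by
  simp only [tc14]; ring

theorem wt_tc15 (s a b : R) : tc15 (s ^ 4 * a) (s ^ 6 * b) = s ^ 36 * tc15 a b := by
  simp only [tc15]; ring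

theorem wt_tc16 (s a b : R) : tc16 (s ^ 4 * a) (s ^ 6 * b) = s ^ 38 * tc16 a b := by
  simp only [tc16]; ring

theorem wt_tc17 (s a b : R) : tc17 (s ^ 4 * a) (s ^ 6 * b) = s ^ 40 * tc17 a b := by
  simp only [tc17]; ring

theorem wt_tc18 (s a b : R) : tc18 (s ^ 4 * a) (s ^ 6 * b) = s ^ 42 * tc18 a b := by
  simp only [tc18]; ring

theorem wt_tc19 (s a b : R) : tc19 (s ^ 4 * a) (s ^ 6 * b) = s ^ 44 * tc19 a b := by
  simp only [tc19]; ring

theorem wt_tc20 (s a b : R) : tc20 (s ^ 4 * a) (s ^ 6 * b) = s ^ 46 * tc20 a b := by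
  simp only [tc20]; ring

theorem wt_tc21 (s a b : R) : tc21 (s ^ 4 * a) (s ^ 6 * b) = s ^ 48 * tc21 a b := by
  simp only [tc21]; ring

theorem wt_tc22 (s a b : R) : tc22 (s ^ 4 * a) (s ^ 6 * b) = s ^ 50 * tc22 a b := by
  simp only [tc22]; ring

theorem wt_tc23 (s a b : R) : tc23 (s ^ 4 * a) (s ^ 6 * b) = s ^ 52 * tc23 a b := by
  simp only [tc23]; ring

theorem wt_tc24 (s a b : R) : tc24 (s ^ 4 * a) (s ^ 6 * b) = s ^ 54 * tc24 a b := by
  simp only [tc24]; ring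

theorem wt_tc25 (s a b : R) : tc25 (s ^ 4 * a) (s ^ 6 * b) = s ^ 56 * tc25 a b := by
  simp only [tc25]; ring

theorem wt_tc26 (s a b : R) : tc26 (s ^ 4 * a) (s ^ 6 * b) = s ^ 58 * tc26 a b := by
  simp only [tc26]; ring

theorem wt_tc27 (s a b : R) : tc27 (s ^ 4 * a) (s ^ 6 * b) = s ^ 60 * tc27 a b := by
  simp only [tc27]; ring

theorem wt_tc28 (s a b : R) : tc28 (s ^ 4 * a) (s ^ 6 * b) = s ^ 62 * tc28 a b := by
  simp only [tc28]; ring

theorem wt_tc29 (s a b : R) : tc29 (s ^ 4 * a) (s ^ 6 * b) = s ^ 64 * tc29 a b := by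
  simp only [tc29]; ring

theorem wt_tc30 (s a b : R) : tc30 (s ^ 4 * a) (s ^ 6 * b) = s ^ 66 * tc30 a b := by
  simp only [tc30]; ring

theorem wt_dc0 (s a b : R) : dc0 (s ^ 4 * a) (s ^ 6 * b) = s ^ 0 * dc0 a b := by
  simp only [dc0]; ring

theorem wt_dc1 (s a b : R) : dc1 (s ^ 4 * a) (s ^ 6 * b) = s ^ 2 * dc1 a b := by
  simp only [dc1]; ring

theorem wt_dc2 (s a b : R) : dc2 (s ^ 4 * a) (s ^ 6 * b) = s ^ 4 * dc2 a b := by
  simp only [dc2]; ring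

theorem wt_dc3 (s a b : R) : dc3 (s ^ 4 * a) (s ^ 6 * b) = s ^ 6 * dc3 a b := by
  simp only [dc3]; ring

theorem wt_dc4 (s a b : R) : dc4 (s ^ 4 * a) (s ^ 6 * b) = s ^ 8 * dc4 a b := by
  simp only [dc4]; ring

theorem wt_dc5 (s a b : R) : dc5 (s ^ 4 * a) (s ^ 6 * b) = s ^ 10 * dc5 a b := by
  simp only [dc5]; ring

theorem wt_dc6 (s a b : R) : dc6 (s ^ 4 * a) (s ^ 6 * b) = s ^ 12 * dc6 a b := by
  simp only [dc6]; ring

theorem wt_dc7 (s a b : R) : dc7 (s ^ 4 * a) (s ^ 6 * b) = s ^ 14 * dc7 a b := by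
  simp only [dc7]; ring

theorem wt_dc8 (s a b : R) : dc8 (s ^ 4 * a) (s ^ 6 * b) = s ^ 16 * dc8 a b := by
  simp only [dc8]; ring

theorem wt_dc9 (s a b : R) : dc9 (s ^ 4 * a) (s ^ 6 * b) = s ^ 18 * dc9 a b := by
  simp only [dc9]; ring

theorem wt_dc10 (s a b : R) : dc10 (s ^ 4 * a) (s ^ 6 * b) = s ^ 20 * dc10 a b := by
  simp only [dc10]; ring

theorem wt_dc11 (s a b : R) : dc11 (s ^ 4 * a) (s ^ 6 * b) = s ^ 22 * dc11 a b := by
  simp only [dc11]; ring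

theorem wt_dc12 (s a b : R) : dc12 (s ^ 4 * a) (s ^ 6 * b) = s ^ 24 * dc12 a b := by
  simp only [dc12]; ring

end DefsLemmas

/-- weighted homogeneity (`c4, c6, v` of weights `4, 6, -2`) -/
theorem HH_weight (s c4 c6 u v : R) :
    HH (s ^ 4 * c4) (s ^ 6 * c6) u v = s ^ 4 * HH c4 c6 u (s ^ 2 * v) := by
  simp only [HH, Hpart0, Hpart1, Hpart2, DefsLemmas.wt_hc0, DefsLemmas.wt_hc1, DefsLemmas.wt_hc2, DefsLemmas.wt_hc3, DefsLemmas.wt_hc4, DefsLemmas.wt_hc5, DefsLemmas.wt_hc6, DefsLemmas.wt_hc7, DefsLemmas.wt_hc8, DefsLemmas.wt_hc9, DefsLemmas.wt_hc10, DefsLemmas.wt_hc11, DefsLemmas.wt_hc12, DefsLemmas.wt_hc13, DefsLemmas.wt_hc14, DefsLemmas.wt_hc15, DefsLemmas.wt_hc16, DefsLemmas.wt_hc17, DefsLemmas.wt_hc18, DefsLemmas.wt_hc19, DefsLemmas.wt_hc20]; ring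

/-- weighted homogeneity (`c4, c6, v` of weights `4, 6, -2`) -/
theorem TT_weight (s c4 c6 u v : R) :
    TT (s ^ 4 * c4) (s ^ 6 * c6) u v = s ^ 6 * TT c4 c6 u (s ^ 2 * v) := by
  simp only [TT, Tpart0, Tpart1, Tpart2, Tpart3, DefsLemmas.wt_tc0, DefsLemmas.wt_tc1, DefsLemmas.wt_tc2, DefsLemmas.wt_tc3, DefsLemmas.wt_tc4, DefsLemmas.wt_tc5, DefsLemmas.wt_tc6, DefsLemmas.wt_tc7, DefsLemmas.wt_tc8, DefsLemmas.wt_tc9, DefsLemmas.wt_tc10, DefsLemmas.wt_tc11, DefsLemmas.wt_tc12, DefsLemmas.wt_tc13, DefsLemmas.wt_tc14, DefsLemmas.wt_tc15, DefsLemmas.wt_tc16, DefsLemmas.wt_tc17, DefsLemmas.wt_tc18, DefsLemmas.wt_tc19, DefsLemmas.wt_tc20, DefsLemmas.wt_tc21, DefsLemmas.wt_tc22, DefsLemmas.wt_tc23, DefsLemmas.wt_tc24, DefsLemmas.wt_tc25, DefsLemmas.wt_tc26, DefsLemmas.wt_tc27, DefsLemmas.wt_tc28, DefsLemmas.wt_tc29, DefsLemmas.wt_tc30]; ring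

/-- weighted homogeneity (`c4, c6, v` of weights `4, 6, -2`) -/
theorem DD_weight (s c4 c6 u v : R) :
    DD (s ^ 4 * c4) (s ^ 6 * c6) u v = s ^ 0 * DD c4 c6 u (s ^ 2 * v) := by
  simp only [DD, Dpart0, Dpart1, DefsLemmas.wt_dc0, DefsLemmas.wt_dc1, DefsLemmas.wt_dc2, DefsLemmas.wt_dc3, DefsLemmas.wt_dc4, DefsLemmas.wt_dc5, DefsLemmas.wt_dc6, DefsLemmas.wt_dc7, DefsLemmas.wt_dc8, DefsLemmas.wt_dc9, DefsLemmas.wt_dc10, DefsLemmas.wt_dc11, DefsLemmas.wt_dc12]; ring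

end BaseSec

theorem stmt_Base : Stmt_Base := fun _ _ c4 c6 t =>
  ⟨dvd_HH_one_sub c4 c6 t, dvd_TT_one_sub c4 c6 t, dvd_DD_one_sub c4 c6 t⟩

section DegSec

variable {R : Type*} [CommRing R]

/-- the polynomial `HH (C c4) (C c6) 1 X` as an explicit sum -/
theorem HH_C_X (c4 c6 : R) : HH (C c4) (C c6) 1 (X : R[X]) =
    C (hc0 c4 c6) * X ^ 0 + C (hc1 c4 c6) * X ^ 1 + C (hc2 c4 c6) * X ^ 2 + C (hc3 c4 c6) * X ^ 3 + C (hc4 c4 c6) * X ^ 4 + C (hc5 c4 c6) * X ^ 5 + C (hc6 c4 c6) * X ^ 6 + C (hc7 c4 c6) * X ^ 7 + C (hc8 c4 c6) * X ^ 8 + C (hc9 c4 c6) * X ^ 9 + C (hc10 c4 c6) * X ^ 10 + C (hc11 c4 c6) * X ^ 11 + C (hc12 c4 c6) * X ^ 12 + C (hc13 c4 c6) * X ^ 13 + C (hc14 c4 c6) * X ^ 14 + C (hc15 c4 c6) * X ^ 15 + C (hc16 c4 c6) * X ^ 16 + C (hc17 c4 c6) * X ^ 17 + C (hc18 c4 c6) * X ^ 18 + C (hc19 c4 c6) * X ^ 19 + C (hc20 c4 c6) * X ^ 20 := by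
  simp only [HH_one_eq_sum, ← DefsLemmas.map_hc0 (C : R →+* R[X]), ← DefsLemmas.map_hc1 (C : R →+* R[X]), ← DefsLemmas.map_hc2 (C : R →+* R[X]), ← DefsLemmas.map_hc3 (C : R →+* R[X]), ← DefsLemmas.map_hc4 (C : R →+* R[X]), ← DefsLemmas.map_hc5 (C : R →+* R[X]), ← DefsLemmas.map_hc6 (C : R →+* R[X]), ← DefsLemmas.map_hc7 (C : R →+* R[X]), ← DefsLemmas.map_hc8 (C : R →+* R[X]), ← DefsLemmas.map_hc9 (C : R →+* R[X]), ← DefsLemmas.map_hc10 (C : R →+* R[X]), ← DefsLemmas.map_hc11 (C : R →+* R[X]), ← DefsLemmas.map_hc12 (C : R →+* R[X]), ← DefsLemmas.map_hc13 (C : R →+* R[X]), ← DefsLemmas.map_hc14 (C : R →+* R[X]), ← DefsLemmas.map_hc15 (C : R →+* R[X]), ← DefsLemmas.map_hc16 (C : R →+* R[X]), ← DefsLemmas.map_hc17 (C : R →+* R[X]), ← DefsLemmas.map_hc18 (C : R →+* R[X]), ← DefsLemmas.map_hc19 (C : R →+* R[X]), ← DefsLemmas.map_hc20 (C : R →+* R[X])]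

theorem natDegree_HH_le (c4 c6 : R) : (HH (C c4) (C c6) 1 (X : R[X])).natDegree ≤ 20 := by
  rw [HH_C_X]; compute_degree

theorem coeff_HH_top (c4 c6 : R) :
    (HH (C c4) (C c6) 1 (X : R[X])).coeff 20 = HH c4 c6 0 1 := by
  rw [HH_C_X, HH_zero_one]
  simp [coeff_X_pow]

theorem eval_HH (c4 c6 t : R) : (HH (C c4) (C c6) 1 (X : R[X])).eval t = HH c4 c6 1 t := by
  have h := map_HH (evalRingHom t) (C c4) (C c6) 1 X
  simpa using h

theorem coeff_HH_zero (c4 c6 : R) : (HH (C c4) (C c6) 1 (X : R[X])).coeff 0 = c4 := by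
  rw [coeff_zero_eq_eval_zero, eval_HH, HH_one_zero]

theorem polyMap_HH {S : Type*} [CommRing S] (f : R →+* S) (c4 c6 : R) :
    (HH (C c4) (C c6) 1 (X : R[X])).map f = HH (C (f c4)) (C (f c6)) 1 (X : S[X]) := by
  have h := map_HH (mapRingHom f) (C c4) (C c6) 1 X
  simpa using h

/-- the polynomial `TT (C c4) (C c6) 1 X` as an explicit sum -/
theorem TT_C_X (c4 c6 : R) : TT (C c4) (C c6) 1 (X : R[X]) =
    C (tc0 c4 c6) * X ^ 0 + C (tc1 c4 c6) * X ^ 1 + C (tc2 c4 c6) * X ^ 2 + C (tc3 c4 c6) * X ^ 3 + C (tc4 c4 c6) * X ^ 4 + C (tc5 c4 c6) * X ^ 5 + C (tc6 c4 c6) * X ^ 6 + C (tc7 c4 c6) * X ^ 7 + C (tc8 c4 c6) * X ^ 8 + C (tc9 c4 c6) * X ^ 9 + C (tc10 c4 c6) * X ^ 10 + C (tc11 c4 c6) * X ^ 11 + C (tc12 c4 c6) * X ^ 12 + C (tc13 c4 c6) * X ^ 13 + C (tc14 c4 c6) * X ^ 14 + C (tc15 c4 c6) * X ^ 15 + C (tc16 c4 c6) * X ^ 16 + C (tc17 c4 c6) * X ^ 17 + C (tc18 c4 c6) * X ^ 18 + C (tc19 c4 c6) *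 X ^ 19 + C (tc20 c4 c6) * X ^ 20 + C (tc21 c4 c6) * X ^ 21 + C (tc22 c4 c6) * X ^ 22 + C (tc23 c4 c6) * X ^ 23 + C (tc24 c4 c6) * X ^ 24 + C (tc25 c4 c6) * X ^ 25 + C (tc26 c4 c6) * X ^ 26 + C (tc27 c4 c6) * X ^ 27 + C (tc28 c4 c6) * X ^ 28 + C (tc29 c4 c6) * X ^ 29 + C (tc30 c4 c6) * X ^ 30 := by
  simp only [TT_one_eq_sum, ← DefsLemmas.map_tc0 (C : R →+* R[X]), ← DefsLemmas.map_tc1 (C : R →+* R[X]), ← DefsLemmas.map_tc2 (C : R →+* R[X]), ← DefsLemmas.map_tc3 (C : R →+* R[X]), ← DefsLemmas.map_tc4 (C : R →+* R[X]), ← DefsLemmas.map_tc5 (C : R →+* R[X]), ← DefsLemmas.map_tc6 (C : R →+* R[X]), ← DefsLemmas.map_tc7 (C : R →+* R[X]), ← DefsLemmas.map_tc8 (C : R →+* R[X]), ← DefsLemmas.map_tc9 (C : R →+* R[X]), ← DefsLemmas.map_tc10 (C : R →+* R[X]), ← DefsLemmas.map_tc11 (C : R →+* R[X]), ← DefsLemmas.map_tc12 (C : R →+* R[X]), ← DefsLemmas.map_tc13 (C : R →+* R[X]), ← DefsLemmas.map_tc14 (C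 : R →+* R[X]), ← DefsLemmas.map_tc15 (C : R →+* R[X]), ← DefsLemmas.map_tc16 (C : R →+* R[X]), ← DefsLemmas.map_tc17 (C : R →+* R[X]), ← DefsLemmas.map_tc18 (C : R →+* R[X]), ← DefsLemmas.map_tc19 (C : R →+* R[X]), ← DefsLemmas.map_tc20 (C : R →+* R[X]), ← DefsLemmas.map_tc21 (C : R →+* R[X]), ← DefsLemmas.map_tc22 (C : R →+* R[X]), ← DefsLemmas.map_tc23 (C : R →+* R[X]), ← DefsLemmas.map_tc24 (C : R →+* R[X]), ← DefsLemmas.map_tc25 (C : R →+* R[X]), ← DefsLemmas.map_tc26 (C : R →+* R[X]), ← DefsLemmas.map_tc27 (C : R →+* R[X]), ← DefsLemmas.map_tc28 (C : R →+* R[X]), ← DefsLemmas.map_tc29 (C : R →+* R[X]), ← DefsLemmas.map_tc30 (C : R →+* R[X])]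

theorem natDegree_TT_le (c4 c6 : R) : (TT (C c4) (C c6) 1 (X : R[X])).natDegree ≤ 30 := by
  rw [TT_C_X]; compute_degree

theorem coeff_TT_top (c4 c6 : R) :
    (TT (C c4) (C c6) 1 (X : R[X])).coeff 30 = TT c4 c6 0 1 := by
  rw [TT_C_X, TT_zero_one]
  simp [coeff_X_pow]

theorem eval_TT (c4 c6 t : R) : (TT (C c4) (C c6) 1 (X : R[X])).eval t = TT c4 c6 1 t := by
  have h := map_TT (evalRingHom t) (C c4) (C c6) 1 X
  simpa using h

theorem coeff_TT_zero (c4 c6 : R) : (TT (C c4) (C c6) 1 (X : R[X])).coeff 0 = c6 := by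
  rw [coeff_zero_eq_eval_zero, eval_TT, TT_one_zero]

theorem polyMap_TT {S : Type*} [CommRing S] (f : R →+* S) (c4 c6 : R) :
    (TT (C c4) (C c6) 1 (X : R[X])).map f = TT (C (f c4)) (C (f c6)) 1 (X : S[X]) := by
  have h := map_TT (mapRingHom f) (C c4) (C c6) 1 X
  simpa using h

/-- the polynomial `DD (C c4) (C c6) 1 X` as an explicit sum -/
theorem DD_C_X (c4 c6 : R) : DD (C c4) (C c6) 1 (X : R[X]) =
    C (dc0 c4 c6) * X ^ 0 + C (dc1 c4 c6) * X ^ 1 + C (dc2 c4 c6) * X ^ 2 + C (dc3 c4 c6) * X ^ 3 + C (dc4 c4 c6) * X ^ 4 + C (dc5 c4 c6) * X ^ 5 + C (dc6 c4 c6) * X ^ 6 + C (dc7 c4 c6) * X ^ 7 + C (dc8 c4 c6) * X ^ 8 + C (dc9 c4 c6) * X ^ 9 + C (dc10 c4 c6) * X ^ 10 + C (dc11 c4 c6) * X ^ 11 + C (dc12 c4 c6) * X ^ 12 := by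
  simp only [DD_one_eq_sum, ← DefsLemmas.map_dc0 (C : R →+* R[X]), ← DefsLemmas.map_dc1 (C : R →+* R[X]), ← DefsLemmas.map_dc2 (C : R →+* R[X]), ← DefsLemmas.map_dc3 (C : R →+* R[X]), ← DefsLemmas.map_dc4 (C : R →+* R[X]), ← DefsLemmas.map_dc5 (C : R →+* R[X]), ← DefsLemmas.map_dc6 (C : R →+* R[X]), ← DefsLemmas.map_dc7 (C : R →+* R[X]), ← DefsLemmas.map_dc8 (C : R →+* R[X]), ← DefsLemmas.map_dc9 (C : R →+* R[X]), ← DefsLemmas.map_dc10 (C : R →+* R[X]), ← DefsLemmas.map_dc11 (C : R →+* R[X]), ← DefsLemmas.map_dc12 (C : R →+* R[X])]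

theorem natDegree_DD_le (c4 c6 : R) : (DD (C c4) (C c6) 1 (X : R[X])).natDegree ≤ 12 := by
  rw [DD_C_X]; compute_degree

theorem coeff_DD_top (c4 c6 : R) :
    (DD (C c4) (C c6) 1 (X : R[X])).coeff 12 = DD c4 c6 0 1 := by
  rw [DD_C_X, DD_zero_one]
  simp [coeff_X_pow]

theorem eval_DD (c4 c6 t : R) : (DD (C c4) (C c6) 1 (X : R[X])).eval t = DD c4 c6 1 t := by
  have h := map_DD (evalRingHom t) (C c4) (C c6) 1 X
  simpa using h

theorem coeff_DD_zero (c4 c6 : R) : (DD (C c4) (C c6) 1 (X : R[X])).coeff 0 = 1 := by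
  rw [coeff_zero_eq_eval_zero, eval_DD, DD_one_zero]

theorem polyMap_DD {S : Type*} [CommRing S] (f : R →+* S) (c4 c6 : R) :
    (DD (C c4) (C c6) 1 (X : R[X])).map f = DD (C (f c4)) (C (f c6)) 1 (X : S[X]) := by
  have h := map_DD (mapRingHom f) (C c4) (C c6) 1 X
  simpa using h

end DegSec

theorem stmt_Deg : Stmt_Deg := fun _ _ c4 c6 =>
  ⟨natDegree_HH_le c4 c6, natDegree_TT_le c4 c6, natDegree_DD_le c4 c6, coeff_HH_top c4 c6,
    coeff_TT_top c4 c6, coeff_DD_top c4 c6⟩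

end Fermat.Agent.S52
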