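import Fermat.Agent.S52.Interface2

set_option autoImplicit false

namespace Fermat.Agent.S52

namespace ExistsAB

open Polynomial

variable {K : Type} [Field K]

theorem c4F_smul (m a b : K) : c4F (m * a) (m * b) = m ^ 4 * c4F a b := by
  simp only [c4F]; ring

theorem c6F_smul (m a b : K) : c6F (m * a) (m * b) = m ^ 6 * c6F a b := by
  simp only [c6F]; ring

/-- the auxiliary polynomial -/
noncomputable def G (c4 c6 : K) : K[X] :=
  (X ^ 4 - 228 * X ^ 3 + 494 * X ^ 2 + 228 * X + 1) ^ 3 * C (c6 ^ 2) -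
    (X ^ 6 + 522 * X ^ 5 - 10005 * X ^ 4 - 10005 * X ^ 2 - 522 * X + 1) ^ 2 * C (c4 ^ 3)

theorem eval_G (c4 c6 x : K) :
    (G c4 c6).eval x = c4F x 1 ^ 3 * c6 ^ 2 - c6F x 1 ^ 2 * c4 ^ 3 := by
  simp only [G, c4F, c6F, eval_sub, eval_mul, eval_pow, eval_add, eval_X, eval_C, eval_one,
    eval_ofNat]
  ring

theorem coeff_G (c4 c6 : K) : (G c4 c6).coeff 12 = c6 ^ 2 - c4 ^ 3 := by
  unfold G
  compute_degree!

theorem exists_root_G [IsAlgClosed K] (c4 c6 : K) (h : c4 ^ 3 ≠ c6 ^ 2) :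
    ∃ x : K, c4F x 1 ^ 3 * c6 ^ 2 = c6F x 1 ^ 2 * c4 ^ 3 := by
  have hdeg : (G c4 c6).degree ≠ 0 := by
    intro h0
    have h1 := Polynomial.eq_C_of_degree_eq_zero h0
    have h2 : (G c4 c6).coeff 12 = 0 := by
      rw [h1, coeff_C]; simp
    rw [coeff_G] at h2
    exact h (sub_eq_zero.mp h2).symm
  obtain ⟨x, hx⟩ := IsAlgClosed.exists_root (G c4 c6) hdeg
  refine ⟨x, ?_⟩
  rw [IsRoot, eval_G] at hx
  exact sub_eq_zero.mp hx

end ExistsAB

open ExistsAB in
theorem stmt_ExistsAB (h0 : Stmt_I0) (hN : Stmt_NCZab) : Stmt_ExistsAB := by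
  intro K _ _ h30 c4 c6 hne
  obtain ⟨x, hx⟩ := exists_root_G c4 c6 hne
  set e4 := c4F x 1 with he4
  set e6 := c6F x 1 with he6
  have h2 : (2 : K) ≠ 0 := fun h => h30 (by
    have : (30 : K) = 2 * 15 := by norm_num
    rw [this, h, zero_mul])
  have h3 : (3 : K) ≠ 0 := fun h => h30 (by
    have : (30 : K) = 3 * 10 := by norm_num
    rw [this, h, zero_mul])
  -- not both zero
  have hnz : ¬ (e4 = 0 ∧ e6 = 0) := by
    rintro ⟨h4, h6⟩
    have hI := h0 K x 1
    rw [← he4, ← he6, h4, h6] at hI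
    have h1728 : (1728 : K) ≠ 0 := by
      have : (1728 : K) = 2 ^ 6 * 3 ^ 3 := by norm_num
      rw [this]
      exact mul_ne_zero (pow_ne_zero _ h2) (pow_ne_zero _ h3)
    have h5 : x * 1 * dF x 1 = 0 := by
      have h6' : (1728 : K) * (x * dF x 1 ^ 5) = 0 := by linear_combination hI
      rcases mul_eq_zero.mp h6' with h | h
      · exact absurd h h1728
      · rcases mul_eq_zero.mp h with h | h
        · rw [h]; ring
        · rw [pow_eq_zero_iff (by norm_num) |>.mp h]; ring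
    exact one_ne_zero (hN K h30 x 1 h4 h5).2
  by_cases hc4 : c4 = 0
  · -- c4 = 0
    have hc6 : c6 ≠ 0 := by
      intro h; apply hne; rw [hc4, h]; ring
    have h4 : e4 = 0 := by
      rw [hc4] at hx
      have : e4 ^ 3 * c6 ^ 2 = 0 := by rw [hx]; ring
      rcases mul_eq_zero.mp this with h | h
      · exact pow_eq_zero_iff (by norm_num) |>.mp h
      · exact absurd (pow_eq_zero_iff (by norm_num) |>.mp h) hc6
    have h6 : e6 ≠ 0 := fun h => hnz ⟨h4, h⟩
    obtain ⟨m, hm⟩ := IsAlgClosed.exists_pow_nat_eq (c6 / e6) (n := 6) (by norm_num)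
    refine ⟨m * x, m * 1, ?_, ?_⟩
    · rw [c4F_smul, ← he4, h4, hc4, mul_zero]
    · rw [c6F_smul, ← he6, hm, div_mul_cancel₀ _ h6]
  by_cases hc6 : c6 = 0
  · have h6 : e6 = 0 := by
      rw [hc6] at hx
      have : e6 ^ 2 * c4 ^ 3 = 0 := by rw [← hx]; ring
      rcases mul_eq_zero.mp this with h | h
      · exact pow_eq_zero_iff (by norm_num) |>.mp h
      · exact absurd (pow_eq_zero_iff (by norm_num) |>.mp h) hc4
    have h4 : e4 ≠ 0 := fun h => hnz ⟨h, h6⟩
    obtain ⟨m, hm⟩ := IsAlgClosed.exists_pow_nat_eq (c4 / e4) (n := 4) (by norm_num)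
    refine ⟨m * x, m * 1, ?_, ?_⟩
    · rw [c4F_smul, ← he4, hm, div_mul_cancel₀ _ h4]
    · rw [c6F_smul, ← he6, h6, hc6, mul_zero]
  · -- both nonzero
    have h4 : e4 ≠ 0 := by
      intro h
      apply hnz
      refine ⟨h, ?_⟩
      rw [h] at hx
      have : e6 ^ 2 * c4 ^ 3 = 0 := by rw [← hx]; ring
      rcases mul_eq_zero.mp this with h | h
      · exact pow_eq_zero_iff (by norm_num) |>.mp h
      · exact absurd (pow_eq_zero_iff (by norm_num) |>.mp h) hc4
    have h6 : e6 ≠ 0 := by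
      intro h
      apply hnz
      refine ⟨?_, h⟩
      rw [h] at hx
      have : e4 ^ 3 * c6 ^ 2 = 0 := by rw [hx]; ring
      rcases mul_eq_zero.mp this with h | h
      · exact pow_eq_zero_iff (by norm_num) |>.mp h
      · exact absurd (pow_eq_zero_iff (by norm_num) |>.mp h) hc6
    obtain ⟨m, hm⟩ := IsAlgClosed.exists_pow_nat_eq (c6 * e4 / (e6 * c4)) (n := 2) (by norm_num)
    have hm4 : m ^ 4 * e4 = c4 := by
      have : m ^ 4 = (m ^ 2) ^ 2 := by ring
      rw [this, hm]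
      field_simp
      linear_combination hx
    have hm6 : m ^ 6 * e6 = c6 := by
      have : m ^ 6 * e6 = (m ^ 4 * e4) * (m ^ 2) * e6 / e4 := by field_simp
      rw [this, hm4, hm]
      field_simp
    refine ⟨m * x, m * 1, ?_, ?_⟩
    · rw [c4F_smul, ← he4, hm4]
    · rw [c6F_smul, ← he6, hm6]

end Fermat.Agent.S52
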