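import Fermat.Agent.S52.Interface2

/-! # S52, package C-4: `Stmt_HIT1` from `Stmt_HITgen` and `Stmt_NoPolyRoot` (helper29) -/

set_option autoImplicit false

namespace Fermat.Agent.S52

open Polynomial

theorem stmt_HIT1 (hG : Stmt_HITgen) (hP : Stmt_NoPolyRoot) (hM : Stmt_Map) (hB : Stmt_Base)
    (hD : Stmt_Deg) : Stmt_HIT1 := by
  intro c4 c6 M hc hM0
  obtain ⟨dH, dT, -, -, -, -⟩ := hD ℤ c4 c6
  have evH : ∀ t : ℤ, (HH (C c4) (C c6) 1 X : ℤ[X]).eval t = HH c4 c6 1 t := by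
    intro t
    have := (hM ℤ[X] ℤ (evalRingHom t) (C c4) (C c6) 1 X).2.2.2.2.2.1
    simpa using this
  have evT : ∀ t : ℤ, (TT (C c4) (C c6) 1 X : ℤ[X]).eval t = TT c4 c6 1 t := by
    intro t
    have := (hM ℤ[X] ℤ (evalRingHom t) (C c4) (C c6) 1 X).2.2.2.2.2.2.1
    simpa using this
  have mpH : (HH (C c4) (C c6) 1 X : ℤ[X]).map (Int.castRingHom ℚ)
      = HH (C (c4 : ℚ)) (C (c6 : ℚ)) 1 X := by
    have := (hM ℤ[X] ℚ[X] (mapRingHom (Int.castRingHom ℚ)) (C c4) (C c6) 1 X).2.2.2.2.2.1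
    simpa using this
  have mpT : (TT (C c4) (C c6) 1 X : ℤ[X]).map (Int.castRingHom ℚ)
      = TT (C (c4 : ℚ)) (C (c6 : ℚ)) 1 X := by
    have := (hM ℤ[X] ℚ[X] (mapRingHom (Int.castRingHom ℚ)) (C c4) (C c6) 1 X).2.2.2.2.2.2.1
    simpa using this
  have b0 : HH c4 c6 1 0 = c4 := by
    have := (hB ℤ c4 c6 0).1
    rw [zero_dvd_iff] at this
    linarith
  have b1 : TT c4 c6 1 0 = c6 := by
    have := (hB ℤ c4 c6 0).2.1
    rw [zero_dvd_iff] at this
    linarith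
  obtain ⟨t, ht, h⟩ := hG (C (-27) * HH (C c4) (C c6) 1 X) (C (-54) * TT (C c4) (C c6) 1 X) M
    ((natDegree_C_mul_le _ _).trans dH) ((natDegree_C_mul_le _ _).trans dT)
    (by
      rw [eval_mul, eval_mul, eval_C, eval_C, evH, evT, b0, b1]
      intro h0
      apply hc
      linarith)
    (by
      intro P h0
      apply hP ℚ (c4 : ℚ) (c6 : ℚ) (by exact_mod_cast hc) P
      rw [Polynomial.map_mul, Polynomial.map_mul, mpH, mpT, Polynomial.map_C,
        Polynomial.map_C] at h0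
      rw [← h0]
      simp only [Q3, map_neg, map_ofNat]
      ring)
    hM0
  refine ⟨t, ht, fun Y hY => h Y ?_⟩
  rw [eval_mul, eval_mul, eval_C, eval_C, evH, evT, ← hY]
  simp only [Q3]
  ring

end Fermat.Agent.S52

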