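import Fermat.Agent.S52.Interface2

/-!
# S52, identity (B-1): `c4F (a', b') = HH (c4F a b) (c6F a b) u v`

Split by powers of `v`: `LL k` is the coefficient of `u ^ (20 - k) * v ^ k` of the left hand side,
with `g1 a b`, `g2 a b` replaced by indeterminates `G1`, `G2`.  (Generated by a script.)
-/

set_option autoImplicit false
set_option linter.unusedVariables false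
set_option linter.unusedSimpArgs false

namespace Fermat.Agent.S52.I1

variable {R : Type*} [CommRing R]

def LL0 (a b G1 G2 : R) : R :=
  1 * a ^ 4 - 228 * a ^ 3 * b + 494 * a ^ 2 * b ^ 2 + 228 * a * b ^ 3 + 1 * b ^ 4

def LL1 (a b G1 G2 : R) : R :=
  20 * a ^ 4 * G1 + 1140 * a ^ 3 * b * G2 - 3420 * a ^ 3 * b * G1 - 4940 * a ^ 2 * b ^ 2 * G2 + 4940 * a ^ 2 * b ^ 2 * G1 - 3420 * a * b ^ 3 * G2 + 1140 * a * b ^ 3 * G1 - 20 * b ^ 4 * G2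

def LL2 (a b G1 G2 : R) : R :=
  190 * a ^ 4 * G1 ^ 2 - 2280 * a ^ 3 * b * G2 ^ 2 + 17100 * a ^ 3 * b * G1 * G2 - 23940 * a ^ 3 * b * G1 ^ 2 + 22230 * a ^ 2 * b ^ 2 * G2 ^ 2 - 49400 * a ^ 2 * b ^ 2 * G1 * G2 + 22230 * a ^ 2 * b ^ 2 * G1 ^ 2 + 23940 * a * b ^ 3 * G2 ^ 2 - 17100 * a * b ^ 3 * G1 * G2 + 2280 * a * b ^ 3 * G1 ^ 2 + 190 * b ^ 4 * G2 ^ 2

def LL3 (a b G1 G2 : R) : R :=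
  1140 * a ^ 4 * G1 ^ 3 + 2280 * a ^ 3 * b * G2 ^ 3 - 34200 * a ^ 3 * b * G1 * G2 ^ 2 + 119700 * a ^ 3 * b * G1 ^ 2 * G2 - 103740 * a ^ 3 * b * G1 ^ 3 - 59280 * a ^ 2 * b ^ 2 * G2 ^ 3 + 222300 * a ^ 2 * b ^ 2 * G1 * G2 ^ 2 - 222300 * a ^ 2 * b ^ 2 * G1 ^ 2 * G2 + 59280 * a ^ 2 * b ^ 2 * G1 ^ 3 - 103740 * a * b ^ 3 * G2 ^ 3 + 119700 * a * b ^ 3 * G1 * G2 ^ 2 - 34200 * a * b ^ 3 * G1 ^ 2 * G2 + 2280 * a * b ^ 3 * G1 ^ 3 - 1140 * b ^ 4 * G2 ^ 3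

def LL4 (a b G1 G2 : R) : R :=
  4845 * a ^ 4 * G1 ^ 4 - 1140 * a ^ 3 * b * G2 ^ 4 + 34200 * a ^ 3 * b * G1 * G2 ^ 3 - 239400 * a ^ 3 * b * G1 ^ 2 * G2 ^ 2 + 518700 * a ^ 3 * b * G1 ^ 3 * G2 - 311220 * a ^ 3 * b * G1 ^ 4 + 103740 * a ^ 2 * b ^ 2 * G2 ^ 4 - 592800 * a ^ 2 * b ^ 2 * G1 * G2 ^ 3 + 1000350 * a ^ 2 * b ^ 2 * G1 ^ 2 * G2 ^ 2 - 592800 * a ^ 2 * b ^ 2 * G1 ^ 3 * G2 + 103740 * a ^ 2 * b ^ 2 * G1 ^ 4 + 311220 * a * b ^ 3 * G2 ^ 4 - 518700 * a * b ^ 3 * G1 * G2 ^ 3 + 239400 * a * b ^ 3 * G1 ^ 2 * G2 ^ 2 - 34200 * a * b ^ 3 * G1 ^ 3 * G2 + 1140 * a * b ^ 3 * G1 ^ 4 + 4845 * b ^ 4 * G2 ^ 4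

def LL5 (a b G1 G2 : R) : R :=
  15504 * a ^ 4 * G1 ^ 5 + 228 * a ^ 3 * b * G2 ^ 5 - 17100 * a ^ 3 * b * G1 * G2 ^ 4 + 239400 * a ^ 3 * b * G1 ^ 2 * G2 ^ 3 - 1037400 * a ^ 3 * b * G1 ^ 3 * G2 ^ 2 + 1556100 * a ^ 3 * b * G1 ^ 4 * G2 - 684684 * a ^ 3 * b * G1 ^ 5 - 124488 * a ^ 2 * b ^ 2 * G2 ^ 5 + 1037400 * a ^ 2 * b ^ 2 * G1 * G2 ^ 4 - 2667600 * a ^ 2 * b ^ 2 * G1 ^ 2 * G2 ^ 3 + 2667600 * a ^ 2 * b ^ 2 * G1 ^ 3 * G2 ^ 2 - 1037400 * a ^ 2 * b ^ 2 * G1 ^ 4 * G2 + 124488 * a ^ 2 * b ^ 2 * G1 ^ 5 - 684684 * a * b ^ 3 * G2 ^ 5 + 1556100 * a * b ^ 3 * G1 * G2 ^ 4 - 1037400 * a * b ^ 3 * G1 ^ 2 * G2 ^ 3 + 239400 * a * b ^ 3 * G1 ^ 3 * G2 ^ 2 - 17100 * a * b ^ 3 * G1 ^ 4 * G2 + 228 * a * b ^ 3 * G1 ^ 5 - 15504 * b ^ 4 * G2 ^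 5

def LL6 (a b G1 G2 : R) : R :=
  38760 * a ^ 4 * G1 ^ 6 + 3420 * a ^ 3 * b * G1 * G2 ^ 5 - 119700 * a ^ 3 * b * G1 ^ 2 * G2 ^ 4 + 1037400 * a ^ 3 * b * G1 ^ 3 * G2 ^ 3 - 3112200 * a ^ 3 * b * G1 ^ 4 * G2 ^ 2 + 3423420 * a ^ 3 * b * G1 ^ 5 * G2 - 1141140 * a ^ 3 * b * G1 ^ 6 + 103740 * a ^ 2 * b ^ 2 * G2 ^ 6 - 1244880 * a ^ 2 * b ^ 2 * G1 * G2 ^ 5 + 4668300 * a ^ 2 * b ^ 2 * G1 ^ 2 * G2 ^ 4 - 7113600 * a ^ 2 * b ^ 2 * G1 ^ 3 * G2 ^ 3 + 4668300 * a ^ 2 * b ^ 2 * G1 ^ 4 * G2 ^ 2 - 1244880 * a ^ 2 * b ^ 2 * G1 ^ 5 * G2 + 103740 * a ^ 2 * b ^ 2 * G1 ^ 6 + 1141140 * a * b ^ 3 * G2 ^ 6 - 3423420 * a * b ^ 3 * G1 * G2 ^ 5 + 3112200 * a * b ^ 3 * G1 ^ 2 * G2 ^ 4 - 1037400 * a * b ^ 3 * G1 ^ 3 * G2 ^ 3 + 119700 * a * b ^ 3 *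 G1 ^ 4 * G2 ^ 2 - 3420 * a * b ^ 3 * G1 ^ 5 * G2 + 38760 * b ^ 4 * G2 ^ 6

def LL7 (a b G1 G2 : R) : R :=
  77520 * a ^ 4 * G1 ^ 7 + 23940 * a ^ 3 * b * G1 ^ 2 * G2 ^ 5 - 518700 * a ^ 3 * b * G1 ^ 3 * G2 ^ 4 + 3112200 * a ^ 3 * b * G1 ^ 4 * G2 ^ 3 - 6846840 * a ^ 3 * b * G1 ^ 5 * G2 ^ 2 + 5705700 * a ^ 3 * b * G1 ^ 6 * G2 - 1467180 * a ^ 3 * b * G1 ^ 7 - 59280 * a ^ 2 * b ^ 2 * G2 ^ 7 + 1037400 * a ^ 2 * b ^ 2 * G1 * G2 ^ 6 - 5601960 * a ^ 2 * b ^ 2 * G1 ^ 2 * G2 ^ 5 + 12448800 * a ^ 2 * b ^ 2 * G1 ^ 3 * G2 ^ 4 - 12448800 * a ^ 2 * b ^ 2 * G1 ^ 4 * G2 ^ 3 + 5601960 * a ^ 2 * b ^ 2 * G1 ^ 5 * G2 ^ 2 - 1037400 * a ^ 2 * b ^ 2 * G1 ^ 6 * G2 + 59280 * a ^ 2 * b ^ 2 * G1 ^ 7 - 1467180 * a * b ^ 3 * G2 ^ 7 + 5705700 * a * b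 ^ 3 * G1 * G2 ^ 6 - 6846840 * a * b ^ 3 * G1 ^ 2 * G2 ^ 5 + 3112200 * a * b ^ 3 * G1 ^ 3 * G2 ^ 4 - 518700 * a * b ^ 3 * G1 ^ 4 * G2 ^ 3 + 23940 * a * b ^ 3 * G1 ^ 5 * G2 ^ 2 - 77520 * b ^ 4 * G2 ^ 7

def LL8 (a b G1 G2 : R) : R :=
  125970 * a ^ 4 * G1 ^ 8 + 103740 * a ^ 3 * b * G1 ^ 3 * G2 ^ 5 - 1556100 * a ^ 3 * b * G1 ^ 4 * G2 ^ 4 + 6846840 * a ^ 3 * b * G1 ^ 5 * G2 ^ 3 - 11411400 * a ^ 3 * b * G1 ^ 6 * G2 ^ 2 + 7335900 * a ^ 3 * b * G1 ^ 7 * G2 - 1467180 * a ^ 3 * b * G1 ^ 8 + 22230 * a ^ 2 * b ^ 2 * G2 ^ 8 - 592800 * a ^ 2 * b ^ 2 * G1 * G2 ^ 7 + 4668300 * a ^ 2 * b ^ 2 * G1 ^ 2 * G2 ^ 6 - 14938560 * a ^ 2 * b ^ 2 * G1 ^ 3 * G2 ^ 5 + 21785400 * a ^ 2 * b ^ 2 * G1 ^ 4 * G2 ^ 4 - 14938560 * a ^ 2 * b ^ 2 * G1 ^ 5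 * G2 ^ 3 + 4668300 * a ^ 2 * b ^ 2 * G1 ^ 6 * G2 ^ 2 - 592800 * a ^ 2 * b ^ 2 * G1 ^ 7 * G2 + 22230 * a ^ 2 * b ^ 2 * G1 ^ 8 + 1467180 * a * b ^ 3 * G2 ^ 8 - 7335900 * a * b ^ 3 * G1 * G2 ^ 7 + 11411400 * a * b ^ 3 * G1 ^ 2 * G2 ^ 6 - 6846840 * a * b ^ 3 * G1 ^ 3 * G2 ^ 5 + 1556100 * a * b ^ 3 * G1 ^ 4 * G2 ^ 4 - 103740 * a * b ^ 3 * G1 ^ 5 * G2 ^ 3 + 125970 * b ^ 4 * G2 ^ 8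

def LL9 (a b G1 G2 : R) : R :=
  167960 * a ^ 4 * G1 ^ 9 + 311220 * a ^ 3 * b * G1 ^ 4 * G2 ^ 5 - 3423420 * a ^ 3 * b * G1 ^ 5 * G2 ^ 4 + 11411400 * a ^ 3 * b * G1 ^ 6 * G2 ^ 3 - 14671800 * a ^ 3 * b * G1 ^ 7 * G2 ^ 2 + 7335900 * a ^ 3 * b * G1 ^ 8 * G2 - 1141140 * a ^ 3 * b * G1 ^ 9 - 4940 * a ^ 2 * b ^ 2 * G2 ^ 9 + 222300 * a ^ 2 * b ^ 2 * G1 * G2 ^ 8 - 2667600 * a ^ 2 * b ^ 2 * G1 ^ 2 * G2 ^ 7 + 12448800 * a ^ 2 * b ^ 2 * G1 ^ 3 * G2 ^ 6 - 26142480 * a ^ 2 * b ^ 2 * G1 ^ 4 * G2 ^ 5 + 26142480 * a ^ 2 * b ^ 2 * G1 ^ 5 * G2 ^ 4 - 12448800 * a ^ 2 * b ^ 2 * G1 ^ 6 * G2 ^ 3 + 2667600 * a ^ 2 * b ^ 2 * G1 ^ 7 * G2 ^ 2 - 222300 * a ^ 2 * b ^ 2 * G1 ^ 8 * G2 + 4940 * a ^ 2 * b ^ 2 * G1 ^ 9 - 1141140 * a * b ^ 3 * G2 ^ 9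 + 7335900 * a * b ^ 3 * G1 * G2 ^ 8 - 14671800 * a * b ^ 3 * G1 ^ 2 * G2 ^ 7 + 11411400 * a * b ^ 3 * G1 ^ 3 * G2 ^ 6 - 3423420 * a * b ^ 3 * G1 ^ 4 * G2 ^ 5 + 311220 * a * b ^ 3 * G1 ^ 5 * G2 ^ 4 - 167960 * b ^ 4 * G2 ^ 9

def LL10 (a b G1 G2 : R) : R :=
  184756 * a ^ 4 * G1 ^ 10 + 684684 * a ^ 3 * b * G1 ^ 5 * G2 ^ 5 - 5705700 * a ^ 3 * b * G1 ^ 6 * G2 ^ 4 + 14671800 * a ^ 3 * b * G1 ^ 7 * G2 ^ 3 - 14671800 * a ^ 3 * b * G1 ^ 8 * G2 ^ 2 + 5705700 * a ^ 3 * b * G1 ^ 9 * G2 - 684684 * a ^ 3 * b * G1 ^ 10 + 494 * a ^ 2 * b ^ 2 * G2 ^ 10 - 49400 * a ^ 2 * b ^ 2 * G1 * G2 ^ 9 + 1000350 * a ^ 2 * b ^ 2 * G1 ^ 2 * G2 ^ 8 - 7113600 * a ^ 2 * b ^ 2 * G1 ^ 3 * G2 ^ 7 + 21785400 * a ^ 2 * b ^ 2 * G1 ^ 4 * G2 ^ 6 - 31370976 *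 a ^ 2 * b ^ 2 * G1 ^ 5 * G2 ^ 5 + 21785400 * a ^ 2 * b ^ 2 * G1 ^ 6 * G2 ^ 4 - 7113600 * a ^ 2 * b ^ 2 * G1 ^ 7 * G2 ^ 3 + 1000350 * a ^ 2 * b ^ 2 * G1 ^ 8 * G2 ^ 2 - 49400 * a ^ 2 * b ^ 2 * G1 ^ 9 * G2 + 494 * a ^ 2 * b ^ 2 * G1 ^ 10 + 684684 * a * b ^ 3 * G2 ^ 10 - 5705700 * a * b ^ 3 * G1 * G2 ^ 9 + 14671800 * a * b ^ 3 * G1 ^ 2 * G2 ^ 8 - 14671800 * a * b ^ 3 * G1 ^ 3 * G2 ^ 7 + 5705700 * a * b ^ 3 * G1 ^ 4 * G2 ^ 6 - 684684 * a * b ^ 3 * G1 ^ 5 * G2 ^ 5 + 184756 * b ^ 4 * G2 ^ 10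

def LL11 (a b G1 G2 : R) : R :=
  167960 * a ^ 4 * G1 ^ 11 + 1141140 * a ^ 3 * b * G1 ^ 6 * G2 ^ 5 - 7335900 * a ^ 3 * b * G1 ^ 7 * G2 ^ 4 + 14671800 * a ^ 3 * b * G1 ^ 8 * G2 ^ 3 - 11411400 * a ^ 3 * b * G1 ^ 9 * G2 ^ 2 + 3423420 * a ^ 3 * b * G1 ^ 10 * G2 - 311220 * a ^ 3 * b * G1 ^ 11 + 4940 * a ^ 2 * b ^ 2 * G1 * G2 ^ 10 - 222300 * a ^ 2 * b ^ 2 * G1 ^ 2 * G2 ^ 9 + 2667600 * a ^ 2 * b ^ 2 * G1 ^ 3 * G2 ^ 8 - 12448800 * a ^ 2 * b ^ 2 * G1 ^ 4 * G2 ^ 7 + 26142480 * a ^ 2 * b ^ 2 * G1 ^ 5 * G2 ^ 6 - 26142480 * a ^ 2 * b ^ 2 * G1 ^ 6 * G2 ^ 5 + 12448800 * a ^ 2 * b ^ 2 * G1 ^ 7 * G2 ^ 4 - 2667600 * a ^ 2 * b ^ 2 * G1 ^ 8 * G2 ^ 3 + 222300 * a ^ 2 * b ^ 2 * G1 ^ 9 * G2 ^ 2 - 4940 * a ^ 2 * b ^ 2 * G1 ^ 10 * G2 - 311220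 * a * b ^ 3 * G2 ^ 11 + 3423420 * a * b ^ 3 * G1 * G2 ^ 10 - 11411400 * a * b ^ 3 * G1 ^ 2 * G2 ^ 9 + 14671800 * a * b ^ 3 * G1 ^ 3 * G2 ^ 8 - 7335900 * a * b ^ 3 * G1 ^ 4 * G2 ^ 7 + 1141140 * a * b ^ 3 * G1 ^ 5 * G2 ^ 6 - 167960 * b ^ 4 * G2 ^ 11

def LL12 (a b G1 G2 : R) : R :=
  125970 * a ^ 4 * G1 ^ 12 + 1467180 * a ^ 3 * b * G1 ^ 7 * G2 ^ 5 - 7335900 * a ^ 3 * b * G1 ^ 8 * G2 ^ 4 + 11411400 * a ^ 3 * b * G1 ^ 9 * G2 ^ 3 - 6846840 * a ^ 3 * b * G1 ^ 10 * G2 ^ 2 + 1556100 * a ^ 3 * b * G1 ^ 11 * G2 - 103740 * a ^ 3 * b * G1 ^ 12 + 22230 * a ^ 2 * b ^ 2 * G1 ^ 2 * G2 ^ 10 - 592800 * a ^ 2 * b ^ 2 * G1 ^ 3 * G2 ^ 9 + 4668300 * a ^ 2 * b ^ 2 * G1 ^ 4 * G2 ^ 8 - 14938560 * a ^ 2 * b ^ 2 * G1 ^ 5 * G2 ^ 7 + 21785400 * a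 ^ 2 * b ^ 2 * G1 ^ 6 * G2 ^ 6 - 14938560 * a ^ 2 * b ^ 2 * G1 ^ 7 * G2 ^ 5 + 4668300 * a ^ 2 * b ^ 2 * G1 ^ 8 * G2 ^ 4 - 592800 * a ^ 2 * b ^ 2 * G1 ^ 9 * G2 ^ 3 + 22230 * a ^ 2 * b ^ 2 * G1 ^ 10 * G2 ^ 2 + 103740 * a * b ^ 3 * G2 ^ 12 - 1556100 * a * b ^ 3 * G1 * G2 ^ 11 + 6846840 * a * b ^ 3 * G1 ^ 2 * G2 ^ 10 - 11411400 * a * b ^ 3 * G1 ^ 3 * G2 ^ 9 + 7335900 * a * b ^ 3 * G1 ^ 4 * G2 ^ 8 - 1467180 * a * b ^ 3 * G1 ^ 5 * G2 ^ 7 + 125970 * b ^ 4 * G2 ^ 12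

def LL13 (a b G1 G2 : R) : R :=
  77520 * a ^ 4 * G1 ^ 13 + 1467180 * a ^ 3 * b * G1 ^ 8 * G2 ^ 5 - 5705700 * a ^ 3 * b * G1 ^ 9 * G2 ^ 4 + 6846840 * a ^ 3 * b * G1 ^ 10 * G2 ^ 3 - 3112200 * a ^ 3 * b * G1 ^ 11 * G2 ^ 2 + 518700 * a ^ 3 * b * G1 ^ 12 * G2 - 23940 * a ^ 3 * b * G1 ^ 13 + 59280 * a ^ 2 * b ^ 2 * G1 ^ 3 * G2 ^ 10 - 1037400 * a ^ 2 * b ^ 2 * G1 ^ 4 * G2 ^ 9 + 5601960 * a ^ 2 * b ^ 2 * G1 ^ 5 * G2 ^ 8 - 12448800 * a ^ 2 * b ^ 2 * G1 ^ 6 * G2 ^ 7 + 12448800 * a ^ 2 * b ^ 2 * G1 ^ 7 * G2 ^ 6 - 5601960 * a ^ 2 * b ^ 2 * G1 ^ 8 * G2 ^ 5 + 1037400 * a ^ 2 * b ^ 2 * G1 ^ 9 * G2 ^ 4 - 59280 * a ^ 2 * b ^ 2 * G1 ^ 10 * G2 ^ 3 - 23940 * a * b ^ 3 * G2 ^ 13 + 518700 * a * b ^ 3 * G1 * G2 ^ 12 - 3112200 * a * b ^ 3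 * G1 ^ 2 * G2 ^ 11 + 6846840 * a * b ^ 3 * G1 ^ 3 * G2 ^ 10 - 5705700 * a * b ^ 3 * G1 ^ 4 * G2 ^ 9 + 1467180 * a * b ^ 3 * G1 ^ 5 * G2 ^ 8 - 77520 * b ^ 4 * G2 ^ 13

def LL14 (a b G1 G2 : R) : R :=
  38760 * a ^ 4 * G1 ^ 14 + 1141140 * a ^ 3 * b * G1 ^ 9 * G2 ^ 5 - 3423420 * a ^ 3 * b * G1 ^ 10 * G2 ^ 4 + 3112200 * a ^ 3 * b * G1 ^ 11 * G2 ^ 3 - 1037400 * a ^ 3 * b * G1 ^ 12 * G2 ^ 2 + 119700 * a ^ 3 * b * G1 ^ 13 * G2 - 3420 * a ^ 3 * b * G1 ^ 14 + 103740 * a ^ 2 * b ^ 2 * G1 ^ 4 * G2 ^ 10 - 1244880 * a ^ 2 * b ^ 2 * G1 ^ 5 * G2 ^ 9 + 4668300 * a ^ 2 * b ^ 2 * G1 ^ 6 * G2 ^ 8 - 7113600 * a ^ 2 * b ^ 2 * G1 ^ 7 * G2 ^ 7 + 4668300 * a ^ 2 * b ^ 2 * G1 ^ 8 * G2 ^ 6 - 1244880 * a ^ 2 * b ^ 2 * G1 ^ 9 * G2 ^ 5 + 103740 *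 a ^ 2 * b ^ 2 * G1 ^ 10 * G2 ^ 4 + 3420 * a * b ^ 3 * G2 ^ 14 - 119700 * a * b ^ 3 * G1 * G2 ^ 13 + 1037400 * a * b ^ 3 * G1 ^ 2 * G2 ^ 12 - 3112200 * a * b ^ 3 * G1 ^ 3 * G2 ^ 11 + 3423420 * a * b ^ 3 * G1 ^ 4 * G2 ^ 10 - 1141140 * a * b ^ 3 * G1 ^ 5 * G2 ^ 9 + 38760 * b ^ 4 * G2 ^ 14

def LL15 (a b G1 G2 : R) : R :=
  15504 * a ^ 4 * G1 ^ 15 + 684684 * a ^ 3 * b * G1 ^ 10 * G2 ^ 5 - 1556100 * a ^ 3 * b * G1 ^ 11 * G2 ^ 4 + 1037400 * a ^ 3 * b * G1 ^ 12 * G2 ^ 3 - 239400 * a ^ 3 * b * G1 ^ 13 * G2 ^ 2 + 17100 * a ^ 3 * b * G1 ^ 14 * G2 - 228 * a ^ 3 * b * G1 ^ 15 + 124488 * a ^ 2 * b ^ 2 * G1 ^ 5 * G2 ^ 10 - 1037400 * a ^ 2 * b ^ 2 * G1 ^ 6 * G2 ^ 9 + 2667600 * a ^ 2 * b ^ 2 * G1 ^ 7 * G2 ^ 8 - 2667600 * a ^ 2 * b ^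 2 * G1 ^ 8 * G2 ^ 7 + 1037400 * a ^ 2 * b ^ 2 * G1 ^ 9 * G2 ^ 6 - 124488 * a ^ 2 * b ^ 2 * G1 ^ 10 * G2 ^ 5 - 228 * a * b ^ 3 * G2 ^ 15 + 17100 * a * b ^ 3 * G1 * G2 ^ 14 - 239400 * a * b ^ 3 * G1 ^ 2 * G2 ^ 13 + 1037400 * a * b ^ 3 * G1 ^ 3 * G2 ^ 12 - 1556100 * a * b ^ 3 * G1 ^ 4 * G2 ^ 11 + 684684 * a * b ^ 3 * G1 ^ 5 * G2 ^ 10 - 15504 * b ^ 4 * G2 ^ 15

def LL16 (a b G1 G2 : R) : R :=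
  4845 * a ^ 4 * G1 ^ 16 + 311220 * a ^ 3 * b * G1 ^ 11 * G2 ^ 5 - 518700 * a ^ 3 * b * G1 ^ 12 * G2 ^ 4 + 239400 * a ^ 3 * b * G1 ^ 13 * G2 ^ 3 - 34200 * a ^ 3 * b * G1 ^ 14 * G2 ^ 2 + 1140 * a ^ 3 * b * G1 ^ 15 * G2 + 103740 * a ^ 2 * b ^ 2 * G1 ^ 6 * G2 ^ 10 - 592800 * a ^ 2 * b ^ 2 * G1 ^ 7 * G2 ^ 9 + 1000350 * a ^ 2 * b ^ 2 * G1 ^ 8 * G2 ^ 8 - 592800 * a ^ 2 * b ^ 2 * G1 ^ 9 * G2 ^ 7 + 103740 * a ^ 2 * b ^ 2 * G1 ^ 10 * G2 ^ 6 - 1140 * a * b ^ 3 * G1 * G2 ^ 15 + 34200 * a * b ^ 3 * G1 ^ 2 * G2 ^ 14 - 239400 * a * b ^ 3 * G1 ^ 3 * G2 ^ 13 + 518700 * a * b ^ 3 * G1 ^ 4 * G2 ^ 12 - 311220 * a * b ^ 3 * G1 ^ 5 * G2 ^ 11 + 4845 * b ^ 4 * G2 ^ 16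

def LL17 (a b G1 G2 : R) : R :=
  1140 * a ^ 4 * G1 ^ 17 + 103740 * a ^ 3 * b * G1 ^ 12 * G2 ^ 5 - 119700 * a ^ 3 * b * G1 ^ 13 * G2 ^ 4 + 34200 * a ^ 3 * b * G1 ^ 14 * G2 ^ 3 - 2280 * a ^ 3 * b * G1 ^ 15 * G2 ^ 2 + 59280 * a ^ 2 * b ^ 2 * G1 ^ 7 * G2 ^ 10 - 222300 * a ^ 2 * b ^ 2 * G1 ^ 8 * G2 ^ 9 + 222300 * a ^ 2 * b ^ 2 * G1 ^ 9 * G2 ^ 8 - 59280 * a ^ 2 * b ^ 2 * G1 ^ 10 * G2 ^ 7 - 2280 * a * b ^ 3 * G1 ^ 2 * G2 ^ 15 + 34200 * a * b ^ 3 * G1 ^ 3 * G2 ^ 14 - 119700 * a * b ^ 3 * G1 ^ 4 * G2 ^ 13 + 103740 * a * b ^ 3 * G1 ^ 5 * G2 ^ 12 - 1140 * b ^ 4 * G2 ^ 17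

def LL18 (a b G1 G2 : R) : R :=
  190 * a ^ 4 * G1 ^ 18 + 23940 * a ^ 3 * b * G1 ^ 13 * G2 ^ 5 - 17100 * a ^ 3 * b * G1 ^ 14 * G2 ^ 4 + 2280 * a ^ 3 * b * G1 ^ 15 * G2 ^ 3 + 22230 * a ^ 2 * b ^ 2 * G1 ^ 8 * G2 ^ 10 - 49400 * a ^ 2 * b ^ 2 * G1 ^ 9 * G2 ^ 9 + 22230 * a ^ 2 * b ^ 2 * G1 ^ 10 * G2 ^ 8 - 2280 * a * b ^ 3 * G1 ^ 3 * G2 ^ 15 + 17100 * a * b ^ 3 * G1 ^ 4 * G2 ^ 14 - 23940 * a * b ^ 3 * G1 ^ 5 * G2 ^ 13 + 190 * b ^ 4 * G2 ^ 18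

def LL19 (a b G1 G2 : R) : R :=
  20 * a ^ 4 * G1 ^ 19 + 3420 * a ^ 3 * b * G1 ^ 14 * G2 ^ 5 - 1140 * a ^ 3 * b * G1 ^ 15 * G2 ^ 4 + 4940 * a ^ 2 * b ^ 2 * G1 ^ 9 * G2 ^ 10 - 4940 * a ^ 2 * b ^ 2 * G1 ^ 10 * G2 ^ 9 - 1140 * a * b ^ 3 * G1 ^ 4 * G2 ^ 15 + 3420 * a * b ^ 3 * G1 ^ 5 * G2 ^ 14 - 20 * b ^ 4 * G2 ^ 19

def LL20 (a b G1 G2 : R) : R :=
  1 * a ^ 4 * G1 ^ 20 + 228 * a ^ 3 * b * G1 ^ 15 * G2 ^ 5 + 494 * a ^ 2 * b ^ 2 * G1 ^ 10 * G2 ^ 10 - 228 * a * b ^ 3 * G1 ^ 5 * G2 ^ 15 + 1 * b ^ 4 * G2 ^ 20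

theorem expand (a b u v G1 G2 : R) :
    c4F (a * (u + v * G1) ^ 5) (b * (u - v * G2) ^ 5) =
      LL0 a b G1 G2 * u ^ 20 * v ^ 0 +
      LL1 a b G1 G2 * u ^ 19 * v ^ 1 +
      LL2 a b G1 G2 * u ^ 18 * v ^ 2 +
      LL3 a b G1 G2 * u ^ 17 * v ^ 3 +
      LL4 a b G1 G2 * u ^ 16 * v ^ 4 +
      LL5 a b G1 G2 * u ^ 15 * v ^ 5 +
      LL6 a b G1 G2 * u ^ 14 * v ^ 6 +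
      LL7 a b G1 G2 * u ^ 13 * v ^ 7 +
      LL8 a b G1 G2 * u ^ 12 * v ^ 8 +
      LL9 a b G1 G2 * u ^ 11 * v ^ 9 +
      LL10 a b G1 G2 * u ^ 10 * v ^ 10 +
      LL11 a b G1 G2 * u ^ 9 * v ^ 11 +
      LL12 a b G1 G2 * u ^ 8 * v ^ 12 +
      LL13 a b G1 G2 * u ^ 7 * v ^ 13 +
      LL14 a b G1 G2 * u ^ 6 * v ^ 14 +
      LL15 a b G1 G2 * u ^ 5 * v ^ 15 +
      LL16 a b G1 G2 * u ^ 4 * v ^ 16 +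
      LL17 a b G1 G2 * u ^ 3 * v ^ 17 +
      LL18 a b G1 G2 * u ^ 2 * v ^ 18 +
      LL19 a b G1 G2 * u ^ 1 * v ^ 19 +
      LL20 a b G1 G2 * u ^ 0 * v ^ 20 := by
  simp only [c4F, LL0, LL1, LL2, LL3, LL4, LL5, LL6, LL7, LL8, LL9, LL10, LL11, LL12, LL13, LL14, LL15, LL16, LL17, LL18, LL19, LL20]
  ring

theorem coeff0 (a b : R) : LL0 a b (g1 a b) (g2 a b) = hc0 (c4F a b) (c6F a b) := by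
  simp only [LL0, hc0, g1, g2, c4F, c6F]
  ring

theorem coeff1 (a b : R) : LL1 a b (g1 a b) (g2 a b) = hc1 (c4F a b) (c6F a b) := by
  simp only [LL1, hc1, g1, g2, c4F, c6F]
  ring

theorem coeff2 (a b : R) : LL2 a b (g1 a b) (g2 a b) = hc2 (c4F a b) (c6F a b) := by
  simp only [LL2, hc2, g1, g2, c4F, c6F]
  ring

theorem coeff3 (a b : R) : LL3 a b (g1 a b) (g2 a b) = hc3 (c4F a b) (c6F a b) := by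
  simp only [LL3, hc3, g1, g2, c4F, c6F]
  ring

theorem coeff4 (a b : R) : LL4 a b (g1 a b) (g2 a b) = hc4 (c4F a b) (c6F a b) := by
  simp only [LL4, hc4, g1, g2, c4F, c6F]
  ring

theorem coeff5 (a b : R) : LL5 a b (g1 a b) (g2 a b) = hc5 (c4F a b) (c6F a b) := by
  simp only [LL5, hc5, g1, g2, c4F, c6F]
  ring

theorem coeff6 (a b : R) : LL6 a b (g1 a b) (g2 a b) = hc6 (c4F a b) (c6F a b) := by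
  simp only [LL6, hc6, g1, g2, c4F, c6F]
  ring

theorem coeff7 (a b : R) : LL7 a b (g1 a b) (g2 a b) = hc7 (c4F a b) (c6F a b) := by
  simp only [LL7, hc7, g1, g2, c4F, c6F]
  ring

theorem coeff8 (a b : R) : LL8 a b (g1 a b) (g2 a b) = hc8 (c4F a b) (c6F a b) := by
  simp only [LL8, hc8, g1, g2, c4F, c6F]
  ring

theorem coeff9 (a b : R) : LL9 a b (g1 a b) (g2 a b) = hc9 (c4F a b) (c6F a b) := by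
  simp only [LL9, hc9, g1, g2, c4F, c6F]
  ring

theorem coeff10 (a b : R) : LL10 a b (g1 a b) (g2 a b) = hc10 (c4F a b) (c6F a b) := by
  simp only [LL10, hc10, g1, g2, c4F, c6F]
  ring

theorem coeff11 (a b : R) : LL11 a b (g1 a b) (g2 a b) = hc11 (c4F a b) (c6F a b) := by
  simp only [LL11, hc11, g1, g2, c4F, c6F]
  ring

theorem coeff12 (a b : R) : LL12 a b (g1 a b) (g2 a b) = hc12 (c4F a b) (c6F a b) := by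
  simp only [LL12, hc12, g1, g2, c4F, c6F]
  ring

theorem coeff13 (a b : R) : LL13 a b (g1 a b) (g2 a b) = hc13 (c4F a b) (c6F a b) := by
  simp only [LL13, hc13, g1, g2, c4F, c6F]
  ring

theorem coeff14 (a b : R) : LL14 a b (g1 a b) (g2 a b) = hc14 (c4F a b) (c6F a b) := by
  simp only [LL14, hc14, g1, g2, c4F, c6F]
  ring

theorem coeff15 (a b : R) : LL15 a b (g1 a b) (g2 a b) = hc15 (c4F a b) (c6F a b) := by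
  simp only [LL15, hc15, g1, g2, c4F, c6F]
  ring

theorem coeff16 (a b : R) : LL16 a b (g1 a b) (g2 a b) = hc16 (c4F a b) (c6F a b) := by
  simp only [LL16, hc16, g1, g2, c4F, c6F]
  ring

theorem coeff17 (a b : R) : LL17 a b (g1 a b) (g2 a b) = hc17 (c4F a b) (c6F a b) := by
  simp only [LL17, hc17, g1, g2, c4F, c6F]
  ring

theorem coeff18 (a b : R) : LL18 a b (g1 a b) (g2 a b) = hc18 (c4F a b) (c6F a b) := by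
  simp only [LL18, hc18, g1, g2, c4F, c6F]
  ring

theorem coeff19 (a b : R) : LL19 a b (g1 a b) (g2 a b) = hc19 (c4F a b) (c6F a b) := by
  simp only [LL19, hc19, g1, g2, c4F, c6F]
  ring

theorem coeff20 (a b : R) : LL20 a b (g1 a b) (g2 a b) = hc20 (c4F a b) (c6F a b) := by
  simp only [LL20, hc20, g1, g2, c4F, c6F]
  ring

theorem main (a b u v : R) :
    c4F (a * (u + v * g1 a b) ^ 5) (b * (u - v * g2 a b) ^ 5) = HH (c4F a b) (c6F a b) u v := by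
  rw [expand, coeff0, coeff1, coeff2, coeff3, coeff4, coeff5, coeff6, coeff7, coeff8, coeff9, coeff10, coeff11, coeff12, coeff13, coeff14, coeff15, coeff16, coeff17, coeff18, coeff19, coeff20]
  simp only [HH, Hpart0, Hpart1, Hpart2]
  ring

end Fermat.Agent.S52.I1

namespace Fermat.Agent.S52

theorem stmt_I1 : Stmt_I1 := fun _ _ a b u v => I1.main a b u v

end Fermat.Agent.S52
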