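import Fermat.Agent.S52.Interface2

/-! # S52, package IDS: the ring identities I0, I3, I4 -/

set_option autoImplicit false

namespace Fermat.Agent.S52

theorem stmt_I0 : Stmt_I0 := by
  intro R _ a b
  simp only [c4F, c6F, dF]
  ring

set_option maxHeartbeats 4000000 in
theorem stmt_I3 : Stmt_I3 := by
  intro R _ a b u v
  simp only [c4F, c6F, dF, g1, g2, DD, Dpart0, Dpart1, dc0, dc1, dc2, dc3, dc4, dc5, dc6, dc7, dc8,
    dc9, dc10, dc11, dc12]
  ring

set_option maxHeartbeats 0 in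
set_option maxRecDepth 100000 in
/-- brute force `ring` (about 2 minutes). -/
theorem stmt_I4 : Stmt_I4 := by
  intro R _ c4 c6 u v
  simp only [HH, TT, DD, Hpart0, Hpart1, Hpart2, Tpart0, Tpart1, Tpart2, Tpart3, Dpart0, Dpart1,
    hc0, hc1, hc2, hc3, hc4, hc5, hc6, hc7, hc8, hc9, hc10, hc11, hc12, hc13, hc14, hc15, hc16,
    hc17, hc18, hc19, hc20,
    tc0, tc1, tc2, tc3, tc4, tc5, tc6, tc7, tc8, tc9, tc10, tc11, tc12, tc13, tc14, tc15, tc16,
    tc17, tc18, tc19, tc20, tc21, tc22, tc23, tc24, tc25, tc26, tc27, tc28, tc29, tc30,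
    dc0, dc1, dc2, dc3, dc4, dc5, dc6, dc7, dc8, dc9, dc10, dc11, dc12]
  ring

end Fermat.Agent.S52
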