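import Fermat.Agent.S52.Interface

/-! # S52, package C-1: integral model with prescribed invariants (helper29) -/

set_option autoImplicit false

namespace Fermat.Agent.S52

theorem stmt_Model : Stmt_Model := by
  rintro W c4' c6' ⟨k, hk⟩ ⟨m, hm⟩
  refine ⟨⟨W.a₁, W.a₂, W.a₃, W.a₄ - 36 * k, W.a₆ - 3 * W.b₂ * k - 2 * m⟩, ?_, ?_⟩
  · simp only [WeierstrassCurve.c₄, WeierstrassCurve.b₂, WeierstrassCurve.b₄] at hk ⊢
    linear_combination -hk
  · simp only [WeierstrassCurve.c₆, WeierstrassCurve.b₂, WeierstrassCurve.b₄,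
      WeierstrassCurve.b₆] at hm ⊢
    linear_combination -hm

end Fermat.Agent.S52

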