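import Fermat.Agent.S52.Interface2

/-! # S52, package N : `NCZab` and `NCZ` (no common zeros). -/

set_option autoImplicit false

namespace Fermat.Agent.S52

namespace NCZ

theorem two_three_five_ne {K : Type} [Field K] (h30 : (30 : K) ≠ 0) :
    (2 : K) ≠ 0 ∧ (3 : K) ≠ 0 ∧ (5 : K) ≠ 0 := by
  refine ⟨fun h => h30 ?_, fun h => h30 ?_, fun h => h30 ?_⟩
  · linear_combination (15 : K) * h
  · linear_combination (10 : K) * h
  · linear_combination (6 : K) * h

end NCZ

theorem stmt_NCZab : Stmt_NCZab := by
  intro K _ h30 a b hc hab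
  obtain ⟨-, -, h5⟩ := NCZ.two_three_five_ne h30
  unfold c4F at hc
  have case_a : a = 0 → a = 0 ∧ b = 0 := by
    intro ha
    refine ⟨ha, ?_⟩
    subst ha
    have : b ^ 4 = 0 := by linear_combination hc
    exact pow_eq_zero_iff (by norm_num) |>.mp this
  have case_b : b = 0 → a = 0 ∧ b = 0 := by
    intro hb
    refine ⟨?_, hb⟩
    subst hb
    have : a ^ 4 = 0 := by linear_combination hc
    exact pow_eq_zero_iff (by norm_num) |>.mp this
  rcases mul_eq_zero.mp hab with hab | hd
  · rcases mul_eq_zero.mp hab with ha | hb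
    · exact case_a ha
    · exact case_b hb
  · unfold dF at hd
    have h1 : (5 : K) ^ 5 * (b ^ 3 * (b - 11 * a)) = 0 := by
      linear_combination hc - (a ^ 2 - 239 * a * b + 3124 * b ^ 2) * hd
    rcases mul_eq_zero.mp h1 with h | h
    · exact absurd (pow_eq_zero_iff (by norm_num) |>.mp h) h5
    · rcases mul_eq_zero.mp h with h | h
      · exact case_b (pow_eq_zero_iff (by norm_num) |>.mp h)
      · have hb : b = 11 * a := by linear_combination h
        subst hb
        have : a ^ 2 = 0 := by linear_combination hd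
        exact case_a (pow_eq_zero_iff (by norm_num) |>.mp this)

theorem stmt_NCZ (h0 : Stmt_I0) (h1 : Stmt_I1) (h3 : Stmt_I3) (hM : Stmt_Map)
    (hE : Stmt_ExistsAB) : Stmt_NCZ := by
  intro K _ h30 c4 c6 u v hne hH hD
  let L := AlgebraicClosure K
  let f : K →+* L := algebraMap K L
  have hf : Function.Injective f := f.injective
  have h30L : (30 : L) ≠ 0 := by
    intro h
    apply h30
    apply hf
    rw [map_zero, map_ofNat]
    exact h
  obtain ⟨h2L, h3L, -⟩ := NCZ.two_three_five_ne h30L
  have hneL : (f c4) ^ 3 ≠ (f c6) ^ 2 := by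
    intro h
    apply hne
    apply hf
    rw [map_pow, map_pow]
    exact h
  obtain ⟨a, b, hab4, hab6⟩ := hE L h30L (f c4) (f c6) hneL
  have hI0 := h0 L a b
  rw [hab4, hab6] at hI0
  have hprod : a * b * dF a b ^ 5 ≠ 0 := by
    intro h
    apply hneL
    linear_combination hI0 - 1728 * h
  have ha : a ≠ 0 := fun h => hprod (by rw [h]; ring)
  have hb : b ≠ 0 := fun h => hprod (by rw [h]; ring)
  have hd : dF a b ≠ 0 := fun h => hprod (by rw [h]; ring)
  obtain ⟨-, -, -, -, -, hMH, -, hMD⟩ := hM K L f c4 c6 u v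
  have hHL : HH (f c4) (f c6) (f u) (f v) = 0 := by rw [← hMH, hH, map_zero]
  have hDL : DD (f c4) (f c6) (f u) (f v) = 0 := by rw [← hMD, hD, map_zero]
  have e1 := h1 L a b (f u) (f v)
  have e3 := h3 L a b (f u) (f v)
  rw [hab4, hab6] at e1 e3
  rw [hHL] at e1
  rw [hDL, mul_zero] at e3
  set A := f u + f v * g1 a b with hA
  set B := f u - f v * g2 a b with hB
  have e3' : a * A ^ 5 * (b * B ^ 5) * dF (a * A ^ 5) (b * B ^ 5) = 0 := by
    linear_combination (a * b * A ^ 4 * B ^ 4) * e3
  obtain ⟨ha', hb'⟩ := stmt_NCZab L h30L _ _ e1 e3'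
  have hA0 : A = 0 := by
    rcases mul_eq_zero.mp ha' with h | h
    · exact absurd h ha
    · exact pow_eq_zero_iff (by norm_num) |>.mp h
  have hB0 : B = 0 := by
    rcases mul_eq_zero.mp hb' with h | h
    · exact absurd h hb
    · exact pow_eq_zero_iff (by norm_num) |>.mp h
  have hv : f v = 0 := by
    have : (2 : L) ^ 2 * 3 * (f v * dF a b) = 0 := by
      have h := hA0
      rw [hA] at h
      have h' := hB0
      rw [hB] at h'
      unfold g1 at h
      unfold g2 at h'
      unfold dF
      linear_combination h - h'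
    rcases mul_eq_zero.mp this with h | h
    · rcases mul_eq_zero.mp h with h | h
      · exact absurd (pow_eq_zero_iff (by norm_num) |>.mp h) h2L
      · exact absurd h h3L
    · rcases mul_eq_zero.mp h with h | h
      · exact h
      · exact absurd h hd
  have hu : f u = 0 := by
    have h := hA0
    rw [hA, hv] at h
    linear_combination h
  exact ⟨hf (by rw [hu, map_zero]), hf (by rw [hv, map_zero])⟩

end Fermat.Agent.S52
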