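import Fermat.Agent.S52.Interface2

/-! # S52, package C-4b: the 3-division quartic of the family has no polynomial root. -/

set_option autoImplicit false

open Polynomial

namespace Fermat.Agent.S52

namespace NoPolyRoot

theorem key_identity {R : Type*} [CommRing R] (H T P : R) (h : Q3 H T P = 0) :
    (P ^ 2 - 81 * H) ^ 3 * (P ^ 2 - 729 * H) = 5832 ^ 2 * P ^ 2 * (T ^ 2 - H ^ 3) := by
  unfold Q3 at h
  linear_combination (P ^ 4 - 486 * H * P ^ 2 - 19683 * H ^ 2 + 5832 * T * P) * h

theorem map_Q3 {R S : Type*} [CommRing R] [CommRing S] (f : R →+* S) (a b c : R) :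
    f (Q3 a b c) = Q3 (f a) (f b) (f c) := by
  simp only [Q3, map_sub, map_mul, map_pow, map_ofNat]

theorem rootMult_pow {L : Type} [Field L] (p : L[X]) (hp : p ≠ 0) (x : L) (n : ℕ) :
    (p ^ n).rootMultiplicity x = n * p.rootMultiplicity x := by
  induction n with
  | zero => simp
  | succ n ih =>
    rw [pow_succ, rootMultiplicity_mul (mul_ne_zero (pow_ne_zero _ hp) hp), ih]
    ring

theorem natDegree_le_ten {L : Type} [Field L] (H T P : L[X]) (hH : H.natDegree ≤ 20)
    (hT : T.natDegree ≤ 30) (h : Q3 H T P = 0) : P.natDegree ≤ 10 := by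
  by_contra hd
  rw [not_le] at hd
  unfold Q3 at h
  have h1 : P ^ 4 = C 486 * (H * P ^ 2) + C 5832 * (T * P) + C 19683 * H ^ 2 := by
    simp only [map_ofNat]
    linear_combination h
  have h2 : (P ^ 4).natDegree = 4 * P.natDegree := natDegree_pow P 4
  have h3 : (C 486 * (H * P ^ 2) + C 5832 * (T * P) + C 19683 * H ^ 2 : L[X]).natDegree
      < 4 * P.natDegree := by
    have a1 : (C 486 * (H * P ^ 2) : L[X]).natDegree ≤ 20 + 2 * P.natDegree := by
      refine (natDegree_C_mul_le _ _).trans (natDegree_mul_le.trans ?_)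
      rw [natDegree_pow]
      omega
    have a2 : (C 5832 * (T * P) : L[X]).natDegree ≤ 30 + P.natDegree := by
      refine (natDegree_C_mul_le _ _).trans (natDegree_mul_le.trans ?_)
      omega
    have a3 : (C 19683 * H ^ 2 : L[X]).natDegree ≤ 40 := by
      refine (natDegree_C_mul_le _ _).trans ?_
      rw [natDegree_pow]
      omega
    have b1 := natDegree_add_le (C 486 * (H * P ^ 2) + C 5832 * (T * P) : L[X]) (C 19683 * H ^ 2)
    have b2 := natDegree_add_le (C 486 * (H * P ^ 2) : L[X]) (C 5832 * (T * P))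
    omega
  rw [← h1, h2] at h3
  exact lt_irrefl _ h3

theorem core (h4 : Stmt_I4) (hM : Stmt_Map) (hD : Stmt_Deg) (hN : Stmt_NCZ)
    (hS : Stmt_SimpleRoots)
    (L : Type) [Field L] [CharZero L] [IsAlgClosed L] (c4 c6 : L) (hc : c4 ^ 3 ≠ c6 ^ 2)
    (P : L[X]) :
    Q3 (HH (C c4) (C c6) 1 X) (TT (C c4) (C c6) 1 X) P ≠ 0 := by
  classical
  intro hQ
  obtain ⟨hdH, hdT, -, -, -, -⟩ := hD L c4 c6
  have hI4 := h4 L[X] (C c4) (C c6) 1 X
  have hkey := key_identity _ _ P hQ
  have hevH : ∀ z : L, (HH (C c4) (C c6) 1 X : L[X]).eval z = HH c4 c6 1 z := by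
    intro z
    have := (hM L[X] L (evalRingHom z) (C c4) (C c6) 1 X).2.2.2.2.2.1
    simpa using this
  have hevD : ∀ z : L, (DD (C c4) (C c6) 1 X : L[X]).eval z = DD c4 c6 1 z := by
    intro z
    have := (hM L[X] L (evalRingHom z) (C c4) (C c6) 1 X).2.2.2.2.2.2.2
    simpa using this
  obtain ⟨S, hScard, hSroot⟩ := hS L c4 c6 hc
  have hdP := natDegree_le_ten _ _ P hdH hdT hQ
  generalize hHdef : (HH (C c4) (C c6) 1 X : L[X]) = H at *
  generalize hTdef : (TT (C c4) (C c6) 1 X : L[X]) = T at *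
  generalize hDdef : (DD (C c4) (C c6) 1 X : L[X]) = D at *
  have h30 : (30 : L) ≠ 0 := by norm_num
  -- the constant
  set κ : L := -(5832 ^ 2 * (c4 ^ 3 - c6 ^ 2)) with hκ
  have hκ0 : κ ≠ 0 := by
    rw [hκ]
    refine neg_ne_zero.mpr (mul_ne_zero (by norm_num) (sub_ne_zero.mpr hc))
  have hmain : (P ^ 2 - 81 * H) ^ 3 * (P ^ 2 - 729 * H) = C κ * (P ^ 2 * D ^ 5) := by
    rw [hkey, hκ]
    simp only [map_neg, map_mul, map_pow, map_sub, map_ofNat]
    linear_combination (-(5832 ^ 2 * P ^ 2)) * hI4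
  -- S nonempty
  have hSne : S.Nonempty := by
    rw [← Finset.card_pos]; omega
  have hD0 : D ≠ 0 := by
    obtain ⟨z, hz⟩ := hSne
    intro h0
    have := hSroot z hz
    rw [h0, rootMultiplicity_zero] at this
    exact zero_ne_one this
  have hfacts : ∀ z ∈ S, H.eval z ≠ 0 ∧ P.eval z ≠ 0 := by
    intro z hz
    have hDz : D.eval z = 0 := by
      have h1 : 0 < D.rootMultiplicity z := by rw [hSroot z hz]; exact one_pos
      exact (rootMultiplicity_pos hD0).mp h1
    have hHz : H.eval z ≠ 0 := by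
      intro hH0
      have := hN L h30 c4 c6 1 z hc (by rw [← hevH z]; exact hH0) (by rw [← hevD z]; exact hDz)
      exact one_ne_zero this.1
    refine ⟨hHz, ?_⟩
    intro hP0
    have := congrArg (eval z) hQ
    simp only [Q3, eval_sub, eval_mul, eval_pow, eval_ofNat, hP0, eval_zero] at this
    apply hHz
    have h2 : (19683 : L) * H.eval z ^ 2 = 0 := by linear_combination -this
    have h3 : H.eval z ^ 2 = 0 := by
      rcases mul_eq_zero.mp h2 with h | h
      · exact absurd h (by norm_num)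
      · exact h
    exact pow_eq_zero_iff (two_ne_zero) |>.mp h3
  have hP0 : P ≠ 0 := by
    obtain ⟨z, hz⟩ := hSne
    intro h0
    exact (hfacts z hz).2 (by rw [h0, eval_zero])
  have hrhs0 : C κ * (P ^ 2 * D ^ 5) ≠ 0 :=
    mul_ne_zero (C_ne_zero.mpr hκ0) (mul_ne_zero (pow_ne_zero _ hP0) (pow_ne_zero _ hD0))
  have hlhs0 : (P ^ 2 - 81 * H) ^ 3 * (P ^ 2 - 729 * H) ≠ 0 := by rw [hmain]; exact hrhs0
  have hS0 : (P ^ 2 - 81 * H) ≠ 0 := by
    intro h0; apply hlhs0; rw [h0]; simp
  have hR0 : (P ^ 2 - 729 * H) ≠ 0 := by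
    intro h0; apply hlhs0; rw [h0]; simp
  have hmult : ∀ z ∈ S, (P ^ 2 - 729 * H).rootMultiplicity z = 5 := by
    intro z hz
    obtain ⟨hHz, hPz⟩ := hfacts z hz
    have e1 : ((P ^ 2 - 81 * H) ^ 3 * (P ^ 2 - 729 * H)).rootMultiplicity z
        = 3 * (P ^ 2 - 81 * H).rootMultiplicity z + (P ^ 2 - 729 * H).rootMultiplicity z := by
      rw [rootMultiplicity_mul hlhs0, rootMult_pow _ hS0]
    have e2 : (C κ * (P ^ 2 * D ^ 5)).rootMultiplicity z = 5 := by
      rw [rootMultiplicity_mul hrhs0, rootMultiplicity_C,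
        rootMultiplicity_mul (mul_ne_zero (pow_ne_zero _ hP0) (pow_ne_zero _ hD0)),
        rootMult_pow _ hP0, rootMult_pow _ hD0, hSroot z hz,
        rootMultiplicity_eq_zero hPz]
    rw [hmain, e2] at e1
    by_cases hs : (P ^ 2 - 81 * H).rootMultiplicity z = 0
    · omega
    · exfalso
      have hsz : (P ^ 2 - 81 * H).eval z = 0 :=
        (rootMultiplicity_pos hS0).mp (Nat.pos_of_ne_zero hs)
      have hr : (P ^ 2 - 729 * H).rootMultiplicity z = 0 := by
        apply rootMultiplicity_eq_zero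
        intro hrz
        have hrz' : (P ^ 2 - 729 * H).eval z = 0 := hrz
        apply hHz
        simp only [eval_sub, eval_mul, eval_pow, eval_ofNat] at hsz hrz'
        have : (648 : L) * H.eval z = 0 := by linear_combination hsz - hrz'
        rcases mul_eq_zero.mp this with h | h
        · exact absurd h (by norm_num)
        · exact h
      omega
  -- count roots
  have hsub : S ⊆ (P ^ 2 - 729 * H).roots.toFinset := by
    intro z hz
    rw [Multiset.mem_toFinset, mem_roots hR0]
    have : 0 < (P ^ 2 - 729 * H).rootMultiplicity z := by rw [hmult z hz]; norm_num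
    exact (rootMultiplicity_pos hR0).mp this
  have hcount : ∑ z ∈ S, (P ^ 2 - 729 * H).roots.count z = 5 * S.card := by
    rw [Finset.sum_congr rfl (fun z hz => by rw [count_roots, hmult z hz])]
    simp [mul_comm]
  have hle : ∑ z ∈ S, (P ^ 2 - 729 * H).roots.count z ≤ Multiset.card (P ^ 2 - 729 * H).roots := by
    rw [← Multiset.toFinset_sum_count_eq]
    exact Finset.sum_le_sum_of_subset hsub
  have hdeg : (P ^ 2 - 729 * H).natDegree ≤ 20 := by
    have a1 : (P ^ 2).natDegree ≤ 20 := by rw [natDegree_pow]; omega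
    have a2 : (729 * H : L[X]).natDegree ≤ 20 := by
      have : (729 : L[X]) = C 729 := (map_ofNat C 729).symm
      rw [this]
      exact (natDegree_C_mul_le _ _).trans hdH
    exact (natDegree_sub_le _ _).trans (max_le a1 a2)
  have := card_roots' (P ^ 2 - 729 * H)
  omega

end NoPolyRoot

theorem stmt_NoPolyRoot (h4 : Stmt_I4) (hM : Stmt_Map) (hD : Stmt_Deg) (hN : Stmt_NCZ)
    (hS : Stmt_SimpleRoots) : Stmt_NoPolyRoot := by
  intro K _ _ c4 c6 hc P hQ
  let L := AlgebraicClosure K
  let f : K[X] →+* L[X] := mapRingHom (algebraMap K L)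
  have h1 := congrArg f hQ
  rw [NoPolyRoot.map_Q3, map_zero] at h1
  have hHH := (hM K[X] L[X] f (C c4) (C c6) 1 X).2.2.2.2.2.1
  have hTT := (hM K[X] L[X] f (C c4) (C c6) 1 X).2.2.2.2.2.2.1
  rw [hHH, hTT] at h1
  have hfC : ∀ a : K, f (C a) = C (algebraMap K L a) := fun a => by simp [f]
  have hfX : f X = X := by simp [f]
  rw [hfC, hfC, hfX, map_one] at h1
  refine NoPolyRoot.core h4 hM hD hN hS L (algebraMap K L c4) (algebraMap K L c6) ?_ (f P) h1
  intro h
  apply hc
  apply (algebraMap K L).injective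
  simpa using h

end Fermat.Agent.S52
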