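import Fermat.Agent.S52.Interface

/-! # S52 (3-5 switch): interface, part 2 (affine parametrisation `(u, v) = (1, t)`).
Architect: helper52.  These statements supersede `Stmt_Cong`, `Stmt_Choice`, `Stmt_Semistable`,
`Stmt_HIT` of `Interface.lean` (which are no longer needed). -/

set_option autoImplicit false

open WeierstrassCurve WeierstrassCurve.Affine WeierstrassCurve.Affine.Point

namespace Fermat.Agent.S52

/-! ## Top level -/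

/-- (B) members of the family have "the same" 5-torsion point. -/
def Stmt_Cong1 : Prop :=
  ∀ (W W' : WeierstrassCurve ℤ) (t : ℤ), W.Δ ≠ 0 → W'.Δ ≠ 0 →
    W'.c₄ = HH W.c₄ W.c₆ 1 t → W'.c₆ = TT W.c₄ W.c₆ 1 t →
    ∃ (P : (EQb W).Point) (P' : (EQb W').Point), (5 : ℕ) • P = 0 ∧ (5 : ℕ) • P' = 0 ∧ P' ≠ 0 ∧
      ∀ (σ : GQ) (α β γ : ℤ), α • σ • σ • P + β • σ • P + γ • P = 0 →
        α • σ • σ • P' + β • σ • P' + γ • P' = 0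

/-- (C) choice of the member. -/
def Stmt_Choice1 : Prop :=
  ∀ W : WeierstrassCurve ℤ, W.Δ ≠ 0 → W.IsSemistableModel → ¬ W.ModRepIsIrreducible 3 →
    ∃ (W' : WeierstrassCurve ℤ) (t : ℤ), W'.Δ ≠ 0 ∧ W'.IsSemistableModel ∧
      W'.ModRepIsIrreducible 3 ∧ W'.c₄ = HH W.c₄ W.c₆ 1 t ∧ W'.c₆ = TT W.c₄ W.c₆ 1 t

/-! ## Identities -/

/-- (B-0) -/
def Stmt_I0 : Prop := ∀ (R : Type) [CommRing R] (a b : R),
  c4F a b ^ 3 - c6F a b ^ 2 = -1728 * a * b * dF a b ^ 5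

/-- (B-0') -/
def Stmt_I4 : Prop := ∀ (R : Type) [CommRing R] (c4 c6 u v : R),
  HH c4 c6 u v ^ 3 - TT c4 c6 u v ^ 2 = (c4 ^ 3 - c6 ^ 2) * DD c4 c6 u v ^ 5

/-- (D-1) ring homs commute with everything in `Defs.lean`. -/
def Stmt_Map : Prop := ∀ (R S : Type) [CommRing R] [CommRing S] (f : R →+* S) (a b u v : R),
  f (c4F a b) = c4F (f a) (f b) ∧ f (c6F a b) = c6F (f a) (f b) ∧ f (dF a b) = dF (f a) (f b) ∧
  f (g1 a b) = g1 (f a) (f b) ∧ f (g2 a b) = g2 (f a) (f b) ∧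
  f (HH a b u v) = HH (f a) (f b) (f u) (f v) ∧ f (TT a b u v) = TT (f a) (f b) (f u) (f v) ∧
  f (DD a b u v) = DD (f a) (f b) (f u) (f v)

/-- (D-2) behaviour at the base point `t = 0`. -/
def Stmt_Base : Prop := ∀ (R : Type) [CommRing R] (c4 c6 t : R),
  t ∣ HH c4 c6 1 t - c4 ∧ t ∣ TT c4 c6 1 t - c6 ∧ t ∣ DD c4 c6 1 t - 1

open Polynomial in
/-- (D-3) degrees in `t`. -/
def Stmt_Deg : Prop := ∀ (R : Type) [CommRing R] (c4 c6 : R),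
  (HH (C c4) (C c6) 1 X).natDegree ≤ 20 ∧ (TT (C c4) (C c6) 1 X).natDegree ≤ 30 ∧
  (DD (C c4) (C c6) 1 X).natDegree ≤ 12 ∧
  (HH (C c4) (C c6) 1 X).coeff 20 = HH c4 c6 0 1 ∧ (TT (C c4) (C c6) 1 X).coeff 30 = TT c4 c6 0 1 ∧
  (DD (C c4) (C c6) 1 X).coeff 12 = DD c4 c6 0 1

/-- (N-1) `c4F` and `a b dF` have no common zero. -/
def Stmt_NCZab : Prop := ∀ (K : Type) [Field K], (30 : K) ≠ 0 → ∀ a b : K,
  c4F a b = 0 → a * b * dF a b = 0 → a = 0 ∧ b = 0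

/-- (N-2) the forms `HH` and `DD` have no common zero (any field in which `30 ≠ 0`). -/
def Stmt_NCZ : Prop := ∀ (K : Type) [Field K], (30 : K) ≠ 0 → ∀ c4 c6 u v : K,
  c4 ^ 3 ≠ c6 ^ 2 → HH c4 c6 u v = 0 → DD c4 c6 u v = 0 → u = 0 ∧ v = 0

/-! ## Block C -/

/-- (C-2) semistability of the members `(1, t)`, `30 Δ ∣ t`. -/
def Stmt_Semistable1 : Prop :=
  ∀ (W W' : WeierstrassCurve ℤ) (t : ℤ), W.Δ ≠ 0 → W.IsSemistableModel →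
    30 * W.Δ ∣ t → W'.c₄ = HH W.c₄ W.c₆ 1 t → W'.c₆ = TT W.c₄ W.c₆ 1 t →
    W'.Δ ≠ 0 ∧ W'.IsSemistableModel

/-- (C-4) Hilbert irreducibility for our quartic. -/
def Stmt_HIT1 : Prop :=
  ∀ (c4 c6 M : ℤ), c4 ^ 3 ≠ c6 ^ 2 → M ≠ 0 →
    ∃ t : ℤ, M ∣ t ∧ ∀ Y : ℤ, Q3 (HH c4 c6 1 t) (TT c4 c6 1 t) Y ≠ 0

open Polynomial in
/-- (C-4a) helper68's general statement (r-adic divided differences). -/
def Stmt_HITgen : Prop :=
  ∀ (A B : ℤ[X]) (M : ℤ), A.natDegree ≤ 20 → B.natDegree ≤ 30 →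
    4 * A.eval 0 ^ 3 + 27 * B.eval 0 ^ 2 ≠ 0 →
    (∀ P : ℚ[X], P ^ 4 + 18 * A.map (Int.castRingHom ℚ) * P ^ 2
      + 108 * B.map (Int.castRingHom ℚ) * P - 27 * A.map (Int.castRingHom ℚ) ^ 2 ≠ 0) → M ≠ 0 →
    ∃ t : ℤ, M ∣ t ∧ ∀ y : ℤ, y ^ 4 + 18 * A.eval t * y ^ 2 + 108 * B.eval t * y
      - 27 * A.eval t ^ 2 ≠ 0

open Polynomial in
/-- (C-4b) the 3-division quartic of the family has no polynomial root. -/
def Stmt_NoPolyRoot : Prop :=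
  ∀ (K : Type) [Field K] [CharZero K] (c4 c6 : K), c4 ^ 3 ≠ c6 ^ 2 → ∀ P : K[X],
    Q3 (HH (C c4) (C c6) 1 X) (TT (C c4) (C c6) 1 X) P ≠ 0

open Polynomial in
/-- (C-4c) Mason-Stothers: `DD (1, t)` has at least 10 simple roots. -/
def Stmt_SimpleRoots : Prop :=
  ∀ (K : Type) [Field K] [CharZero K] [IsAlgClosed K] (c4 c6 : K), c4 ^ 3 ≠ c6 ^ 2 →
    ∃ S : Finset K, 10 ≤ S.card ∧ ∀ z ∈ S, (DD (C c4) (C c6) 1 X).rootMultiplicity z = 1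

end Fermat.Agent.S52
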