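/-
TEAM S52, package C-2: semistability of the members `(1, t)`, `30 Δ ∣ t`, of the family.
-/
import Fermat.Agent.S52.Interface2

set_option autoImplicit false

namespace Fermat.Agent.S52

theorem stmt_Semistable1 (h4 : Stmt_I4) (hM : Stmt_Map) (hB : Stmt_Base) (hN : Stmt_NCZ) :
    Stmt_Semistable1 := by
  intro W W' t hΔ hss ht hc4 hc6
  obtain ⟨hB1, -, hB3⟩ := hB ℤ W.c₄ W.c₆ t
  set D : ℤ := DD W.c₄ W.c₆ 1 t with hD
  -- the discriminant of the member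
  have hΔ' : W'.Δ = W.Δ * D ^ 5 := by
    have h1 := W'.c_relation
    have h2 := W.c_relation
    have h3 := h4 ℤ W.c₄ W.c₆ 1 t
    rw [hc4, hc6, h3, ← h2, ← hD] at h1
    have : (1728 : ℤ) * W'.Δ = 1728 * (W.Δ * D ^ 5) := by rw [h1]; ring
    exact mul_left_cancel₀ (by norm_num) this
  have h30t : (30 : ℤ) ∣ t := (Dvd.intro _ rfl).trans ht
  have hΔt : W.Δ ∣ t := (Dvd.intro_left _ rfl).trans ht
  have hD0 : D ≠ 0 := by
    intro h0
    rw [h0, zero_sub] at hB3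
    have : (30 : ℤ) ∣ 1 := by
      have := h30t.trans hB3
      rwa [dvd_neg] at this
    norm_num at this
  refine ⟨by rw [hΔ']; exact mul_ne_zero hΔ (pow_ne_zero _ hD0), ?_⟩
  intro p hp hpΔ' hpc4'
  have hpZ : Prime (p : ℤ) := Nat.prime_iff_prime_int.1 hp
  rw [hΔ'] at hpΔ'
  rw [hc4] at hpc4'
  by_cases hpt : (p : ℤ) ∣ 30 * W.Δ
  · -- `p ∣ t`
    have hpt' : (p : ℤ) ∣ t := hpt.trans ht
    have hpD : ¬ (p : ℤ) ∣ D := by
      intro h
      have h1 : (p : ℤ) ∣ D - (D - 1) := dvd_sub h (hpt'.trans hB3)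
      rw [sub_sub_cancel] at h1
      exact hpZ.not_isUnit (isUnit_of_dvd_one h1)
    have hpΔ : (p : ℤ) ∣ W.Δ := by
      rcases hpZ.dvd_or_dvd hpΔ' with h | h
      · exact h
      · exact absurd (hpZ.dvd_of_dvd_pow h) hpD
    apply hss p hp hpΔ
    have h1 : (p : ℤ) ∣ HH W.c₄ W.c₆ 1 t - (HH W.c₄ W.c₆ 1 t - W.c₄) :=
      dvd_sub hpc4' (hpt'.trans hB1)
    rwa [sub_sub_cancel] at h1
  · -- `p ∤ 30 Δ`
    have hp30 : ¬ (p : ℤ) ∣ 30 := fun h => hpt (h.mul_right _)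
    have hpΔ : ¬ (p : ℤ) ∣ W.Δ := fun h => hpt (h.mul_left _)
    have hpD : (p : ℤ) ∣ D := by
      rcases hpZ.dvd_or_dvd hpΔ' with h | h
      · exact absurd h hpΔ
      · exact hpZ.dvd_of_dvd_pow h
    have : Fact p.Prime := ⟨hp⟩
    obtain ⟨-, -, -, -, -, hMH, -, hMD⟩ := hM ℤ (ZMod p) (Int.castRingHom (ZMod p)) W.c₄ W.c₆ 1 t
    have e30 : (30 : ZMod p) ≠ 0 := by
      intro h
      apply hp30
      have : ((30 : ℤ) : ZMod p) = 0 := by exact_mod_cast h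
      exact (ZMod.intCast_zmod_eq_zero_iff_dvd _ _).1 this
    have hp1728 : ¬ (p : ℤ) ∣ 1728 := by
      intro h
      apply hp30
      have h1 : (p : ℤ) ∣ 30 ^ 6 := h.trans (by norm_num)
      exact hpZ.dvd_of_dvd_pow h1
    have ene : ((W.c₄ : ℤ) : ZMod p) ^ 3 ≠ ((W.c₆ : ℤ) : ZMod p) ^ 2 := by
      intro h
      have h1 : ((W.c₄ ^ 3 - W.c₆ ^ 2 : ℤ) : ZMod p) = 0 := by
        push_cast
        rw [h, sub_self]
      rw [← W.c_relation, ZMod.intCast_zmod_eq_zero_iff_dvd] at h1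
      rcases hpZ.dvd_or_dvd h1 with h2 | h2
      · exact hp1728 h2
      · exact hpΔ h2
    have eH : HH ((W.c₄ : ℤ) : ZMod p) ((W.c₆ : ℤ) : ZMod p) 1 ((t : ℤ) : ZMod p) = 0 := by
      have := (ZMod.intCast_zmod_eq_zero_iff_dvd _ p).2 hpc4'
      simp only [eq_intCast, Int.cast_one] at hMH
      rw [← hMH]; exact this
    have eD : DD ((W.c₄ : ℤ) : ZMod p) ((W.c₆ : ℤ) : ZMod p) 1 ((t : ℤ) : ZMod p) = 0 := by
      have := (ZMod.intCast_zmod_eq_zero_iff_dvd _ p).2 hpD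
      rw [hD] at this
      simp only [eq_intCast, Int.cast_one] at hMD
      rw [← hMD]; exact this
    exact one_ne_zero (hN (ZMod p) e30 _ _ _ _ ene eH eD).1

end Fermat.Agent.S52
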