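import Fermat.Agent.S52.Interface2

/-! # S52 (C-4c): `DD (1, t)` has at least 10 simple roots (Mason-Stothers).  helper78. -/

set_option autoImplicit false

open Polynomial UniqueFactorizationMonoid UniqueFactorizationDomain

namespace Fermat.Agent.S52

namespace SimpleRoots

variable {K : Type} [Field K]

/-- Counting: at least 11 distinct roots, at most 12 with multiplicity: at least 10 simple ones. -/
theorem count_simple [DecidableEq K] (D : K[X]) (hD0 : D ≠ 0) (hdeg : D.natDegree ≤ 12)
    (R : Finset K) (hR : 11 ≤ R.card) (hroot : ∀ z ∈ R, D.IsRoot z) :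
    ∃ S : Finset K, 10 ≤ S.card ∧ ∀ z ∈ S, D.rootMultiplicity z = 1 := by
  classical
  refine ⟨R.filter (fun z => D.rootMultiplicity z = 1), ?_, fun z hz => (Finset.mem_filter.1 hz).2⟩
  have hsub : R ⊆ D.roots.toFinset := by
    intro z hz
    rw [Multiset.mem_toFinset, mem_roots hD0]
    exact hroot z hz
  have h1 : ∑ z ∈ R, D.rootMultiplicity z ≤ 12 := by
    calc ∑ z ∈ R, D.rootMultiplicity z ≤ ∑ z ∈ D.roots.toFinset, D.rootMultiplicity z :=
          Finset.sum_le_sum_of_subset hsub
      _ = ∑ z ∈ D.roots.toFinset, D.roots.count z := by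
          refine Finset.sum_congr rfl fun z _ => ?_
          rw [count_roots]
      _ = D.roots.card := by rw [Multiset.toFinset_sum_count_eq]
      _ ≤ D.natDegree := card_roots' D
      _ ≤ 12 := hdeg
  have h2 : ∑ z ∈ R, (2 - (if D.rootMultiplicity z = 1 then 1 else 0)) ≤
      ∑ z ∈ R, D.rootMultiplicity z := by
    refine Finset.sum_le_sum fun z hz => ?_
    have hpos : 0 < D.rootMultiplicity z := (rootMultiplicity_pos hD0).2 (hroot z hz)
    split_ifs with h <;> omega
  have h3 : ∑ z ∈ R, (2 - (if D.rootMultiplicity z = 1 then 1 else 0)) +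
      (R.filter (fun z => D.rootMultiplicity z = 1)).card = 2 * R.card := by
    rw [Finset.card_filter, ← Finset.sum_add_distrib, mul_comm, ← smul_eq_mul,
      ← Finset.sum_const]
    refine Finset.sum_congr rfl fun z _ => ?_
    split_ifs <;> rfl
  omega

/-- The degree of the radical counts distinct roots (only `≤` is needed). -/
theorem exists_roots_of_radical [DecidableEq K] [IsAlgClosed K] [CharZero K] (D : K[X]) :
    ∃ R : Finset K, R.card = (radical D).natDegree ∧ ∀ z ∈ R, D.IsRoot z := by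
  refine ⟨(radical D).roots.toFinset, ?_, ?_⟩
  · have hsq : Squarefree (radical D) := squarefree_radical
    have hsep : (radical D).Separable := PerfectField.separable_iff_squarefree.2 hsq
    rw [Multiset.toFinset_card_of_nodup (nodup_roots hsep)]
    exact (IsAlgClosed.splits (radical D)).natDegree_eq_card_roots.symm
  · intro z hz
    rw [Multiset.mem_toFinset, mem_roots radical_ne_zero] at hz
    exact hz.dvd radical_dvd_self

/-- The abstract Mason-Stothers argument. -/
theorem abstract_simple [IsAlgClosed K] [CharZero K] (H T D : K[X]) (e : K) (he : e ≠ 0)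
    (hrel : H ^ 3 - T ^ 2 = C e * D ^ 5) (hcop : IsCoprime H T)
    (hH : H.natDegree ≤ 20) (hT : T.natDegree ≤ 30) (hD : D.natDegree ≤ 12)
    (htop : H.coeff 20 ≠ 0 ∨ T.coeff 30 ≠ 0) :
    ∃ S : Finset K, 10 ≤ S.card ∧ ∀ z ∈ S, D.rootMultiplicity z = 1 := by
  classical
  -- `H`, `T` are not both constant
  have hnc : ¬ (H.natDegree = 0 ∧ T.natDegree = 0) := by
    rintro ⟨h1, h2⟩
    rcases htop with h | h
    · exact h (coeff_eq_zero_of_natDegree_lt (by omega))
    · exact h (coeff_eq_zero_of_natDegree_lt (by omega))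
  have hH0 : H ≠ 0 := by
    rintro rfl
    have : IsUnit T := isCoprime_zero_left.1 hcop
    exact hnc ⟨by simp, natDegree_eq_zero_of_isUnit this⟩
  have hT0 : T ≠ 0 := by
    rintro rfl
    have : IsUnit H := isCoprime_zero_right.1 hcop
    exact hnc ⟨natDegree_eq_zero_of_isUnit this, by simp⟩
  have hD0 : D ≠ 0 := by
    rintro rfl
    have h32 : H ^ 3 = T ^ 2 := by
      have : H ^ 3 - T ^ 2 = 0 := by rw [hrel]; simp
      exact sub_eq_zero.1 this
    have hc : IsCoprime (H ^ 3) (T ^ 2) := hcop.pow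
    have hu1 : IsUnit (H ^ 3) := by
      rw [← h32] at hc
      exact isCoprime_self.1 hc
    have hu2 : IsUnit (T ^ 2) := h32 ▸ hu1
    have hu1' : IsUnit H := (isUnit_pow_iff (by norm_num)).1 hu1
    have hu2' : IsUnit T := (isUnit_pow_iff (by norm_num)).1 hu2
    exact hnc ⟨natDegree_eq_zero_of_isUnit hu1', natDegree_eq_zero_of_isUnit hu2'⟩
  have hCe : IsUnit (C e : K[X]) := isUnit_C.2 (isUnit_iff_ne_zero.2 he)
  have ha : H ^ 3 ≠ 0 := pow_ne_zero _ hH0
  have hb : -T ^ 2 ≠ 0 := neg_ne_zero.2 (pow_ne_zero _ hT0)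
  have hc : -(C e * D ^ 5) ≠ 0 := neg_ne_zero.2 (mul_ne_zero hCe.ne_zero (pow_ne_zero _ hD0))
  have hab : IsCoprime (H ^ 3) (-T ^ 2) := (hcop.pow).neg_right
  have hsum : H ^ 3 + -T ^ 2 + -(C e * D ^ 5) = 0 := by rw [← hrel]; ring
  -- bound for the radical
  have hrad : (radical (H ^ 3 * -T ^ 2 * -(C e * D ^ 5))).natDegree ≤
      50 + (radical D).natDegree := by
    have h1 : radical (H ^ 3 * -T ^ 2 * -(C e * D ^ 5)) ∣ radical H * radical T * radical D := by
      refine radical_mul_dvd.trans (mul_dvd_mul (radical_mul_dvd.trans (mul_dvd_mul ?_ ?_)) ?_)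
      · rw [radical_pow _ (by norm_num)]
      · rw [radical_neg, radical_pow _ (by norm_num)]
      · rw [radical_neg, radical_mul_of_isUnit_left hCe, radical_pow _ (by norm_num)]
    have h2 : radical H * radical T * radical D ≠ 0 :=
      mul_ne_zero (mul_ne_zero radical_ne_zero radical_ne_zero) radical_ne_zero
    have h3 := natDegree_le_of_dvd h1 h2
    have h4 : (radical H).natDegree ≤ H.natDegree := natDegree_le_of_dvd radical_dvd_self hH0
    have h5 : (radical T).natDegree ≤ T.natDegree := natDegree_le_of_dvd radical_dvd_self hT0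
    rw [natDegree_mul (mul_ne_zero radical_ne_zero radical_ne_zero) radical_ne_zero,
      natDegree_mul radical_ne_zero radical_ne_zero] at h3
    omega
  have hkey : 11 ≤ (radical D).natDegree := by
    rcases Polynomial.abc ha hb hc hab hsum with ⟨h1, h2, -⟩ | ⟨h1, h2, -⟩
    · rw [natDegree_pow] at h1
      rw [natDegree_neg, natDegree_pow] at h2
      rcases htop with h | h
      · have : 20 ≤ H.natDegree := le_natDegree_of_ne_zero h
        omega
      · have : 30 ≤ T.natDegree := le_natDegree_of_ne_zero h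
        omega
    · exfalso
      have h1' := Polynomial.derivative_eq_zero.1 h1
      have h2' := Polynomial.derivative_eq_zero.1 h2
      rw [natDegree_pow] at h1'
      rw [natDegree_neg, natDegree_pow] at h2'
      exact hnc ⟨by omega, by omega⟩
  obtain ⟨R, hRc, hR⟩ := exists_roots_of_radical D
  exact count_simple D hD0 hD R (by omega) hR

end SimpleRoots

open SimpleRoots in
theorem stmt_SimpleRoots (h4 : Stmt_I4) (hM : Stmt_Map) (hD : Stmt_Deg) (hN : Stmt_NCZ) :
    Stmt_SimpleRoots := by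
  intro K _ _ _ c4 c6 hne
  have h30 : (30 : K) ≠ 0 := by norm_num
  have he : c4 ^ 3 - c6 ^ 2 ≠ 0 := sub_ne_zero.2 hne
  obtain ⟨d1, d2, d3, e1, e2, e3⟩ := hD K c4 c6
  have hrel : HH (C c4) (C c6) 1 X ^ 3 - TT (C c4) (C c6) 1 X ^ 2 =
      C (c4 ^ 3 - c6 ^ 2) * DD (C c4) (C c6) 1 X ^ 5 := by
    rw [h4 K[X] (C c4) (C c6) 1 X]
    simp
  -- evaluation
  have hev : ∀ z : K, (HH (C c4) (C c6) 1 X).eval z = HH c4 c6 1 z ∧
      (TT (C c4) (C c6) 1 X).eval z = TT c4 c6 1 z ∧
      (DD (C c4) (C c6) 1 X).eval z = DD c4 c6 1 z := by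
    intro z
    obtain ⟨-, -, -, -, -, m1, m2, m3⟩ := hM K[X] K (evalRingHom z) (C c4) (C c6) 1 X
    simp only [coe_evalRingHom, eval_C, eval_one, eval_X] at m1 m2 m3
    exact ⟨m1, m2, m3⟩
  refine abstract_simple _ _ _ _ he hrel ?_ d1 d2 d3 ?_
  · -- coprimality
    by_contra hnc
    obtain ⟨z, hz1, hz2⟩ : ∃ z : K, (HH (C c4) (C c6) 1 X).IsRoot z ∧
        (TT (C c4) (C c6) 1 X).IsRoot z := by
      by_contra hcon
      push Not at hcon
      apply hnc
      refine isCoprime_of_dvd _ _ ?_ ?_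
      · rintro ⟨h1, h2⟩
        obtain ⟨a1, a2, a3⟩ := hev 0
        have b1 : HH c4 c6 1 0 = 0 := by rw [← a1, h1]; simp
        have b2 : TT c4 c6 1 0 = 0 := by rw [← a2, h2]; simp
        have b3 : DD c4 c6 1 0 = 0 := by
          have := h4 K c4 c6 1 0
          rw [b1, b2] at this
          have h0 : (c4 ^ 3 - c6 ^ 2) * DD c4 c6 1 0 ^ 5 = 0 := by rw [← this]; ring
          exact pow_eq_zero_iff (by norm_num) |>.1 ((mul_eq_zero.1 h0).resolve_left he)
        exact one_ne_zero (hN K h30 c4 c6 1 0 hne b1 b3).1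
      · intro p hp hp0 hpH hpT
        have hdeg : p.degree ≠ 0 := by
          intro h
          exact hp (isUnit_iff_degree_eq_zero.2 h)
        obtain ⟨z, hz⟩ := IsAlgClosed.exists_root p hdeg
        exact hcon z (hz.dvd hpH) (hz.dvd hpT)
    obtain ⟨a1, a2, a3⟩ := hev z
    have b1 : HH c4 c6 1 z = 0 := by rw [← a1]; exact hz1
    have b2 : TT c4 c6 1 z = 0 := by rw [← a2]; exact hz2
    have b3 : DD c4 c6 1 z = 0 := by
      have := h4 K c4 c6 1 z
      rw [b1, b2] at this
      have h0 : (c4 ^ 3 - c6 ^ 2) * DD c4 c6 1 z ^ 5 = 0 := by rw [← this]; ring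
      exact pow_eq_zero_iff (by norm_num) |>.1 ((mul_eq_zero.1 h0).resolve_left he)
    exact one_ne_zero (hN K h30 c4 c6 1 z hne b1 b3).1
  · -- top coefficients
    by_contra hcon
    push Not at hcon
    obtain ⟨c1, c2⟩ := hcon
    rw [e1] at c1
    rw [e2] at c2
    have b3 : DD c4 c6 0 1 = 0 := by
      have := h4 K c4 c6 0 1
      rw [c1, c2] at this
      have h0 : (c4 ^ 3 - c6 ^ 2) * DD c4 c6 0 1 ^ 5 = 0 := by rw [← this]; ring
      exact pow_eq_zero_iff (by norm_num) |>.1 ((mul_eq_zero.1 h0).resolve_left he)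
    exact one_ne_zero (hN K h30 c4 c6 0 1 hne c1 b3).2

end Fermat.Agent.S52
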