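import Mathlib

/-! # S52: the local ring of `F(X)` at `X = t`, as a valuation subring, with its evaluation map
(helper2). -/

set_option autoImplicit false

open Polynomial

namespace Fermat.Agent.S52.ER

section EvalRing

variable {F : Type*} [Field F] (t : F)

theorem algebraMap_ne_zero_of_eval {q : F[X]} (hq : q.eval t ≠ 0) :
    algebraMap F[X] (RatFunc F) q ≠ 0 := by
  intro h
  have : q = 0 := by
    apply RatFunc.algebraMap_injective F
    rw [h, map_zero]
  rw [this] at hq
  simp at hq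

/-- the local ring of `F(X)` at `X = t` -/
def evalSubring : ValuationSubring (RatFunc F) where
  carrier := {f | ∃ p q : F[X], q.eval t ≠ 0 ∧
    f = algebraMap F[X] (RatFunc F) p / algebraMap F[X] (RatFunc F) q}
  mul_mem' := by
    rintro _ _ ⟨p₁, q₁, h₁, rfl⟩ ⟨p₂, q₂, h₂, rfl⟩
    refine ⟨p₁ * p₂, q₁ * q₂, by rw [eval_mul]; exact mul_ne_zero h₁ h₂, ?_⟩
    rw [map_mul, map_mul, div_mul_div_comm]
  one_mem' := ⟨1, 1, by simp, by simp⟩
  add_mem' := by
    rintro _ _ ⟨p₁, q₁, h₁, rfl⟩ ⟨p₂, q₂, h₂, rfl⟩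
    refine ⟨p₁ * q₂ + q₁ * p₂, q₁ * q₂, by rw [eval_mul]; exact mul_ne_zero h₁ h₂, ?_⟩
    rw [div_add_div _ _ (algebraMap_ne_zero_of_eval t h₁) (algebraMap_ne_zero_of_eval t h₂)]
    simp only [map_mul, map_add]
  zero_mem' := ⟨0, 1, by simp, by simp⟩
  neg_mem' := by
    rintro _ ⟨p₁, q₁, h₁, rfl⟩
    exact ⟨-p₁, q₁, h₁, by rw [map_neg, neg_div]⟩
  mem_or_inv_mem' := by
    intro f
    by_cases h : f.denom.eval t = 0
    · right
      refine ⟨f.denom, f.num, ?_, ?_⟩
      · intro h'
        obtain ⟨a, b, hab⟩ := f.isCoprime_num_denom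
        have := congrArg (Polynomial.eval t) hab
        simp [h, h'] at this
      · conv_lhs => rw [← f.num_div_denom]
        rw [inv_div]
    · left
      exact ⟨f.num, f.denom, h, (f.num_div_denom).symm⟩

theorem mem_evalSubring_iff {f : RatFunc F} : f ∈ evalSubring t ↔ ∃ p q : F[X], q.eval t ≠ 0 ∧
    f = algebraMap F[X] (RatFunc F) p / algebraMap F[X] (RatFunc F) q := Iff.rfl

theorem div_mem_evalSubring (p : F[X]) {q : F[X]} (hq : q.eval t ≠ 0) :
    algebraMap F[X] (RatFunc F) p / algebraMap F[X] (RatFunc F) q ∈ evalSubring t :=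
  ⟨p, q, hq, rfl⟩

theorem algebraMap_mem_evalSubring (p : F[X]) :
    algebraMap F[X] (RatFunc F) p ∈ evalSubring t :=
  ⟨p, 1, by simp, by simp⟩

theorem denom_eval_ne_zero {f : RatFunc F} (hf : f ∈ evalSubring t) :
    Polynomial.eval₂ (RingHom.id F) t f.denom ≠ 0 := by
  obtain ⟨p, q, hq, rfl⟩ := hf
  obtain ⟨c, hc⟩ := RatFunc.denom_div_dvd p q
  intro h
  apply hq
  rw [hc, eval_mul]
  rw [Polynomial.eval₂_id] at h
  rw [h, zero_mul]

/-- evaluation at `t` -/
noncomputable def evalHom : evalSubring t →+* F where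
  toFun f := RatFunc.eval (RingHom.id F) t (f : RatFunc F)
  map_one' := by simp
  map_mul' f g := by
    simpa using RatFunc.eval_mul (RingHom.id F) t (denom_eval_ne_zero t f.2)
      (denom_eval_ne_zero t g.2)
  map_zero' := by simp
  map_add' f g := by
    simpa using RatFunc.eval_add (RingHom.id F) t (denom_eval_ne_zero t f.2)
      (denom_eval_ne_zero t g.2)

theorem evalHom_algebraMap (p : F[X]) :
    evalHom t ⟨algebraMap F[X] (RatFunc F) p, algebraMap_mem_evalSubring t p⟩ = p.eval t := by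
  show RatFunc.eval (RingHom.id F) t (algebraMap F[X] (RatFunc F) p) = _
  rw [RatFunc.eval_algebraMap]
  simp

theorem evalHom_div (p : F[X]) {q : F[X]} (hq : q.eval t ≠ 0) :
    evalHom t ⟨_, div_mem_evalSubring t p hq⟩ = p.eval t / q.eval t := by
  rw [eq_div_iff hq, ← evalHom_algebraMap t q, ← evalHom_algebraMap t p, ← map_mul]
  congr 1
  apply Subtype.ext
  show algebraMap F[X] (RatFunc F) p / algebraMap F[X] (RatFunc F) q
    * algebraMap F[X] (RatFunc F) q = _
  rw [div_mul_cancel₀ _ (algebraMap_ne_zero_of_eval t hq)]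

theorem evalHom_eq_of_eq {f : RatFunc F} (hf : f ∈ evalSubring t) (p : F[X]) {q : F[X]}
    (hq : q.eval t ≠ 0)
    (h : f = algebraMap F[X] (RatFunc F) p / algebraMap F[X] (RatFunc F) q) :
    evalHom t ⟨f, hf⟩ = p.eval t / q.eval t := by
  subst h
  exact evalHom_div t p hq

theorem evalHom_nonunit (a : evalSubring t) (ha : ¬ IsUnit a) : evalHom t a = 0 := by
  by_contra h
  apply ha
  obtain ⟨f, p, q, hq, rfl⟩ := a
  rw [evalHom_div t p hq] at h
  have hp : p.eval t ≠ 0 := by
    intro hp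
    rw [hp, zero_div] at h
    exact h rfl
  refine IsUnit.of_mul_eq_one ⟨_, div_mem_evalSubring t q hp⟩ ?_
  apply Subtype.ext
  show algebraMap F[X] (RatFunc F) p / algebraMap F[X] (RatFunc F) q
    * (algebraMap F[X] (RatFunc F) q / algebraMap F[X] (RatFunc F) p) = 1
  rw [div_mul_div_comm, mul_comm, div_self]
  exact mul_ne_zero (algebraMap_ne_zero_of_eval t hq) (algebraMap_ne_zero_of_eval t hp)

end EvalRing

section MapCoeff

variable {F : Type*} [Field F]

/-- a field endomorphism acting on the coefficients of rational functions -/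
noncomputable def ratMap (s : F →+* F) : RatFunc F →+* RatFunc F :=
  RatFunc.mapRingHom (Polynomial.mapRingHom s)
    (nonZeroDivisors_le_comap_nonZeroDivisors_of_injective _
      (Polynomial.map_injective s s.injective))

theorem ratMap_div (s : F →+* F) (p q : F[X]) :
    ratMap s (algebraMap F[X] (RatFunc F) p / algebraMap F[X] (RatFunc F) q) =
      algebraMap F[X] (RatFunc F) (p.map s) / algebraMap F[X] (RatFunc F) (q.map s) := by
  unfold ratMap
  rw [RatFunc.coe_mapRingHom_eq_coe_map, RatFunc.map_apply_div]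
  rfl

theorem ratMap_algebraMap (s : F →+* F) (p : F[X]) :
    ratMap s (algebraMap F[X] (RatFunc F) p) = algebraMap F[X] (RatFunc F) (p.map s) := by
  have := ratMap_div s p 1
  simpa using this

theorem ratMap_mem (s : F →+* F) {t : F} (ht : s t = t) {f : RatFunc F}
    (hf : f ∈ evalSubring t) : ratMap s f ∈ evalSubring t := by
  obtain ⟨p, q, hq, rfl⟩ := hf
  rw [ratMap_div]
  apply div_mem_evalSubring
  have : (q.map s).eval t = s (q.eval t) := by
    conv_lhs => rw [← ht]
    rw [Polynomial.eval_map_apply]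
  rw [this]
  exact (map_ne_zero s).mpr hq

theorem evalHom_ratMap (s : F →+* F) {t : F} (ht : s t = t) {f : RatFunc F}
    (hf : f ∈ evalSubring t) :
    evalHom t ⟨ratMap s f, ratMap_mem s ht hf⟩ = s (evalHom t ⟨f, hf⟩) := by
  obtain ⟨p, q, hq, rfl⟩ := hf
  have e : ∀ r : F[X], (r.map s).eval t = s (r.eval t) := by
    intro r
    conv_lhs => rw [← ht]
    rw [Polynomial.eval_map_apply]
  have hq' : (q.map s).eval t ≠ 0 := by
    rw [e]
    exact (map_ne_zero s).mpr hq
  rw [evalHom_eq_of_eq t _ (p.map s) hq' (ratMap_div s p q), evalHom_div t p hq, e, e, map_div₀]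

theorem ratMap_not_mem (s : F →+* F) {t : F} (ht : s t = t) {f : RatFunc F}
    (hf : f ∉ evalSubring t) : ratMap s f ∉ evalSubring t := by
  intro hmem
  have hinv : f⁻¹ ∈ evalSubring t := ((evalSubring t).mem_or_inv_mem f).resolve_left hf
  have hnu : ¬ IsUnit (⟨f⁻¹, hinv⟩ : evalSubring t) := by
    intro hu
    obtain ⟨⟨g, hg⟩, hg1⟩ := hu.exists_right_inv
    have h1 : f⁻¹ * g = 1 := congrArg Subtype.val hg1
    have hf0 : f ≠ 0 := by
      rintro rfl
      exact hf (evalSubring t).zero_mem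
    have : g = f := by
      field_simp at h1
      exact h1
    exact hf (this ▸ hg)
  have h0 := evalHom_nonunit t _ hnu
  have h1 := evalHom_ratMap s ht hinv
  rw [h0, map_zero] at h1
  have hf0 : f ≠ 0 := by
    rintro rfl
    exact hf (evalSubring t).zero_mem
  have h2 : (⟨ratMap s f, hmem⟩ : evalSubring t) * ⟨ratMap s f⁻¹, ratMap_mem s ht hinv⟩ = 1 := by
    apply Subtype.ext
    show ratMap s f * ratMap s f⁻¹ = 1
    rw [← map_mul, mul_inv_cancel₀ hf0, map_one]
  have h3 := congrArg (evalHom t) h2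
  rw [map_mul, h1, mul_zero, map_one] at h3
  exact zero_ne_one h3

end MapCoeff

end Fermat.Agent.S52.ER
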