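import Fermat.Agent.S52.Interface
import Fermat.Agent.S52.EvalRing

/-! # S52 (B-7): rigidity / specialisation, from the reduction theorem (helper2). -/

set_option autoImplicit false

open Polynomial WeierstrassCurve WeierstrassCurve.Affine WeierstrassCurve.Affine.Point

namespace Fermat.Agent.S52

namespace Spec

open ER

/-- `ℚ[t] → Qb(t)` as an algebra structure (local to this file). -/
@[reducible] noncomputable def algQT : Algebra ℚ[X] (RatFunc Qb) := iotaT.toAlgebra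

attribute [local instance] algQT

theorem algebraMap_eq (p : ℚ[X]) : algebraMap ℚ[X] (RatFunc Qb) p = iotaT p := rfl

theorem iotaT_apply (p : ℚ[X]) :
    iotaT p = algebraMap Qb[X] (RatFunc Qb) (p.map (algebraMap ℚ Qb)) := rfl

/-- the curve `y² = x³ + A x + B` over `ℚ[t]` -/
noncomputable def WT (A B : ℚ[X]) : Affine ℚ[X] := ⟨0, 0, 0, A, B⟩

/-- `G_ℚ` acting on `Qb(t)` through the coefficients. -/
noncomputable def sigK (σ : GQ) : RatFunc Qb →ₐ[ℚ[X]] RatFunc Qb where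
  __ := ratMap (σ : Qb →+* Qb)
  commutes' p := by
    show ratMap (σ : Qb →+* Qb) (iotaT p) = iotaT p
    rw [iotaT_apply, ratMap_algebraMap, Polynomial.map_map]
    congr 2
    ext q
    simp

theorem sigK_apply (σ : GQ) (f : RatFunc Qb) : sigK σ f = ratMap (σ : Qb →+* Qb) f := rfl

theorem sig_fix (σ : GQ) (t : ℚ) : (σ : Qb →+* Qb) (algebraMap ℚ Qb t) = algebraMap ℚ Qb t := by
  simp

theorem eval_iota (p : ℚ[X]) (t : ℚ) :
    (p.map (algebraMap ℚ Qb)).eval (algebraMap ℚ Qb t) = algebraMap ℚ Qb (p.eval t) := by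
  rw [Polynomial.eval_map_apply]

theorem spec_red (hRT : Stmt_RT) (A B : ℚ[X]) [DecidableEq (RatFunc Qb)] (t : ℚ)
    (ht : 4 * A.eval t ^ 3 + 27 * B.eval t ^ 2 ≠ 0) :
    ∃ red : ((WT A B)⁄(RatFunc Qb)).Point →+ ((shortQ (A.eval t) (B.eval t))⁄Qb).Point,
      (∀ (σ : GQ) (P : ((WT A B)⁄(RatFunc Qb)).Point),
        red (Point.map (W' := WT A B) (sigK σ) P) = σ • red P) ∧
      (∀ P : ((WT A B)⁄(RatFunc Qb)).Point, red P = 0 → (5 : ℕ) • P = 0 → P = 0) := by
  set τ : Qb := algebraMap ℚ Qb t with hτ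
  have hred : IsRed (evalSubring τ) (evalHom τ) ((WT A B)⁄(RatFunc Qb))
      ((shortQ (A.eval t) (B.eval t))⁄Qb) := by
    refine ⟨⟨0, ?_, ?_⟩, ⟨0, ?_, ?_⟩, ⟨0, ?_, ?_⟩,
      ⟨⟨_, algebraMap_mem_evalSubring τ (A.map (algebraMap ℚ Qb))⟩, ?_, ?_⟩,
      ⟨⟨_, algebraMap_mem_evalSubring τ (B.map (algebraMap ℚ Qb))⟩, ?_, ?_⟩⟩
    · simp [WT]
    · simp [shortQ]
    · simp [WT]
    · simp [shortQ]
    · simp [WT]
    · simp [shortQ]
    · simp [WT, algebraMap_eq, iotaT_apply]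
    · rw [evalHom_algebraMap, hτ, eval_iota]; simp [shortQ]
    · simp [WT, algebraMap_eq, iotaT_apply]
    · rw [evalHom_algebraMap, hτ, eval_iota]; simp [shortQ]
  have hΔ : ((shortQ (A.eval t) (B.eval t))⁄Qb).Δ ≠ 0 := by
    have : ((shortQ (A.eval t) (B.eval t))⁄Qb).Δ
        = algebraMap ℚ Qb (-16 * (4 * A.eval t ^ 3 + 27 * B.eval t ^ 2)) := by
      show ((shortQ (A.eval t) (B.eval t)).map (algebraMap ℚ Qb)).Δ = _
      rw [WeierstrassCurve.map_Δ]
      congr 1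
      simp [shortQ, WeierstrassCurve.Δ, WeierstrassCurve.b₂, WeierstrassCurve.b₄,
        WeierstrassCurve.b₆, WeierstrassCurve.b₈]
      ring
    rw [this]
    intro h
    rw [map_eq_zero] at h
    exact ht (by simpa using h)
  obtain ⟨red, h1, h2, h3, h4⟩ := hRT (RatFunc Qb) Qb (evalSubring τ) (evalHom τ)
    (evalHom_nonunit τ) _ _ hred hΔ
  refine ⟨red, ?_, ?_⟩
  · intro σ P
    rcases P with _ | ⟨x, y, h⟩
    · show red 0 = σ • red 0
      rw [_root_.map_zero]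
      rfl
    · rw [Point.map_some]
      by_cases hx : x ∈ evalSubring τ
      · have hy := h1 x y h hx
        obtain ⟨h', e'⟩ := h2 ⟨x, hx⟩ ⟨y, hy⟩ h
        have hx' : sigK σ x ∈ evalSubring τ := ratMap_mem _ (sig_fix σ t) hx
        have hy' : sigK σ y ∈ evalSubring τ := ratMap_mem _ (sig_fix σ t) hy
        obtain ⟨h'', e''⟩ := h2 ⟨_, hx'⟩ ⟨_, hy'⟩
          ((WeierstrassCurve.Affine.baseChange_nonsingular (WT A B) (sigK σ).injective ..).mpr h)
        rw [e'', e', algEquiv_smul_def, Point.map_some]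
        simp only [Point.some.injEq]
        exact ⟨evalHom_ratMap _ (sig_fix σ t) hx, evalHom_ratMap _ (sig_fix σ t) hy⟩
      · rw [h3 x y h hx]
        show _ = 0
        exact h3 _ _ _ (ratMap_not_mem _ (sig_fix σ t) hx)
  · intro P hP h5
    exact h4 5 (by norm_num) P hP h5

theorem five_aux {G : Type*} [AddCommGroup G] (s : G →+ G) (P : G) (h : (5 : ℕ) • P = 0)
    (α β γ : ℤ) : (5 : ℕ) • (α • s (s P) + β • s P + γ • P) = 0 := by
  rw [nsmul_add, nsmul_add, smul_comm, smul_comm (5 : ℕ) β, smul_comm (5 : ℕ) γ,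
    ← map_nsmul, ← map_nsmul, h]
  simp

theorem main (hRT : Stmt_RT) : Stmt_Spec := by
  intro A B WK ha₁ ha₂ ha₃ ha₄ ha₆ _ P hP0 hP5 t₀ t₁ ht₀ ht₁
  obtain rfl : WK = ((WT A B)⁄(RatFunc Qb)) := by
    ext
    · simp [WT, ha₁]
    · simp [WT, ha₂]
    · simp [WT, ha₃]
    · simp [WT, ha₄, algebraMap_eq]
    · simp [WT, ha₆, algebraMap_eq]
  obtain ⟨r₀, e₀, i₀⟩ := spec_red hRT A B t₀ ht₀
  obtain ⟨r₁, e₁, i₁⟩ := spec_red hRT A B t₁ ht₁
  refine ⟨r₀ P, r₁ P, ?_, ?_, ?_, ?_⟩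
  · rw [← map_nsmul, hP5, _root_.map_zero]
  · rw [← map_nsmul, hP5, _root_.map_zero]
  · intro h
    exact hP0 (i₁ P h hP5)
  · intro σ α β γ h
    set s := Point.map (W' := WT A B) (sigK σ) with hs
    have hQ : α • s (s P) + β • s P + γ • P = 0 := by
      apply i₀
      · rw [map_add, map_add, map_zsmul, map_zsmul, map_zsmul, e₀, e₀]
        exact h
      · exact five_aux s P hP5 α β γ
    have := congrArg r₁ hQ
    rw [map_add, map_add, map_zsmul, map_zsmul, map_zsmul, e₁, e₁, _root_.map_zero] at this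
    exact this

end Spec

theorem stmt_Spec (hRT : Stmt_RT) : Stmt_Spec := Spec.main hRT

end Fermat.Agent.S52
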