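import Fermat.Agent.S52.Top
import Fermat.Agent.S52.Ids
import Fermat.Agent.S52.I1
import Fermat.Agent.S52.DefsLemmas
import Fermat.Agent.S52.NCZ
import Fermat.Agent.S52.ExistsAB
import Fermat.Agent.S52.ShortIso
import Fermat.Agent.S52.RedHom
import Fermat.Agent.S52.Spec
import Fermat.Agent.S52.Trace
import Fermat.Agent.S52.Cong
import Fermat.Agent.S52.Model
import Fermat.Agent.S52.Semistable
import Fermat.Agent.S52.Crit3
import Fermat.Agent.S52.HIT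
import Fermat.Agent.S52.SimpleRoots
import Fermat.Agent.S52.NoPolyRoot
import Fermat.Agent.S52.HIT1

/-! # S52: final assembly modulo `Stmt_I2`, `Stmt_FiveAB`, `Stmt_Frob`.  Architect: helper52. -/

set_option autoImplicit false

open WeierstrassCurve WeierstrassCurve.Affine WeierstrassCurve.Affine.Point

namespace Fermat.Agent.S52

theorem stmt_ExistsAB' : Stmt_ExistsAB := stmt_ExistsAB stmt_I0 stmt_NCZab

theorem stmt_NCZ' : Stmt_NCZ := stmt_NCZ stmt_I0 stmt_I1 stmt_I3 stmt_Map stmt_ExistsAB'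

theorem stmt_SimpleRoots' : Stmt_SimpleRoots :=
  stmt_SimpleRoots stmt_I4 stmt_Map stmt_Deg stmt_NCZ'

theorem stmt_NoPolyRoot' : Stmt_NoPolyRoot :=
  stmt_NoPolyRoot stmt_I4 stmt_Map stmt_Deg stmt_NCZ' stmt_SimpleRoots'

theorem stmt_HIT1' : Stmt_HIT1 :=
  stmt_HIT1 stmt_HITgen stmt_NoPolyRoot' stmt_Map stmt_Base stmt_Deg

theorem stmt_Semistable1' : Stmt_Semistable1 :=
  stmt_Semistable1 stmt_I4 stmt_Map stmt_Base stmt_NCZ'

theorem stmt_Choice1' : Stmt_Choice1 :=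
  stmt_Choice1 stmt_Model stmt_Semistable1' stmt_Crit3 stmt_HIT1' stmt_Base

theorem final (hI2 : Stmt_I2) (h5 : Stmt_FiveAB) (hF : Stmt_Frob)
    (W : WeierstrassCurve ℤ) (hΔ : W.Δ ≠ 0) (hW : W.IsSemistableModel) :
    ∃ W' : WeierstrassCurve ℤ, W'.Δ ≠ 0 ∧ W'.IsSemistableModel ∧ W'.ModRepIsIrreducible 3 ∧
      ∀ ℓ : ℕ, ℓ.Prime → W.IsGoodPrimeFor ℓ → W'.IsGoodPrimeFor ℓ → ℓ ≠ 5 →
        (5 : ℤ) ∣ (W'.apOfModel ℓ - W.apOfModel ℓ) :=
  top (stmt_Trace stmt_RT hF)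
    (stmt_Cong1 stmt_I0 stmt_I1 hI2 stmt_Map stmt_Base stmt_ExistsAB' h5 stmt_ShortIso
      (stmt_Spec stmt_RT))
    stmt_Choice1' W hΔ hW

end Fermat.Agent.S52
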