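import Fermat.Agent.S52.Interface

/-! # S52, package B-5: the curve with invariants `(c4F a b, c6F a b)` has a point of order 5
(Tate normal form).  helper83. -/

set_option autoImplicit false

open WeierstrassCurve WeierstrassCurve.Affine WeierstrassCurve.Affine.Point

namespace Fermat.Agent.S52

namespace FiveAB

variable {K : Type} [Field K] [DecidableEq K]

omit [DecidableEq K] in
/-- nonsingularity of a point with `y ≠ 0` on a short Weierstrass curve -/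
lemma nonsingular_short (W : Affine K) (h1 : W.a₁ = 0) (h2 : W.a₂ = 0) (h3 : W.a₃ = 0)
    (two_ne : (2 : K) ≠ 0) {x y : K} (hy : y ≠ 0) (he : y ^ 2 = x ^ 3 + W.a₄ * x + W.a₆) :
    W.Nonsingular x y := by
  rw [nonsingular_iff', equation_iff]
  refine ⟨by rw [h1, h2, h3]; linear_combination he, Or.inr ?_⟩
  rw [h1, h3]
  simpa using mul_ne_zero two_ne hy

/-- doubling on a short Weierstrass curve with a known slope -/
lemma add_self_short (W : Affine K) (h1 : W.a₁ = 0) (h2 : W.a₂ = 0) (h3 : W.a₃ = 0)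
    (two_ne : (2 : K) ≠ 0) {x y x' y' l : K} (h : W.Nonsingular x y) (h' : W.Nonsingular x' y')
    (hy : y ≠ 0) (hl : 2 * y * l = 3 * x ^ 2 + W.a₄) (hx' : x' = l ^ 2 - 2 * x)
    (hy' : y' = -(y + l * (x' - x))) :
    Point.some x y h + Point.some x y h = Point.some x' y' h' := by
  have h2y : 2 * y ≠ 0 := mul_ne_zero two_ne hy
  have hne : y ≠ W.negY x y := by
    simp only [negY, h1, h3]
    intro e
    apply h2y
    linear_combination e
  have hs : W.slope x x y y = l := by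
    rw [slope_of_Y_ne rfl hne]
    simp only [negY, h1, h2, h3]
    rw [div_eq_iff (by intro e; apply h2y; linear_combination e)]
    linear_combination -hl
  rw [add_self_of_Y_ne hne]
  simp only [Point.some.injEq, hs, addX, addY, negAddY, negY, h1, h2, h3]
  constructor
  · rw [hx']; ring
  · rw [hy', hx']; ring

/-- the abstract Tate normal form computation -/
lemma exists_five (W : Affine K) (h1 : W.a₁ = 0) (h2 : W.a₂ = 0) (h3 : W.a₃ = 0)
    (two_ne : (2 : K) ≠ 0) (three_ne : (3 : K) ≠ 0) (p q ρ c4 c6 : K) (hp : p ≠ 0) (hq : q ≠ 0)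
    (hρ : ρ ≠ 0) (h4 : W.a₄ = -27 * c4) (h6 : W.a₆ = -54 * c6)
    (hc4 : ρ ^ 4 * c4 = p ^ 4 - 12 * p ^ 3 * q + 14 * p ^ 2 * q ^ 2 + 12 * p * q ^ 3 + q ^ 4)
    (hc6 : ρ ^ 6 * c6 = -(p ^ 6 - 18 * p ^ 5 * q + 75 * p ^ 4 * q ^ 2 + 75 * p ^ 2 * q ^ 4
      + 18 * p * q ^ 5 + q ^ 6)) :
    ∃ P : W.Point, P ≠ 0 ∧ (5 : ℕ) • P = 0 := by
  have h108 : (108 : K) ≠ 0 := by
    have : (108 : K) = 2 ^ 2 * 3 ^ 3 := by norm_num
    rw [this]
    exact mul_ne_zero (pow_ne_zero _ two_ne) (pow_ne_zero _ three_ne)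
  have e4 : c4 = (p ^ 4 - 12 * p ^ 3 * q + 14 * p ^ 2 * q ^ 2 + 12 * p * q ^ 3 + q ^ 4) / ρ ^ 4 := by
    rw [eq_div_iff (pow_ne_zero _ hρ)]; linear_combination hc4
  have e6 : c6 = -(p ^ 6 - 18 * p ^ 5 * q + 75 * p ^ 4 * q ^ 2 + 75 * p ^ 2 * q ^ 4
      + 18 * p * q ^ 5 + q ^ 6) / ρ ^ 6 := by
    rw [eq_div_iff (pow_ne_zero _ hρ)]; linear_combination hc6
  set x1 : K := 3 * (p ^ 2 - 6 * p * q + q ^ 2) / ρ ^ 2 with hx1
  set y1 : K := -108 * p * q ^ 2 / ρ ^ 3 with hy1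
  set x2 : K := 3 * (p ^ 2 + 6 * p * q + q ^ 2) / ρ ^ 2 with hx2
  set y2 : K := 108 * p ^ 2 * q / ρ ^ 3 with hy2
  have y1_ne : y1 ≠ 0 := by
    rw [hy1]
    exact div_ne_zero (mul_ne_zero (mul_ne_zero (neg_ne_zero.mpr h108) hp) (pow_ne_zero _ hq))
      (pow_ne_zero _ hρ)
  have y2_ne : y2 ≠ 0 := by
    rw [hy2]
    exact div_ne_zero (mul_ne_zero (mul_ne_zero h108 (pow_ne_zero _ hp)) hq) (pow_ne_zero _ hρ)
  have n1 : W.Nonsingular x1 y1 := by
    apply nonsingular_short W h1 h2 h3 two_ne y1_ne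
    rw [h4, h6, e4, e6, hx1, hy1]
    field_simp
    ring
  have n2 : W.Nonsingular x2 y2 := by
    apply nonsingular_short W h1 h2 h3 two_ne y2_ne
    rw [h4, h6, e4, e6, hx2, hy2]
    field_simp
    ring
  have n1' : W.Nonsingular x1 (-y1) := by
    apply nonsingular_short W h1 h2 h3 two_ne (neg_ne_zero.mpr y1_ne)
    rw [h4, h6, e4, e6, hx1, hy1]
    field_simp
    ring
  have d1 : Point.some x1 y1 n1 + Point.some x1 y1 n1 = Point.some x2 y2 n2 := by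
    apply add_self_short W h1 h2 h3 two_ne (l := 3 * (q - p) / ρ) n1 n2 y1_ne
    · rw [h4, e4, hx1, hy1]
      field_simp
      ring
    · rw [hx1, hx2]
      field_simp
      ring
    · rw [hx1, hx2, hy1, hy2]
      field_simp
      ring
  have d2 : Point.some x2 y2 n2 + Point.some x2 y2 n2 = Point.some x1 (-y1) n1' := by
    apply add_self_short W h1 h2 h3 two_ne (l := 3 * (p + q) / ρ) n2 n1' y2_ne
    · rw [h4, e4, hx2, hy2]
      field_simp
      ring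
    · rw [hx1, hx2]
      field_simp
      ring
    · rw [hx1, hx2, hy1, hy2]
      field_simp
      ring
  have hneg : Point.some x1 (-y1) n1' = -Point.some x1 y1 n1 := by
    rw [neg_some]
    simp only [Point.some.injEq, negY, h1, h3]
    refine ⟨trivial, by ring⟩
  refine ⟨Point.some x1 y1 n1, by simp, ?_⟩
  have : (5 : ℕ) • Point.some x1 y1 n1 =
      ((Point.some x1 y1 n1 + Point.some x1 y1 n1) + (Point.some x1 y1 n1 + Point.some x1 y1 n1))
        + Point.some x1 y1 n1 := by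
    abel
  rw [this, d1, d2, hneg]
  exact neg_add_cancel _

end FiveAB

theorem stmt_FiveAB : Stmt_FiveAB := by
  intro K _ _ s ρ hs hρ h30 a b hab W h1 h2 h3 h4 h6
  have two_ne : (2 : K) ≠ 0 := by
    intro h; apply h30
    have : (30 : K) = 2 * 15 := by norm_num
    rw [this, h, zero_mul]
  have three_ne : (3 : K) ≠ 0 := by
    intro h; apply h30
    have : (30 : K) = 3 * 10 := by norm_num
    rw [this, h, zero_mul]
  have five_ne : (5 : K) ≠ 0 := by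
    intro h; apply h30
    have : (30 : K) = 5 * 6 := by norm_num
    rw [this, h, zero_mul]
  obtain ⟨r, hr2⟩ : ∃ r : K, 2 * r = -11 - 5 * s := ⟨(-11 - 5 * s) / 2, by field_simp⟩
  have hρ2 : 2 * ρ ^ 2 = 25 + 11 * s := by rw [hρ]; field_simp
  have hr : r ^ 2 + 11 * r - 1 = 0 := by
    have h4' : (4 : K) ≠ 0 := by
      have : (4 : K) = 2 * 2 := by norm_num
      rw [this]; exact mul_ne_zero two_ne two_ne
    apply (mul_eq_zero.mp (?_ : (4 : K) * (r ^ 2 + 11 * r - 1) = 0)).resolve_left h4'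
    linear_combination (2 * r - 11 - 5 * s + 22) * hr2 + 25 * hs
  have hρ5 : 5 * ρ ^ 2 = 2 - 11 * r := by
    apply mul_left_cancel₀ two_ne
    linear_combination 5 * hρ2 + 11 * hr2
  have hr0 : r ≠ 0 := by
    intro h; rw [h] at hr; norm_num at hr
  have hρ0 : ρ ≠ 0 := by
    intro h
    rw [h] at hρ5
    -- 11 r = 2, so 121 (r^2 + 11 r - 1) = 4 + 242 - 121 = 125
    have : (125 : K) = 0 := by linear_combination 121 * hr - (11 * r + 123) * hρ5
    have h125 : (125 : K) = 5 ^ 3 := by norm_num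
    rw [h125] at this
    exact five_ne (pow_eq_zero_iff (by norm_num) |>.mp this)
  have hd : dF a b ≠ 0 := fun h => hab (by rw [h, mul_zero])
  have hpq : (-(r * a + b)) * (a - r * b) = -r * dF a b := by
    unfold dF
    linear_combination a * b * hr
  have hpq0 : (-(r * a + b)) * (a - r * b) ≠ 0 := by
    rw [hpq]; exact mul_ne_zero (neg_ne_zero.mpr hr0) hd
  have h25 : (25 : K) ≠ 0 := by
    have : (25 : K) = 5 ^ 2 := by norm_num
    rw [this]; exact pow_ne_zero _ five_ne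
  have h125 : (125 : K) ≠ 0 := by
    have : (125 : K) = 5 ^ 3 := by norm_num
    rw [this]; exact pow_ne_zero _ five_ne
  refine FiveAB.exists_five W h1 h2 h3 two_ne three_ne (-(r * a + b)) (a - r * b) ρ (c4F a b)
    (c6F a b) (left_ne_zero_of_mul hpq0) (right_ne_zero_of_mul hpq0) hρ0 h4 h6 ?_ ?_
  · apply mul_left_cancel₀ h25
    unfold c4F
    linear_combination (5 * ρ ^ 2 + (2 - 11 * r)) *
        (a ^ 4 - 228 * a ^ 3 * b + 494 * a ^ 2 * b ^ 2 + 228 * a * b ^ 3 + b ^ 4) * hρ5 +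
      ((-612) * a * b ^ 3 + (2700) * a * b ^ 3 * r + (-300) * a * b ^ 3 * r ^ 2 + (-1626) * a ^ 2 * b ^ 2 + (5650) * a ^ 2 * b ^ 2 * r + (-350) * a ^ 2 * b ^ 2 * r ^ 2 + (612) * a ^ 3 * b + (-2700) * a ^ 3 * b * r + (300) * a ^ 3 * b * r ^ 2 + (21) * a ^ 4 + (-25) * a ^ 4 * r + (-25) * a ^ 4 * r ^ 2 + (21) * b ^ 4 + (-25) * b ^ 4 * r + (-25) * b ^ 4 * r ^ 2) * hr
  · apply mul_left_cancel₀ h125
    unfold c6F
    linear_combination ((5 * ρ ^ 2) ^ 2 + (5 * ρ ^ 2) * (2 - 11 * r) + (2 - 11 * r) ^ 2) *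
        (a ^ 6 + 522 * a ^ 5 * b - 10005 * a ^ 4 * b ^ 2 - 10005 * a ^ 2 * b ^ 4 - 522 * a * b ^ 5 + b ^ 6) * hρ5 +
      ((1926) * a * b ^ 5 + (-29718) * a * b ^ 5 * r + (65250) * a * b ^ 5 * r ^ 2 + (-6750) * a * b ^ 5 * r ^ 3 + (2250) * a * b ^ 5 * r ^ 4 + (70665) * a ^ 2 * b ^ 4 + (-554595) * a ^ 2 * b ^ 4 * r + (1250625) * a ^ 2 * b ^ 4 * r ^ 2 + (-114375) * a ^ 2 * b ^ 4 * r ^ 3 + (9375) * a ^ 2 * b ^ 4 * r ^ 4 + (70665) * a ^ 4 * b ^ 2 + (-554595) * a ^ 4 * b ^ 2 * r + (1250625) * a ^ 4 * b ^ 2 * r ^ 2 + (-114375) * a ^ 4 * b ^ 2 * r ^ 3 + (9375) * a ^ 4 * b ^ 2 * r ^ 4 + (-1926) * a ^ 5 * b + (29718) * a ^ 5 * b * r + (-65250) * a ^ 5 * b * r ^ 2 + (6750) * a ^ 5 * b * r ^ 3 + (-2250) * a ^ 5 * b * r ^ 4 + (-133) * a ^ 6 + (919) * a ^ 6 * r + (-125) * a ^ 6 * r ^ 2 + (875) * a ^ 6 * r ^ 3 + (125) * a ^ 6 * r ^ 4 + (-133) * b ^ 6 + (919) * b ^ 6 * r + (-125) * b ^ 6 * r ^ 2 + (875) * b ^ 6 * r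 ^ 3 + (125) * b ^ 6 * r ^ 4) * hr

end Fermat.Agent.S52
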