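import Fermat.Agent.S52.I2B_Defs

/-! # S52, identity (B-2), shadow version: coefficient identities (Ca). -/

set_option autoImplicit false
set_option linter.unusedVariables false
set_option linter.unusedSimpArgs false
set_option maxHeartbeats 4000000

namespace Fermat.Agent.S52.I2B

variable {R : Type*} [CommRing R]

theorem coeff0 (a b : R) : LL0 a b (g1 a b) (g2 a b) = tc0 (c4F a b) (c6F a b) := by
  simp only [LL0, tc0, g1, g2, c4F, c6F]
  ring

theorem coeff1 (a b : R) : LL1 a b (g1 a b) (g2 a b) = tc1 (c4F a b) (c6F a b) := by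
  simp only [LL1, tc1, g1, g2, c4F, c6F]
  ring

theorem coeff2 (a b : R) : LL2 a b (g1 a b) (g2 a b) = tc2 (c4F a b) (c6F a b) := by
  simp only [LL2, tc2, g1, g2, c4F, c6F]
  ring

theorem coeff3 (a b : R) : LL3 a b (g1 a b) (g2 a b) = tc3 (c4F a b) (c6F a b) := by
  simp only [LL3, tc3, g1, g2, c4F, c6F]
  ring

theorem coeff4 (a b : R) : LL4 a b (g1 a b) (g2 a b) = tc4 (c4F a b) (c6F a b) := by
  simp only [LL4, tc4, g1, g2, c4F, c6F]
  ring

theorem coeff5 (a b : R) : LL5 a b (g1 a b) (g2 a b) = tc5 (c4F a b) (c6F a b) := by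
  simp only [LL5, tc5, g1, g2, c4F, c6F]
  ring

theorem coeff6 (a b : R) : LL6 a b (g1 a b) (g2 a b) = tc6 (c4F a b) (c6F a b) := by
  simp only [LL6, tc6, g1, g2, c4F, c6F]
  ring

theorem coeff7 (a b : R) : LL7 a b (g1 a b) (g2 a b) = tc7 (c4F a b) (c6F a b) := by
  simp only [LL7, tc7, g1, g2, c4F, c6F]
  ring

theorem coeff8 (a b : R) : LL8 a b (g1 a b) (g2 a b) = tc8 (c4F a b) (c6F a b) := by
  simp only [LL8, tc8, g1, g2, c4F, c6F]
  ring

theorem coeff9 (a b : R) : LL9 a b (g1 a b) (g2 a b) = tc9 (c4F a b) (c6F a b) := by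
  simp only [LL9, tc9, g1, g2, c4F, c6F]
  ring

theorem coeff10 (a b : R) : LL10 a b (g1 a b) (g2 a b) = tc10 (c4F a b) (c6F a b) := by
  simp only [LL10, tc10, g1, g2, c4F, c6F]
  ring

theorem coeff11 (a b : R) : LL11 a b (g1 a b) (g2 a b) = tc11 (c4F a b) (c6F a b) := by
  simp only [LL11, tc11, g1, g2, c4F, c6F]
  ring

end Fermat.Agent.S52.I2B
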