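import Fermat.Agent.S52.I2B_Defs

/-! # S52, identity (B-2), shadow version: coefficient identities (Cb). -/

set_option autoImplicit false
set_option linter.unusedVariables false
set_option linter.unusedSimpArgs false
set_option maxHeartbeats 4000000

namespace Fermat.Agent.S52.I2B

variable {R : Type*} [CommRing R]

theorem coeff12 (a b : R) : LL12 a b (g1 a b) (g2 a b) = tc12 (c4F a b) (c6F a b) := by
  simp only [LL12, tc12, g1, g2, c4F, c6F]
  ring

theorem coeff13 (a b : R) : LL13 a b (g1 a b) (g2 a b) = tc13 (c4F a b) (c6F a b) := by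
  simp only [LL13, tc13, g1, g2, c4F, c6F]
  ring

theorem coeff14 (a b : R) : LL14 a b (g1 a b) (g2 a b) = tc14 (c4F a b) (c6F a b) := by
  simp only [LL14, tc14, g1, g2, c4F, c6F]
  ring

theorem coeff15 (a b : R) : LL15 a b (g1 a b) (g2 a b) = tc15 (c4F a b) (c6F a b) := by
  simp only [LL15, tc15, g1, g2, c4F, c6F]
  ring

theorem coeff16 (a b : R) : LL16 a b (g1 a b) (g2 a b) = tc16 (c4F a b) (c6F a b) := by
  simp only [LL16, tc16, g1, g2, c4F, c6F]
  ring

theorem coeff17 (a b : R) : LL17 a b (g1 a b) (g2 a b) = tc17 (c4F a b) (c6F a b) := by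
  simp only [LL17, tc17, g1, g2, c4F, c6F]
  ring

theorem coeff18 (a b : R) : LL18 a b (g1 a b) (g2 a b) = tc18 (c4F a b) (c6F a b) := by
  simp only [LL18, tc18, g1, g2, c4F, c6F]
  ring

end Fermat.Agent.S52.I2B
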