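import Fermat.Agent.S52.I2B_Defs

/-! # S52, identity (B-2), shadow version: coefficient identities (Cc). -/

set_option autoImplicit false
set_option linter.unusedVariables false
set_option linter.unusedSimpArgs false
set_option maxHeartbeats 4000000

namespace Fermat.Agent.S52.I2B

variable {R : Type*} [CommRing R]

theorem coeff19 (a b : R) : LL19 a b (g1 a b) (g2 a b) = tc19 (c4F a b) (c6F a b) := by
  simp only [LL19, tc19, g1, g2, c4F, c6F]
  ring

theorem coeff20 (a b : R) : LL20 a b (g1 a b) (g2 a b) = tc20 (c4F a b) (c6F a b) := by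
  simp only [LL20, tc20, g1, g2, c4F, c6F]
  ring

theorem coeff21 (a b : R) : LL21 a b (g1 a b) (g2 a b) = tc21 (c4F a b) (c6F a b) := by
  simp only [LL21, tc21, g1, g2, c4F, c6F]
  ring

theorem coeff22 (a b : R) : LL22 a b (g1 a b) (g2 a b) = tc22 (c4F a b) (c6F a b) := by
  simp only [LL22, tc22, g1, g2, c4F, c6F]
  ring

theorem coeff23 (a b : R) : LL23 a b (g1 a b) (g2 a b) = tc23 (c4F a b) (c6F a b) := by
  simp only [LL23, tc23, g1, g2, c4F, c6F]
  ring

theorem coeff24 (a b : R) : LL24 a b (g1 a b) (g2 a b) = tc24 (c4F a b) (c6F a b) := by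
  simp only [LL24, tc24, g1, g2, c4F, c6F]
  ring

end Fermat.Agent.S52.I2B
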