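import Fermat.Agent.S52.I2B_Defs

/-! # S52, identity (B-2), shadow version: coefficient identities (Cd). -/

set_option autoImplicit false
set_option linter.unusedVariables false
set_option linter.unusedSimpArgs false
set_option maxHeartbeats 4000000

namespace Fermat.Agent.S52.I2B

variable {R : Type*} [CommRing R]

theorem coeff25 (a b : R) : LL25 a b (g1 a b) (g2 a b) = tc25 (c4F a b) (c6F a b) := by
  simp only [LL25, tc25, g1, g2, c4F, c6F]
  ring

theorem coeff26 (a b : R) : LL26 a b (g1 a b) (g2 a b) = tc26 (c4F a b) (c6F a b) := by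
  simp only [LL26, tc26, g1, g2, c4F, c6F]
  ring

theorem coeff27 (a b : R) : LL27 a b (g1 a b) (g2 a b) = tc27 (c4F a b) (c6F a b) := by
  simp only [LL27, tc27, g1, g2, c4F, c6F]
  ring

theorem coeff28 (a b : R) : LL28 a b (g1 a b) (g2 a b) = tc28 (c4F a b) (c6F a b) := by
  simp only [LL28, tc28, g1, g2, c4F, c6F]
  ring

theorem coeff29 (a b : R) : LL29 a b (g1 a b) (g2 a b) = tc29 (c4F a b) (c6F a b) := by
  simp only [LL29, tc29, g1, g2, c4F, c6F]
  ring

theorem coeff30 (a b : R) : LL30 a b (g1 a b) (g2 a b) = tc30 (c4F a b) (c6F a b) := by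
  simp only [LL30, tc30, g1, g2, c4F, c6F]
  ring

end Fermat.Agent.S52.I2B
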