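import Fermat.Agent.S52.I2B_Expand
import Fermat.Agent.S52.I2B_Ca
import Fermat.Agent.S52.I2B_Cb
import Fermat.Agent.S52.I2B_Cc
import Fermat.Agent.S52.I2B_Cd

/-! # S52, identity (B-2), shadow version (helper52): `c6F (a', b') = TT`. -/

set_option autoImplicit false
set_option linter.unusedVariables false
set_option linter.unusedSimpArgs false
set_option maxHeartbeats 4000000

namespace Fermat.Agent.S52.I2B

variable {R : Type*} [CommRing R]

theorem main (a b u v : R) :
    c6F (a * (u + v * g1 a b) ^ 5) (b * (u - v * g2 a b) ^ 5) = TT (c4F a b) (c6F a b) u v := by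
  rw [expand, coeff0, coeff1, coeff2, coeff3, coeff4, coeff5, coeff6, coeff7, coeff8, coeff9, coeff10, coeff11, coeff12, coeff13, coeff14, coeff15, coeff16, coeff17, coeff18, coeff19, coeff20, coeff21, coeff22, coeff23, coeff24, coeff25, coeff26, coeff27, coeff28, coeff29, coeff30]
  simp only [TT, Tpart0, Tpart1, Tpart2, Tpart3]
  ring

end Fermat.Agent.S52.I2B

namespace Fermat.Agent.S52

theorem stmt_I2B : Stmt_I2 := fun _ _ a b u v => I2B.main a b u v

end Fermat.Agent.S52
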