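import Mathlib
import Fermat.Agent.S52.A2Interface

/-! # S52, block A2: glue.  All `Stmt_*` of `A2Interface` + `Stmt_QuadAbs` ⟹ `Stmt_Frob`. -/

set_option autoImplicit false

open Polynomial WeierstrassCurve WeierstrassCurve.Affine

namespace Fermat.Agent.S52.A2

namespace Glue

variable {ℓ : ℕ} [Fact ℓ.Prime] {W₀ : Affine (ZMod ℓ)} {k : Type} [Field k] [Algebra (ZMod ℓ) k]

theorem mapPt_mapPt (f g : KK ℓ W₀ k →ₐ[ZMod ℓ] KK ℓ W₀ k) (P : Pt ℓ W₀ k) :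
    mapPt f (mapPt g P) = mapPt (f.comp g) P := Point.map_map ..

theorem mapPt_comm (f g : KK ℓ W₀ k →ₐ[ZMod ℓ] KK ℓ W₀ k) (h : ∀ z, f (g z) = g (f z))
    (P : Pt ℓ W₀ k) : mapPt f (mapPt g P) = mapPt g (mapPt f P) := by
  rw [mapPt_mapPt, mapPt_mapPt, show f.comp g = g.comp f from AlgHom.ext h]

theorem Phi_comm (f : KK ℓ W₀ k →ₐ[ZMod ℓ] KK ℓ W₀ k) (P : Pt ℓ W₀ k) :
    mapPt f (mapPt (Phi ℓ W₀ k) P) = mapPt (Phi ℓ W₀ k) (mapPt f P) :=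
  mapPt_comm _ _ (fun z => by rw [Phi_apply, Phi_apply, map_pow]) P

theorem isOdd_zero : IsOdd (0 : Pt ℓ W₀ k) := by
  rw [IsOdd, map_zero, neg_zero]

theorem IsOdd.add {P Q : Pt ℓ W₀ k} (hP : IsOdd P) (hQ : IsOdd Q) : IsOdd (P + Q) := by
  rw [IsOdd] at *
  rw [map_add, hP, hQ, neg_add]

theorem IsOdd.neg {P : Pt ℓ W₀ k} (hP : IsOdd P) : IsOdd (-P) := by
  rw [IsOdd] at *
  rw [map_neg, hP]

theorem IsOdd.Phi {P : Pt ℓ W₀ k} (hP : IsOdd P) : IsOdd (mapPt (Phi ℓ W₀ k) P) := by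
  rw [IsOdd] at *
  rw [Phi_comm, hP, map_neg]

/-- the subgroup of odd points -/
def oddSub (ℓ : ℕ) [Fact ℓ.Prime] (W₀ : Affine (ZMod ℓ)) (k : Type) [Field k]
    [Algebra (ZMod ℓ) k] : AddSubgroup (Pt ℓ W₀ k) where
  carrier := {P | IsOdd P}
  add_mem' := fun hP hQ => IsOdd.add hP hQ
  zero_mem' := isOdd_zero
  neg_mem' := fun hP => IsOdd.neg hP

theorem algebraMap_k_eq (c : k) :
    algebraMap k (KK ℓ W₀ k) c = algebraMap (RatFunc k) (KK ℓ W₀ k) (RatFunc.C c) := by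
  rw [IsScalarTower.algebraMap_apply k (RatFunc k) (KK ℓ W₀ k)]
  rfl

/-- a point of nonzero degree is affine with non-constant `x`-coordinate -/
theorem nonconst_of_dP_ne_zero (hR : Stmt_RatDeg) {A : Pt ℓ W₀ k} (hA : dP A ≠ 0) :
    ∃ (u v : KK ℓ W₀ k) (h : (W₀⁄(KK ℓ W₀ k)).Nonsingular u v), A = Point.some u v h ∧
      ¬ ∃ c : k, u = algebraMap k (KK ℓ W₀ k) c := by
  match A, hA with
  | .zero, hA => exact absurd rfl hA
  | .some u v h, hA =>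
    refine ⟨u, v, h, rfl, ?_⟩
    rintro ⟨c, rfl⟩
    apply hA
    show ((ratDeg (xF (algebraMap k (KK ℓ W₀ k) c)) : ℕ) : ℤ) = 0
    rw [algebraMap_k_eq, xF_algebraMap, (hR k).2.2.1 c]
    rfl

/-- an odd point of degree zero is constant -/
theorem const_of_dP_eq_zero [IsAlgClosed k] [DecidableEq k] (hR : Stmt_RatDeg) (hB : Stmt_Basis)
    (hC : Stmt_Const) (hΔ : W₀.Δ ≠ 0) {A : Pt ℓ W₀ k} (hodd : IsOdd A) (hA : dP A = 0) :
    ∃ P₀ : (W₀⁄k).Point, cst ℓ W₀ k P₀ = A := by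
  match A, hodd, hA with
  | .zero, _, _ => exact ⟨0, map_zero _⟩
  | .some u v h, hodd, hA =>
    apply hC ℓ W₀ k u v h
    have h1 : iota ℓ W₀ k u = u := by
      have := hodd
      rw [IsOdd, mapPt, Point.map_some, Point.neg_some] at this
      exact (Point.some.inj this).1
    obtain ⟨p, rfl⟩ := (hB ℓ W₀ k).2.2 hΔ u h1
    have h2 : ratDeg p = 0 := by
      have : ((ratDeg (xF (algebraMap (RatFunc k) (KK ℓ W₀ k) p)) : ℕ) : ℤ) = 0 := hA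
      rw [xF_algebraMap] at this
      exact_mod_cast this
    obtain ⟨c, rfl⟩ := (hR k).2.1 p h2
    exact ⟨c, (algebraMap_k_eq c).symm⟩

theorem dP_neg (P : Pt ℓ W₀ k) : dP (-P) = dP P := by
  cases P <;> rfl

/-- the image of `eta` under a substitution hom -/
theorem mapPt_eta (hΔ : W₀.Δ ≠ 0) (σ : KK ℓ W₀ k →ₐ[k] KK ℓ W₀ k) {u v : KK ℓ W₀ k}
    (h : (W₀⁄(KK ℓ W₀ k)).Nonsingular u v) (hu : σ (xK ℓ W₀ k) = u) (hv : σ (yK ℓ W₀ k) = v) :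
    mapPt (σ.restrictScalars (ZMod ℓ)) (eta ℓ W₀ k hΔ) = Point.some u v h := by
  subst hu hv
  rfl

/-- substitution homs fix constant points -/
theorem mapPt_cst [DecidableEq k] (σ : KK ℓ W₀ k →ₐ[k] KK ℓ W₀ k) (P₀ : (W₀⁄k).Point) :
    mapPt (σ.restrictScalars (ZMod ℓ)) (cst ℓ W₀ k P₀) = cst ℓ W₀ k P₀ := by
  rw [mapPt, cst, Point.map_map,
    show (σ.restrictScalars (ZMod ℓ)).comp (IsScalarTower.toAlgHom (ZMod ℓ) k (KK ℓ W₀ k))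
      = IsScalarTower.toAlgHom (ZMod ℓ) k (KK ℓ W₀ k) from AlgHom.ext fun z => σ.commutes z]

/-- Frobenius on constant points -/
theorem Phi_cst [DecidableEq k] (P₀ : (W₀⁄k).Point) :
    mapPt (Phi ℓ W₀ k) (cst ℓ W₀ k P₀) =
      cst ℓ W₀ k (Point.map (W' := W₀) (FiniteField.frobeniusAlgHom (ZMod ℓ) k) P₀) := by
  rw [mapPt, cst, Point.map_map, Point.map_map,
    show (Phi ℓ W₀ k).comp (IsScalarTower.toAlgHom (ZMod ℓ) k (KK ℓ W₀ k))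
      = (IsScalarTower.toAlgHom (ZMod ℓ) k (KK ℓ W₀ k)).comp
        (FiniteField.frobeniusAlgHom (ZMod ℓ) k) from AlgHom.ext fun z => by
      simp [Phi, FiniteField.frobeniusAlgHom_apply]]

theorem cst_injective [DecidableEq k] : Function.Injective (cst ℓ W₀ k) := Point.map_injective _

/-- `eta` is not constant -/
theorem eta_not_const [DecidableEq k] (hR : Stmt_RatDeg) (hΔ : W₀.Δ ≠ 0) (P₀ : (W₀⁄k).Point) :
    cst ℓ W₀ k P₀ ≠ eta ℓ W₀ k hΔ := by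
  intro h
  match P₀, h with
  | .zero, h => exact Point.some_ne_zero _ h.symm
  | .some c e hce, h =>
    rw [cst, Point.map_some, eta] at h
    have h1 : algebraMap k (KK ℓ W₀ k) c = xK ℓ W₀ k := (Point.some.inj h).1
    rw [algebraMap_k_eq, xK] at h1
    have h2 := (algebraMap (RatFunc k) (KK ℓ W₀ k)).injective h1
    have h3 := (hR k).2.2.1 c
    rw [h2, (hR k).2.2.2.1] at h3
    exact one_ne_zero h3

/-- the key computation: `Ψ = Φ²η - aΦη + ℓη` has degree `0` -/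
theorem dP_Psi [IsAlgClosed k] (hQ : Stmt_QuadAbs) (hR : Stmt_RatDeg) (hS : Stmt_Subst)
    (hPar : Stmt_Par) (hDF : Stmt_DegFrob) (hDS : Stmt_DegSubst) (hM : Stmt_Manin)
    (hMC : Stmt_ManinCard) (hΔ : W₀.Δ ≠ 0) :
    dP (mapPt (Phi ℓ W₀ k) (mapPt (Phi ℓ W₀ k) (eta ℓ W₀ k hΔ))
      - ((ℓ : ℤ) + 1 - (Nat.card W₀.Point : ℤ)) • mapPt (Phi ℓ W₀ k) (eta ℓ W₀ k hΔ)
      + (ℓ : ℤ) • eta ℓ W₀ k hΔ) = 0 := by
  obtain ⟨hηodd, hη1, hFdeg⟩ := hDF ℓ W₀ k hΔ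
  have hN := hM ℓ W₀ k hΔ
  have hNpos : (Nat.card W₀.Point : ℤ) ≠ 0 := by
    rw [(hMC ℓ W₀ hΔ).2]
    positivity
  set η := eta ℓ W₀ k hΔ with hη
  set F := mapPt (Phi ℓ W₀ k) with hF
  set N : ℤ := (Nat.card W₀.Point : ℤ) with hNdef
  have hFη : IsOdd (F η) := IsOdd.Phi hηodd
  have hFFη : IsOdd (F (F η)) := IsOdd.Phi hFη
  have hAodd : IsOdd (F η - η) := by
    rw [sub_eq_add_neg]; exact IsOdd.add hFη (IsOdd.neg hηodd)
  obtain ⟨u, v, h, hA, hu⟩ := nonconst_of_dP_ne_zero hR (A := F η - η) (by rw [hN]; exact hNpos)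
  obtain ⟨σ, hσx, hσy⟩ := hS ℓ W₀ k u v h.1 hu
  have hSη : mapPt (σ.restrictScalars (ZMod ℓ)) η = F η - η := by
    rw [hA]; exact mapPt_eta hΔ σ h hσx hσy
  have key : dP (F (F η - η) - (F η - η)) = N * N := by
    have e : F (F η - η) - (F η - η) = mapPt (σ.restrictScalars (ZMod ℓ)) (F η - η) := by
      rw [map_sub (mapPt (σ.restrictScalars (ZMod ℓ))), hF, Phi_comm, hSη]
    rw [e, hDS ℓ W₀ k hΔ σ (F η - η) (by rw [hSη]; exact hAodd) hAodd, hSη, hN]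
  have := hQ (oddSub ℓ W₀ k) (fun P => dP (P : Pt ℓ W₀ k)) ⟨η, hηodd⟩ ⟨F η, hFη⟩ ⟨F (F η), hFFη⟩
    (ℓ : ℤ) N (fun P Q => hPar ℓ W₀ k hΔ P Q P.2 Q.2) hη1
    (by show dP (F η) = ℓ; rw [hFdeg η hηodd, hη1, mul_one])
    (by show dP (F (F η)) = (ℓ : ℤ) ^ 2; rw [hFdeg _ hFη, hFdeg η hηodd, hη1]; ring)
    (by
      show dP (F η + F (F η)) = ℓ * dP (η + F η)
      rw [← map_add, hFdeg _ (IsOdd.add hηodd hFη)])
    (by
      show dP (η - F η) = N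
      rw [← neg_sub, dP_neg, hN])
    (by
      show dP (η - (2 : ℤ) • F η + F (F η)) = N ^ 2
      have e : η - (2 : ℤ) • F η + F (F η) = F (F η - η) - (F η - η) := by
        rw [map_sub, two_zsmul]; abel
      rw [e, key]; ring)
  exact this

/-- the operator `Φ² - aΦ + ℓ` on `W₀(KK)` -/
noncomputable def PsiOp (ℓ : ℕ) [Fact ℓ.Prime] (W₀ : Affine (ZMod ℓ)) (k : Type) [Field k]
    [Algebra (ZMod ℓ) k] (a : ℤ) (P : Pt ℓ W₀ k) : Pt ℓ W₀ k :=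
  mapPt (Phi ℓ W₀ k) (mapPt (Phi ℓ W₀ k) P) - a • mapPt (Phi ℓ W₀ k) P + (ℓ : ℤ) • P

theorem PsiOp_add (a : ℤ) (P Q : Pt ℓ W₀ k) :
    PsiOp ℓ W₀ k a (P + Q) = PsiOp ℓ W₀ k a P + PsiOp ℓ W₀ k a Q := by
  simp only [PsiOp, map_add, zsmul_add]
  abel

theorem PsiOp_mapPt (a : ℤ) (f : KK ℓ W₀ k →ₐ[ZMod ℓ] KK ℓ W₀ k) (P : Pt ℓ W₀ k) :
    PsiOp ℓ W₀ k a (mapPt f P) = mapPt f (PsiOp ℓ W₀ k a P) := by
  simp only [PsiOp, map_add, map_sub, map_zsmul, Phi_comm]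

theorem PsiOp_cst [DecidableEq k] (a : ℤ) (P₀ : (W₀⁄k).Point) :
    PsiOp ℓ W₀ k a (cst ℓ W₀ k P₀) = cst ℓ W₀ k
      (Point.map (W' := W₀) (FiniteField.frobeniusAlgHom (ZMod ℓ) k)
          (Point.map (W' := W₀) (FiniteField.frobeniusAlgHom (ZMod ℓ) k) P₀)
        - a • Point.map (W' := W₀) (FiniteField.frobeniusAlgHom (ZMod ℓ) k) P₀
        + (ℓ : ℤ) • P₀) := by
  simp only [PsiOp, map_add, map_sub, map_zsmul, Phi_cst]

theorem IsOdd.zsmul {P : Pt ℓ W₀ k} (hP : IsOdd P) (n : ℤ) : IsOdd (n • P) :=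
  (oddSub ℓ W₀ k).zsmul_mem hP n

/-- the Frobenius relation over an algebraically closed field -/
theorem frob_algClosed [IsAlgClosed k] [DecidableEq k] (hQ : Stmt_QuadAbs) (hR : Stmt_RatDeg)
    (hB : Stmt_Basis) (hC : Stmt_Const) (hS : Stmt_Subst)
    (hPar : Stmt_Par) (hDF : Stmt_DegFrob) (hDS : Stmt_DegSubst) (hM : Stmt_Manin)
    (hMC : Stmt_ManinCard) (hΔ : W₀.Δ ≠ 0) (P₀ : (W₀⁄k).Point) :
    Point.map (W' := W₀) (FiniteField.frobeniusAlgHom (ZMod ℓ) k)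
        (Point.map (W' := W₀) (FiniteField.frobeniusAlgHom (ZMod ℓ) k) P₀)
      - ((ℓ : ℤ) + 1 - (Nat.card W₀.Point : ℤ)) •
        Point.map (W' := W₀) (FiniteField.frobeniusAlgHom (ZMod ℓ) k) P₀
      + (ℓ : ℤ) • P₀ = 0 := by
  apply cst_injective (ℓ := ℓ) (W₀ := W₀) (k := k)
  rw [← PsiOp_cst, map_zero]
  set a : ℤ := (ℓ : ℤ) + 1 - (Nat.card W₀.Point : ℤ) with ha
  set η := eta ℓ W₀ k hΔ with hη
  obtain ⟨hηodd, -, -⟩ := hDF ℓ W₀ k hΔ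
  -- `Ψ` is constant
  have hΨ0 : dP (PsiOp ℓ W₀ k a η) = 0 := dP_Psi hQ hR hS hPar hDF hDS hM hMC hΔ
  have hΨodd : IsOdd (PsiOp ℓ W₀ k a η) := by
    rw [PsiOp, sub_eq_add_neg]
    exact IsOdd.add (IsOdd.add (IsOdd.Phi (IsOdd.Phi hηodd))
      (IsOdd.neg (IsOdd.zsmul (IsOdd.Phi hηodd) a))) (IsOdd.zsmul hηodd _)
  obtain ⟨Ψ₀, hΨ₀⟩ := const_of_dP_eq_zero hR hB hC hΔ hΨodd hΨ0
  -- `B = P₀ + η` is not constant
  have hBnc : ∀ Q₀ : (W₀⁄k).Point, cst ℓ W₀ k Q₀ ≠ cst ℓ W₀ k P₀ + η := by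
    intro Q₀ h
    apply eta_not_const hR hΔ (Q₀ - P₀)
    rw [map_sub, h, add_sub_cancel_left]
  obtain ⟨u, v, h, hBuv, hu⟩ : ∃ (u v : KK ℓ W₀ k) (h : (W₀⁄(KK ℓ W₀ k)).Nonsingular u v),
      cst ℓ W₀ k P₀ + η = Point.some u v h ∧ ¬ ∃ c : k, u = algebraMap k (KK ℓ W₀ k) c := by
    generalize hBdef : cst ℓ W₀ k P₀ + η = B at hBnc
    match B, hBnc with
    | .zero, hBnc => exact absurd (map_zero _) (hBnc 0)
    | .some u v h, hBnc =>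
      refine ⟨u, v, h, rfl, fun hc => ?_⟩
      obtain ⟨Q₀, hQ₀⟩ := hC ℓ W₀ k u v h hc
      exact hBnc Q₀ hQ₀
  obtain ⟨σ, hσx, hσy⟩ := hS ℓ W₀ k u v h.1 hu
  have hSη : mapPt (σ.restrictScalars (ZMod ℓ)) η = cst ℓ W₀ k P₀ + η := by
    rw [hBuv]; exact mapPt_eta hΔ σ h hσx hσy
  have h1 : PsiOp ℓ W₀ k a (cst ℓ W₀ k P₀ + η) = PsiOp ℓ W₀ k a η := by
    rw [← hSη, PsiOp_mapPt, ← hΨ₀, mapPt_cst]
  rw [PsiOp_add] at h1
  exact add_eq_right.1 h1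

end Glue

/-- **Glue theorem of block A2.** -/
theorem stmt_Frob_of (hQ : Stmt_QuadAbs) (hR : Stmt_RatDeg)
    (hB : Stmt_Basis) (hC : Stmt_Const) (hS : Stmt_Subst)
    (hPar : Stmt_Par) (hDF : Stmt_DegFrob) (hDS : Stmt_DegSubst) (hM : Stmt_Manin)
    (hMC : Stmt_ManinCard) : Stmt_Frob := by
  intro ℓ _ W₀ hΔ Ω _ _ _ P
  classical
  let j : Ω →ₐ[ZMod ℓ] AlgebraicClosure Ω := IsScalarTower.toAlgHom (ZMod ℓ) Ω (AlgebraicClosure Ω)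
  have hj : ∀ Q : (W₀⁄Ω).Point, Point.map (W' := W₀) j
      (Point.map (W' := W₀) (FiniteField.frobeniusAlgHom (ZMod ℓ) Ω) Q) =
      Point.map (W' := W₀) (FiniteField.frobeniusAlgHom (ZMod ℓ) (AlgebraicClosure Ω))
        (Point.map (W' := W₀) j Q) := by
    intro Q
    rw [Point.map_map, Point.map_map,
      show j.comp (FiniteField.frobeniusAlgHom (ZMod ℓ) Ω) =
        (FiniteField.frobeniusAlgHom (ZMod ℓ) (AlgebraicClosure Ω)).comp j from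
        AlgHom.ext fun z => by simp [FiniteField.frobeniusAlgHom_apply]]
  apply Point.map_injective (W' := W₀) j
  rw [map_add, map_sub, map_zsmul, map_zsmul, hj, hj, map_zero]
  exact Glue.frob_algClosed hQ hR hB hC hS hPar hDF hDS hM hMC hΔ _

end Fermat.Agent.S52.A2
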