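import Fermat.Agent.S52.A2Interface

/-! # S52 / A2-M3 : the coordinate ring as a test algebra (shared by M3b, M3c) -/

set_option autoImplicit false

open Polynomial WeierstrassCurve WeierstrassCurve.Affine
open scoped Polynomial.Bivariate

namespace Fermat.Agent.S52.A2.MCR

noncomputable section

variable {F : Type} [Field F] (W : Affine F)

/-- the coordinate function `x` -/
def xR : W.CoordinateRing := algebraMap F[X] W.CoordinateRing X

/-- the coordinate function `y` -/
def yR : W.CoordinateRing := CoordinateRing.mk W Y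

theorem aeval_xR (p : F[X]) : aeval (xR W) p = algebraMap F[X] W.CoordinateRing p := by
  rw [xR, Polynomial.aeval_algebraMap_apply, aeval_X_left_apply]

theorem algebraMap_C (a : F) :
    algebraMap F[X] W.CoordinateRing (C a) = algebraMap F W.CoordinateRing a := by
  rw [IsScalarTower.algebraMap_apply F F[X] W.CoordinateRing]
  rfl

theorem equation_xR_yR : (W⁄W.CoordinateRing).Equation (xR W) (yR W) := by
  rw [equation_iff]
  simp only [baseChange_a₁, baseChange_a₂, baseChange_a₃, baseChange_a₄, baseChange_a₆]
  have h : CoordinateRing.mk W (Y ^ 2 + C (C W.a₁ * X + C W.a₃) * Y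
      - C (X ^ 3 + C W.a₂ * X ^ 2 + C W.a₄ * X + C W.a₆)) = 0 := AdjoinRoot.mk_self
  simp only [map_add, map_sub, map_mul, map_pow] at h
  have e1 : ∀ p : F[X], CoordinateRing.mk W (C p) = algebraMap F[X] W.CoordinateRing p :=
    fun p => rfl
  simp only [e1, algebraMap_C] at h
  simp only [xR, yR]
  linear_combination h

/-- descent of divisibility from the coordinate ring to `F[X]` -/
theorem dvd_of_algebraMap_dvd {g p : F[X]}
    (h : algebraMap F[X] W.CoordinateRing g ∣ algebraMap F[X] W.CoordinateRing p) : g ∣ p := by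
  obtain ⟨z, hz⟩ := h
  obtain ⟨A, B, rfl⟩ := CoordinateRing.exists_smul_basis_eq z
  have : (p - g * A) • (1 : W.CoordinateRing) + (-(g * B)) • CoordinateRing.mk W Y = 0 := by
    simp only [Algebra.smul_def, map_sub, map_mul, map_neg, mul_one] at hz ⊢
    rw [hz]
    ring
  exact ⟨A, sub_eq_zero.1 (CoordinateRing.smul_basis_eq_zero this).1⟩

end

end Fermat.Agent.S52.A2.MCR
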