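import Fermat.Agent.S52.A2_ManinCR

/-! # S52 / A2-M3b : one rational point above `c` -/

set_option autoImplicit false

open Polynomial WeierstrassCurve WeierstrassCurve.Affine

namespace Fermat.Agent.S52.A2

namespace M1

/-- The purely ring-theoretic core. -/
theorem core {R : Type} [CommRing R] (ℓ : ℕ) (hℓ : ℓ.Prime) [CharP R ℓ]
    (a₁ a₂ c α s t κ : R)
    (ht2 : t ^ 2 = s * (α - a₁ * t + (3 * c + a₂) * s + s ^ 2)) :
    s ^ 2 ∣ (t ^ ℓ + t + a₁ * s) ^ 2 + a₁ * (t ^ ℓ + t + a₁ * s) * (s ^ ℓ - s)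
      - κ * (s ^ ℓ - s) ^ 2 - α * s := by
  set ε := α - a₁ * t + (3 * c + a₂) * s + s ^ 2 with hε
  have h2 : 2 ≤ ℓ := hℓ.two_le
  have hS : s ^ 2 ∣ s ^ ℓ := pow_dvd_pow s h2
  have hT2 : s ^ 2 ∣ (t ^ ℓ) ^ 2 := by
    rw [← pow_mul, mul_comm, pow_mul, ht2, mul_pow]
    exact Dvd.dvd.mul_right hS _
  have hsT : s ^ 2 ∣ s * t ^ ℓ := by
    obtain ⟨m, rfl⟩ := Nat.exists_eq_add_of_le h2
    rw [pow_add, ht2]
    exact ⟨ε * t ^ m, by ring⟩
  have hTt : s ^ 2 ∣ 2 * (t ^ ℓ * t) := by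
    rcases hℓ.eq_two_or_odd' with rfl | hodd
    · have : (2 : R) = 0 := by
        have := CharP.cast_eq_zero R 2
        exact_mod_cast this
      rw [this, zero_mul]
      exact dvd_zero _
    · obtain ⟨m, rfl⟩ := hodd
      have hm : 1 ≤ m := by omega
      obtain ⟨j, rfl⟩ := Nat.exists_eq_add_of_le hm
      have : t ^ (2 * (1 + j) + 1) * t = (t ^ 2) ^ (2 + j) := by ring
      rw [this, ht2, mul_pow, pow_add]
      exact ⟨2 * (s ^ j * ε ^ (2 + j)), by ring⟩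
  have hD : s ^ 2 ∣ (s ^ ℓ - s) ^ 2 :=
    pow_dvd_pow_of_dvd (dvd_sub (dvd_pow_self s (by omega)) dvd_rfl) 2
  have key : (t ^ ℓ + t + a₁ * s) ^ 2 + a₁ * (t ^ ℓ + t + a₁ * s) * (s ^ ℓ - s)
      - κ * (s ^ ℓ - s) ^ 2 - α * s
      = (t ^ ℓ) ^ 2 + 2 * (t ^ ℓ * t) + a₁ * (s * t ^ ℓ) + a₁ * (t ^ ℓ + t + a₁ * s) * s ^ ℓ
        + s ^ 2 * (3 * c + a₂ + s) - κ * (s ^ ℓ - s) ^ 2 := by
    linear_combination ht2
  rw [key]
  exact dvd_sub (dvd_add (dvd_add (dvd_add (dvd_add hT2 hTt) (Dvd.dvd.mul_left hsT _))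
    (Dvd.dvd.mul_left hS _)) (Dvd.intro _ rfl)) (Dvd.dvd.mul_left hD _)

end M1

theorem stmt_ManinOne (hF : Stmt_ManinFormula) : Stmt_ManinOne := by
  intro ℓ _ W₀ hΔ c hn
  have hℓ : ℓ.Prime := Fact.out
  rw [nY, Nat.card_eq_one_iff_unique] at hn
  obtain ⟨hsub, ⟨y₁, h₁⟩⟩ := hn
  have hneg : W₀.negY c y₁ = y₁ := by
    have := hsub.elim ⟨W₀.negY c y₁, (equation_neg c y₁).2 h₁⟩ ⟨y₁, h₁⟩
    exact congrArg Subtype.val this
  set α : ZMod ℓ := 3 * c ^ 2 + 2 * W₀.a₂ * c + W₀.a₄ - W₀.a₁ * y₁ with hα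
  have hα0 : α ≠ 0 := by
    have hns := (equation_iff_nonsingular_of_Δ_ne_zero hΔ).1 h₁
    rw [nonsingular_iff] at hns
    rcases hns.2 with h | h
    · intro h0
      exact h (by linear_combination -h0)
    · exact absurd hneg.symm h
  -- the main divisibility
  have main : (X - C c) ^ 2 ∣ maninN W₀ ℓ - C α * (X - C c) := by
    apply MCR.dvd_of_algebraMap_dvd W₀
    have : CharP W₀.CoordinateRing ℓ := charP_of_injective_algebraMap
      (algebraMap (ZMod ℓ) W₀.CoordinateRing).injective ℓ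
    have hform := (hF ℓ W₀ W₀.CoordinateRing _ _ (MCR.equation_xR_yR W₀)).2
    rw [MCR.aeval_xR] at hform
    have heq := MCR.equation_xR_yR W₀
    rw [equation_iff] at heq
    rw [equation_iff] at h₁
    have h₁' := congrArg (algebraMap (ZMod ℓ) W₀.CoordinateRing) h₁
    have hneg' := congrArg (algebraMap (ZMod ℓ) W₀.CoordinateRing) hneg
    have hα' := congrArg (algebraMap (ZMod ℓ) W₀.CoordinateRing) hα
    simp only [negY, baseChange_a₁, baseChange_a₂, baseChange_a₃, baseChange_a₄, baseChange_a₆,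
      map_add, map_sub, map_mul, map_pow, map_neg, map_ofNat] at hform heq h₁' hneg' hα'
    simp only [map_sub, map_mul, map_pow, MCR.algebraMap_C]
    rw [← hform]
    change (MCR.xR W₀ - _) ^ 2 ∣ _ - _ * (MCR.xR W₀ - _)
    generalize MCR.xR W₀ = x at *
    generalize MCR.yR W₀ = y at *
    have hyp : (algebraMap (ZMod ℓ) W₀.CoordinateRing) y₁ ^ ℓ
        = (algebraMap (ZMod ℓ) W₀.CoordinateRing) y₁ := by rw [← map_pow, ZMod.pow_card]
    have hcp : (algebraMap (ZMod ℓ) W₀.CoordinateRing) c ^ ℓ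
        = (algebraMap (ZMod ℓ) W₀.CoordinateRing) c := by rw [← map_pow, ZMod.pow_card]
    have hT : (y - (algebraMap (ZMod ℓ) W₀.CoordinateRing) y₁) ^ ℓ
        = y ^ ℓ - (algebraMap (ZMod ℓ) W₀.CoordinateRing) y₁ := by
      rw [sub_pow_char, hyp]
    have hS : (x - (algebraMap (ZMod ℓ) W₀.CoordinateRing) c) ^ ℓ
        = x ^ ℓ - (algebraMap (ZMod ℓ) W₀.CoordinateRing) c := by
      rw [sub_pow_char, hcp]
    have hcore := M1.core ℓ hℓ ((algebraMap (ZMod ℓ) W₀.CoordinateRing) W₀.a₁)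
      ((algebraMap (ZMod ℓ) W₀.CoordinateRing) W₀.a₂) ((algebraMap (ZMod ℓ) W₀.CoordinateRing) c)
      ((algebraMap (ZMod ℓ) W₀.CoordinateRing) α) (x - (algebraMap (ZMod ℓ) W₀.CoordinateRing) c)
      (y - (algebraMap (ZMod ℓ) W₀.CoordinateRing) y₁)
      ((algebraMap (ZMod ℓ) W₀.CoordinateRing) W₀.a₂ + x ^ ℓ + x)
      (by rw [hα']; linear_combination heq - h₁'
            + (y - (algebraMap (ZMod ℓ) W₀.CoordinateRing) y₁) * hneg')
    rw [hT, hS] at hcore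
    convert hcore using 1
    have e1 : y ^ ℓ - (-y - (algebraMap (ZMod ℓ) W₀.CoordinateRing) W₀.a₁ * x
          - (algebraMap (ZMod ℓ) W₀.CoordinateRing) W₀.a₃)
        = y ^ ℓ - (algebraMap (ZMod ℓ) W₀.CoordinateRing) y₁
          + (y - (algebraMap (ZMod ℓ) W₀.CoordinateRing) y₁)
          + (algebraMap (ZMod ℓ) W₀.CoordinateRing) W₀.a₁
            * (x - (algebraMap (ZMod ℓ) W₀.CoordinateRing) c) := by
      linear_combination -hneg'
    have e2 : x ^ ℓ - x = x ^ ℓ - (algebraMap (ZMod ℓ) W₀.CoordinateRing) c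
        - (x - (algebraMap (ZMod ℓ) W₀.CoordinateRing) c) := by ring
    rw [e1, e2]
  have hd1 : (X - C c) ∣ maninN W₀ ℓ - C α * (X - C c) :=
    dvd_trans (dvd_pow_self _ two_ne_zero) main
  refine ⟨(dvd_sub_left (Dvd.intro_left _ rfl)).1 hd1, fun h2 => hα0 ?_⟩
  have h3 : (X - C c) ^ 2 ∣ C α * (X - C c) := (dvd_sub_right h2).1 main
  rw [pow_two, mul_comm (C α)] at h3
  have h4 : (X - C c) ∣ C α := (mul_dvd_mul_iff_left (X_sub_C_ne_zero c)).1 h3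
  rw [dvd_iff_isRoot, IsRoot.def, eval_C] at h4
  exact h4

end Fermat.Agent.S52.A2
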