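import Fermat.Agent.S52.A2Interface

/-! # S52, block A2, package M3b (parallel attempt by helper72):
one rational point above `c` ⟹ `(X - c)` divides `maninN` exactly once. -/

set_option autoImplicit false
set_option linter.unusedSectionVars false

open Polynomial WeierstrassCurve WeierstrassCurve.Affine

namespace Fermat.Agent.S52.A2

namespace M1B

variable {ℓ : ℕ} [Fact ℓ.Prime] (W₀ : Affine (ZMod ℓ))

/-- `x` in the coordinate ring -/
noncomputable def xR : W₀.CoordinateRing := CoordinateRing.mk W₀ (C X)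

/-- `y` in the coordinate ring -/
noncomputable def yR : W₀.CoordinateRing := CoordinateRing.mk W₀ X

theorem algebraMap_eq (a : ZMod ℓ) :
    algebraMap (ZMod ℓ) W₀.CoordinateRing a = CoordinateRing.mk W₀ (C (C a)) := rfl

theorem equation_R : (W₀⁄W₀.CoordinateRing).Equation (xR W₀) (yR W₀) := by
  rw [equation_iff]
  simp only [baseChange_a₁, baseChange_a₂, baseChange_a₃, baseChange_a₄, baseChange_a₆]
  have h : CoordinateRing.mk W₀ X ^ 2 = CoordinateRing.mk W₀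
      (C (X ^ 3 + C W₀.a₂ * X ^ 2 + C W₀.a₄ * X + C W₀.a₆) - C (C W₀.a₁ * X + C W₀.a₃) * X) :=
    AdjoinRoot.mk_eq_mk.mpr ⟨1, by rw [Affine.polynomial]; ring1⟩
  simp only [map_add, map_sub, map_mul, map_pow] at h
  simp only [algebraMap_eq, xR, yR]
  linear_combination h

theorem aeval_xR (p : (ZMod ℓ)[X]) : aeval (xR W₀) p = CoordinateRing.mk W₀ (C p) := by
  have h : xR W₀ = algebraMap (ZMod ℓ)[X] W₀.CoordinateRing X := rfl
  rw [h, aeval_algebraMap_apply, aeval_X_left_apply]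
  rfl

theorem descent {g p : (ZMod ℓ)[X]}
    (h : CoordinateRing.mk W₀ (C g) ∣ CoordinateRing.mk W₀ (C p)) : g ∣ p := by
  obtain ⟨r, hr⟩ := h
  obtain ⟨A, B, rfl⟩ := CoordinateRing.exists_smul_basis_eq r
  have h0 : (p - g * A) • (1 : W₀.CoordinateRing) + (-(g * B)) • CoordinateRing.mk W₀ X = 0 := by
    simp only [CoordinateRing.smul, map_sub, map_mul, map_neg] at hr ⊢
    linear_combination hr
  obtain ⟨h1, -⟩ := CoordinateRing.smul_basis_eq_zero h0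
  exact ⟨A, sub_eq_zero.1 h1⟩

theorem frobR (z : W₀.CoordinateRing) :
    FiniteField.frobeniusAlgHom (ZMod ℓ) W₀.CoordinateRing z = z ^ ℓ := by
  simp [FiniteField.frobeniusAlgHom_apply, ZMod.card]

/-- the key congruence -/
theorem key (hF : Stmt_ManinFormula) (c y₁ : ZMod ℓ) (hE : W₀.Equation c y₁)
    (h2 : 2 * y₁ + W₀.a₁ * c + W₀.a₃ = 0) :
    (X - C c) ^ 2 ∣ maninN W₀ ℓ -
      C (3 * c ^ 2 + 2 * W₀.a₂ * c + W₀.a₄ - W₀.a₁ * y₁) * (X - C c) := by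
  apply descent W₀
  have hN := (hF ℓ W₀ W₀.CoordinateRing (xR W₀) (yR W₀) (equation_R W₀)).2
  rw [aeval_xR] at hN
  have hEq := equation_R W₀
  rw [equation_iff] at hEq hE
  simp only [negY, baseChange_a₁, baseChange_a₂, baseChange_a₃, baseChange_a₄, baseChange_a₆]
    at hN hEq
  obtain ⟨m, hm⟩ : ∃ m, ℓ = m + 2 := ⟨ℓ - 2, by have := (Fact.out : ℓ.Prime).two_le; omega⟩
  set φ := FiniteField.frobeniusAlgHom (ZMod ℓ) W₀.CoordinateRing with hφ
  set ι := algebraMap (ZMod ℓ) W₀.CoordinateRing with hι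
  set x := xR W₀ with hx
  set y := yR W₀ with hy
  have hE' := congrArg ι hE
  have h2' := congrArg ι h2
  simp only [map_add, map_mul, map_pow, map_zero, map_ofNat] at hE' h2'
  obtain ⟨s, hs⟩ : ∃ s, s = x - ι c := ⟨_, rfl⟩
  obtain ⟨t, ht⟩ : ∃ t, t = y - ι y₁ := ⟨_, rfl⟩
  obtain ⟨α, hα⟩ : ∃ α, α = ι (3 * c ^ 2 + 2 * W₀.a₂ * c + W₀.a₄ - W₀.a₁ * y₁) := ⟨_, rfl⟩
  have hα' : α = 3 * ι c ^ 2 + 2 * ι W₀.a₂ * ι c + ι W₀.a₄ - ι W₀.a₁ * ι y₁ := by
    rw [hα]; simp only [map_add, map_sub, map_mul, map_pow, map_ofNat]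
  obtain ⟨ε, hε⟩ : ∃ ε, ε = α - ι W₀.a₁ * t + (3 * ι c + ι W₀.a₂) * s + s ^ 2 := ⟨_, rfl⟩
  have ht2 : t ^ 2 = s * ε := by
    rw [hε, hα', hs, ht]
    linear_combination hEq - hE' - (y - ι y₁) * h2'
  have hyl : y ^ ℓ = t ^ ℓ + ι y₁ := by
    have : φ t = φ y - φ (ι y₁) := by rw [ht, map_sub]
    rw [hι, AlgHom.commutes, hφ, frobR, frobR] at this
    rw [this]; ring
  have hxl : x ^ ℓ = s ^ ℓ + ι c := by
    have : φ s = φ x - φ (ι c) := by rw [hs, map_sub]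
    rw [hι, AlgHom.commutes, hφ, frobR, frobR] at this
    rw [this]; ring
  have hpow : ∀ z : W₀.CoordinateRing, z ^ ℓ = z ^ m * z ^ 2 := fun z => by
    rw [← pow_add]; exact congrArg _ hm
  have hM : y ^ ℓ - (-y - ι W₀.a₁ * x - ι W₀.a₃) = t ^ m * (s * ε) + t + ι W₀.a₁ * s := by
    rw [hyl, hpow, ht2, hs, ht]
    linear_combination h2'
  have hD : x ^ ℓ - x = s ^ m * s ^ 2 - s := by
    rw [hxl, hpow, hs]; ring
  obtain ⟨r, hr⟩ : ∃ r, 2 * t * t ^ m = s * r := by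
    rcases Nat.eq_zero_or_pos m with h0 | h0
    · refine ⟨0, ?_⟩
      have h20 : (2 : W₀.CoordinateRing) = 0 := by
        have h1 : ι ((ℓ : ℕ) : ZMod ℓ) = 0 := by rw [ZMod.natCast_self, map_zero]
        rw [map_natCast] at h1
        have h3 : ((ℓ : ℕ) : W₀.CoordinateRing) = ((2 : ℕ) : W₀.CoordinateRing) :=
          congrArg _ (by omega)
        rw [h1] at h3
        exact_mod_cast h3.symm
      rw [h20]; ring
    · obtain ⟨m', rfl⟩ : ∃ m', m = m' + 1 := ⟨m - 1, by omega⟩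
      refine ⟨2 * ε * t ^ m', ?_⟩
      linear_combination (2 * t ^ m') * ht2
  have hsC : CoordinateRing.mk W₀ (C (X - C c)) = s := by
    rw [hs, C_sub, map_sub]; rfl
  have hαC : CoordinateRing.mk W₀ (C (C (3 * c ^ 2 + 2 * W₀.a₂ * c + W₀.a₄ - W₀.a₁ * y₁))) = α := by
    rw [hα]; rfl
  rw [C_sub, map_sub, ← hN, C_mul, map_mul, C_pow, map_pow, hsC, hαC, hM, hD]
  refine ⟨r * ε + (3 * ι c + ι W₀.a₂) + s + (t ^ m * ε + ι W₀.a₁) ^ 2
    + ι W₀.a₁ * (t * s ^ m + (t ^ m * ε + ι W₀.a₁) * (s ^ m * s - 1))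
    - (ι W₀.a₂ + x ^ ℓ + x) * (s ^ m * s - 1) ^ 2, ?_⟩
  linear_combination ht2 + (s * ε) * hr + s * hε

end M1B

theorem stmt_ManinOneB (hF : Stmt_ManinFormula) : Stmt_ManinOne := by
  intro ℓ _ W₀ hΔ c hc
  rw [nY, Nat.card_eq_one_iff_unique] at hc
  obtain ⟨hsub, ⟨y₁, hE⟩⟩ := hc
  have hneg : W₀.negY c y₁ = y₁ := by
    have := @Subsingleton.elim _ hsub ⟨W₀.negY c y₁, (equation_neg _ _).2 hE⟩ ⟨y₁, hE⟩
    exact congrArg Subtype.val this
  have h2 : 2 * y₁ + W₀.a₁ * c + W₀.a₃ = 0 := by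
    rw [negY] at hneg; linear_combination -hneg
  have hns := (equation_iff_nonsingular_of_Δ_ne_zero hΔ).1 hE
  rw [nonsingular_iff'] at hns
  have hα : 3 * c ^ 2 + 2 * W₀.a₂ * c + W₀.a₄ - W₀.a₁ * y₁ ≠ 0 := by
    rcases hns.2 with h | h
    · intro h0; apply h; linear_combination -h0
    · exact absurd h2 h
  have hk := M1B.key W₀ hF c y₁ hE h2
  set α := 3 * c ^ 2 + 2 * W₀.a₂ * c + W₀.a₄ - W₀.a₁ * y₁ with hαdef
  constructor
  · have h1 : (X - C c) ∣ maninN W₀ ℓ - C α * (X - C c) := (dvd_pow_self _ two_ne_zero).trans hk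
    exact (dvd_sub_left (Dvd.intro_left _ rfl)).1 h1
  · intro h
    have h1 : (X - C c) ^ 2 ∣ C α * (X - C c) := (dvd_sub_right h).1 hk
    have h3 : C α * (X - C c) ≠ 0 := mul_ne_zero (C_ne_zero.2 hα) (X_sub_C_ne_zero c)
    have h4 := natDegree_le_of_dvd h1 h3
    rw [natDegree_pow, natDegree_X_sub_C, natDegree_C_mul hα, natDegree_X_sub_C] at h4
    omega

end Fermat.Agent.S52.A2
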