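import Fermat.Agent.S52.A2_ManinCR

/-! # S52 / A2-M3c : no rational point above `c` -/

set_option autoImplicit false

open Polynomial WeierstrassCurve WeierstrassCurve.Affine

namespace Fermat.Agent.S52.A2

namespace M0

/-- If there is no rational point above `c`, then `y ^ ℓ = -y - a₁ c - a₃` for the points above
`c`, which pins down the values at `c` of the two polynomials `yPQ`. -/
theorem eval_yPQ (hF : Stmt_ManinFormula) (ℓ : ℕ) [Fact ℓ.Prime] (W₀ : Affine (ZMod ℓ))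
    (c : ZMod ℓ) (hn : ∀ y : ZMod ℓ, ¬ W₀.Equation c y) :
    eval c (yPQ W₀ ℓ).1 + W₀.a₁ * c + W₀.a₃ = 0 ∧ eval c (yPQ W₀ ℓ).2 + 1 = 0 := by
  let Ω := AlgebraicClosure (ZMod ℓ)
  have hchar : CharP Ω ℓ := charP_of_injective_algebraMap (algebraMap (ZMod ℓ) Ω).injective ℓ
  have hinj : Function.Injective (algebraMap (ZMod ℓ) Ω) := (algebraMap (ZMod ℓ) Ω).injective
  -- a root
  obtain ⟨y, hy⟩ : ∃ y : Ω, (W₀⁄Ω).Equation (algebraMap (ZMod ℓ) Ω c) y := by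
    have hdeg : (X ^ 2 + C (algebraMap (ZMod ℓ) Ω (W₀.a₁ * c + W₀.a₃)) * X
        - C (algebraMap (ZMod ℓ) Ω (c ^ 3 + W₀.a₂ * c ^ 2 + W₀.a₄ * c + W₀.a₆)) : Polynomial Ω).degree
        ≠ 0 := by
      have : (X ^ 2 + C (algebraMap (ZMod ℓ) Ω (W₀.a₁ * c + W₀.a₃)) * X
        - C (algebraMap (ZMod ℓ) Ω (c ^ 3 + W₀.a₂ * c ^ 2 + W₀.a₄ * c + W₀.a₆)) : Polynomial Ω).degree
        = 2 := by compute_degree!
      rw [this]; decide
    obtain ⟨y, hy⟩ := IsAlgClosed.exists_root _ hdeg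
    refine ⟨y, ?_⟩
    rw [equation_iff]
    simp only [IsRoot.def, eval_add, eval_sub, eval_mul, eval_pow, eval_X, eval_C, map_add,
      map_mul, map_pow] at hy
    simp only [baseChange_a₁, baseChange_a₂, baseChange_a₃, baseChange_a₄, baseChange_a₆]
    linear_combination hy
  -- `y` is not rational
  have hnr : ∀ y₀ : ZMod ℓ, y ≠ algebraMap (ZMod ℓ) Ω y₀ := by
    rintro y₀ rfl
    exact hn y₀ ((map_equation W₀ hinj c y₀).1 hy)
  -- Frobenius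
  have hfix : ∀ z : ZMod ℓ, algebraMap (ZMod ℓ) Ω z ^ ℓ = algebraMap (ZMod ℓ) Ω z := fun z => by
    rw [← map_pow, ZMod.pow_card]
  have hy' : (W₀⁄Ω).Equation (algebraMap (ZMod ℓ) Ω c) (y ^ ℓ) := by
    have h := hy
    rw [equation_iff] at h ⊢
    simp only [baseChange_a₁, baseChange_a₂, baseChange_a₃, baseChange_a₄, baseChange_a₆] at h ⊢
    have h2 := congrArg (frobenius Ω ℓ) h
    simp only [map_add, map_mul, map_pow, frobenius_def, hfix] at h2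
    exact h2
  have hne : y ^ ℓ ≠ y := by
    intro h
    obtain ⟨n, hn'⟩ := (mem_bot_iff_intCast ℓ Ω).1 ((Subfield.mem_bot_iff_pow_eq_self Ω ℓ).2 h)
    exact hnr (n : ZMod ℓ) (by rw [map_intCast, hn'])
  have hpow : y ^ ℓ = (W₀⁄Ω).negY (algebraMap (ZMod ℓ) Ω c) y := by
    rcases Y_eq_of_X_eq hy' hy rfl with h | h
    · exact absurd h hne
    · exact h
  have hform := (hF ℓ W₀ Ω _ y hy).1 ℓ
  rw [hpow, aeval_algebraMap_apply_eq_algebraMap_eval, aeval_algebraMap_apply_eq_algebraMap_eval,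
    negY, baseChange_a₁, baseChange_a₃] at hform
  have hlin : algebraMap (ZMod ℓ) Ω (eval c (yPQ W₀ ℓ).1 + W₀.a₁ * c + W₀.a₃)
      + algebraMap (ZMod ℓ) Ω (eval c (yPQ W₀ ℓ).2 + 1) * y = 0 := by
    simp only [map_add, map_mul, map_one]
    linear_combination -hform
  have hQ : eval c (yPQ W₀ ℓ).2 + 1 = 0 := by
    by_contra hQ
    have hQ' : algebraMap (ZMod ℓ) Ω (eval c (yPQ W₀ ℓ).2 + 1) ≠ 0 :=
      (_root_.map_ne_zero _).2 hQ
    apply hnr (-(eval c (yPQ W₀ ℓ).1 + W₀.a₁ * c + W₀.a₃) / (eval c (yPQ W₀ ℓ).2 + 1))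
    rw [map_div₀, map_neg, eq_div_iff hQ']
    linear_combination hlin
  refine ⟨?_, hQ⟩
  rw [hQ, map_zero, zero_mul, add_zero] at hlin
  exact (map_eq_zero_iff _ hinj).1 hlin

end M0

theorem stmt_ManinZero (hF : Stmt_ManinFormula) : Stmt_ManinZero := by
  intro ℓ _ W₀ c hn
  have hn' : ∀ y : ZMod ℓ, ¬ W₀.Equation c y := by
    intro y hy
    rw [nY, Nat.card_eq_zero] at hn
    rcases hn with h | h
    · exact h.elim ⟨y, hy⟩
    · exact h.not_finite inferInstance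
  obtain ⟨hP, hQ⟩ := M0.eval_yPQ hF ℓ W₀ c hn'
  obtain ⟨u, hu⟩ : (X - C c) ∣ (yPQ W₀ ℓ).1 + lW W₀ := by
    rw [dvd_iff_isRoot, IsRoot.def, ← hP]
    simp [lW]; ring
  obtain ⟨v, hv⟩ : (X - C c) ∣ (yPQ W₀ ℓ).2 + 1 := by
    rw [dvd_iff_isRoot, IsRoot.def, ← hQ]
    simp
  obtain ⟨w, hw⟩ : (X - C c) ∣ (X ^ ℓ - X : (ZMod ℓ)[X]) := by
    rw [dvd_iff_isRoot, IsRoot.def]
    simp [ZMod.pow_card]
  apply MCR.dvd_of_algebraMap_dvd W₀
  obtain ⟨hpow, hform⟩ := hF ℓ W₀ W₀.CoordinateRing _ _ (MCR.equation_xR_yR W₀)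
  have hpow := hpow ℓ
  rw [MCR.aeval_xR] at hform
  rw [MCR.aeval_xR, MCR.aeval_xR] at hpow
  have hu' := congrArg (algebraMap (ZMod ℓ)[X] W₀.CoordinateRing) hu
  have hv' := congrArg (algebraMap (ZMod ℓ)[X] W₀.CoordinateRing) hv
  have hw' := congrArg (algebraMap (ZMod ℓ)[X] W₀.CoordinateRing) hw
  have hX : algebraMap (ZMod ℓ)[X] W₀.CoordinateRing X = MCR.xR W₀ := rfl
  simp only [lW, map_add, map_sub, map_mul, map_pow, map_one, MCR.algebraMap_C, hX]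
    at hu' hv' hw'
  simp only [negY, baseChange_a₁, baseChange_a₂, baseChange_a₃] at hform
  rw [← hform, map_pow, map_sub, MCR.algebraMap_C, hX, hw']
  have hM : MCR.yR W₀ ^ ℓ - (-MCR.yR W₀ - algebraMap (ZMod ℓ) W₀.CoordinateRing W₀.a₁ * MCR.xR W₀
      - algebraMap (ZMod ℓ) W₀.CoordinateRing W₀.a₃)
      = (MCR.xR W₀ - algebraMap (ZMod ℓ) W₀.CoordinateRing c)
        * (algebraMap (ZMod ℓ)[X] W₀.CoordinateRing u
          + algebraMap (ZMod ℓ)[X] W₀.CoordinateRing v * MCR.yR W₀) := by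
    rw [hpow]
    linear_combination hu' + MCR.yR W₀ * hv'
  rw [hM]
  exact ⟨(algebraMap (ZMod ℓ)[X] W₀.CoordinateRing u
          + algebraMap (ZMod ℓ)[X] W₀.CoordinateRing v * MCR.yR W₀) ^ 2
      + algebraMap (ZMod ℓ) W₀.CoordinateRing W₀.a₁ * (algebraMap (ZMod ℓ)[X] W₀.CoordinateRing u
          + algebraMap (ZMod ℓ)[X] W₀.CoordinateRing v * MCR.yR W₀)
        * algebraMap (ZMod ℓ)[X] W₀.CoordinateRing w
      - (algebraMap (ZMod ℓ) W₀.CoordinateRing W₀.a₂ + MCR.xR W₀ ^ ℓ + MCR.xR W₀)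
        * algebraMap (ZMod ℓ)[X] W₀.CoordinateRing w ^ 2, by ring⟩

end Fermat.Agent.S52.A2
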