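import Fermat.Agent.S52.A2Interface
import Fermat.Agent.S52.PolyPar
import Fermat.Agent.S52.PolyDup

/-! # S52, package A2-D1: exact parallelogram law for `dP` on odd points (helper70) -/

set_option autoImplicit false

open Polynomial WeierstrassCurve WeierstrassCurve.Affine

namespace Fermat.Agent.S52.A2

namespace PR

/-! ### clearing denominators -/

theorem clr_add {K : Type*} [Field K] {P1 Q1 P2 Q2 P3 Q3 P4 Q4 b2 b4 b6 : K} (h1 : Q1 ≠ 0)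
    (h2 : Q2 ≠ 0) (h3 : Q3 ≠ 0) (h4 : Q4 ≠ 0)
    (h : (P1/Q1 - P2/Q2)^2 * (P3/Q3 + P4/Q4) = 2 * (P1/Q1) * (P2/Q2) * (P1/Q1 + P2/Q2)
      + b2 * (P1/Q1) * (P2/Q2) + b4 * (P1/Q1 + P2/Q2) + b6) :
    (P1*Q2 - P2*Q1)^2 * (P3*Q4 + P4*Q3) = (2*P1*P2*(P1*Q2+P2*Q1) + b2*P1*P2*Q1*Q2
      + b4*(P1*Q2+P2*Q1)*Q1*Q2 + b6*Q1^2*Q2^2) * (Q3*Q4) := by
  field_simp at h
  linear_combination h

theorem clr_mul {K : Type*} [Field K] {P1 Q1 P2 Q2 P3 Q3 P4 Q4 b4 b6 b8 : K} (h1 : Q1 ≠ 0)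
    (h2 : Q2 ≠ 0) (h3 : Q3 ≠ 0) (h4 : Q4 ≠ 0)
    (h : (P1/Q1 - P2/Q2)^2 * ((P3/Q3) * (P4/Q4)) = (P1/Q1)^2 * (P2/Q2)^2 - b4 * (P1/Q1) * (P2/Q2)
      - b6 * (P1/Q1 + P2/Q2) - b8) :
    (P1*Q2 - P2*Q1)^2 * (P3*P4) = (P1^2*P2^2 - b4*P1*P2*Q1*Q2
      - b6*(P1*Q2+P2*Q1)*Q1*Q2 - b8*Q1^2*Q2^2) * (Q3*Q4) := by
  field_simp at h
  linear_combination h

theorem clr_dup {K : Type*} [Field K] {P1 Q1 P3 Q3 b2 b4 b6 b8 : K} (h1 : Q1 ≠ 0) (h3 : Q3 ≠ 0)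
    (h : (P3/Q3) * (4 * (P1/Q1)^3 + b2 * (P1/Q1)^2 + 2 * b4 * (P1/Q1) + b6) =
      (P1/Q1)^4 - b4 * (P1/Q1)^2 - 2 * b6 * (P1/Q1) - b8) :
    P3 * (4 * P1^3 * Q1 + b2 * P1^2 * Q1^2 + 2 * b4 * P1 * Q1^3 + b6 * Q1^4) =
      (P1^4 - b4 * P1^2 * Q1^2 - 2 * b6 * P1 * Q1^3 - b8 * Q1^4) * Q3 := by
  field_simp at h
  linear_combination h

/-- an element of `k(x)` which is a root of a nonzero polynomial over `k` is constant -/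
theorem const_of_root {k : Type} [Field k] (g : k[X]) (hg : g ≠ 0) (u : RatFunc k)
    (hu : aeval u g = 0) : ∃ c : k, u = RatFunc.C c := by
  have h0 : IsAlgebraic k u := ⟨g, hg, hu⟩
  have h1 : IsIntegral k u := h0.isIntegral
  have h2 : IsIntegral k[X] u := h1.tower_top
  obtain ⟨y, rfl⟩ := IsIntegrallyClosed.isIntegral_iff.mp h2
  rw [aeval_algebraMap_apply] at hu
  have h3 : aeval y g = 0 := by
    apply RatFunc.algebraMap_injective k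
    rw [hu, map_zero]
  have h4 : g.comp y = 0 := by
    rw [← h3]
    rfl
  rcases comp_eq_zero_iff.mp h4 with h5 | ⟨-, h5⟩
  · exact absurd h5 hg
  · refine ⟨y.coeff 0, ?_⟩
    conv_lhs => rw [h5]
    rw [RatFunc.algebraMap_C]

section

variable {ℓ : ℕ} [Fact ℓ.Prime] {W₀ : Affine (ZMod ℓ)} {k : Type} [Field k] [Algebra (ZMod ℓ) k]

theorem dP_zero : dP (0 : Pt ℓ W₀ k) = 0 := rfl

theorem dP_some (u v : KK ℓ W₀ k) (h : (W₀⁄(KK ℓ W₀ k)).Nonsingular u v) :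
    dP (Point.some u v h : Pt ℓ W₀ k) = (ratDeg (xF u) : ℤ) := rfl

theorem dP_neg (P : Pt ℓ W₀ k) : dP (-P) = dP P := by
  rcases P with _ | ⟨u, v, h⟩
  · rfl
  · rfl

theorem isOdd_zero : IsOdd (0 : Pt ℓ W₀ k) := by
  unfold IsOdd
  rw [map_zero, neg_zero]

theorem isOdd_add {P Q : Pt ℓ W₀ k} (hP : IsOdd P) (hQ : IsOdd Q) : IsOdd (P + Q) := by
  unfold IsOdd at *
  rw [map_add, hP, hQ, neg_add]

theorem isOdd_neg {P : Pt ℓ W₀ k} (hP : IsOdd P) : IsOdd (-P) := by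
  unfold IsOdd at *
  rw [map_neg, hP]

theorem isOdd_sub {P Q : Pt ℓ W₀ k} (hP : IsOdd P) (hQ : IsOdd Q) : IsOdd (P - Q) := by
  rw [sub_eq_add_neg]
  exact isOdd_add hP (isOdd_neg hQ)

variable (ℓ W₀ k) in
/-- `k[x] → KK` -/
noncomputable def phi : k[X] →+* KK ℓ W₀ k :=
  (algebraMap (RatFunc k) (KK ℓ W₀ k)).comp (algebraMap k[X] (RatFunc k))

theorem phi_injective : Function.Injective (phi ℓ W₀ k) :=
  (algebraMap (RatFunc k) (KK ℓ W₀ k)).injective.comp (RatFunc.algebraMap_injective k)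

theorem phi_ne_zero {q : k[X]} (hq : q ≠ 0) : phi ℓ W₀ k q ≠ 0 := by
  intro h
  apply hq
  apply phi_injective (ℓ := ℓ) (W₀ := W₀)
  rw [h, map_zero]

theorem phi_C (a : ZMod ℓ) :
    phi ℓ W₀ k (C (algebraMap (ZMod ℓ) k a)) = algebraMap (ZMod ℓ) (KK ℓ W₀ k) a := by
  rw [phi, RingHom.comp_apply, RatFunc.algebraMap_C, algebraMap_C_KK]

theorem phi_b₂ : phi ℓ W₀ k (C (W₀⁄k).b₂) = (W₀⁄(KK ℓ W₀ k)).b₂ := by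
  rw [show (W₀⁄k).b₂ = algebraMap (ZMod ℓ) k W₀.b₂ from map_b₂ .., phi_C]
  exact (map_b₂ ..).symm

theorem phi_b₄ : phi ℓ W₀ k (C (W₀⁄k).b₄) = (W₀⁄(KK ℓ W₀ k)).b₄ := by
  rw [show (W₀⁄k).b₄ = algebraMap (ZMod ℓ) k W₀.b₄ from map_b₄ .., phi_C]
  exact (map_b₄ ..).symm

theorem phi_b₆ : phi ℓ W₀ k (C (W₀⁄k).b₆) = (W₀⁄(KK ℓ W₀ k)).b₆ := by
  rw [show (W₀⁄k).b₆ = algebraMap (ZMod ℓ) k W₀.b₆ from map_b₆ .., phi_C]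
  exact (map_b₆ ..).symm

theorem phi_b₈ : phi ℓ W₀ k (C (W₀⁄k).b₈) = (W₀⁄(KK ℓ W₀ k)).b₈ := by
  rw [show (W₀⁄k).b₈ = algebraMap (ZMod ℓ) k W₀.b₈ from map_b₈ .., phi_C]
  exact (map_b₈ ..).symm

theorem Δ_k_ne_zero (hΔ : W₀.Δ ≠ 0) : (W₀⁄k).Δ ≠ 0 := by
  rw [show (W₀⁄k).Δ = algebraMap (ZMod ℓ) k W₀.Δ from map_Δ ..]
  exact (_root_.map_ne_zero _).2 hΔ

theorem exists_ratFunc (hB : Stmt_Basis) (hΔ : W₀.Δ ≠ 0) {u v : KK ℓ W₀ k}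
    {h : (W₀⁄(KK ℓ W₀ k)).Nonsingular u v} (hodd : IsOdd (Point.some u v h : Pt ℓ W₀ k)) :
    ∃ u' : RatFunc k, u = algebraMap (RatFunc k) (KK ℓ W₀ k) u' := by
  have h1 : iota ℓ W₀ k u = u := by
    unfold IsOdd mapPt at hodd
    rw [Point.map_some, Point.neg_some] at hodd
    injection hodd
  exact (hB ℓ W₀ k).2.2 hΔ u h1

theorem exists_frac (hB : Stmt_Basis) (hΔ : W₀.Δ ≠ 0) {u v : KK ℓ W₀ k}
    {h : (W₀⁄(KK ℓ W₀ k)).Nonsingular u v} (hodd : IsOdd (Point.some u v h : Pt ℓ W₀ k)) :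
    ∃ p q : k[X], IsCoprime p q ∧ q ≠ 0 ∧ u = phi ℓ W₀ k p / phi ℓ W₀ k q ∧
      dP (Point.some u v h : Pt ℓ W₀ k) = (dg p q : ℤ) := by
  obtain ⟨u', hu⟩ := exists_ratFunc hB hΔ hodd
  refine ⟨u'.num, u'.denom, RatFunc.isCoprime_num_denom u', RatFunc.denom_ne_zero u', ?_, ?_⟩
  · rw [hu]
    conv_lhs => rw [← RatFunc.num_div_denom u']
    rw [map_div₀]
    rfl
  · rw [dP_some, hu, xF_algebraMap]
    rfl

theorem par_ne (hB : Stmt_Basis) (hX : Stmt_XId) (hΔ : W₀.Δ ≠ 0) {u v w z : KK ℓ W₀ k}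
    {h₁ : (W₀⁄(KK ℓ W₀ k)).Nonsingular u v} {h₂ : (W₀⁄(KK ℓ W₀ k)).Nonsingular w z}
    (ho₁ : IsOdd (Point.some u v h₁ : Pt ℓ W₀ k)) (ho₂ : IsOdd (Point.some w z h₂ : Pt ℓ W₀ k))
    (hne : u ≠ w) :
    dP ((Point.some u v h₁ : Pt ℓ W₀ k) + Point.some w z h₂)
        + dP ((Point.some u v h₁ : Pt ℓ W₀ k) - Point.some w z h₂)
      = 2 * dP (Point.some u v h₁ : Pt ℓ W₀ k) + 2 * dP (Point.some w z h₂ : Pt ℓ W₀ k) := by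
  obtain ⟨x₃, y₃, x₄, y₄, h₃, h₄, e₃, e₄, i1, i2⟩ :=
    (hX (KK ℓ W₀ k) (W₀⁄(KK ℓ W₀ k)) u v w z h₁ h₂).1 hne
  have ho₃ : IsOdd (Point.some x₃ y₃ h₃ : Pt ℓ W₀ k) := e₃ ▸ isOdd_add ho₁ ho₂
  have ho₄ : IsOdd (Point.some x₄ y₄ h₄ : Pt ℓ W₀ k) := e₄ ▸ isOdd_sub ho₁ ho₂
  obtain ⟨p₁, q₁, c₁, n₁, hu₁, d₁⟩ := exists_frac hB hΔ ho₁
  obtain ⟨p₂, q₂, c₂, n₂, hu₂, d₂⟩ := exists_frac hB hΔ ho₂
  obtain ⟨p₃, q₃, c₃, n₃, hu₃, d₃⟩ := exists_frac hB hΔ ho₃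
  obtain ⟨p₄, q₄, c₄, n₄, hu₄, d₄⟩ := exists_frac hB hΔ ho₄
  rw [e₃, e₄, d₁, d₂, d₃, d₄]
  rw [hu₁, hu₂, hu₃, hu₄] at i1 i2
  have m₁ := phi_ne_zero (ℓ := ℓ) (W₀ := W₀) n₁
  have m₂ := phi_ne_zero (ℓ := ℓ) (W₀ := W₀) n₂
  have m₃ := phi_ne_zero (ℓ := ℓ) (W₀ := W₀) n₃
  have m₄ := phi_ne_zero (ℓ := ℓ) (W₀ := W₀) n₄
  have key := stmt_PolyPar k (W₀⁄k) (Δ_k_ne_zero hΔ) p₁ q₁ p₂ q₂ p₃ q₃ p₄ q₄ c₁ c₂ c₃ c₄ ?_ n₃ n₄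
    ?_ ?_
  · exact_mod_cast key
  · intro h0
    apply hne
    rw [hu₁, hu₂, div_eq_div_iff m₁ m₂, ← map_mul, ← map_mul, sub_eq_zero.mp h0]
  · apply phi_injective (ℓ := ℓ) (W₀ := W₀)
    simp only [map_mul, map_add, map_sub, map_pow, map_ofNat, phi_b₂, phi_b₄, phi_b₆]
    exact clr_add m₁ m₂ m₃ m₄ i1
  · apply phi_injective (ℓ := ℓ) (W₀ := W₀)
    simp only [map_mul, map_add, map_sub, map_pow, phi_b₄, phi_b₆, phi_b₈]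
    exact clr_mul m₁ m₂ m₃ m₄ i2

/-- the 2-division polynomial `4 T³ + b₂ T² + 2 b₄ T + b₆` -/
noncomputable def gPoly (W : Affine k) : Cubic k := ⟨4, W.b₂, 2 * W.b₄, W.b₆⟩

theorem gPoly_ne_zero (W : Affine k) (hΔ : W.Δ ≠ 0) : (gPoly W).toPoly ≠ 0 := by
  intro h
  rw [Cubic.toPoly_eq_zero_iff] at h
  have ha : (2 : k) * W.b₄ = 0 := congrArg Cubic.c h
  have hb : W.b₂ = 0 := congrArg Cubic.b h
  have hd : W.b₆ = 0 := congrArg Cubic.d h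
  apply hΔ
  rw [WeierstrassCurve.Δ, hb, hd]
  linear_combination (-4 * W.b₄ ^ 2) * ha

theorem dP_eq_zero_of_two_torsion (hB : Stmt_Basis) (hR : Stmt_RatDeg) (hΔ : W₀.Δ ≠ 0)
    {u v : KK ℓ W₀ k} {h : (W₀⁄(KK ℓ W₀ k)).Nonsingular u v}
    (hodd : IsOdd (Point.some u v h : Pt ℓ W₀ k))
    (h0 : 4 * u ^ 3 + (W₀⁄(KK ℓ W₀ k)).b₂ * u ^ 2 + 2 * (W₀⁄(KK ℓ W₀ k)).b₄ * u
      + (W₀⁄(KK ℓ W₀ k)).b₆ = 0) :
    dP (Point.some u v h : Pt ℓ W₀ k) = 0 := by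
  obtain ⟨u', hu⟩ := exists_ratFunc hB hΔ hodd
  have hroot : aeval u' (gPoly (W₀⁄k)).toPoly = 0 := by
    apply (algebraMap (RatFunc k) (KK ℓ W₀ k)).injective
    rw [map_zero, ← h0, hu, ← phi_b₂, ← phi_b₄, ← phi_b₆]
    simp only [Cubic.toPoly, gPoly, map_add, map_mul, map_pow, aeval_C, aeval_X, phi,
      RingHom.comp_apply, RatFunc.algebraMap_C, map_ofNat]
    rfl
  obtain ⟨c, hc⟩ := const_of_root _ (gPoly_ne_zero _ (Δ_k_ne_zero hΔ)) u' hroot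
  rw [dP_some, hu, xF_algebraMap, hc, (hR k).2.2.1 c]
  rfl

theorem dP_two_nsmul (hB : Stmt_Basis) (hR : Stmt_RatDeg) (hX : Stmt_XId) (hΔ : W₀.Δ ≠ 0)
    {P : Pt ℓ W₀ k} (hodd : IsOdd P) : dP ((2 : ℕ) • P) = 4 * dP P := by
  rcases P with _ | ⟨u, v, h⟩
  · rfl
  · have hodd2 : IsOdd ((2 : ℕ) • (Point.some u v h : Pt ℓ W₀ k)) := by
      rw [two_nsmul]
      exact isOdd_add hodd hodd
    obtain ⟨-, t1, t2⟩ := hX (KK ℓ W₀ k) (W₀⁄(KK ℓ W₀ k)) u v u v h h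
    rcases hP2 : (2 : ℕ) • (Point.some u v h : Pt ℓ W₀ k) with _ | ⟨x₃, y₃, h₃⟩
    · rw [dP_eq_zero_of_two_torsion hB hR hΔ hodd (t1.mp hP2)]
      rfl
    · have i1 := t2 x₃ y₃ h₃ hP2
      rw [hP2] at hodd2
      obtain ⟨p₁, q₁, c₁, n₁, hu₁, d₁⟩ := exists_frac hB hΔ hodd
      obtain ⟨p₃, q₃, c₃, n₃, hu₃, d₃⟩ := exists_frac hB hΔ hodd2
      rw [d₁, d₃]
      rw [hu₁, hu₃] at i1
      have m₁ := phi_ne_zero (ℓ := ℓ) (W₀ := W₀) n₁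
      have m₃ := phi_ne_zero (ℓ := ℓ) (W₀ := W₀) n₃
      have key := stmt_PolyDup k (W₀⁄k) (Δ_k_ne_zero hΔ) p₁ q₁ p₃ q₃ c₁ c₃ n₃ ?_
      · exact_mod_cast key
      · apply phi_injective (ℓ := ℓ) (W₀ := W₀)
        simp only [map_mul, map_add, map_sub, map_pow, map_ofNat, phi_b₂, phi_b₄, phi_b₆, phi_b₈]
        exact clr_dup m₁ m₃ i1

end

end PR

theorem stmt_Par (hB : Stmt_Basis) (hR : Stmt_RatDeg) (hX : Stmt_XId) : Stmt_Par := by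
  intro ℓ _ W₀ k _ _ hΔ P Q hP hQ
  rcases P with _ | ⟨u, v, h₁⟩
  · change dP (0 + Q) + dP (0 - Q) = 2 * dP (0 : Pt ℓ W₀ k) + 2 * dP Q
    rw [zero_add, zero_sub, PR.dP_neg, PR.dP_zero]
    ring
  rcases Q with _ | ⟨w, z, h₂⟩
  · change dP ((Point.some u v h₁ : Pt ℓ W₀ k) + 0) + dP ((Point.some u v h₁ : Pt ℓ W₀ k) - 0)
      = 2 * dP (Point.some u v h₁ : Pt ℓ W₀ k) + 2 * dP (0 : Pt ℓ W₀ k)
    rw [add_zero, sub_zero, PR.dP_zero]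
    ring
  by_cases hne : u = w
  · subst hne
    rcases Y_eq_of_X_eq h₁.1 h₂.1 rfl with hy | hy
    · subst hy
      rw [sub_self, ← two_nsmul, PR.dP_two_nsmul hB hR hX hΔ hP, PR.dP_zero]
      ring
    · have hPQ : (Point.some u v h₁ : Pt ℓ W₀ k) = -Point.some u z h₂ := by
        rw [Point.neg_some]
        subst hy
        rfl
      rw [hPQ, neg_add_cancel, ← neg_add', ← two_nsmul, PR.dP_neg, PR.dP_neg,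
        PR.dP_two_nsmul hB hR hX hΔ hQ, PR.dP_zero]
      ring
  · exact PR.par_ne hB hX hΔ hP hQ hne

end Fermat.Agent.S52.A2
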