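import Mathlib

/-! # S52: an elementary Hilbert irreducibility theorem ("no integer root" form)

`F ∈ ℤ[t][Y]` monic in `Y`, weighted degree bound, separable at the base point `t = 0`, no root
in `ℚ[t]`.  Then for every `M ≠ 0` some `t ∈ M ℤ` is such that `F(t, Y)` has no integer root.
Proof: `r`-adic divided differences (helper68, report #527). -/

set_option autoImplicit false

namespace Fermat.Agent.S52.HIT

open Polynomial

/-! ## 1. Hensel lifting by the linear Newton iteration -/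

theorem hensel_pow {R : Type*} [CommRing R] (I : Ideal R) (f : R[X]) (a u : R)
    (h0 : f.eval a ∈ I) (hu : u * f.derivative.eval a - 1 ∈ I) (m : ℕ) :
    ∃ z : R, z - a ∈ I ∧ u * f.derivative.eval z - 1 ∈ I ∧ f.eval z ∈ I ^ (m + 1) := by
  induction m with
  | zero => exact ⟨a, by simp, hu, by simpa using h0⟩
  | succ m ih =>
    obtain ⟨z, hza, hzu, hz⟩ := ih
    have hzI : f.eval z ∈ I := Ideal.pow_le_self (by omega) hz
    refine ⟨z - u * f.eval z, ?_, ?_, ?_⟩
    · have : z - u * f.eval z - a = (z - a) - u * f.eval z := by ring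
      rw [this]
      exact I.sub_mem hza (I.mul_mem_left _ hzI)
    · obtain ⟨w, hw⟩ := sub_dvd_eval_sub (z - u * f.eval z) z f.derivative
      have : u * f.derivative.eval (z - u * f.eval z) - 1
          = (u * f.derivative.eval z - 1) + u * (-(u * w)) * f.eval z := by
        have : f.derivative.eval (z - u * f.eval z)
            = f.derivative.eval z + (z - u * f.eval z - z) * w := by rw [← hw]; ring
        rw [this]; ring
      rw [this]
      exact I.add_mem hzu (I.mul_mem_left _ hzI)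
    · obtain ⟨k, hk⟩ := f.binomExpansion z (-(u * f.eval z))
      have e1 : f.eval (z - u * f.eval z)
          = -(u * f.derivative.eval z - 1) * f.eval z + k * u ^ 2 * (f.eval z * f.eval z) := by
        rw [sub_eq_add_neg, hk]; ring
      rw [e1]
      refine (I ^ (m + 1 + 1)).add_mem ?_ ?_
      · rw [pow_succ' I (m + 1)]
        exact Ideal.mul_mem_mul (I.neg_mem hzu) hz
      · refine Ideal.mul_mem_left _ _ ?_
        rw [pow_succ' I (m + 1)]
        exact Ideal.mul_mem_mul hzI hz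

/-- Hensel uniqueness over `ℤ`. -/
theorem hensel_unique (g : ℤ[X]) (r u y z : ℤ) (m : ℕ) (hy : g.eval y = 0)
    (hz : r ^ m ∣ g.eval z) (hyz : r ∣ y - z) (hu : r ∣ u * g.derivative.eval z - 1) :
    r ^ m ∣ y - z := by
  obtain ⟨k, hk⟩ := g.binomExpansion z (y - z)
  have h1 : g.eval z = -((y - z) * (g.derivative.eval z + k * (y - z))) := by
    have : z + (y - z) = y := by ring
    rw [this, hy] at hk
    linear_combination -hk
  have hcop : IsCoprime (r ^ m) (g.derivative.eval z + k * (y - z)) := by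
    apply IsCoprime.pow_left
    obtain ⟨a, ha⟩ := hyz
    obtain ⟨b, hb⟩ := hu
    refine ⟨-(b + u * k * a), u, ?_⟩
    rw [ha]
    linear_combination hb
  have h2 : r ^ m ∣ (y - z) * (g.derivative.eval z + k * (y - z)) := by
    rw [h1] at hz
    exact (dvd_neg.mp hz)
  exact hcop.dvd_of_dvd_mul_right h2

/-! ## 2. Integral divided differences -/

/-- integer weight of the node `i` -/
def wt (s : Finset ℤ) (i : ℤ) : ℤ := ∏ i' ∈ s.erase i, ∏ j ∈ s.erase i', (i' - j)

/-- common denominator -/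
def vand (s : Finset ℤ) : ℤ := ∏ i ∈ s, ∏ j ∈ s.erase i, (i - j)

/-- `vand s` times the top divided difference of `y` on `s` -/
def dd (s : Finset ℤ) (y : ℤ → ℤ) : ℤ := ∑ i ∈ s, wt s i * y i

theorem vand_eq {s : Finset ℤ} {i : ℤ} (hi : i ∈ s) :
    vand s = (∏ j ∈ s.erase i, (i - j)) * wt s i := by
  unfold vand wt
  rw [Finset.mul_prod_erase s (fun i => ∏ j ∈ s.erase i, (i - j)) hi]

theorem vand_ne_zero (s : Finset ℤ) : vand s ≠ 0 := by
  unfold vand
  refine Finset.prod_ne_zero_iff.mpr fun i _ => Finset.prod_ne_zero_iff.mpr fun j hj => ?_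
  exact sub_ne_zero.mpr (Finset.ne_of_mem_erase hj).symm

theorem dd_cast (s : Finset ℤ) (y : ℤ → ℤ) :
    (dd s y : ℚ) = vand s * ∑ i ∈ s, (y i : ℚ) / ∏ j ∈ s.erase i, ((i : ℚ) - (j : ℚ)) := by
  unfold dd
  push_cast
  rw [Finset.mul_sum]
  refine Finset.sum_congr rfl fun i hi => ?_
  have hne : (∏ j ∈ s.erase i, ((i : ℚ) - (j : ℚ))) ≠ 0 :=
    Finset.prod_ne_zero_iff.mpr fun j hj =>
      sub_ne_zero.mpr (by exact_mod_cast (Finset.ne_of_mem_erase hj).symm)
  rw [vand_eq hi]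
  push_cast
  field_simp

theorem injOn_cast (s : Finset ℤ) : Set.InjOn (fun i : ℤ => (i : ℚ)) s :=
  fun _ _ _ _ h => by simpa using h

/-- the divided difference computes the top coefficient -/
theorem dd_eq_coeff (s : Finset ℤ) (y : ℤ → ℤ) (P : ℚ[X]) (hP : P.degree < s.card)
    (hy : ∀ i ∈ s, P.eval (i : ℚ) = y i) :
    (dd s y : ℚ) = vand s * P.coeff (s.card - 1) := by
  rw [dd_cast, Lagrange.coeff_eq_sum (injOn_cast s) hP]
  congr 1
  exact Finset.sum_congr rfl fun i hi => by rw [hy i hi]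

theorem dd_add (s : Finset ℤ) (y z : ℤ → ℤ) : dd s (fun i => y i + z i) = dd s y + dd s z := by
  unfold dd
  rw [← Finset.sum_add_distrib]
  exact Finset.sum_congr rfl fun i _ => by ring

theorem dd_mul_left (s : Finset ℤ) (c : ℤ) (y : ℤ → ℤ) : dd s (fun i => c * y i) = c * dd s y := by
  unfold dd
  rw [Finset.mul_sum]
  exact Finset.sum_congr rfl fun i _ => by ring

theorem dd_congr (s : Finset ℤ) (y z : ℤ → ℤ) (h : ∀ i ∈ s, y i = z i) : dd s y = dd s z := by
  unfold dd
  exact Finset.sum_congr rfl fun i hi => by rw [h i hi]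

theorem dd_poly_eq_zero (s : Finset ℤ) (p : ℤ[X]) (hp : p.natDegree + 1 < s.card) :
    dd s (fun i => p.eval i) = 0 := by
  have h := dd_eq_coeff s (fun i => p.eval i) (p.map (Int.castRingHom ℚ)) ?_ ?_
  · rw [coeff_map, coeff_eq_zero_of_natDegree_lt (by omega)] at h
    simpa using h
  · refine lt_of_le_of_lt degree_map_le (lt_of_le_of_lt degree_le_natDegree ?_)
    exact_mod_cast (by omega : p.natDegree < s.card)
  · intro i _
    simp

theorem dd_comp_dvd (s : Finset ℤ) (n : ℕ) (hs : s.card = n + 1) (q : ℤ[X]) (ρ : ℤ) :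
    ρ ^ n ∣ dd s (fun i => q.eval (ρ * i)) := by
  rcases Nat.eq_zero_or_pos n with rfl | hn
  · simp
  have hmon : (X ^ n : ℤ[X]).Monic := monic_X_pow n
  have hne1 : (X ^ n : ℤ[X]) ≠ 1 := by
    intro h
    have := congrArg natDegree h
    simp at this
    omega
  have hdec := modByMonic_add_div q (X ^ n : ℤ[X])
  have e : ∀ i : ℤ, q.eval (ρ * i)
      = ((q %ₘ X ^ n).comp (C ρ * X)).eval i + ρ ^ n * (i ^ n * (q /ₘ X ^ n).eval (ρ * i)) := by
    intro i
    conv_lhs => rw [← hdec]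
    simp only [eval_add, eval_mul, eval_pow, eval_X, eval_comp, eval_C]
    ring
  rw [dd_congr s _ _ (fun i _ => e i), dd_add, dd_mul_left, dd_poly_eq_zero, zero_add]
  · exact dvd_mul_right _ _
  · have h1 : (q %ₘ X ^ n).natDegree < n := by
      have := natDegree_modByMonic_lt q hmon hne1
      simpa using this
    have h2 : ((q %ₘ X ^ n).comp (C ρ * X)).natDegree ≤ (q %ₘ X ^ n).natDegree * 1 := by
      refine natDegree_comp_le.trans ?_
      exact Nat.mul_le_mul_left _ ((natDegree_C_mul_le ρ X).trans natDegree_X_le)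
    omega

theorem dd_dvd_of_congr (s : Finset ℤ) (y z : ℤ → ℤ) (N : ℤ) (h : ∀ i ∈ s, N ∣ y i - z i)
    (hz : N ∣ dd s z) : N ∣ dd s y := by
  have : dd s y = dd s z + ∑ i ∈ s, wt s i * (y i - z i) := by
    unfold dd
    rw [← Finset.sum_add_distrib]
    exact Finset.sum_congr rfl fun i _ => by ring
  rw [this]
  exact dvd_add hz (Finset.dvd_sum fun i hi => Dvd.dvd.mul_left (h i hi) _)

/-- a bound for `dd` uniform in the subsets of a fixed finite set -/
theorem dd_bound (S : Finset ℤ) : ∃ B : ℤ, 0 ≤ B ∧ ∀ s ⊆ S, ∀ (y : ℤ → ℤ) (Y : ℤ), 0 ≤ Y →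
    (∀ i ∈ s, |y i| ≤ Y) → |dd s y| ≤ B * Y := by
  refine ⟨∑ s ∈ S.powerset, ∑ i ∈ s, |wt s i|, ?_, ?_⟩
  · exact Finset.sum_nonneg fun s _ => Finset.sum_nonneg fun i _ => abs_nonneg _
  · intro s hs y Y hY hy
    have h1 : |dd s y| ≤ (∑ i ∈ s, |wt s i|) * Y := by
      unfold dd
      refine (Finset.abs_sum_le_sum_abs _ _).trans ?_
      rw [Finset.sum_mul]
      refine Finset.sum_le_sum fun i hi => ?_
      rw [abs_mul]
      exact mul_le_mul_of_nonneg_left (hy i hi) (abs_nonneg _)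
    refine h1.trans (mul_le_mul_of_nonneg_right ?_ hY)
    exact Finset.single_le_sum (f := fun s => ∑ i ∈ s, |wt s i|)
      (fun s _ => Finset.sum_nonneg fun i _ => abs_nonneg _) (Finset.mem_powerset.mpr hs)

/-- vanishing of the divided difference: the next value lies on the interpolation polynomial -/
theorem eval_interpolate_of_dd_eq_zero (s : Finset ℤ) (k : ℤ) (hk : k ∉ s) (y : ℤ → ℤ)
    (h : dd (insert k s) y = 0) :
    (Lagrange.interpolate s (fun i : ℤ => (i : ℚ)) (fun i => (y i : ℚ))).eval (k : ℚ) = y k := by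
  set v : ℤ → ℚ := fun i : ℤ => (i : ℚ) with hv
  set Q := Lagrange.interpolate (insert k s) v (fun i => (y i : ℚ)) with hQ
  have hinj := injOn_cast (insert k s)
  have hdeg : Q.degree < (insert k s).card := Lagrange.degree_interpolate_lt _ hinj
  have hev : ∀ i ∈ insert k s, Q.eval (i : ℚ) = y i := fun i hi =>
    Lagrange.eval_interpolate_at_node _ hinj hi
  have hc := dd_eq_coeff (insert k s) y Q hdeg hev
  rw [h, Finset.card_insert_of_notMem hk, Nat.add_sub_cancel] at hc
  have hc0 : Q.coeff s.card = 0 := by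
    have hV : (vand (insert k s) : ℚ) ≠ 0 := by exact_mod_cast vand_ne_zero _
    have : (vand (insert k s) : ℚ) * Q.coeff s.card = 0 := by exact_mod_cast hc.symm
    exact (mul_eq_zero.mp this).resolve_left hV
  have hdeg' : Q.degree < s.card := by
    rw [Finset.card_insert_of_notMem hk] at hdeg
    rw [degree_lt_iff_coeff_zero] at hdeg ⊢
    intro m hm
    rcases Nat.lt_or_ge s.card m with h1 | h1
    · exact hdeg m h1
    · have : m = s.card := le_antisymm h1 hm
      rw [this]; exact hc0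
  have hQs : Q = Lagrange.interpolate s v (fun i => (y i : ℚ)) :=
    Lagrange.eq_interpolate_of_eval_eq _ (injOn_cast s) hdeg'
      (fun i hi => hev i (Finset.mem_insert_of_mem hi))
  rw [← hQs]
  exact hev k (Finset.mem_insert_self _ _)

/-! ## 3. The archimedean bound -/

theorem abs_eval_le (a : ℤ[X]) (m : ℕ) (ha : a.natDegree ≤ m) (t T : ℤ) (hT : 1 ≤ T)
    (ht : |t| ≤ T) : |a.eval t| ≤ (∑ i ∈ a.support, |a.coeff i|) * T ^ m := by
  rw [eval_eq_sum, Polynomial.sum, Finset.sum_mul]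
  refine (Finset.abs_sum_le_sum_abs _ _).trans (Finset.sum_le_sum fun i hi => ?_)
  rw [abs_mul, abs_pow]
  refine mul_le_mul_of_nonneg_left ?_ (abs_nonneg _)
  calc |t| ^ i ≤ T ^ i := pow_le_pow_left₀ (abs_nonneg _) ht i
    _ ≤ T ^ m := pow_le_pow_right₀ hT ((le_natDegree_of_mem_supp i hi).trans ha)

theorem eval_map_monic (F : ℤ[X][X]) (hF : F.Monic) (t y : ℤ) :
    (F.map (evalRingHom t)).eval y
      = y ^ F.natDegree + ∑ i ∈ Finset.range F.natDegree, (F.coeff i).eval t * y ^ i := by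
  conv_lhs => rw [hF.as_sum]
  simp [Polynomial.map_sum, eval_finsetSum]

theorem cauchy_bound (F : ℤ[X][X]) (hF : F.Monic) (D : ℕ)
    (hdeg : ∀ i < F.natDegree, (F.coeff i).natDegree ≤ (F.natDegree - i) * D) :
    ∃ γ : ℤ, 0 ≤ γ ∧ ∀ t y T : ℤ, 1 ≤ T → |t| ≤ T → (F.map (evalRingHom t)).eval y = 0 →
      |y| ≤ γ * T ^ D := by
  set d := F.natDegree with hd
  set c : ℕ → ℤ := fun i => ∑ j ∈ (F.coeff i).support, |(F.coeff i).coeff j| with hc
  have hc0 : ∀ i, 0 ≤ c i := fun i => Finset.sum_nonneg fun j _ => abs_nonneg _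
  have hS0 : 0 ≤ ∑ i ∈ Finset.range d, c i := Finset.sum_nonneg fun i _ => hc0 i
  refine ⟨1 + ∑ i ∈ Finset.range d, c i, by positivity, ?_⟩
  intro t y T hT ht hy
  set γ : ℤ := 1 + ∑ i ∈ Finset.range d, c i with hγ
  have hγ1 : 1 ≤ γ := by omega
  by_contra hcon
  push Not at hcon
  set w : ℤ := T ^ D with hw
  have hw1 : 1 ≤ w := one_le_pow₀ hT
  set Z : ℤ := |y| with hZ
  have hZpos : 0 < Z := lt_of_le_of_lt (by positivity) hcon
  rw [eval_map_monic F hF] at hy
  have hyd : y ^ d = -∑ i ∈ Finset.range d, (F.coeff i).eval t * y ^ i := by linear_combination hy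
  have key : ∀ i ∈ Finset.range d, γ * |(F.coeff i).eval t * y ^ i| ≤ c i * Z ^ d := by
    intro i hi
    have hid : i < d := Finset.mem_range.mp hi
    have h1 : |(F.coeff i).eval t| ≤ c i * w ^ (d - i) := by
      have := abs_eval_le (F.coeff i) _ (hdeg i hid) t T hT ht
      rwa [mul_comm (d - i) D, pow_mul] at this
    have h2 : γ * w ^ (d - i) ≤ Z ^ (d - i) := by
      calc γ * w ^ (d - i) ≤ γ ^ (d - i) * w ^ (d - i) := by
            refine mul_le_mul_of_nonneg_right ?_ (by positivity)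
            exact le_self_pow₀ hγ1 (by omega)
        _ = (γ * w) ^ (d - i) := (mul_pow _ _ _).symm
        _ ≤ Z ^ (d - i) := pow_le_pow_left₀ (by positivity) hcon.le _
    rw [abs_mul, abs_pow]
    calc γ * (|(F.coeff i).eval t| * Z ^ i) ≤ γ * ((c i * w ^ (d - i)) * Z ^ i) := by
          refine mul_le_mul_of_nonneg_left ?_ (by positivity)
          exact mul_le_mul_of_nonneg_right h1 (by positivity)
      _ = c i * (γ * w ^ (d - i)) * Z ^ i := by ring
      _ ≤ c i * Z ^ (d - i) * Z ^ i := by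
          refine mul_le_mul_of_nonneg_right ?_ (by positivity)
          exact mul_le_mul_of_nonneg_left h2 (hc0 i)
      _ = c i * Z ^ d := by
          rw [mul_assoc, ← pow_add]
          congr 2
          omega
  have h3 : γ * Z ^ d ≤ (∑ i ∈ Finset.range d, c i) * Z ^ d := by
    have hZd' : Z ^ d = |∑ i ∈ Finset.range d, (F.coeff i).eval t * y ^ i| := by
      rw [hZ, ← abs_pow, hyd, abs_neg]
    rw [Finset.sum_mul]
    calc γ * Z ^ d = γ * |∑ i ∈ Finset.range d, (F.coeff i).eval t * y ^ i| := by rw [hZd']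
      _ ≤ γ * ∑ i ∈ Finset.range d, |(F.coeff i).eval t * y ^ i| :=
          mul_le_mul_of_nonneg_left (Finset.abs_sum_le_sum_abs _ _) (by positivity)
      _ = ∑ i ∈ Finset.range d, γ * |(F.coeff i).eval t * y ^ i| := Finset.mul_sum _ _ _
      _ ≤ ∑ i ∈ Finset.range d, c i * Z ^ d := Finset.sum_le_sum key
  have hZd : 0 < Z ^ d := by positivity
  have : γ ≤ ∑ i ∈ Finset.range d, c i := le_of_mul_le_mul_right h3 hZd
  omega

/-! ## 4. The ideal `(r, t)` of `ℤ[t]` -/

/-- the ideal `(r, t)` -/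
noncomputable def idl (r : ℤ) : Ideal ℤ[X] := Ideal.span {C r, X}

theorem mem_idl_iff (r : ℤ) (p : ℤ[X]) : p ∈ idl r ↔ r ∣ p.eval 0 := by
  unfold idl
  rw [Ideal.mem_span_pair]
  constructor
  · rintro ⟨a, b, rfl⟩
    simp
  · rintro ⟨w, hw⟩
    refine ⟨C w, p.divX, ?_⟩
    conv_rhs => rw [← divX_mul_X_add p]
    rw [← coeff_zero_eq_eval_zero] at hw
    rw [hw, C_mul]
    ring

theorem eval_mem_of_mem_idl_pow (r t : ℤ) (ht : r ∣ t) (m : ℕ) (p : ℤ[X]) (hp : p ∈ idl r ^ m) :
    r ^ m ∣ p.eval t := by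
  have h1 : Ideal.map (evalRingHom t) (idl r) ≤ Ideal.span {r} := by
    unfold idl
    rw [Ideal.map_span, Ideal.span_le]
    rintro _ ⟨q, hq, rfl⟩
    rcases hq with rfl | hq
    · simp
    · rw [Set.mem_singleton_iff] at hq
      subst hq
      simpa [Ideal.mem_span_singleton] using ht
  have h2 : evalRingHom t p ∈ Ideal.map (evalRingHom t) (idl r ^ m) := Ideal.mem_map_of_mem _ hp
  rw [Ideal.map_pow] at h2
  have h3 := Ideal.pow_right_mono h1 m h2
  rw [Ideal.span_singleton_pow, Ideal.mem_span_singleton] at h3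
  simpa using h3

theorem eval_mem_of_mem_idl (r t : ℤ) (ht : r ∣ t) (p : ℤ[X]) (hp : p ∈ idl r) :
    r ∣ p.eval t := by
  have := eval_mem_of_mem_idl_pow r t ht 1 p (by simpa using hp)
  simpa using this

/-! ## 5. One `r`-adic branch is approximated by integral polynomials -/

theorem eval_eval_eq (F : ℤ[X][X]) (ζ : ℤ[X]) (t : ℤ) :
    (F.eval ζ).eval t = (F.map (evalRingHom t)).eval (ζ.eval t) := by
  have := eval_map_apply (p := F) (evalRingHom t) ζ
  simpa using this.symm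

theorem branch_congr (F : ℤ[X][X]) (r y₀ u₀ : ℤ)
    (h0 : r ∣ (F.map (evalRingHom 0)).eval y₀)
    (hu : r ∣ u₀ * (F.map (evalRingHom 0)).derivative.eval y₀ - 1) (m : ℕ) :
    ∃ ζ : ℤ[X], ∀ t y : ℤ, r ∣ t → r ∣ y - y₀ → (F.map (evalRingHom t)).eval y = 0 →
      r ^ m ∣ y - ζ.eval t := by
  obtain ⟨ζ, h1, h2, h3⟩ := hensel_pow (idl r) F (C y₀) (C u₀)
    (by rw [mem_idl_iff, eval_eval_eq]; simpa using h0)
    (by
      rw [mem_idl_iff]
      simp only [eval_sub, eval_mul, eval_C, eval_one]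
      rw [eval_eval_eq, ← derivative_map]
      simpa using hu) m
  refine ⟨ζ, fun t y ht hy hroot => ?_⟩
  have hz : r ^ (m + 1) ∣ (F.map (evalRingHom t)).eval (ζ.eval t) := by
    rw [← eval_eval_eq]
    exact eval_mem_of_mem_idl_pow r t ht _ _ h3
  have hyz : r ∣ y - ζ.eval t := by
    have := eval_mem_of_mem_idl r t ht _ h1
    simp only [eval_sub, eval_C] at this
    have e : y - ζ.eval t = (y - y₀) - (ζ.eval t - y₀) := by ring
    rw [e]
    exact dvd_sub hy this
  have hu' : r ∣ u₀ * (F.map (evalRingHom t)).derivative.eval (ζ.eval t) - 1 := by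
    have := eval_mem_of_mem_idl r t ht _ h2
    simp only [eval_sub, eval_mul, eval_C, eval_one] at this
    rwa [eval_eval_eq, ← derivative_map] at this
  exact (pow_dvd_pow r (Nat.le_succ m)).trans
    (hensel_unique _ r u₀ y _ (m + 1) hroot hz hyz hu')

/-! ## 6. Degree and evaluation of `F(t, P(t))` -/

theorem natDegree_eval_le (G : ℚ[X][X]) (d D : ℕ) (hd : G.natDegree ≤ d)
    (hdeg : ∀ i ≤ d, (G.coeff i).natDegree ≤ (d - i) * D) (P : ℚ[X]) (hP : P.natDegree ≤ D) :
    (G.eval P).natDegree ≤ d * D := by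
  rw [eval_eq_sum_range' (Nat.lt_succ_of_le hd)]
  refine natDegree_sum_le_of_forall_le _ _ fun i hi => ?_
  have hid : i ≤ d := Nat.lt_succ_iff.mp (Finset.mem_range.mp hi)
  calc (G.coeff i * P ^ i).natDegree ≤ (G.coeff i).natDegree + (P ^ i).natDegree := natDegree_mul_le
    _ ≤ (d - i) * D + i * D := by
        refine Nat.add_le_add (hdeg i hid) ?_
        exact natDegree_pow_le.trans (Nat.mul_le_mul_left _ hP)
    _ = d * D := by rw [← Nat.add_mul]; congr 1; omega

theorem eval_eval_cast (F : ℤ[X][X]) (P : ℚ[X]) (τ y : ℤ) (hP : P.eval (τ : ℚ) = y) :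
    ((F.map (mapRingHom (Int.castRingHom ℚ))).eval P).eval (τ : ℚ)
      = (((F.map (evalRingHom τ)).eval y : ℤ) : ℚ) := by
  have h1 := eval_map_apply (p := F.map (mapRingHom (Int.castRingHom ℚ))) (evalRingHom (τ : ℚ)) P
  simp only [coe_evalRingHom] at h1
  rw [← h1, Polynomial.map_map, hP]
  have h2 : (evalRingHom (τ : ℚ)).comp (mapRingHom (Int.castRingHom ℚ))
      = (Int.castRingHom ℚ).comp (evalRingHom τ) := by
    apply Polynomial.ringHom_ext
    · intro a; simp
    · simp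
  rw [h2, ← Polynomial.map_map]
  simp

/-! ## 7. The theorem -/

theorem hit_general (F : ℤ[X][X]) (hF : F.Monic) (D : ℕ)
    (hdeg : ∀ i < F.natDegree, (F.coeff i).natDegree ≤ (F.natDegree - i) * D)
    (U V : ℤ[X]) (c : ℤ) (hc : c ≠ 0)
    (hUV : U * F.map (evalRingHom 0) + V * (F.map (evalRingHom 0)).derivative = C c)
    (hno : ∀ P : ℚ[X], (F.map (mapRingHom (Int.castRingHom ℚ))).eval P ≠ 0)
    (M : ℤ) (hM : M ≠ 0) :
    ∃ t : ℤ, M ∣ t ∧ ∀ y : ℤ, (F.map (evalRingHom t)).eval y ≠ 0 := by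
  classical
  -- the auxiliary prime
  obtain ⟨r, hrge, hr⟩ := Nat.exists_infinite_primes (c.natAbs + 1)
  have : Fact r.Prime := ⟨hr⟩
  have hrc : ¬ (r : ℤ) ∣ c := by
    intro h
    have h1 : r ∣ c.natAbs := Int.natCast_dvd.mp h
    have h2 := Nat.le_of_dvd (Int.natAbs_pos.mpr hc) h1
    omega
  have hr1 : (1 : ℤ) < r := by exact_mod_cast hr.one_lt
  have hr0 : (0 : ℤ) < r := by omega
  set d := F.natDegree with hd
  set n := D + 1 with hn
  set L := d * D + n with hL
  set K := r * L with hK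
  set S₀ : Finset ℤ := Finset.Icc 0 (K : ℤ) with hS₀
  obtain ⟨γ, hγ0, hγ⟩ := cauchy_bound F hF D hdeg
  obtain ⟨B, hB0, hB⟩ := dd_bound S₀
  set X₀ : ℤ := B * γ * (|M| * (K + 1)) ^ D with hX₀
  set e : ℕ := X₀.toNat + 1 with he
  have hre : X₀ < (r : ℤ) ^ e := by
    have h1 : e < r ^ e := Nat.lt_pow_self hr.one_lt
    have h2 : X₀ ≤ X₀.toNat := Int.self_le_toNat X₀
    have h3 : ((e : ℕ) : ℤ) < (r : ℤ) ^ e := by exact_mod_cast h1
    have h4 : ((e : ℕ) : ℤ) = X₀.toNat + 1 := by rw [he]; push_cast; ring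
    omega
  set ρ : ℤ := M * (r : ℤ) ^ e with hρ
  have hρ0 : ρ ≠ 0 := mul_ne_zero hM (pow_ne_zero _ hr0.ne')
  have hrρ : (r : ℤ) ∣ ρ := Dvd.dvd.mul_left (dvd_pow_self _ (by omega)) _
  by_contra hcon
  push Not at hcon
  have hex : ∀ k : ℤ, ∃ y : ℤ, (F.map (evalRingHom (ρ * k))).eval y = 0 := fun k =>
    hcon (ρ * k) (by rw [hρ, mul_assoc]; exact dvd_mul_right _ _)
  choose y hy using hex
  -- pigeonhole
  obtain ⟨ybar, -, hcard⟩ := Finset.exists_lt_card_fiber_of_mul_lt_card_of_maps_to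
    (s := S₀) (t := (Finset.univ : Finset (ZMod r))) (f := fun k => ((y k : ℤ) : ZMod r)) (n := L)
    (fun _ _ => Finset.mem_univ _)
    (by
      rw [Finset.card_univ, ZMod.card, hS₀, Int.card_Icc]
      have : ((K : ℤ) + 1 - 0).toNat = K + 1 := by omega
      rw [this]; omega)
  set S : Finset ℤ := S₀.filter (fun k => ((y k : ℤ) : ZMod r) = ybar) with hS
  have hSS₀ : S ⊆ S₀ := Finset.filter_subset _ _
  have hSne : S.Nonempty := Finset.card_pos.mp (by omega)
  obtain ⟨k₁, hk₁⟩ := hSne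
  set y₀ := y k₁ with hy₀
  have hres : ∀ k ∈ S, (r : ℤ) ∣ y k - y₀ := by
    intro k hk
    have h1 := (Finset.mem_filter.mp hk).2
    have h2 := (Finset.mem_filter.mp hk₁).2
    exact (ZMod.intCast_eq_intCast_iff_dvd_sub _ _ _).mp (h2.trans h1.symm)
  have h0 : (r : ℤ) ∣ (F.map (evalRingHom 0)).eval y₀ := by
    have h1 := sub_dvd_eval_sub 0 (ρ * k₁) (F.eval (C y₀))
    rw [eval_eval_eq, eval_eval_eq, eval_C, eval_C, hy k₁, sub_zero, zero_sub, neg_dvd] at h1
    exact (Dvd.dvd.mul_right hrρ _).trans h1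
  obtain ⟨u₀, hu₀⟩ : ∃ u₀ : ℤ,
      (r : ℤ) ∣ u₀ * (F.map (evalRingHom 0)).derivative.eval y₀ - 1 := by
    have hcop : IsCoprime c (r : ℤ) :=
      ((Nat.prime_iff_prime_int.mp hr).coprime_iff_not_dvd.mpr hrc).symm
    obtain ⟨a, b, hab⟩ := hcop
    have hev := congrArg (eval y₀) hUV
    simp only [eval_add, eval_mul, eval_C] at hev
    obtain ⟨w, hw⟩ := h0
    refine ⟨a * V.eval y₀, -(b + a * U.eval y₀ * w), ?_⟩
    rw [hw] at hev
    linear_combination a * hev + hab
  obtain ⟨ζ, hζ⟩ := branch_congr F r y₀ u₀ h0 hu₀ (e * n)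
  have hcong : ∀ k ∈ S, (r : ℤ) ^ (e * n) ∣ y k - ζ.eval (ρ * k) := fun k hk =>
    hζ _ _ (Dvd.dvd.mul_right hrρ _) (hres k hk) (hy k)
  -- all divided differences of order `n` vanish
  have hdd : ∀ s ⊆ S, s.card = n + 1 → dd s y = 0 := by
    intro s hs hsc
    have hdvd : (r : ℤ) ^ (e * n) ∣ dd s y := by
      refine dd_dvd_of_congr s y (fun i => ζ.eval (ρ * i)) _ (fun i hi => hcong i (hs hi)) ?_
      refine Dvd.dvd.trans ?_ (dd_comp_dvd s n hsc ζ ρ)
      rw [pow_mul, hρ, mul_pow]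
      exact dvd_mul_left _ _
    set T : ℤ := |M| * (r : ℤ) ^ e * (K + 1) with hT
    have hMpos : 1 ≤ |M| := Int.one_le_abs hM
    have hrepos : 1 ≤ (r : ℤ) ^ e := one_le_pow₀ hr1.le
    have hK1 : (1 : ℤ) ≤ (K : ℤ) + 1 := by omega
    have hT1 : 1 ≤ T := by
      have : 1 ≤ |M| * (r : ℤ) ^ e := one_le_mul_of_one_le_of_one_le hMpos hrepos
      exact one_le_mul_of_one_le_of_one_le this hK1
    have hbd : ∀ i ∈ s, |y i| ≤ γ * T ^ D := by
      intro i hi
      have hi0 := Finset.mem_Icc.mp (hSS₀ (hs hi))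
      refine hγ (ρ * i) (y i) T hT1 ?_ (hy i)
      rw [hρ, abs_mul, abs_mul, abs_pow, abs_of_pos hr0, hT, abs_of_nonneg hi0.1]
      refine mul_le_mul_of_nonneg_left (by omega) (by positivity)
    have habs := hB s (hs.trans hSS₀) y (γ * T ^ D) (by positivity) hbd
    have hlt : B * (γ * T ^ D) < (r : ℤ) ^ (e * n) := by
      have e1 : B * (γ * T ^ D) = X₀ * ((r : ℤ) ^ e) ^ D := by
        rw [hX₀, hT]
        rw [show |M| * (r : ℤ) ^ e * ((K : ℤ) + 1) = (|M| * ((K : ℤ) + 1)) * (r : ℤ) ^ e by ring,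
          mul_pow]
        ring
      have e2 : (r : ℤ) ^ (e * n) = (r : ℤ) ^ e * ((r : ℤ) ^ e) ^ D := by
        rw [pow_mul, hn, pow_succ]; ring
      rw [e1, e2]
      exact mul_lt_mul_of_pos_right hre (by positivity)
    exact Int.eq_zero_of_abs_lt_dvd hdvd (lt_of_le_of_lt habs hlt)
  -- the interpolation polynomial
  obtain ⟨s₀, hs₀S, hs₀c⟩ := Finset.exists_subset_card_eq (s := S) (n := n) (by omega)
  set v : ℤ → ℚ := fun i : ℤ => (i : ℚ) with hv
  set P := Lagrange.interpolate s₀ v (fun i => (y i : ℚ)) with hP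
  have hPdeg : P.natDegree ≤ D := by
    have h1 : P.degree < s₀.card := Lagrange.degree_interpolate_lt _ (injOn_cast s₀)
    rw [hs₀c] at h1
    by_cases hP0 : P = 0
    · rw [hP0]; simp
    · have := (natDegree_lt_iff_degree_lt hP0).mpr h1
      omega
  have hPev : ∀ k ∈ S, P.eval (k : ℚ) = y k := by
    intro k hk
    by_cases hks : k ∈ s₀
    · exact Lagrange.eval_interpolate_at_node _ (injOn_cast s₀) hks
    · refine eval_interpolate_of_dd_eq_zero s₀ k hks y (hdd _ ?_ ?_)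
      · exact Finset.insert_subset hk hs₀S
      · rw [Finset.card_insert_of_notMem hks, hs₀c]
  set P' : ℚ[X] := P.comp (C ((ρ : ℚ)⁻¹) * X) with hP'
  have hP'deg : P'.natDegree ≤ D := by
    have h2 : P'.natDegree ≤ P.natDegree * 1 :=
      natDegree_comp_le.trans (Nat.mul_le_mul_left _ ((natDegree_C_mul_le _ X).trans natDegree_X_le))
    omega
  have hρQ : (ρ : ℚ) ≠ 0 := by exact_mod_cast hρ0
  have hP'ev : ∀ k ∈ S, P'.eval (((ρ * k : ℤ)) : ℚ) = y k := by
    intro k hk
    rw [hP', eval_comp]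
    simp only [eval_mul, eval_C, eval_X]
    push_cast
    rw [inv_mul_cancel_left₀ hρQ]
    exact hPev k hk
  refine hno P' ?_
  set G := F.map (mapRingHom (Int.castRingHom ℚ)) with hG
  have hQdeg : (G.eval P').natDegree ≤ d * D := by
    refine natDegree_eval_le G d D natDegree_map_le ?_ P' hP'deg
    intro i hi
    rw [hG, coeff_map]
    rcases Nat.lt_or_ge i d with h | h
    · exact natDegree_map_le.trans (hdeg i h)
    · have : i = d := le_antisymm hi h
      subst this
      have : F.coeff F.natDegree = 1 := hF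
      rw [this]
      simp
  refine eq_zero_of_degree_lt_of_eval_index_eq_zero (s := S)
    (v := fun k : ℤ => (((ρ * k : ℤ)) : ℚ)) ?_ ?_ ?_
  · intro a _ b _ hab
    have hab' : ((ρ * a : ℤ) : ℚ) = ((ρ * b : ℤ) : ℚ) := hab
    have : ρ * a = ρ * b := by exact_mod_cast hab'
    exact mul_left_cancel₀ hρ0 this
  · refine lt_of_le_of_lt degree_le_natDegree ?_
    exact_mod_cast (by omega : (G.eval P').natDegree < S.card)
  · intro k hk
    rw [hG, eval_eval_cast F P' (ρ * k) (y k) (hP'ev k hk), hy k]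
    simp

end Fermat.Agent.S52.HIT
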