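import Fermat.Agent.S52.Interface2
import Fermat.Agent.S52.HITGen

/-! # S52 (C-4a): `Stmt_HITgen` from the general theorem `HIT.hit_general`. -/

set_option autoImplicit false

namespace Fermat.Agent.S52

open Polynomial

namespace HIT

/-- the quartic `Y⁴ + 18 A Y² + 108 B Y - 27 A²` over a commutative ring -/
noncomputable def quartic {R : Type*} [CommRing R] (A B : R) : R[X] :=
  X ^ 4 + C (18 * A) * X ^ 2 + C (108 * B) * X - C (27 * A ^ 2)

theorem quartic_map {R S : Type*} [CommRing R] [CommRing S] (f : R →+* S) (A B : R) :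
    (quartic A B).map f = quartic (f A) (f B) := by
  simp [quartic, Polynomial.map_sub, Polynomial.map_add, Polynomial.map_mul, Polynomial.map_pow,
    map_ofNat]

theorem quartic_eval {R : Type*} [CommRing R] (A B y : R) :
    (quartic A B).eval y = y ^ 4 + 18 * A * y ^ 2 + 108 * B * y - 27 * A ^ 2 := by
  simp [quartic]

theorem quartic_natDegree {R : Type*} [CommRing R] [Nontrivial R] (A B : R) :
    (quartic A B).natDegree = 4 := by
  unfold quartic
  compute_degree!

theorem quartic_monic {R : Type*} [CommRing R] [Nontrivial R] (A B : R) :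
    (quartic A B).Monic := by
  unfold quartic
  monicity!

theorem quartic_coeff {R : Type*} [CommRing R] (A B : R) :
    (quartic A B).coeff 0 = -(27 * A ^ 2) ∧ (quartic A B).coeff 1 = 108 * B ∧
      (quartic A B).coeff 2 = 18 * A ∧ (quartic A B).coeff 3 = 0 := by
  refine ⟨?_, ?_, ?_, ?_⟩ <;>
  · simp only [quartic, coeff_sub, coeff_add, coeff_X_pow, coeff_C_mul, coeff_C, coeff_X]
    norm_num

theorem quartic_derivative {R : Type*} [CommRing R] (A B : R) :
    (quartic A B).derivative = 4 * X ^ 3 + C (36 * A) * X + C (108 * B) := by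
  simp only [quartic, derivative_sub, derivative_add, derivative_X_pow, derivative_C_mul,
    derivative_X, derivative_C]
  simp only [map_mul, map_ofNat, Nat.cast_ofNat]
  ring

theorem quartic_bezout (a b : ℤ) :
    (-12 * (C (54 * a) * X ^ 2 - C (243 * b) * X + C (324 * a ^ 2)) ^ 2) * quartic a b
      + (2 * (C (54 * a) * X ^ 2 - C (243 * b) * X + C (324 * a ^ 2)) ^ 2 * (6 * X)
        + 2 * (C (54 * a) * X ^ 2 - C (243 * b) * X + C (324 * a ^ 2))
            * (-(C (162 * a) * X - C (729 * b))) * (3 * X ^ 2 + C (9 * a))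
        + (-(C (162 * a) * X - C (729 * b))) ^ 2 * (X ^ 3 + C (9 * a) * X + C (27 * b)))
        * (quartic a b).derivative
      = C (4 * (729 * (4 * a ^ 3 + 27 * b ^ 2)) ^ 2) := by
  rw [quartic_derivative]
  simp only [quartic, map_mul, map_add, map_pow, map_ofNat]
  ring

end HIT

theorem stmt_HITgen : Stmt_HITgen := by
  intro A B M hA hB hΔ hno hM
  have hnat : (HIT.quartic A B).natDegree = 4 := HIT.quartic_natDegree A B
  have hdeg : ∀ i < (HIT.quartic A B).natDegree,
      ((HIT.quartic A B).coeff i).natDegree ≤ ((HIT.quartic A B).natDegree - i) * 10 := by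
    rw [hnat]
    intro i hi
    have h2 : (18 * A).natDegree ≤ 20 := by
      have := natDegree_C_mul_le (18 : ℤ) A
      simp only [map_ofNat] at this
      omega
    have h1 : (108 * B).natDegree ≤ 30 := by
      have := natDegree_C_mul_le (108 : ℤ) B
      simp only [map_ofNat] at this
      omega
    have h0 : (27 * A ^ 2).natDegree ≤ 40 := by
      have := natDegree_C_mul_le (27 : ℤ) (A ^ 2)
      simp only [map_ofNat] at this
      have h' : (A ^ 2).natDegree ≤ 2 * A.natDegree := natDegree_pow_le
      omega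
    obtain ⟨c0, c1, c2, c3⟩ := HIT.quartic_coeff A B
    interval_cases i
    · rw [c0, natDegree_neg]; exact h0
    · rw [c1]; exact h1
    · rw [c2]; exact h2
    · rw [c3]; simp
  have hc : (4 * (729 * (4 * A.eval 0 ^ 3 + 27 * B.eval 0 ^ 2)) ^ 2 : ℤ) ≠ 0 := by positivity
  have hUV := HIT.quartic_bezout (A.eval 0) (B.eval 0)
  have hmap0 : (HIT.quartic A B).map (evalRingHom 0) = HIT.quartic (A.eval 0) (B.eval 0) := by
    rw [HIT.quartic_map]; rfl
  rw [← hmap0] at hUV
  have hno' : ∀ P : ℚ[X],
      ((HIT.quartic A B).map (mapRingHom (Int.castRingHom ℚ))).eval P ≠ 0 := by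
    intro P
    rw [HIT.quartic_map, HIT.quartic_eval]
    simpa using hno P
  obtain ⟨t, ht, h⟩ := HIT.hit_general (HIT.quartic A B) (HIT.quartic_monic A B) 10 hdeg _ _ _
    hc hUV hno' M hM
  refine ⟨t, ht, fun y => ?_⟩
  have := h y
  rw [HIT.quartic_map, HIT.quartic_eval] at this
  simpa using this

end Fermat.Agent.S52
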