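import Fermat.Agent.S52.HITInterface

/-!
# S52, block (C-4), package HIT-4b: the Mason-Stothers core
-/

set_option autoImplicit false

namespace Fermat.Agent.S52.HIT

open Polynomial UniqueFactorizationMonoid

namespace Abc

theorem key_identity {R : Type*} [CommRing R] (A B P : R) :
    (P ^ 2 - 81 * A) ^ 3 * (P ^ 2 - 729 * A) + 2 ^ 6 * 3 ^ 12 * P ^ 2 * (A ^ 3 - B ^ 2)
      = Q3 A B P * (P ^ 4 - 486 * A * P ^ 2 - 19683 * A ^ 2 + 5832 * B * P) := by
  simp only [Q3]; ring

theorem rootMultiplicity_pow' {K : Type*} [Field K] {p : K[X]} (hp : p ≠ 0) (x : K) (n : ℕ) :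
    rootMultiplicity x (p ^ n) = n * rootMultiplicity x p := by
  induction n with
  | zero => simp
  | succ n ih =>
    rw [pow_succ, rootMultiplicity_mul (mul_ne_zero (pow_ne_zero n hp) hp), ih]
    ring

variable {K : Type} [Field K]

/-- the product of the distinct linear factors. -/
noncomputable def sqfree [DecidableEq K] (D : K[X]) : K[X] := ∏ θ ∈ D.roots.toFinset, (X - C θ)

theorem dvd_sqfree_pow [DecidableEq K] [IsAlgClosed K] {D : K[X]} (hD : D.Monic) :
    D ∣ sqfree D ^ D.natDegree := by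
  conv_lhs => rw [(IsAlgClosed.splits D).eq_prod_roots_of_monic hD]
  rw [Finset.prod_multiset_map_count, sqfree, ← Finset.prod_pow]
  apply Finset.prod_dvd_prod_of_dvd
  intro θ _
  apply pow_dvd_pow
  exact (Multiset.count_le_card θ D.roots).trans (card_roots' D)

theorem natDegree_sqfree [DecidableEq K] (D : K[X]) :
    (sqfree D).natDegree = D.roots.toFinset.card := by
  rw [sqfree, natDegree_finsetProd_X_sub_C_eq_card]

theorem sqfree_ne_zero [DecidableEq K] (D : K[X]) : sqfree D ≠ 0 := by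
  rw [sqfree, Finset.prod_ne_zero_iff]
  intro θ _
  exact X_sub_C_ne_zero θ

/-- `D` has at least `11` distinct roots. -/
theorem card_roots_ge [DecidableEq K] [CharZero K] [IsAlgClosed K] {A B D : K[X]} {δ : K}
    (hδ : δ ≠ 0) (hA : A.natDegree ≤ 20) (hB : B.natDegree ≤ 30) (hDm : D.Monic)
    (hDd : D.natDegree = 12) (hrel : A ^ 3 - B ^ 2 = C δ * D ^ 5) (hcop : IsCoprime A D) :
    11 ≤ D.roots.toFinset.card := by
  have hD0 : D ≠ 0 := hDm.ne_zero
  have hDu : ¬ IsUnit D := by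
    intro h
    have := natDegree_eq_zero_of_isUnit h
    omega
  have hA0 : A ≠ 0 := by
    rintro rfl
    exact hDu (isCoprime_zero_left.1 hcop)
  have hCδ : IsUnit (C δ : K[X]) := isUnit_C.2 (isUnit_iff_ne_zero.2 hδ)
  have hB2 : B ^ 2 = -(C δ * D ^ 5) + A * A ^ 2 := by linear_combination -hrel
  have hcopB : IsCoprime A (B ^ 2) := by
    rw [hB2]
    apply IsCoprime.add_mul_left_right
    rw [IsCoprime.neg_right_iff]
    exact (isCoprime_mul_unit_left_right hCδ _ _).2 (hcop.pow_right)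
  have hB0 : B ≠ 0 := by
    rintro rfl
    rw [zero_pow two_ne_zero] at hcopB
    have hAu : IsUnit A := isCoprime_zero_right.1 hcopB
    have h1 : (A ^ 3).natDegree = 0 := natDegree_eq_zero_of_isUnit (hAu.pow 3)
    rw [zero_pow two_ne_zero, sub_zero] at hrel
    rw [hrel, natDegree_C_mul hδ, natDegree_pow, hDd] at h1
    omega
  have hc0 : -(C δ * D ^ 5) ≠ 0 := neg_ne_zero.2 (mul_ne_zero hCδ.ne_zero (pow_ne_zero 5 hD0))
  have hcdeg : (-(C δ * D ^ 5)).natDegree = 60 := by
    rw [natDegree_neg, natDegree_C_mul hδ, natDegree_pow, hDd]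
  have habc := Polynomial.abc (a := A ^ 3) (b := -B ^ 2) (c := -(C δ * D ^ 5))
    (pow_ne_zero 3 hA0) (neg_ne_zero.2 (pow_ne_zero 2 hB0)) hc0
    ((IsCoprime.neg_right_iff _ _).2 hcopB.pow_left) (by linear_combination hrel)
  rcases habc with ⟨-, -, h3⟩ | ⟨-, -, h3⟩
  · rw [hcdeg] at h3
    have hne : A ^ 3 * -B ^ 2 * -(C δ * D ^ 5) ≠ 0 :=
      mul_ne_zero (mul_ne_zero (pow_ne_zero 3 hA0) (neg_ne_zero.2 (pow_ne_zero 2 hB0))) hc0
    have hdvd : radical (A ^ 3 * -B ^ 2 * -(C δ * D ^ 5)) ∣ A * B * sqfree D := by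
      rw [← exists_dvd_pow_iff_radical_dvd hne]
      refine ⟨60, ?_⟩
      have h1 : A ^ 3 ∣ A ^ 60 := pow_dvd_pow A (by norm_num)
      have h2 : -B ^ 2 ∣ B ^ 60 := (neg_dvd).2 (pow_dvd_pow B (by norm_num))
      have h3 : -(C δ * D ^ 5) ∣ sqfree D ^ 60 := by
        rw [neg_dvd, hCδ.mul_left_dvd]
        have := pow_dvd_pow_of_dvd (dvd_sqfree_pow hDm) 5
        rwa [hDd, ← pow_mul] at this
      rw [mul_pow, mul_pow]
      exact mul_dvd_mul (mul_dvd_mul h1 h2) h3
    have hne' : A * B * sqfree D ≠ 0 := mul_ne_zero (mul_ne_zero hA0 hB0) (sqfree_ne_zero D)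
    have hle := natDegree_le_of_dvd hdvd hne'
    rw [natDegree_mul (mul_ne_zero hA0 hB0) (sqfree_ne_zero D), natDegree_mul hA0 hB0,
      natDegree_sqfree] at hle
    omega
  · have := Polynomial.derivative_eq_zero.1 h3
    omega

/-- every root of `D` has multiplicity at most `2`. -/
theorem rootMultiplicity_le_two [DecidableEq K] {D : K[X]} (hDd : D.natDegree = 12)
    (hcard : 11 ≤ D.roots.toFinset.card) {θ : K} (hθ : θ ∈ D.roots.toFinset) :
    rootMultiplicity θ D ≤ 2 := by
  have h1 : ∑ a ∈ D.roots.toFinset, D.roots.count a = Multiset.card D.roots :=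
    Multiset.toFinset_sum_count_eq D.roots
  have h2 := card_roots' D
  rw [← Finset.add_sum_erase _ _ hθ] at h1
  have h3 : (D.roots.toFinset.erase θ).card ≤ ∑ a ∈ D.roots.toFinset.erase θ, D.roots.count a := by
    rw [Finset.card_eq_sum_ones]
    apply Finset.sum_le_sum
    intro a ha
    have : a ∈ D.roots := Multiset.mem_toFinset.1 (Finset.mem_of_mem_erase ha)
    exact Multiset.one_le_count_iff_mem.2 this
  rw [Finset.card_erase_of_mem hθ] at h3
  rw [count_roots] at h1
  omega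

end Abc

open Abc in
theorem abcCore : Stmt_AbcCore := by
  intro K _ _ _ A B D P δ hδ hA hB hDm hDd hrel hcop hP hQ
  classical
  have hD0 : D ≠ 0 := hDm.ne_zero
  have hDu : ¬ IsUnit D := by
    intro h
    have := natDegree_eq_zero_of_isUnit h
    omega
  have hA0 : A ≠ 0 := by
    rintro rfl
    exact hDu (isCoprime_zero_left.1 hcop)
  have hcard := card_roots_ge hδ hA hB hDm hDd hrel hcop
  -- `P ≠ 0`
  have hP0 : P ≠ 0 := by
    rintro rfl
    simp only [Q3] at hQ
    have h1 : (19683 : K[X]) * A ^ 2 = 0 := by linear_combination -hQ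
    have h2 : (19683 : K[X]) ≠ 0 := by
      have : (19683 : K[X]) = C 19683 := (map_ofNat _ 19683).symm
      rw [this, Ne, C_eq_zero]; norm_num
    exact (mul_ne_zero h2 (pow_ne_zero 2 hA0)) h1
  set F₁ : K[X] := P ^ 2 - 81 * A with hF₁
  set F₂ : K[X] := P ^ 2 - 729 * A with hF₂
  set κ : K := -(2 ^ 6 * 3 ^ 12 * δ) with hκ
  have hκ0 : κ ≠ 0 := by
    rw [hκ]
    exact neg_ne_zero.2 (mul_ne_zero (by norm_num) hδ)
  have hE : F₁ ^ 3 * F₂ = C κ * P ^ 2 * D ^ 5 := by
    have := key_identity A B P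
    rw [hQ, zero_mul, hrel] at this
    have hCκ : (C κ : K[X]) = -(2 ^ 6 * 3 ^ 12 * C δ) := by
      rw [hκ]
      simp only [map_neg, map_mul, map_pow, map_ofNat]
    rw [hCκ]
    linear_combination this
  have hR0 : C κ * P ^ 2 * D ^ 5 ≠ 0 :=
    mul_ne_zero (mul_ne_zero (C_ne_zero.2 hκ0) (pow_ne_zero 2 hP0)) (pow_ne_zero 5 hD0)
  have hL0 : F₁ ^ 3 * F₂ ≠ 0 := hE ▸ hR0
  have hF₁0 : F₁ ≠ 0 := by
    intro h; rw [h] at hL0; simp at hL0
  have hF₂0 : F₂ ≠ 0 := by
    intro h; rw [h] at hL0; simp at hL0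
  -- multiplicities
  have hmult : ∀ θ ∈ D.roots.toFinset, 5 ≤ F₂.roots.count θ := by
    intro θ hθ
    have hroot : D.eval θ = 0 := by
      have := Multiset.mem_toFinset.1 hθ
      exact (mem_roots hD0).1 this
    have hAθ : A.eval θ ≠ 0 := by
      obtain ⟨u, v, huv⟩ := hcop
      intro h0
      have := congrArg (eval θ) huv
      simp [hroot, h0] at this
    have hEθ : (P.eval θ ^ 2 - 81 * A.eval θ) ^ 3 * (P.eval θ ^ 2 - 729 * A.eval θ) = 0 := by
      have := congrArg (eval θ) hE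
      simpa [hF₁, hF₂, hroot] using this
    have hPθ : P.eval θ ≠ 0 := by
      intro h0
      rw [h0] at hEθ
      have : (81 : K) ^ 3 * 729 * A.eval θ ^ 4 = 0 := by linear_combination hEθ
      exact (mul_ne_zero (by norm_num) (pow_ne_zero 4 hAθ)) this
    have hm2 := rootMultiplicity_le_two hDd hcard hθ
    have hm1 : 0 < rootMultiplicity θ D := (rootMultiplicity_pos hD0).2 hroot
    have hmP : rootMultiplicity θ P = 0 := rootMultiplicity_eq_zero hPθ
    have hL : rootMultiplicity θ (F₁ ^ 3 * F₂)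
        = 3 * rootMultiplicity θ F₁ + rootMultiplicity θ F₂ := by
      rw [rootMultiplicity_mul hL0, rootMultiplicity_pow' hF₁0]
    have hR : rootMultiplicity θ (C κ * P ^ 2 * D ^ 5) = 5 * rootMultiplicity θ D := by
      rw [rootMultiplicity_mul hR0,
        rootMultiplicity_mul (mul_ne_zero (C_ne_zero.2 hκ0) (pow_ne_zero 2 hP0)),
        rootMultiplicity_C, rootMultiplicity_pow' hP0, rootMultiplicity_pow' hD0, hmP]
      ring
    have hor : rootMultiplicity θ F₁ = 0 ∨ rootMultiplicity θ F₂ = 0 := by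
      by_contra hcon
      rw [not_or] at hcon
      have h1 : F₁.eval θ = 0 := (rootMultiplicity_pos hF₁0).1 (Nat.pos_of_ne_zero hcon.1)
      have h2 : F₂.eval θ = 0 := (rootMultiplicity_pos hF₂0).1 (Nat.pos_of_ne_zero hcon.2)
      simp only [hF₁, hF₂, eval_sub, eval_pow, eval_mul, eval_ofNat] at h1 h2
      have : (648 : K) * A.eval θ = 0 := by linear_combination h1 - h2
      exact (mul_ne_zero (by norm_num) hAθ) this
    rw [hE, hR] at hL
    rw [count_roots]
    omega
  -- counting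
  have hsub : D.roots.toFinset ⊆ F₂.roots.toFinset := by
    intro θ hθ
    have := hmult θ hθ
    rw [Multiset.mem_toFinset]
    exact Multiset.one_le_count_iff_mem.1 (by omega)
  have h1 : ∑ θ ∈ D.roots.toFinset, 5 ≤ ∑ θ ∈ D.roots.toFinset, F₂.roots.count θ :=
    Finset.sum_le_sum hmult
  have h2 : ∑ θ ∈ D.roots.toFinset, F₂.roots.count θ ≤ ∑ θ ∈ F₂.roots.toFinset, F₂.roots.count θ :=
    Finset.sum_le_sum_of_subset hsub
  rw [Multiset.toFinset_sum_count_eq] at h2
  have h3 := card_roots' F₂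
  have h4 : F₂.natDegree ≤ 20 := by
    rw [hF₂]
    have e729 : (729 : K[X]) = C 729 := (map_ofNat _ 729).symm
    refine (natDegree_sub_le _ _).trans (max_le ?_ ?_)
    · exact (natDegree_pow_le).trans (by omega)
    · rw [e729]; exact (natDegree_C_mul_le _ _).trans hA
  rw [Finset.sum_const, smul_eq_mul] at h1
  omega

end Fermat.Agent.S52.HIT
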