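import Mathlib
import Fermat.Agent.S52.Interface

/-! # S52, block (C-4) Hilbert irreducibility by hand: basic API for `HH, TT, DD, Q3`
(ring homs, the one-variable polynomials `HH (C c4) (C c6) X (C M)`). helper7. -/

set_option autoImplicit false
set_option linter.unusedSimpArgs false

namespace Fermat.Agent.S52.HIT

open Polynomial

section maps
variable {R S : Type*} [CommRing R] [CommRing S] (φ : R →+* S)

theorem map_HH (c4 c6 u v : R) : φ (HH c4 c6 u v) = HH (φ c4) (φ c6) (φ u) (φ v) := by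
  simp only [HH, Hpart0, Hpart1, Hpart2, hc0, hc1, hc2, hc3, hc4, hc5, hc6, hc7, hc8, hc9, hc10,
    hc11, hc12, hc13, hc14, hc15, hc16, hc17, hc18, hc19, hc20, map_add, map_sub, map_mul, map_pow,
    map_neg, map_ofNat, map_one]

theorem map_TT (c4 c6 u v : R) : φ (TT c4 c6 u v) = TT (φ c4) (φ c6) (φ u) (φ v) := by
  simp only [TT, Tpart0, Tpart1, Tpart2, Tpart3, tc0, tc1, tc2, tc3, tc4, tc5, tc6, tc7, tc8, tc9,
    tc10, tc11, tc12, tc13, tc14, tc15, tc16, tc17, tc18, tc19, tc20, tc21, tc22, tc23, tc24, tc25,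
    tc26, tc27, tc28, tc29, tc30, map_add, map_sub, map_mul, map_pow, map_neg, map_ofNat, map_one]

theorem map_DD (c4 c6 u v : R) : φ (DD c4 c6 u v) = DD (φ c4) (φ c6) (φ u) (φ v) := by
  simp only [DD, Dpart0, Dpart1, dc0, dc1, dc2, dc3, dc4, dc5, dc6, dc7, dc8, dc9, dc10,
    dc11, dc12, map_add, map_sub, map_mul, map_pow, map_neg, map_ofNat, map_one, map_zero]

theorem map_Q3 (c4 c6 Y : R) : φ (Q3 c4 c6 Y) = Q3 (φ c4) (φ c6) (φ Y) := by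
  simp only [Q3, map_add, map_sub, map_mul, map_pow, map_ofNat]

end maps

section poly
variable {K : Type*} [CommRing K]

/-- `HH(c4, c6, u, M)` as a polynomial in `u` -/
noncomputable def HHp (c4 c6 M : K) : K[X] := HH (C c4) (C c6) X (C M)
noncomputable def TTp (c4 c6 M : K) : K[X] := TT (C c4) (C c6) X (C M)
noncomputable def DDp (c4 c6 M : K) : K[X] := DD (C c4) (C c6) X (C M)

theorem eval_HHp (c4 c6 M u : K) : (HHp c4 c6 M).eval u = HH c4 c6 u M := by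
  have := map_HH (evalRingHom u) (C c4) (C c6) X (C M)
  simpa [HHp] using this

theorem eval_TTp (c4 c6 M u : K) : (TTp c4 c6 M).eval u = TT c4 c6 u M := by
  have := map_TT (evalRingHom u) (C c4) (C c6) X (C M)
  simpa [TTp] using this

theorem eval_DDp (c4 c6 M u : K) : (DDp c4 c6 M).eval u = DD c4 c6 u M := by
  have := map_DD (evalRingHom u) (C c4) (C c6) X (C M)
  simpa [DDp] using this

theorem map_HHp {L : Type*} [CommRing L] (φ : K →+* L) (c4 c6 M : K) :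
    (HHp c4 c6 M).map φ = HHp (φ c4) (φ c6) (φ M) := by
  have := map_HH (mapRingHom φ) (C c4) (C c6) X (C M)
  simpa [HHp] using this

theorem map_TTp {L : Type*} [CommRing L] (φ : K →+* L) (c4 c6 M : K) :
    (TTp c4 c6 M).map φ = TTp (φ c4) (φ c6) (φ M) := by
  have := map_TT (mapRingHom φ) (C c4) (C c6) X (C M)
  simpa [TTp] using this

theorem map_DDp {L : Type*} [CommRing L] (φ : K →+* L) (c4 c6 M : K) :
    (DDp c4 c6 M).map φ = DDp (φ c4) (φ c6) (φ M) := by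
  have := map_DD (mapRingHom φ) (C c4) (C c6) X (C M)
  simpa [DDp] using this

theorem natDegree_HHp_le (c4 c6 M : K) : (HHp c4 c6 M).natDegree ≤ 20 := by
  simp only [HHp, HH, Hpart0, Hpart1, Hpart2, hc0, hc1, hc2, hc3, hc4, hc5, hc6, hc7, hc8, hc9, hc10, hc11, hc12, hc13, hc14, hc15, hc16, hc17, hc18, hc19, hc20]
  compute_degree

theorem HHp_eq (c4 c6 M : K) : HHp c4 c6 M =
    C (hc0 c4 c6) * X ^ 20
    + C (hc1 c4 c6 * M) * X ^ 19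
    + C (hc2 c4 c6 * M ^ 2) * X ^ 18
    + C (hc3 c4 c6 * M ^ 3) * X ^ 17
    + C (hc4 c4 c6 * M ^ 4) * X ^ 16
    + C (hc5 c4 c6 * M ^ 5) * X ^ 15
    + C (hc6 c4 c6 * M ^ 6) * X ^ 14
    + C (hc7 c4 c6 * M ^ 7) * X ^ 13
    + C (hc8 c4 c6 * M ^ 8) * X ^ 12
    + C (hc9 c4 c6 * M ^ 9) * X ^ 11
    + C (hc10 c4 c6 * M ^ 10) * X ^ 10
    + C (hc11 c4 c6 * M ^ 11) * X ^ 9
    + C (hc12 c4 c6 * M ^ 12) * X ^ 8
    + C (hc13 c4 c6 * M ^ 13) * X ^ 7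
    + C (hc14 c4 c6 * M ^ 14) * X ^ 6
    + C (hc15 c4 c6 * M ^ 15) * X ^ 5
    + C (hc16 c4 c6 * M ^ 16) * X ^ 4
    + C (hc17 c4 c6 * M ^ 17) * X ^ 3
    + C (hc18 c4 c6 * M ^ 18) * X ^ 2
    + C (hc19 c4 c6 * M ^ 19) * X ^ 1
    + C (hc20 c4 c6 * M ^ 20) * X ^ 0 := by
  simp only [HHp, HH, Hpart0, Hpart1, Hpart2, hc0, hc1, hc2, hc3, hc4, hc5, hc6, hc7, hc8, hc9, hc10, hc11, hc12, hc13, hc14, hc15, hc16, hc17, hc18, hc19, hc20, map_add, map_sub, map_mul, map_pow,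
    map_neg, map_ofNat, map_one, map_zero]
  ring

theorem coeff_HHp (c4 c6 M : K) : (HHp c4 c6 M).coeff 20 = hc0 c4 c6 := by
  rw [HHp_eq]
  simp only [coeff_add, coeff_C_mul_X_pow]
  norm_num

theorem natDegree_TTp_le (c4 c6 M : K) : (TTp c4 c6 M).natDegree ≤ 30 := by
  simp only [TTp, TT, Tpart0, Tpart1, Tpart2, Tpart3, tc0, tc1, tc2, tc3, tc4, tc5, tc6, tc7, tc8, tc9, tc10, tc11, tc12, tc13, tc14, tc15, tc16, tc17, tc18, tc19, tc20, tc21, tc22, tc23, tc24, tc25, tc26, tc27, tc28, tc29, tc30]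
  compute_degree

theorem TTp_eq (c4 c6 M : K) : TTp c4 c6 M =
    C (tc0 c4 c6) * X ^ 30
    + C (tc1 c4 c6 * M) * X ^ 29
    + C (tc2 c4 c6 * M ^ 2) * X ^ 28
    + C (tc3 c4 c6 * M ^ 3) * X ^ 27
    + C (tc4 c4 c6 * M ^ 4) * X ^ 26
    + C (tc5 c4 c6 * M ^ 5) * X ^ 25
    + C (tc6 c4 c6 * M ^ 6) * X ^ 24
    + C (tc7 c4 c6 * M ^ 7) * X ^ 23
    + C (tc8 c4 c6 * M ^ 8) * X ^ 22
    + C (tc9 c4 c6 * M ^ 9) * X ^ 21
    + C (tc10 c4 c6 * M ^ 10) * X ^ 20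
    + C (tc11 c4 c6 * M ^ 11) * X ^ 19
    + C (tc12 c4 c6 * M ^ 12) * X ^ 18
    + C (tc13 c4 c6 * M ^ 13) * X ^ 17
    + C (tc14 c4 c6 * M ^ 14) * X ^ 16
    + C (tc15 c4 c6 * M ^ 15) * X ^ 15
    + C (tc16 c4 c6 * M ^ 16) * X ^ 14
    + C (tc17 c4 c6 * M ^ 17) * X ^ 13
    + C (tc18 c4 c6 * M ^ 18) * X ^ 12
    + C (tc19 c4 c6 * M ^ 19) * X ^ 11
    + C (tc20 c4 c6 * M ^ 20) * X ^ 10
    + C (tc21 c4 c6 * M ^ 21) * X ^ 9
    + C (tc22 c4 c6 * M ^ 22) * X ^ 8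
    + C (tc23 c4 c6 * M ^ 23) * X ^ 7
    + C (tc24 c4 c6 * M ^ 24) * X ^ 6
    + C (tc25 c4 c6 * M ^ 25) * X ^ 5
    + C (tc26 c4 c6 * M ^ 26) * X ^ 4
    + C (tc27 c4 c6 * M ^ 27) * X ^ 3
    + C (tc28 c4 c6 * M ^ 28) * X ^ 2
    + C (tc29 c4 c6 * M ^ 29) * X ^ 1
    + C (tc30 c4 c6 * M ^ 30) * X ^ 0 := by
  simp only [TTp, TT, Tpart0, Tpart1, Tpart2, Tpart3, tc0, tc1, tc2, tc3, tc4, tc5, tc6, tc7, tc8, tc9, tc10, tc11, tc12, tc13, tc14, tc15, tc16, tc17, tc18, tc19, tc20, tc21, tc22, tc23, tc24, tc25, tc26, tc27, tc28, tc29, tc30, map_add, map_sub, map_mul, map_pow,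
    map_neg, map_ofNat, map_one, map_zero]
  ring

theorem coeff_TTp (c4 c6 M : K) : (TTp c4 c6 M).coeff 30 = tc0 c4 c6 := by
  rw [TTp_eq]
  simp only [coeff_add, coeff_C_mul_X_pow]
  norm_num

theorem natDegree_DDp_le (c4 c6 M : K) : (DDp c4 c6 M).natDegree ≤ 12 := by
  simp only [DDp, DD, Dpart0, Dpart1, dc0, dc1, dc2, dc3, dc4, dc5, dc6, dc7, dc8, dc9, dc10, dc11, dc12]
  compute_degree

theorem DDp_eq (c4 c6 M : K) : DDp c4 c6 M =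
    C (dc0 c4 c6) * X ^ 12
    + C (dc1 c4 c6 * M) * X ^ 11
    + C (dc2 c4 c6 * M ^ 2) * X ^ 10
    + C (dc3 c4 c6 * M ^ 3) * X ^ 9
    + C (dc4 c4 c6 * M ^ 4) * X ^ 8
    + C (dc5 c4 c6 * M ^ 5) * X ^ 7
    + C (dc6 c4 c6 * M ^ 6) * X ^ 6
    + C (dc7 c4 c6 * M ^ 7) * X ^ 5
    + C (dc8 c4 c6 * M ^ 8) * X ^ 4
    + C (dc9 c4 c6 * M ^ 9) * X ^ 3
    + C (dc10 c4 c6 * M ^ 10) * X ^ 2
    + C (dc11 c4 c6 * M ^ 11) * X ^ 1
    + C (dc12 c4 c6 * M ^ 12) * X ^ 0 := by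
  simp only [DDp, DD, Dpart0, Dpart1, dc0, dc1, dc2, dc3, dc4, dc5, dc6, dc7, dc8, dc9, dc10, dc11, dc12, map_add, map_sub, map_mul, map_pow,
    map_neg, map_ofNat, map_one, map_zero]
  ring

theorem coeff_DDp (c4 c6 M : K) : (DDp c4 c6 M).coeff 12 = dc0 c4 c6 := by
  rw [DDp_eq]
  simp only [coeff_add, coeff_C_mul_X_pow]
  norm_num

theorem coeff_HHp' (c4 c6 M : K) : (HHp c4 c6 M).coeff 20 = c4 := by
  rw [coeff_HHp]; simp [hc0]
theorem coeff_TTp' (c4 c6 M : K) : (TTp c4 c6 M).coeff 30 = c6 := by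
  rw [coeff_TTp]; simp [tc0]
theorem coeff_DDp' (c4 c6 M : K) : (DDp c4 c6 M).coeff 12 = 1 := by
  rw [coeff_DDp]; simp [dc0]

theorem natDegree_DDp [Nontrivial K] (c4 c6 M : K) : (DDp c4 c6 M).natDegree = 12 := by
  apply le_antisymm (natDegree_DDp_le c4 c6 M)
  apply le_natDegree_of_ne_zero
  rw [coeff_DDp']; exact one_ne_zero

theorem monic_DDp [Nontrivial K] (c4 c6 M : K) : (DDp c4 c6 M).Monic := by
  rw [Monic, leadingCoeff, natDegree_DDp, coeff_DDp']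

end poly

end Fermat.Agent.S52.HIT
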