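import Mathlib
import Fermat.Agent.S52.HITApi

/-! # S52, block (C-4) `Stmt_HIT` (Hilbert irreducibility by hand): interface.
Sub-lead: helper7.  Statements as `Prop`s; the assembly is `Fermat/Agent/S52/HITAssembly.lean`.

Notation: `F(u, Y) = Y⁴ + a2(u) Y² + a1(u) Y + a0(u)`, `deg a2 ≤ 20`, `deg a1 ≤ 30`, `deg a0 ≤ 40`;
`Y` has weight 10.  Leading quartic `q(w) = w⁴ + α2 w² + α1 w + α0` (top coefficients).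
In the application `a2 = -486 HHp`, `a1 = -5832 TTp`, `a0 = -19683 HHp²`, `q = Q3 c4 c6`. -/

set_option autoImplicit false

namespace Fermat.Agent.S52.HIT

open Polynomial

/-- `F(u, P(u))` -/
noncomputable def quart {K : Type*} [CommRing K] (a2 a1 a0 P : K[X]) : K[X] :=
  P ^ 4 + a2 * P ^ 2 + a1 * P + a0

/-- (HIT-1) Newton approximant, any field: a simple root `ξ` of the leading quartic lifts to a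
polynomial `P` of degree `≤ 10` with top coefficient `ξ` and `deg F(u, P(u)) ≤ 29`.
Proof: induction on `n ≤ 10`: `∃ P, deg ≤ 10, coeff 10 = ξ, deg F(P) ≤ 39 - n`;
step `P + C c * X ^ (9 - n)`, `c = - coeff (39 - n) (F P) / q'(ξ)`. -/
def Stmt_Newton : Prop :=
  ∀ (K : Type) [Field K] (a2 a1 a0 : K[X]), a2.natDegree ≤ 20 → a1.natDegree ≤ 30 →
    a0.natDegree ≤ 40 → ∀ ξ : K,
    ξ ^ 4 + a2.coeff 20 * ξ ^ 2 + a1.coeff 30 * ξ + a0.coeff 40 = 0 →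
    4 * ξ ^ 3 + 2 * a2.coeff 20 * ξ + a1.coeff 30 ≠ 0 →
    ∃ P : K[X], P.natDegree ≤ 10 ∧ P.coeff 10 = ξ ∧ (quart a2 a1 a0 P).natDegree ≤ 29

/-- (HIT-2a) the roots of `Q3 c4 c6` are simple.
Proof: `q = q' = 0` gives `-3 (ξ² - 81 c4)² = 0`, then `c6 = - c4 ξ / 9`, `c6² = c4³`. -/
def Stmt_Simple : Prop :=
  ∀ (K : Type) [Field K] [CharZero K] (c4 c6 ξ : K), c4 ^ 3 ≠ c6 ^ 2 → Q3 c4 c6 ξ = 0 →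
    4 * ξ ^ 3 - 972 * c4 * ξ - 5832 * c6 ≠ 0

/-- (HIT-2b) a second real root (IVT for the cubic cofactor; `≠ ξ₀` by simplicity). -/
def Stmt_SecondRoot : Prop :=
  ∀ c4 c6 ξ₀ : ℝ, c4 ^ 3 ≠ c6 ^ 2 → Q3 c4 c6 ξ₀ = 0 → ∃ ξ₁ : ℝ, ξ₁ ≠ ξ₀ ∧ Q3 c4 c6 ξ₁ = 0

/-- (HIT-2c) the quadratic cofactor `w² + (ξ₀+ξ₁) w + (ξ₀²+ξ₀ξ₁+ξ₁²-486 c4)` is definite.
Proof: `Disc(p,r,s) = 16p⁴s-4p³r²-128p²s²+144pr²s-27r⁴+256s³` equals `-2¹² 3²⁷ (c4³-c6²)²` at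
`(p,r,s) = (-486c4,-5832c6,-19683c4²)` and equals `(ξ₀-ξ₁)² e(ξ₀)² e(ξ₁)² (β²-4γ)` for
`(w-ξ₀)(w-ξ₁)(w²+βw+γ)`, `e = w²+βw+γ`, `β = ξ₀+ξ₁`. -/
def Stmt_Definite : Prop :=
  ∀ c4 c6 ξ₀ ξ₁ : ℝ, c4 ^ 3 ≠ c6 ^ 2 → Q3 c4 c6 ξ₀ = 0 → Q3 c4 c6 ξ₁ = 0 → ξ₀ ≠ ξ₁ →
    0 < 3 * ξ₀ ^ 2 + 2 * ξ₀ * ξ₁ + 3 * ξ₁ ^ 2 + 4 * (-486 * c4)

/-- (HIT-3) closeness.  With `p_i = P_i(u)`, `G = F(u, ·)`:
`G(Y) = G(p0) + (Y-p0) (G(p1)-G(p0))/(p1-p0) + (Y-p0)(Y-p1) Q(Y)`,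
`Q(Y) = Y² + (p0+p1) Y + p0²+p0p1+p1²+a2(u) ≥ (3p0²+2p0p1+3p1²+4a2(u))/4 =: 𝒟(u)`; if
`|Y-p0|, |Y-p1| ≥ ε` and `G(Y) = 0` then `ε 𝒟(u) |p1-p0| ≤ |G(p0)| + |G(p1)|`: degree 30 against 29. -/
def Stmt_Close : Prop :=
  ∀ (a2 a1 a0 P0 P1 : ℝ[X]), a2.natDegree ≤ 20 → P0.natDegree ≤ 10 → P1.natDegree ≤ 10 →
    P0.coeff 10 ≠ P1.coeff 10 →
    (quart a2 a1 a0 P0).natDegree ≤ 29 → (quart a2 a1 a0 P1).natDegree ≤ 29 →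
    0 < 3 * P0.coeff 10 ^ 2 + 2 * P0.coeff 10 * P1.coeff 10 + 3 * P1.coeff 10 ^ 2
      + 4 * a2.coeff 20 →
    ∀ ε : ℝ, 0 < ε → ∃ U : ℝ, ∀ u Y : ℝ, U ≤ |u| →
      Y ^ 4 + a2.eval u * Y ^ 2 + a1.eval u * Y + a0.eval u = 0 →
      |Y - P0.eval u| < ε ∨ |Y - P1.eval u| < ε

/-- (HIT-4a) the family identities as polynomial identities in `u`.
Proof: pick `(a, b)` by `Stmt_ExistsAB`; `c4³-c6² = -1728 a b dF⁵ ≠ 0`; `Stmt_I1..I3` in `K[X]` with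
`(a, b, u, v) = (C a, C b, X, C M)`.  Coprimality: a common root `u₀` of `HHp` and `DDp` gives
`u₀ + M g1 = 0` (then `a' = 0`, `b' = b (-12 M dF)⁵ ≠ 0`, `c4F 0 b' = b'⁴ ≠ 0`), or `u₀ - M g2 = 0`
(symmetric), or `dF a' b' = 0 = c4F a' b'` with `(a', b') ≠ 0`, impossible because
`c4F a b = dF a b * (…) + 3125 b³ (b - 11 a)`. -/
def Stmt_FamId : Prop :=
  ∀ (K : Type) [Field K] [CharZero K] [IsAlgClosed K] (c4 c6 M : K), c4 ^ 3 ≠ c6 ^ 2 → M ≠ 0 →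
    HHp c4 c6 M ^ 3 - TTp c4 c6 M ^ 2 = C (c4 ^ 3 - c6 ^ 2) * DDp c4 c6 M ^ 5 ∧
    IsCoprime (HHp c4 c6 M) (DDp c4 c6 M)

/-- (HIT-4b) Mason-Stothers core.  `Polynomial.abc` for `A³ - B² - δ D⁵ = 0`:
`61 ≤ deg rad(A B D) ≤ 50 + #{roots of D}`, so `D` has `≥ 11` distinct roots, all of multiplicity
`≤ 2`.  If `Q3 A B P = 0` then `(P²-81A)³ (P²-729A) = -2⁶ 3¹² P² (A³-B²)`.  At a root `θ` of `D`: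
`A(θ) ≠ 0`, so `P(θ) ≠ 0` and only one of `P²-81A`, `P²-729A` vanishes; multiplicities:
`3 m₁ + m₂ = 5 m`, `m ≤ 2`, so `m₁ = 0`, `m₂ ≥ 5`.  Hence `P²-729A` has `≥ 55 > 20` roots, so it is
`0`, so `P = 0`, `A = 0`: contradiction. -/
def Stmt_AbcCore : Prop :=
  ∀ (K : Type) [Field K] [CharZero K] [IsAlgClosed K] (A B D P : K[X]) (δ : K), δ ≠ 0 →
    A.natDegree ≤ 20 → B.natDegree ≤ 30 → D.Monic → D.natDegree = 12 →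
    A ^ 3 - B ^ 2 = C δ * D ^ 5 → IsCoprime A D → P.natDegree ≤ 10 → Q3 A B P ≠ 0

/-- (HIT-4) no polynomial root (follows from 4a, 4b by base change to the algebraic closure). -/
def Stmt_NoPolyRoot : Prop :=
  ∀ (K : Type) [Field K] [CharZero K] (c4 c6 M : K), c4 ^ 3 ≠ c6 ^ 2 → M ≠ 0 →
    ∀ P : K[X], P.natDegree ≤ 10 → Q3 (HHp c4 c6 M) (TTp c4 c6 M) P ≠ 0

/-- (HIT-5) rational branch: an integer root cannot be too close to `P(u)`, `P ∈ ℚ[u]`, for large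
`|u|`.  Proof: `D P ∈ ℤ[u]`, `ε = 1 / D`: `|Y - P(u)| < 1/D` forces `Y = P(u)`, so `u` is one of the
finitely many roots of `quart a2 a1 a0 P ≠ 0`. -/
def Stmt_RatBranch : Prop :=
  ∀ (a2 a1 a0 P : ℚ[X]), quart a2 a1 a0 P ≠ 0 →
    ∃ ε : ℝ, 0 < ε ∧ ∃ U : ℝ, ∀ u Y : ℤ, U ≤ |(u : ℝ)| →
      (Y : ℚ) ^ 4 + a2.eval (u : ℚ) * (Y : ℚ) ^ 2 + a1.eval (u : ℚ) * (Y : ℚ) + a0.eval (u : ℚ) = 0 →
      ε ≤ |(Y : ℝ) - ((P.eval (u : ℚ) : ℚ) : ℝ)|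

/-- (HIT-6) irrational branch: 10th forward difference (`fwdDiff`, `fwdDiff_iter_eq_sum_shift`,
`fwdDiff_iter_eq_factorial`, …): an integer sequence converging to `10! M¹⁰ ξ`. -/
def Stmt_FwdDiff : Prop :=
  ∀ (P : ℝ[X]) (M : ℤ) (Y : ℤ → ℤ), P.natDegree ≤ 10 →
    (∀ ε : ℝ, 0 < ε → ∃ k₀ : ℤ, ∀ k : ℤ, k₀ ≤ k →
      |(Y k : ℝ) - P.eval (1 + (M : ℝ) * (k : ℝ))| < ε) →
    ∃ n : ℤ, (Nat.factorial 10 : ℝ) * (M : ℝ) ^ 10 * P.coeff 10 = (n : ℝ)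

end Fermat.Agent.S52.HIT
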