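import Fermat.Agent.S52.Interface2

/-! # S52, identity (B-2), shadow version (helper52): definitions. Generated by a script. -/

set_option autoImplicit false
set_option linter.unusedVariables false
set_option linter.unusedSimpArgs false
set_option maxHeartbeats 4000000

namespace Fermat.Agent.S52.I2B

variable {R : Type*} [CommRing R]

def LL0 (a b G1 G2 : R) : R :=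
  1 * a ^ 6 + 522 * a ^ 5 * b - 10005 * a ^ 4 * b ^ 2 - 10005 * a ^ 2 * b ^ 4 - 522 * a * b ^ 5 + 1 * b ^ 6

def LL1 (a b G1 G2 : R) : R :=
  30 * a ^ 6 * G1 - 2610 * a ^ 5 * b * G2 + 13050 * a ^ 5 * b * G1 + 100050 * a ^ 4 * b ^ 2 * G2 - 200100 * a ^ 4 * b ^ 2 * G1 + 200100 * a ^ 2 * b ^ 4 * G2 - 100050 * a ^ 2 * b ^ 4 * G1 + 13050 * a * b ^ 5 * G2 - 2610 * a * b ^ 5 * G1 - 30 * b ^ 6 * G2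

def LL2 (a b G1 G2 : R) : R :=
  435 * a ^ 6 * G1 ^ 2 + 5220 * a ^ 5 * b * G2 ^ 2 - 65250 * a ^ 5 * b * G1 * G2 + 156600 * a ^ 5 * b * G1 ^ 2 - 450225 * a ^ 4 * b ^ 2 * G2 ^ 2 + 2001000 * a ^ 4 * b ^ 2 * G1 * G2 - 1900950 * a ^ 4 * b ^ 2 * G1 ^ 2 - 1900950 * a ^ 2 * b ^ 4 * G2 ^ 2 + 2001000 * a ^ 2 * b ^ 4 * G1 * G2 - 450225 * a ^ 2 * b ^ 4 * G1 ^ 2 - 156600 * a * b ^ 5 * G2 ^ 2 + 65250 * a * b ^ 5 * G1 * G2 - 5220 * a * b ^ 5 * G1 ^ 2 + 435 * b ^ 6 * G2 ^ 2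

def LL3 (a b G1 G2 : R) : R :=
  4060 * a ^ 6 * G1 ^ 3 - 5220 * a ^ 5 * b * G2 ^ 3 + 130500 * a ^ 5 * b * G1 * G2 ^ 2 - 783000 * a ^ 5 * b * G1 ^ 2 * G2 + 1200600 * a ^ 5 * b * G1 ^ 3 + 1200600 * a ^ 4 * b ^ 2 * G2 ^ 3 - 9004500 * a ^ 4 * b ^ 2 * G1 * G2 ^ 2 + 19009500 * a ^ 4 * b ^ 2 * G1 ^ 2 * G2 - 11405700 * a ^ 4 * b ^ 2 * G1 ^ 3 + 11405700 * a ^ 2 * b ^ 4 * G2 ^ 3 - 19009500 * a ^ 2 * b ^ 4 * G1 * G2 ^ 2 + 9004500 * a ^ 2 * b ^ 4 * G1 ^ 2 * G2 - 1200600 * a ^ 2 * b ^ 4 * G1 ^ 3 + 1200600 * a * b ^ 5 * G2 ^ 3 - 783000 * a * b ^ 5 * G1 * G2 ^ 2 + 130500 * a * b ^ 5 * G1 ^ 2 * G2 - 5220 * a * b ^ 5 * G1 ^ 3 - 4060 * b ^ 6 * G2 ^ 3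

def LL4 (a b G1 G2 : R) : R :=
  27405 * a ^ 6 * G1 ^ 4 + 2610 * a ^ 5 * b * G2 ^ 4 - 130500 * a ^ 5 * b * G1 * G2 ^ 3 + 1566000 * a ^ 5 * b * G1 ^ 2 * G2 ^ 2 - 6003000 * a ^ 5 * b * G1 ^ 3 * G2 + 6603300 * a ^ 5 * b * G1 ^ 4 - 2101050 * a ^ 4 * b ^ 2 * G2 ^ 4 + 24012000 * a ^ 4 * b ^ 2 * G1 * G2 ^ 3 - 85542750 * a ^ 4 * b ^ 2 * G1 ^ 2 * G2 ^ 2 + 114057000 * a ^ 4 * b ^ 2 * G1 ^ 3 * G2 - 48474225 * a ^ 4 * b ^ 2 * G1 ^ 4 - 48474225 * a ^ 2 * b ^ 4 * G2 ^ 4 + 114057000 * a ^ 2 * b ^ 4 * G1 * G2 ^ 3 - 85542750 * a ^ 2 * b ^ 4 * G1 ^ 2 * G2 ^ 2 + 24012000 * a ^ 2 * b ^ 4 * G1 ^ 3 * G2 - 2101050 * a ^ 2 * b ^ 4 * G1 ^ 4 - 6603300 * a * b ^ 5 * G2 ^ 4 + 6003000 * a * b ^ 5 * G1 * G2 ^ 3 - 1566000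 * a * b ^ 5 * G1 ^ 2 * G2 ^ 2 + 130500 * a * b ^ 5 * G1 ^ 3 * G2 - 2610 * a * b ^ 5 * G1 ^ 4 + 27405 * b ^ 6 * G2 ^ 4

def LL5 (a b G1 G2 : R) : R :=
  142506 * a ^ 6 * G1 ^ 5 - 522 * a ^ 5 * b * G2 ^ 5 + 65250 * a ^ 5 * b * G1 * G2 ^ 4 - 1566000 * a ^ 5 * b * G1 ^ 2 * G2 ^ 3 + 12006000 * a ^ 5 * b * G1 ^ 3 * G2 ^ 2 - 33016500 * a ^ 5 * b * G1 ^ 4 * G2 + 27733860 * a ^ 5 * b * G1 ^ 5 + 2521260 * a ^ 4 * b ^ 2 * G2 ^ 5 - 42021000 * a ^ 4 * b ^ 2 * G1 * G2 ^ 4 + 228114000 * a ^ 4 * b ^ 2 * G1 ^ 2 * G2 ^ 3 - 513256500 * a ^ 4 * b ^ 2 * G1 ^ 3 * G2 ^ 2 + 484742250 * a ^ 4 * b ^ 2 * G1 ^ 4 * G2 - 155117520 * a ^ 4 * b ^ 2 * G1 ^ 5 + 155117520 * a ^ 2 * b ^ 4 * G2 ^ 5 - 484742250 * a ^ 2 * b ^ 4 *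 G1 * G2 ^ 4 + 513256500 * a ^ 2 * b ^ 4 * G1 ^ 2 * G2 ^ 3 - 228114000 * a ^ 2 * b ^ 4 * G1 ^ 3 * G2 ^ 2 + 42021000 * a ^ 2 * b ^ 4 * G1 ^ 4 * G2 - 2521260 * a ^ 2 * b ^ 4 * G1 ^ 5 + 27733860 * a * b ^ 5 * G2 ^ 5 - 33016500 * a * b ^ 5 * G1 * G2 ^ 4 + 12006000 * a * b ^ 5 * G1 ^ 2 * G2 ^ 3 - 1566000 * a * b ^ 5 * G1 ^ 3 * G2 ^ 2 + 65250 * a * b ^ 5 * G1 ^ 4 * G2 - 522 * a * b ^ 5 * G1 ^ 5 - 142506 * b ^ 6 * G2 ^ 5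

def LL6 (a b G1 G2 : R) : R :=
  593775 * a ^ 6 * G1 ^ 6 - 13050 * a ^ 5 * b * G1 * G2 ^ 5 + 783000 * a ^ 5 * b * G1 ^ 2 * G2 ^ 4 - 12006000 * a ^ 5 * b * G1 ^ 3 * G2 ^ 3 + 66033000 * a ^ 5 * b * G1 ^ 4 * G2 ^ 2 - 138669300 * a ^ 5 * b * G1 ^ 5 * G2 + 92446200 * a ^ 5 * b * G1 ^ 6 - 2101050 * a ^ 4 * b ^ 2 * G2 ^ 6 + 50425200 * a ^ 4 * b ^ 2 * G1 * G2 ^ 5 - 399199500 * a ^ 4 * b ^ 2 * G1 ^ 2 * G2 ^ 4 + 1368684000 * a ^ 4 * b ^ 2 * G1 ^ 3 * G2 ^ 3 - 2181340125 * a ^ 4 * b ^ 2 * G1 ^ 4 * G2 ^ 2 + 1551175200 * a ^ 4 * b ^ 2 * G1 ^ 5 * G2 - 387793800 * a ^ 4 * b ^ 2 * G1 ^ 6 - 387793800 * a ^ 2 * b ^ 4 * G2 ^ 6 + 1551175200 * a ^ 2 * b ^ 4 * G1 * G2 ^ 5 - 2181340125 * a ^ 2 * b ^ 4 * G1 ^ 2 * G2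 ^ 4 + 1368684000 * a ^ 2 * b ^ 4 * G1 ^ 3 * G2 ^ 3 - 399199500 * a ^ 2 * b ^ 4 * G1 ^ 4 * G2 ^ 2 + 50425200 * a ^ 2 * b ^ 4 * G1 ^ 5 * G2 - 2101050 * a ^ 2 * b ^ 4 * G1 ^ 6 - 92446200 * a * b ^ 5 * G2 ^ 6 + 138669300 * a * b ^ 5 * G1 * G2 ^ 5 - 66033000 * a * b ^ 5 * G1 ^ 2 * G2 ^ 4 + 12006000 * a * b ^ 5 * G1 ^ 3 * G2 ^ 3 - 783000 * a * b ^ 5 * G1 ^ 4 * G2 ^ 2 + 13050 * a * b ^ 5 * G1 ^ 5 * G2 + 593775 * b ^ 6 * G2 ^ 6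

def LL7 (a b G1 G2 : R) : R :=
  2035800 * a ^ 6 * G1 ^ 7 - 156600 * a ^ 5 * b * G1 ^ 2 * G2 ^ 5 + 6003000 * a ^ 5 * b * G1 ^ 3 * G2 ^ 4 - 66033000 * a ^ 5 * b * G1 ^ 4 * G2 ^ 3 + 277338600 * a ^ 5 * b * G1 ^ 5 * G2 ^ 2 - 462231000 * a ^ 5 * b * G1 ^ 6 * G2 + 250925400 * a ^ 5 * b * G1 ^ 7 + 1200600 * a ^ 4 * b ^ 2 * G2 ^ 7 - 42021000 * a ^ 4 * b ^ 2 * G1 * G2 ^ 6 + 479039400 * a ^ 4 * b ^ 2 * G1 ^ 2 * G2 ^ 5 - 2395197000 * a ^ 4 * b ^ 2 * G1 ^ 3 * G2 ^ 4 + 5816907000 * a ^ 4 * b ^ 2 * G1 ^ 4 * G2 ^ 3 - 6980288400 * a ^ 4 * b ^ 2 * G1 ^ 5 * G2 ^ 2 + 3877938000 * a ^ 4 * b ^ 2 * G1 ^ 6 * G2 - 775587600 * a ^ 4 * b ^ 2 * G1 ^ 7 + 775587600 * a ^ 2 * b ^ 4 * G2 ^ 7 - 3877938000 * a ^ 2 * b ^ 4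 * G1 * G2 ^ 6 + 6980288400 * a ^ 2 * b ^ 4 * G1 ^ 2 * G2 ^ 5 - 5816907000 * a ^ 2 * b ^ 4 * G1 ^ 3 * G2 ^ 4 + 2395197000 * a ^ 2 * b ^ 4 * G1 ^ 4 * G2 ^ 3 - 479039400 * a ^ 2 * b ^ 4 * G1 ^ 5 * G2 ^ 2 + 42021000 * a ^ 2 * b ^ 4 * G1 ^ 6 * G2 - 1200600 * a ^ 2 * b ^ 4 * G1 ^ 7 + 250925400 * a * b ^ 5 * G2 ^ 7 - 462231000 * a * b ^ 5 * G1 * G2 ^ 6 + 277338600 * a * b ^ 5 * G1 ^ 2 * G2 ^ 5 - 66033000 * a * b ^ 5 * G1 ^ 3 * G2 ^ 4 + 6003000 * a * b ^ 5 * G1 ^ 4 * G2 ^ 3 - 156600 * a * b ^ 5 * G1 ^ 5 * G2 ^ 2 - 2035800 * b ^ 6 * G2 ^ 7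

def LL8 (a b G1 G2 : R) : R :=
  5852925 * a ^ 6 * G1 ^ 8 - 1200600 * a ^ 5 * b * G1 ^ 3 * G2 ^ 5 + 33016500 * a ^ 5 * b * G1 ^ 4 * G2 ^ 4 - 277338600 * a ^ 5 * b * G1 ^ 5 * G2 ^ 3 + 924462000 * a ^ 5 * b * G1 ^ 6 * G2 ^ 2 - 1254627000 * a ^ 5 * b * G1 ^ 7 * G2 + 564582150 * a ^ 5 * b * G1 ^ 8 - 450225 * a ^ 4 * b ^ 2 * G2 ^ 8 + 24012000 * a ^ 4 * b ^ 2 * G1 * G2 ^ 7 - 399199500 * a ^ 4 * b ^ 2 * G1 ^ 2 * G2 ^ 6 + 2874236400 * a ^ 4 * b ^ 2 * G1 ^ 3 * G2 ^ 5 - 10179587250 * a ^ 4 * b ^ 2 * G1 ^ 4 * G2 ^ 4 + 18614102400 * a ^ 4 * b ^ 2 * G1 ^ 5 * G2 ^ 3 - 17450721000 * a ^ 4 * b ^ 2 * G1 ^ 6 * G2 ^ 2 + 7755876000 * a ^ 4 * b ^ 2 * G1 ^ 7 * G2 - 1260329850 * a ^ 4 * b ^ 2 * G1 ^ 8 - 1260329850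 * a ^ 2 * b ^ 4 * G2 ^ 8 + 7755876000 * a ^ 2 * b ^ 4 * G1 * G2 ^ 7 - 17450721000 * a ^ 2 * b ^ 4 * G1 ^ 2 * G2 ^ 6 + 18614102400 * a ^ 2 * b ^ 4 * G1 ^ 3 * G2 ^ 5 - 10179587250 * a ^ 2 * b ^ 4 * G1 ^ 4 * G2 ^ 4 + 2874236400 * a ^ 2 * b ^ 4 * G1 ^ 5 * G2 ^ 3 - 399199500 * a ^ 2 * b ^ 4 * G1 ^ 6 * G2 ^ 2 + 24012000 * a ^ 2 * b ^ 4 * G1 ^ 7 * G2 - 450225 * a ^ 2 * b ^ 4 * G1 ^ 8 - 564582150 * a * b ^ 5 * G2 ^ 8 + 1254627000 * a * b ^ 5 * G1 * G2 ^ 7 - 924462000 * a * b ^ 5 * G1 ^ 2 * G2 ^ 6 + 277338600 * a * b ^ 5 * G1 ^ 3 * G2 ^ 5 - 33016500 * a * b ^ 5 * G1 ^ 4 * G2 ^ 4 + 1200600 * a * b ^ 5 * G1 ^ 5 * G2 ^ 3 + 5852925 * b ^ 6 * G2 ^ 8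

def LL9 (a b G1 G2 : R) : R :=
  14307150 * a ^ 6 * G1 ^ 9 - 6603300 * a ^ 5 * b * G1 ^ 4 * G2 ^ 5 + 138669300 * a ^ 5 * b * G1 ^ 5 * G2 ^ 4 - 924462000 * a ^ 5 * b * G1 ^ 6 * G2 ^ 3 + 2509254000 * a ^ 5 * b * G1 ^ 7 * G2 ^ 2 - 2822910750 * a ^ 5 * b * G1 ^ 8 * G2 + 1066432950 * a ^ 5 * b * G1 ^ 9 + 100050 * a ^ 4 * b ^ 2 * G2 ^ 9 - 9004500 * a ^ 4 * b ^ 2 * G1 * G2 ^ 8 + 228114000 * a ^ 4 * b ^ 2 * G1 ^ 2 * G2 ^ 7 - 2395197000 * a ^ 4 * b ^ 2 * G1 ^ 3 * G2 ^ 6 + 12215504700 * a ^ 4 * b ^ 2 * G1 ^ 4 * G2 ^ 5 - 32574679200 * a ^ 4 * b ^ 2 * G1 ^ 5 * G2 ^ 4 + 46535256000 * a ^ 4 * b ^ 2 * G1 ^ 6 * G2 ^ 3 - 34901442000 * a ^ 4 * b ^ 2 * G1 ^ 7 * G2 ^ 2 + 12603298500 * a ^ 4 * b ^ 2 * G1 ^ 8 *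 G2 - 1680439800 * a ^ 4 * b ^ 2 * G1 ^ 9 + 1680439800 * a ^ 2 * b ^ 4 * G2 ^ 9 - 12603298500 * a ^ 2 * b ^ 4 * G1 * G2 ^ 8 + 34901442000 * a ^ 2 * b ^ 4 * G1 ^ 2 * G2 ^ 7 - 46535256000 * a ^ 2 * b ^ 4 * G1 ^ 3 * G2 ^ 6 + 32574679200 * a ^ 2 * b ^ 4 * G1 ^ 4 * G2 ^ 5 - 12215504700 * a ^ 2 * b ^ 4 * G1 ^ 5 * G2 ^ 4 + 2395197000 * a ^ 2 * b ^ 4 * G1 ^ 6 * G2 ^ 3 - 228114000 * a ^ 2 * b ^ 4 * G1 ^ 7 * G2 ^ 2 + 9004500 * a ^ 2 * b ^ 4 * G1 ^ 8 * G2 - 100050 * a ^ 2 * b ^ 4 * G1 ^ 9 + 1066432950 * a * b ^ 5 * G2 ^ 9 - 2822910750 * a * b ^ 5 * G1 * G2 ^ 8 + 2509254000 * a * b ^ 5 * G1 ^ 2 * G2 ^ 7 - 924462000 * a * b ^ 5 * G1 ^ 3 * G2 ^ 6 + 138669300 * a * b ^ 5 * G1 ^ 4 * G2 ^ 5 - 6603300 * a * b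 ^ 5 * G1 ^ 5 * G2 ^ 4 - 14307150 * b ^ 6 * G2 ^ 9

def LL10 (a b G1 G2 : R) : R :=
  30045015 * a ^ 6 * G1 ^ 10 - 27733860 * a ^ 5 * b * G1 ^ 5 * G2 ^ 5 + 462231000 * a ^ 5 * b * G1 ^ 6 * G2 ^ 4 - 2509254000 * a ^ 5 * b * G1 ^ 7 * G2 ^ 3 + 5645821500 * a ^ 5 * b * G1 ^ 8 * G2 ^ 2 - 5332164750 * a ^ 5 * b * G1 ^ 9 * G2 + 1706292720 * a ^ 5 * b * G1 ^ 10 - 10005 * a ^ 4 * b ^ 2 * G2 ^ 10 + 2001000 * a ^ 4 * b ^ 2 * G1 * G2 ^ 9 - 85542750 * a ^ 4 * b ^ 2 * G1 ^ 2 * G2 ^ 8 + 1368684000 * a ^ 4 * b ^ 2 * G1 ^ 3 * G2 ^ 7 - 10179587250 * a ^ 4 * b ^ 2 * G1 ^ 4 * G2 ^ 6 + 39089615040 * a ^ 4 * b ^ 2 * G1 ^ 5 * G2 ^ 5 - 81436698000 * a ^ 4 * b ^ 2 * G1 ^ 6 * G2 ^ 4 + 93070512000 * a ^ 4 * b ^ 2 * G1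 ^ 7 * G2 ^ 3 - 56714843250 * a ^ 4 * b ^ 2 * G1 ^ 8 * G2 ^ 2 + 16804398000 * a ^ 4 * b ^ 2 * G1 ^ 9 * G2 - 1848483780 * a ^ 4 * b ^ 2 * G1 ^ 10 - 1848483780 * a ^ 2 * b ^ 4 * G2 ^ 10 + 16804398000 * a ^ 2 * b ^ 4 * G1 * G2 ^ 9 - 56714843250 * a ^ 2 * b ^ 4 * G1 ^ 2 * G2 ^ 8 + 93070512000 * a ^ 2 * b ^ 4 * G1 ^ 3 * G2 ^ 7 - 81436698000 * a ^ 2 * b ^ 4 * G1 ^ 4 * G2 ^ 6 + 39089615040 * a ^ 2 * b ^ 4 * G1 ^ 5 * G2 ^ 5 - 10179587250 * a ^ 2 * b ^ 4 * G1 ^ 6 * G2 ^ 4 + 1368684000 * a ^ 2 * b ^ 4 * G1 ^ 7 * G2 ^ 3 - 85542750 * a ^ 2 * b ^ 4 * G1 ^ 8 * G2 ^ 2 + 2001000 * a ^ 2 * b ^ 4 * G1 ^ 9 * G2 - 10005 * a ^ 2 * b ^ 4 * G1 ^ 10 - 1706292720 * a * b ^ 5 * G2 ^ 10 + 5332164750 * a * b ^ 5 * G1 *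 G2 ^ 9 - 5645821500 * a * b ^ 5 * G1 ^ 2 * G2 ^ 8 + 2509254000 * a * b ^ 5 * G1 ^ 3 * G2 ^ 7 - 462231000 * a * b ^ 5 * G1 ^ 4 * G2 ^ 6 + 27733860 * a * b ^ 5 * G1 ^ 5 * G2 ^ 5 + 30045015 * b ^ 6 * G2 ^ 10

def LL11 (a b G1 G2 : R) : R :=
  54627300 * a ^ 6 * G1 ^ 11 - 92446200 * a ^ 5 * b * G1 ^ 6 * G2 ^ 5 + 1254627000 * a ^ 5 * b * G1 ^ 7 * G2 ^ 4 - 5645821500 * a ^ 5 * b * G1 ^ 8 * G2 ^ 3 + 10664329500 * a ^ 5 * b * G1 ^ 9 * G2 ^ 2 - 8531463600 * a ^ 5 * b * G1 ^ 10 * G2 + 2326762800 * a ^ 5 * b * G1 ^ 11 - 200100 * a ^ 4 * b ^ 2 * G1 * G2 ^ 10 + 19009500 * a ^ 4 * b ^ 2 * G1 ^ 2 * G2 ^ 9 - 513256500 * a ^ 4 * b ^ 2 * G1 ^ 3 * G2 ^ 8 + 5816907000 * a ^ 4 * b ^ 2 * G1 ^ 4 * G2 ^ 7 - 32574679200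 * a ^ 4 * b ^ 2 * G1 ^ 5 * G2 ^ 6 + 97724037600 * a ^ 4 * b ^ 2 * G1 ^ 6 * G2 ^ 5 - 162873396000 * a ^ 4 * b ^ 2 * G1 ^ 7 * G2 ^ 4 + 151239582000 * a ^ 4 * b ^ 2 * G1 ^ 8 * G2 ^ 3 - 75619791000 * a ^ 4 * b ^ 2 * G1 ^ 9 * G2 ^ 2 + 18484837800 * a ^ 4 * b ^ 2 * G1 ^ 10 * G2 - 1680439800 * a ^ 4 * b ^ 2 * G1 ^ 11 + 1680439800 * a ^ 2 * b ^ 4 * G2 ^ 11 - 18484837800 * a ^ 2 * b ^ 4 * G1 * G2 ^ 10 + 75619791000 * a ^ 2 * b ^ 4 * G1 ^ 2 * G2 ^ 9 - 151239582000 * a ^ 2 * b ^ 4 * G1 ^ 3 * G2 ^ 8 + 162873396000 * a ^ 2 * b ^ 4 * G1 ^ 4 * G2 ^ 7 - 97724037600 * a ^ 2 * b ^ 4 * G1 ^ 5 * G2 ^ 6 + 32574679200 * a ^ 2 * b ^ 4 * G1 ^ 6 * G2 ^ 5 - 5816907000 * a ^ 2 * b ^ 4 * G1 ^ 7 * G2 ^ 4 + 513256500 * a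 ^ 2 * b ^ 4 * G1 ^ 8 * G2 ^ 3 - 19009500 * a ^ 2 * b ^ 4 * G1 ^ 9 * G2 ^ 2 + 200100 * a ^ 2 * b ^ 4 * G1 ^ 10 * G2 + 2326762800 * a * b ^ 5 * G2 ^ 11 - 8531463600 * a * b ^ 5 * G1 * G2 ^ 10 + 10664329500 * a * b ^ 5 * G1 ^ 2 * G2 ^ 9 - 5645821500 * a * b ^ 5 * G1 ^ 3 * G2 ^ 8 + 1254627000 * a * b ^ 5 * G1 ^ 4 * G2 ^ 7 - 92446200 * a * b ^ 5 * G1 ^ 5 * G2 ^ 6 - 54627300 * b ^ 6 * G2 ^ 11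

def LL12 (a b G1 G2 : R) : R :=
  86493225 * a ^ 6 * G1 ^ 12 - 250925400 * a ^ 5 * b * G1 ^ 7 * G2 ^ 5 + 2822910750 * a ^ 5 * b * G1 ^ 8 * G2 ^ 4 - 10664329500 * a ^ 5 * b * G1 ^ 9 * G2 ^ 3 + 17062927200 * a ^ 5 * b * G1 ^ 10 * G2 ^ 2 - 11633814000 * a ^ 5 * b * G1 ^ 11 * G2 + 2714556600 * a ^ 5 * b * G1 ^ 12 - 1900950 * a ^ 4 * b ^ 2 * G1 ^ 2 * G2 ^ 10 + 114057000 * a ^ 4 * b ^ 2 * G1 ^ 3 * G2 ^ 9 - 2181340125 * a ^ 4 * b ^ 2 * G1 ^ 4 * G2 ^ 8 + 18614102400 * a ^ 4 * b ^ 2 * G1 ^ 5 * G2 ^ 7 - 81436698000 * a ^ 4 * b ^ 2 * G1 ^ 6 * G2 ^ 6 + 195448075200 * a ^ 4 * b ^ 2 * G1 ^ 7 * G2 ^ 5 - 264669268500 * a ^ 4 * b ^ 2 * G1 ^ 8 * G2 ^ 4 + 201652776000 * a ^ 4 * b ^ 2 * G1 ^ 9 * G2 ^ 3 - 83181770100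 * a ^ 4 * b ^ 2 * G1 ^ 10 * G2 ^ 2 + 16804398000 * a ^ 4 * b ^ 2 * G1 ^ 11 * G2 - 1260329850 * a ^ 4 * b ^ 2 * G1 ^ 12 - 1260329850 * a ^ 2 * b ^ 4 * G2 ^ 12 + 16804398000 * a ^ 2 * b ^ 4 * G1 * G2 ^ 11 - 83181770100 * a ^ 2 * b ^ 4 * G1 ^ 2 * G2 ^ 10 + 201652776000 * a ^ 2 * b ^ 4 * G1 ^ 3 * G2 ^ 9 - 264669268500 * a ^ 2 * b ^ 4 * G1 ^ 4 * G2 ^ 8 + 195448075200 * a ^ 2 * b ^ 4 * G1 ^ 5 * G2 ^ 7 - 81436698000 * a ^ 2 * b ^ 4 * G1 ^ 6 * G2 ^ 6 + 18614102400 * a ^ 2 * b ^ 4 * G1 ^ 7 * G2 ^ 5 - 2181340125 * a ^ 2 * b ^ 4 * G1 ^ 8 * G2 ^ 4 + 114057000 * a ^ 2 * b ^ 4 * G1 ^ 9 * G2 ^ 3 - 1900950 * a ^ 2 * b ^ 4 * G1 ^ 10 * G2 ^ 2 - 2714556600 * a * b ^ 5 * G2 ^ 12 + 11633814000 * a * b ^ 5 * G1 *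 G2 ^ 11 - 17062927200 * a * b ^ 5 * G1 ^ 2 * G2 ^ 10 + 10664329500 * a * b ^ 5 * G1 ^ 3 * G2 ^ 9 - 2822910750 * a * b ^ 5 * G1 ^ 4 * G2 ^ 8 + 250925400 * a * b ^ 5 * G1 ^ 5 * G2 ^ 7 + 86493225 * b ^ 6 * G2 ^ 12

def LL13 (a b G1 G2 : R) : R :=
  119759850 * a ^ 6 * G1 ^ 13 - 564582150 * a ^ 5 * b * G1 ^ 8 * G2 ^ 5 + 5332164750 * a ^ 5 * b * G1 ^ 9 * G2 ^ 4 - 17062927200 * a ^ 5 * b * G1 ^ 10 * G2 ^ 3 + 23267628000 * a ^ 5 * b * G1 ^ 11 * G2 ^ 2 - 13572783000 * a ^ 5 * b * G1 ^ 12 * G2 + 2714556600 * a ^ 5 * b * G1 ^ 13 - 11405700 * a ^ 4 * b ^ 2 * G1 ^ 3 * G2 ^ 10 + 484742250 * a ^ 4 * b ^ 2 * G1 ^ 4 * G2 ^ 9 - 6980288400 * a ^ 4 * b ^ 2 * G1 ^ 5 * G2 ^ 8 + 46535256000 * a ^ 4 * b ^ 2 * G1 ^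 6 * G2 ^ 7 - 162873396000 * a ^ 4 * b ^ 2 * G1 ^ 7 * G2 ^ 6 + 317603122200 * a ^ 4 * b ^ 2 * G1 ^ 8 * G2 ^ 5 - 352892358000 * a ^ 4 * b ^ 2 * G1 ^ 9 * G2 ^ 4 + 221818053600 * a ^ 4 * b ^ 2 * G1 ^ 10 * G2 ^ 3 - 75619791000 * a ^ 4 * b ^ 2 * G1 ^ 11 * G2 ^ 2 + 12603298500 * a ^ 4 * b ^ 2 * G1 ^ 12 * G2 - 775587600 * a ^ 4 * b ^ 2 * G1 ^ 13 + 775587600 * a ^ 2 * b ^ 4 * G2 ^ 13 - 12603298500 * a ^ 2 * b ^ 4 * G1 * G2 ^ 12 + 75619791000 * a ^ 2 * b ^ 4 * G1 ^ 2 * G2 ^ 11 - 221818053600 * a ^ 2 * b ^ 4 * G1 ^ 3 * G2 ^ 10 + 352892358000 * a ^ 2 * b ^ 4 * G1 ^ 4 * G2 ^ 9 - 317603122200 * a ^ 2 * b ^ 4 * G1 ^ 5 * G2 ^ 8 + 162873396000 * a ^ 2 * b ^ 4 * G1 ^ 6 * G2 ^ 7 - 46535256000 * a ^ 2 * b ^ 4 *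 G1 ^ 7 * G2 ^ 6 + 6980288400 * a ^ 2 * b ^ 4 * G1 ^ 8 * G2 ^ 5 - 484742250 * a ^ 2 * b ^ 4 * G1 ^ 9 * G2 ^ 4 + 11405700 * a ^ 2 * b ^ 4 * G1 ^ 10 * G2 ^ 3 + 2714556600 * a * b ^ 5 * G2 ^ 13 - 13572783000 * a * b ^ 5 * G1 * G2 ^ 12 + 23267628000 * a * b ^ 5 * G1 ^ 2 * G2 ^ 11 - 17062927200 * a * b ^ 5 * G1 ^ 3 * G2 ^ 10 + 5332164750 * a * b ^ 5 * G1 ^ 4 * G2 ^ 9 - 564582150 * a * b ^ 5 * G1 ^ 5 * G2 ^ 8 - 119759850 * b ^ 6 * G2 ^ 13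

def LL14 (a b G1 G2 : R) : R :=
  145422675 * a ^ 6 * G1 ^ 14 - 1066432950 * a ^ 5 * b * G1 ^ 9 * G2 ^ 5 + 8531463600 * a ^ 5 * b * G1 ^ 10 * G2 ^ 4 - 23267628000 * a ^ 5 * b * G1 ^ 11 * G2 ^ 3 + 27145566000 * a ^ 5 * b * G1 ^ 12 * G2 ^ 2 - 13572783000 * a ^ 5 * b * G1 ^ 13 * G2 + 2326762800 * a ^ 5 * b * G1 ^ 14 - 48474225 * a ^ 4 * b ^ 2 * G1 ^ 4 * G2 ^ 10 + 1551175200 * a ^ 4 * b ^ 2 * G1 ^ 5 * G2 ^ 9 - 17450721000 * a ^ 4 * b ^ 2 * G1 ^ 6 * G2 ^ 8 + 93070512000 * a ^ 4 * b ^ 2 * G1 ^ 7 * G2 ^ 7 - 264669268500 * a ^ 4 * b ^ 2 * G1 ^ 8 * G2 ^ 6 + 423470829600 * a ^ 4 * b ^ 2 * G1 ^ 9 * G2 ^ 5 - 388181593800 * a ^ 4 * b ^ 2 * G1 ^ 10 * G2 ^ 4 + 201652776000 * a ^ 4 * b ^ 2 * G1 ^ 11 * G2 ^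 3 - 56714843250 * a ^ 4 * b ^ 2 * G1 ^ 12 * G2 ^ 2 + 7755876000 * a ^ 4 * b ^ 2 * G1 ^ 13 * G2 - 387793800 * a ^ 4 * b ^ 2 * G1 ^ 14 - 387793800 * a ^ 2 * b ^ 4 * G2 ^ 14 + 7755876000 * a ^ 2 * b ^ 4 * G1 * G2 ^ 13 - 56714843250 * a ^ 2 * b ^ 4 * G1 ^ 2 * G2 ^ 12 + 201652776000 * a ^ 2 * b ^ 4 * G1 ^ 3 * G2 ^ 11 - 388181593800 * a ^ 2 * b ^ 4 * G1 ^ 4 * G2 ^ 10 + 423470829600 * a ^ 2 * b ^ 4 * G1 ^ 5 * G2 ^ 9 - 264669268500 * a ^ 2 * b ^ 4 * G1 ^ 6 * G2 ^ 8 + 93070512000 * a ^ 2 * b ^ 4 * G1 ^ 7 * G2 ^ 7 - 17450721000 * a ^ 2 * b ^ 4 * G1 ^ 8 * G2 ^ 6 + 1551175200 * a ^ 2 * b ^ 4 * G1 ^ 9 * G2 ^ 5 - 48474225 * a ^ 2 * b ^ 4 * G1 ^ 10 * G2 ^ 4 - 2326762800 * a * b ^ 5 * G2 ^ 14 + 13572783000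 * a * b ^ 5 * G1 * G2 ^ 13 - 27145566000 * a * b ^ 5 * G1 ^ 2 * G2 ^ 12 + 23267628000 * a * b ^ 5 * G1 ^ 3 * G2 ^ 11 - 8531463600 * a * b ^ 5 * G1 ^ 4 * G2 ^ 10 + 1066432950 * a * b ^ 5 * G1 ^ 5 * G2 ^ 9 + 145422675 * b ^ 6 * G2 ^ 14

def LL15 (a b G1 G2 : R) : R :=
  155117520 * a ^ 6 * G1 ^ 15 - 1706292720 * a ^ 5 * b * G1 ^ 10 * G2 ^ 5 + 11633814000 * a ^ 5 * b * G1 ^ 11 * G2 ^ 4 - 27145566000 * a ^ 5 * b * G1 ^ 12 * G2 ^ 3 + 27145566000 * a ^ 5 * b * G1 ^ 13 * G2 ^ 2 - 11633814000 * a ^ 5 * b * G1 ^ 14 * G2 + 1706292720 * a ^ 5 * b * G1 ^ 15 - 155117520 * a ^ 4 * b ^ 2 * G1 ^ 5 * G2 ^ 10 + 3877938000 * a ^ 4 * b ^ 2 * G1 ^ 6 * G2 ^ 9 - 34901442000 * a ^ 4 * b ^ 2 * G1 ^ 7 * G2 ^ 8 + 151239582000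 * a ^ 4 * b ^ 2 * G1 ^ 8 * G2 ^ 7 - 352892358000 * a ^ 4 * b ^ 2 * G1 ^ 9 * G2 ^ 6 + 465817912560 * a ^ 4 * b ^ 2 * G1 ^ 10 * G2 ^ 5 - 352892358000 * a ^ 4 * b ^ 2 * G1 ^ 11 * G2 ^ 4 + 151239582000 * a ^ 4 * b ^ 2 * G1 ^ 12 * G2 ^ 3 - 34901442000 * a ^ 4 * b ^ 2 * G1 ^ 13 * G2 ^ 2 + 3877938000 * a ^ 4 * b ^ 2 * G1 ^ 14 * G2 - 155117520 * a ^ 4 * b ^ 2 * G1 ^ 15 + 155117520 * a ^ 2 * b ^ 4 * G2 ^ 15 - 3877938000 * a ^ 2 * b ^ 4 * G1 * G2 ^ 14 + 34901442000 * a ^ 2 * b ^ 4 * G1 ^ 2 * G2 ^ 13 - 151239582000 * a ^ 2 * b ^ 4 * G1 ^ 3 * G2 ^ 12 + 352892358000 * a ^ 2 * b ^ 4 * G1 ^ 4 * G2 ^ 11 - 465817912560 * a ^ 2 * b ^ 4 * G1 ^ 5 * G2 ^ 10 + 352892358000 * a ^ 2 * b ^ 4 * G1 ^ 6 * G2 ^ 9 - 151239582000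 * a ^ 2 * b ^ 4 * G1 ^ 7 * G2 ^ 8 + 34901442000 * a ^ 2 * b ^ 4 * G1 ^ 8 * G2 ^ 7 - 3877938000 * a ^ 2 * b ^ 4 * G1 ^ 9 * G2 ^ 6 + 155117520 * a ^ 2 * b ^ 4 * G1 ^ 10 * G2 ^ 5 + 1706292720 * a * b ^ 5 * G2 ^ 15 - 11633814000 * a * b ^ 5 * G1 * G2 ^ 14 + 27145566000 * a * b ^ 5 * G1 ^ 2 * G2 ^ 13 - 27145566000 * a * b ^ 5 * G1 ^ 3 * G2 ^ 12 + 11633814000 * a * b ^ 5 * G1 ^ 4 * G2 ^ 11 - 1706292720 * a * b ^ 5 * G1 ^ 5 * G2 ^ 10 - 155117520 * b ^ 6 * G2 ^ 15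

def LL16 (a b G1 G2 : R) : R :=
  145422675 * a ^ 6 * G1 ^ 16 - 2326762800 * a ^ 5 * b * G1 ^ 11 * G2 ^ 5 + 13572783000 * a ^ 5 * b * G1 ^ 12 * G2 ^ 4 - 27145566000 * a ^ 5 * b * G1 ^ 13 * G2 ^ 3 + 23267628000 * a ^ 5 * b * G1 ^ 14 * G2 ^ 2 - 8531463600 * a ^ 5 * b * G1 ^ 15 * G2 + 1066432950 * a ^ 5 * b * G1 ^ 16 - 387793800 * a ^ 4 * b ^ 2 * G1 ^ 6 * G2 ^ 10 + 7755876000 * a ^ 4 * b ^ 2 * G1 ^ 7 * G2 ^ 9 - 56714843250 * a ^ 4 * b ^ 2 * G1 ^ 8 * G2 ^ 8 + 201652776000 * a ^ 4 * b ^ 2 * G1 ^ 9 * G2 ^ 7 - 388181593800 * a ^ 4 * b ^ 2 * G1 ^ 10 * G2 ^ 6 + 423470829600 * a ^ 4 * b ^ 2 * G1 ^ 11 * G2 ^ 5 - 264669268500 * a ^ 4 * b ^ 2 * G1 ^ 12 * G2 ^ 4 + 93070512000 * a ^ 4 * b ^ 2 * G1 ^ 13 *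 G2 ^ 3 - 17450721000 * a ^ 4 * b ^ 2 * G1 ^ 14 * G2 ^ 2 + 1551175200 * a ^ 4 * b ^ 2 * G1 ^ 15 * G2 - 48474225 * a ^ 4 * b ^ 2 * G1 ^ 16 - 48474225 * a ^ 2 * b ^ 4 * G2 ^ 16 + 1551175200 * a ^ 2 * b ^ 4 * G1 * G2 ^ 15 - 17450721000 * a ^ 2 * b ^ 4 * G1 ^ 2 * G2 ^ 14 + 93070512000 * a ^ 2 * b ^ 4 * G1 ^ 3 * G2 ^ 13 - 264669268500 * a ^ 2 * b ^ 4 * G1 ^ 4 * G2 ^ 12 + 423470829600 * a ^ 2 * b ^ 4 * G1 ^ 5 * G2 ^ 11 - 388181593800 * a ^ 2 * b ^ 4 * G1 ^ 6 * G2 ^ 10 + 201652776000 * a ^ 2 * b ^ 4 * G1 ^ 7 * G2 ^ 9 - 56714843250 * a ^ 2 * b ^ 4 * G1 ^ 8 * G2 ^ 8 + 7755876000 * a ^ 2 * b ^ 4 * G1 ^ 9 * G2 ^ 7 - 387793800 * a ^ 2 * b ^ 4 * G1 ^ 10 * G2 ^ 6 - 1066432950 * a * b ^ 5 * G2 ^ 16 + 8531463600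 * a * b ^ 5 * G1 * G2 ^ 15 - 23267628000 * a * b ^ 5 * G1 ^ 2 * G2 ^ 14 + 27145566000 * a * b ^ 5 * G1 ^ 3 * G2 ^ 13 - 13572783000 * a * b ^ 5 * G1 ^ 4 * G2 ^ 12 + 2326762800 * a * b ^ 5 * G1 ^ 5 * G2 ^ 11 + 145422675 * b ^ 6 * G2 ^ 16

def LL17 (a b G1 G2 : R) : R :=
  119759850 * a ^ 6 * G1 ^ 17 - 2714556600 * a ^ 5 * b * G1 ^ 12 * G2 ^ 5 + 13572783000 * a ^ 5 * b * G1 ^ 13 * G2 ^ 4 - 23267628000 * a ^ 5 * b * G1 ^ 14 * G2 ^ 3 + 17062927200 * a ^ 5 * b * G1 ^ 15 * G2 ^ 2 - 5332164750 * a ^ 5 * b * G1 ^ 16 * G2 + 564582150 * a ^ 5 * b * G1 ^ 17 - 775587600 * a ^ 4 * b ^ 2 * G1 ^ 7 * G2 ^ 10 + 12603298500 * a ^ 4 * b ^ 2 * G1 ^ 8 * G2 ^ 9 - 75619791000 * a ^ 4 * b ^ 2 * G1 ^ 9 * G2 ^ 8 + 221818053600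 * a ^ 4 * b ^ 2 * G1 ^ 10 * G2 ^ 7 - 352892358000 * a ^ 4 * b ^ 2 * G1 ^ 11 * G2 ^ 6 + 317603122200 * a ^ 4 * b ^ 2 * G1 ^ 12 * G2 ^ 5 - 162873396000 * a ^ 4 * b ^ 2 * G1 ^ 13 * G2 ^ 4 + 46535256000 * a ^ 4 * b ^ 2 * G1 ^ 14 * G2 ^ 3 - 6980288400 * a ^ 4 * b ^ 2 * G1 ^ 15 * G2 ^ 2 + 484742250 * a ^ 4 * b ^ 2 * G1 ^ 16 * G2 - 11405700 * a ^ 4 * b ^ 2 * G1 ^ 17 + 11405700 * a ^ 2 * b ^ 4 * G2 ^ 17 - 484742250 * a ^ 2 * b ^ 4 * G1 * G2 ^ 16 + 6980288400 * a ^ 2 * b ^ 4 * G1 ^ 2 * G2 ^ 15 - 46535256000 * a ^ 2 * b ^ 4 * G1 ^ 3 * G2 ^ 14 + 162873396000 * a ^ 2 * b ^ 4 * G1 ^ 4 * G2 ^ 13 - 317603122200 * a ^ 2 * b ^ 4 * G1 ^ 5 * G2 ^ 12 + 352892358000 * a ^ 2 * b ^ 4 * G1 ^ 6 * G2 ^ 11 - 221818053600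 * a ^ 2 * b ^ 4 * G1 ^ 7 * G2 ^ 10 + 75619791000 * a ^ 2 * b ^ 4 * G1 ^ 8 * G2 ^ 9 - 12603298500 * a ^ 2 * b ^ 4 * G1 ^ 9 * G2 ^ 8 + 775587600 * a ^ 2 * b ^ 4 * G1 ^ 10 * G2 ^ 7 + 564582150 * a * b ^ 5 * G2 ^ 17 - 5332164750 * a * b ^ 5 * G1 * G2 ^ 16 + 17062927200 * a * b ^ 5 * G1 ^ 2 * G2 ^ 15 - 23267628000 * a * b ^ 5 * G1 ^ 3 * G2 ^ 14 + 13572783000 * a * b ^ 5 * G1 ^ 4 * G2 ^ 13 - 2714556600 * a * b ^ 5 * G1 ^ 5 * G2 ^ 12 - 119759850 * b ^ 6 * G2 ^ 17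

def LL18 (a b G1 G2 : R) : R :=
  86493225 * a ^ 6 * G1 ^ 18 - 2714556600 * a ^ 5 * b * G1 ^ 13 * G2 ^ 5 + 11633814000 * a ^ 5 * b * G1 ^ 14 * G2 ^ 4 - 17062927200 * a ^ 5 * b * G1 ^ 15 * G2 ^ 3 + 10664329500 * a ^ 5 * b * G1 ^ 16 * G2 ^ 2 - 2822910750 * a ^ 5 * b * G1 ^ 17 * G2 + 250925400 * a ^ 5 * b * G1 ^ 18 - 1260329850 * a ^ 4 * b ^ 2 * G1 ^ 8 * G2 ^ 10 + 16804398000 * a ^ 4 * b ^ 2 * G1 ^ 9 * G2 ^ 9 - 83181770100 * a ^ 4 * b ^ 2 * G1 ^ 10 * G2 ^ 8 + 201652776000 * a ^ 4 * b ^ 2 * G1 ^ 11 * G2 ^ 7 - 264669268500 * a ^ 4 * b ^ 2 * G1 ^ 12 * G2 ^ 6 + 195448075200 * a ^ 4 * b ^ 2 * G1 ^ 13 * G2 ^ 5 - 81436698000 * a ^ 4 * b ^ 2 * G1 ^ 14 * G2 ^ 4 + 18614102400 * a ^ 4 * b ^ 2 * G1 ^ 15 *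 G2 ^ 3 - 2181340125 * a ^ 4 * b ^ 2 * G1 ^ 16 * G2 ^ 2 + 114057000 * a ^ 4 * b ^ 2 * G1 ^ 17 * G2 - 1900950 * a ^ 4 * b ^ 2 * G1 ^ 18 - 1900950 * a ^ 2 * b ^ 4 * G2 ^ 18 + 114057000 * a ^ 2 * b ^ 4 * G1 * G2 ^ 17 - 2181340125 * a ^ 2 * b ^ 4 * G1 ^ 2 * G2 ^ 16 + 18614102400 * a ^ 2 * b ^ 4 * G1 ^ 3 * G2 ^ 15 - 81436698000 * a ^ 2 * b ^ 4 * G1 ^ 4 * G2 ^ 14 + 195448075200 * a ^ 2 * b ^ 4 * G1 ^ 5 * G2 ^ 13 - 264669268500 * a ^ 2 * b ^ 4 * G1 ^ 6 * G2 ^ 12 + 201652776000 * a ^ 2 * b ^ 4 * G1 ^ 7 * G2 ^ 11 - 83181770100 * a ^ 2 * b ^ 4 * G1 ^ 8 * G2 ^ 10 + 16804398000 * a ^ 2 * b ^ 4 * G1 ^ 9 * G2 ^ 9 - 1260329850 * a ^ 2 * b ^ 4 * G1 ^ 10 * G2 ^ 8 - 250925400 * a * b ^ 5 * G2 ^ 18 + 2822910750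 * a * b ^ 5 * G1 * G2 ^ 17 - 10664329500 * a * b ^ 5 * G1 ^ 2 * G2 ^ 16 + 17062927200 * a * b ^ 5 * G1 ^ 3 * G2 ^ 15 - 11633814000 * a * b ^ 5 * G1 ^ 4 * G2 ^ 14 + 2714556600 * a * b ^ 5 * G1 ^ 5 * G2 ^ 13 + 86493225 * b ^ 6 * G2 ^ 18

def LL19 (a b G1 G2 : R) : R :=
  54627300 * a ^ 6 * G1 ^ 19 - 2326762800 * a ^ 5 * b * G1 ^ 14 * G2 ^ 5 + 8531463600 * a ^ 5 * b * G1 ^ 15 * G2 ^ 4 - 10664329500 * a ^ 5 * b * G1 ^ 16 * G2 ^ 3 + 5645821500 * a ^ 5 * b * G1 ^ 17 * G2 ^ 2 - 1254627000 * a ^ 5 * b * G1 ^ 18 * G2 + 92446200 * a ^ 5 * b * G1 ^ 19 - 1680439800 * a ^ 4 * b ^ 2 * G1 ^ 9 * G2 ^ 10 + 18484837800 * a ^ 4 * b ^ 2 * G1 ^ 10 * G2 ^ 9 - 75619791000 * a ^ 4 * b ^ 2 * G1 ^ 11 * G2 ^ 8 + 151239582000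 * a ^ 4 * b ^ 2 * G1 ^ 12 * G2 ^ 7 - 162873396000 * a ^ 4 * b ^ 2 * G1 ^ 13 * G2 ^ 6 + 97724037600 * a ^ 4 * b ^ 2 * G1 ^ 14 * G2 ^ 5 - 32574679200 * a ^ 4 * b ^ 2 * G1 ^ 15 * G2 ^ 4 + 5816907000 * a ^ 4 * b ^ 2 * G1 ^ 16 * G2 ^ 3 - 513256500 * a ^ 4 * b ^ 2 * G1 ^ 17 * G2 ^ 2 + 19009500 * a ^ 4 * b ^ 2 * G1 ^ 18 * G2 - 200100 * a ^ 4 * b ^ 2 * G1 ^ 19 + 200100 * a ^ 2 * b ^ 4 * G2 ^ 19 - 19009500 * a ^ 2 * b ^ 4 * G1 * G2 ^ 18 + 513256500 * a ^ 2 * b ^ 4 * G1 ^ 2 * G2 ^ 17 - 5816907000 * a ^ 2 * b ^ 4 * G1 ^ 3 * G2 ^ 16 + 32574679200 * a ^ 2 * b ^ 4 * G1 ^ 4 * G2 ^ 15 - 97724037600 * a ^ 2 * b ^ 4 * G1 ^ 5 * G2 ^ 14 + 162873396000 * a ^ 2 * b ^ 4 * G1 ^ 6 * G2 ^ 13 - 151239582000 * a ^ 2 *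 b ^ 4 * G1 ^ 7 * G2 ^ 12 + 75619791000 * a ^ 2 * b ^ 4 * G1 ^ 8 * G2 ^ 11 - 18484837800 * a ^ 2 * b ^ 4 * G1 ^ 9 * G2 ^ 10 + 1680439800 * a ^ 2 * b ^ 4 * G1 ^ 10 * G2 ^ 9 + 92446200 * a * b ^ 5 * G2 ^ 19 - 1254627000 * a * b ^ 5 * G1 * G2 ^ 18 + 5645821500 * a * b ^ 5 * G1 ^ 2 * G2 ^ 17 - 10664329500 * a * b ^ 5 * G1 ^ 3 * G2 ^ 16 + 8531463600 * a * b ^ 5 * G1 ^ 4 * G2 ^ 15 - 2326762800 * a * b ^ 5 * G1 ^ 5 * G2 ^ 14 - 54627300 * b ^ 6 * G2 ^ 19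

def LL20 (a b G1 G2 : R) : R :=
  30045015 * a ^ 6 * G1 ^ 20 - 1706292720 * a ^ 5 * b * G1 ^ 15 * G2 ^ 5 + 5332164750 * a ^ 5 * b * G1 ^ 16 * G2 ^ 4 - 5645821500 * a ^ 5 * b * G1 ^ 17 * G2 ^ 3 + 2509254000 * a ^ 5 * b * G1 ^ 18 * G2 ^ 2 - 462231000 * a ^ 5 * b * G1 ^ 19 * G2 + 27733860 * a ^ 5 * b * G1 ^ 20 - 1848483780 * a ^ 4 * b ^ 2 * G1 ^ 10 * G2 ^ 10 + 16804398000 * a ^ 4 * b ^ 2 * G1 ^ 11 * G2 ^ 9 - 56714843250 * a ^ 4 * b ^ 2 * G1 ^ 12 * G2 ^ 8 + 93070512000 * a ^ 4 * b ^ 2 * G1 ^ 13 * G2 ^ 7 - 81436698000 * a ^ 4 * b ^ 2 * G1 ^ 14 * G2 ^ 6 + 39089615040 * a ^ 4 * b ^ 2 * G1 ^ 15 * G2 ^ 5 - 10179587250 * a ^ 4 * b ^ 2 * G1 ^ 16 * G2 ^ 4 + 1368684000 * a ^ 4 * b ^ 2 * G1 ^ 17 * G2 ^ 3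 - 85542750 * a ^ 4 * b ^ 2 * G1 ^ 18 * G2 ^ 2 + 2001000 * a ^ 4 * b ^ 2 * G1 ^ 19 * G2 - 10005 * a ^ 4 * b ^ 2 * G1 ^ 20 - 10005 * a ^ 2 * b ^ 4 * G2 ^ 20 + 2001000 * a ^ 2 * b ^ 4 * G1 * G2 ^ 19 - 85542750 * a ^ 2 * b ^ 4 * G1 ^ 2 * G2 ^ 18 + 1368684000 * a ^ 2 * b ^ 4 * G1 ^ 3 * G2 ^ 17 - 10179587250 * a ^ 2 * b ^ 4 * G1 ^ 4 * G2 ^ 16 + 39089615040 * a ^ 2 * b ^ 4 * G1 ^ 5 * G2 ^ 15 - 81436698000 * a ^ 2 * b ^ 4 * G1 ^ 6 * G2 ^ 14 + 93070512000 * a ^ 2 * b ^ 4 * G1 ^ 7 * G2 ^ 13 - 56714843250 * a ^ 2 * b ^ 4 * G1 ^ 8 * G2 ^ 12 + 16804398000 * a ^ 2 * b ^ 4 * G1 ^ 9 * G2 ^ 11 - 1848483780 * a ^ 2 * b ^ 4 * G1 ^ 10 * G2 ^ 10 - 27733860 * a * b ^ 5 * G2 ^ 20 + 462231000 * a * b ^ 5 * G1 * G2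 ^ 19 - 2509254000 * a * b ^ 5 * G1 ^ 2 * G2 ^ 18 + 5645821500 * a * b ^ 5 * G1 ^ 3 * G2 ^ 17 - 5332164750 * a * b ^ 5 * G1 ^ 4 * G2 ^ 16 + 1706292720 * a * b ^ 5 * G1 ^ 5 * G2 ^ 15 + 30045015 * b ^ 6 * G2 ^ 20

def LL21 (a b G1 G2 : R) : R :=
  14307150 * a ^ 6 * G1 ^ 21 - 1066432950 * a ^ 5 * b * G1 ^ 16 * G2 ^ 5 + 2822910750 * a ^ 5 * b * G1 ^ 17 * G2 ^ 4 - 2509254000 * a ^ 5 * b * G1 ^ 18 * G2 ^ 3 + 924462000 * a ^ 5 * b * G1 ^ 19 * G2 ^ 2 - 138669300 * a ^ 5 * b * G1 ^ 20 * G2 + 6603300 * a ^ 5 * b * G1 ^ 21 - 1680439800 * a ^ 4 * b ^ 2 * G1 ^ 11 * G2 ^ 10 + 12603298500 * a ^ 4 * b ^ 2 * G1 ^ 12 * G2 ^ 9 - 34901442000 * a ^ 4 * b ^ 2 * G1 ^ 13 * G2 ^ 8 + 46535256000 * a ^ 4 * b ^ 2 * G1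 ^ 14 * G2 ^ 7 - 32574679200 * a ^ 4 * b ^ 2 * G1 ^ 15 * G2 ^ 6 + 12215504700 * a ^ 4 * b ^ 2 * G1 ^ 16 * G2 ^ 5 - 2395197000 * a ^ 4 * b ^ 2 * G1 ^ 17 * G2 ^ 4 + 228114000 * a ^ 4 * b ^ 2 * G1 ^ 18 * G2 ^ 3 - 9004500 * a ^ 4 * b ^ 2 * G1 ^ 19 * G2 ^ 2 + 100050 * a ^ 4 * b ^ 2 * G1 ^ 20 * G2 - 100050 * a ^ 2 * b ^ 4 * G1 * G2 ^ 20 + 9004500 * a ^ 2 * b ^ 4 * G1 ^ 2 * G2 ^ 19 - 228114000 * a ^ 2 * b ^ 4 * G1 ^ 3 * G2 ^ 18 + 2395197000 * a ^ 2 * b ^ 4 * G1 ^ 4 * G2 ^ 17 - 12215504700 * a ^ 2 * b ^ 4 * G1 ^ 5 * G2 ^ 16 + 32574679200 * a ^ 2 * b ^ 4 * G1 ^ 6 * G2 ^ 15 - 46535256000 * a ^ 2 * b ^ 4 * G1 ^ 7 * G2 ^ 14 + 34901442000 * a ^ 2 * b ^ 4 * G1 ^ 8 * G2 ^ 13 - 12603298500 * a ^ 2 * b ^ 4 *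 G1 ^ 9 * G2 ^ 12 + 1680439800 * a ^ 2 * b ^ 4 * G1 ^ 10 * G2 ^ 11 + 6603300 * a * b ^ 5 * G2 ^ 21 - 138669300 * a * b ^ 5 * G1 * G2 ^ 20 + 924462000 * a * b ^ 5 * G1 ^ 2 * G2 ^ 19 - 2509254000 * a * b ^ 5 * G1 ^ 3 * G2 ^ 18 + 2822910750 * a * b ^ 5 * G1 ^ 4 * G2 ^ 17 - 1066432950 * a * b ^ 5 * G1 ^ 5 * G2 ^ 16 - 14307150 * b ^ 6 * G2 ^ 21

def LL22 (a b G1 G2 : R) : R :=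
  5852925 * a ^ 6 * G1 ^ 22 - 564582150 * a ^ 5 * b * G1 ^ 17 * G2 ^ 5 + 1254627000 * a ^ 5 * b * G1 ^ 18 * G2 ^ 4 - 924462000 * a ^ 5 * b * G1 ^ 19 * G2 ^ 3 + 277338600 * a ^ 5 * b * G1 ^ 20 * G2 ^ 2 - 33016500 * a ^ 5 * b * G1 ^ 21 * G2 + 1200600 * a ^ 5 * b * G1 ^ 22 - 1260329850 * a ^ 4 * b ^ 2 * G1 ^ 12 * G2 ^ 10 + 7755876000 * a ^ 4 * b ^ 2 * G1 ^ 13 * G2 ^ 9 - 17450721000 * a ^ 4 * b ^ 2 * G1 ^ 14 * G2 ^ 8 + 18614102400 * a ^ 4 * b ^ 2 * G1 ^ 15 * G2 ^ 7 - 10179587250 * a ^ 4 * b ^ 2 * G1 ^ 16 * G2 ^ 6 + 2874236400 * a ^ 4 * b ^ 2 * G1 ^ 17 * G2 ^ 5 - 399199500 * a ^ 4 * b ^ 2 * G1 ^ 18 * G2 ^ 4 + 24012000 * a ^ 4 * b ^ 2 * G1 ^ 19 * G2 ^ 3 - 450225 * a ^ 4 * b ^ 2 * G1 ^ 20 * G2 ^ 2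 - 450225 * a ^ 2 * b ^ 4 * G1 ^ 2 * G2 ^ 20 + 24012000 * a ^ 2 * b ^ 4 * G1 ^ 3 * G2 ^ 19 - 399199500 * a ^ 2 * b ^ 4 * G1 ^ 4 * G2 ^ 18 + 2874236400 * a ^ 2 * b ^ 4 * G1 ^ 5 * G2 ^ 17 - 10179587250 * a ^ 2 * b ^ 4 * G1 ^ 6 * G2 ^ 16 + 18614102400 * a ^ 2 * b ^ 4 * G1 ^ 7 * G2 ^ 15 - 17450721000 * a ^ 2 * b ^ 4 * G1 ^ 8 * G2 ^ 14 + 7755876000 * a ^ 2 * b ^ 4 * G1 ^ 9 * G2 ^ 13 - 1260329850 * a ^ 2 * b ^ 4 * G1 ^ 10 * G2 ^ 12 - 1200600 * a * b ^ 5 * G2 ^ 22 + 33016500 * a * b ^ 5 * G1 * G2 ^ 21 - 277338600 * a * b ^ 5 * G1 ^ 2 * G2 ^ 20 + 924462000 * a * b ^ 5 * G1 ^ 3 * G2 ^ 19 - 1254627000 * a * b ^ 5 * G1 ^ 4 * G2 ^ 18 + 564582150 * a * b ^ 5 * G1 ^ 5 * G2 ^ 17 + 5852925 * b ^ 6 * G2 ^ 22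

def LL23 (a b G1 G2 : R) : R :=
  2035800 * a ^ 6 * G1 ^ 23 - 250925400 * a ^ 5 * b * G1 ^ 18 * G2 ^ 5 + 462231000 * a ^ 5 * b * G1 ^ 19 * G2 ^ 4 - 277338600 * a ^ 5 * b * G1 ^ 20 * G2 ^ 3 + 66033000 * a ^ 5 * b * G1 ^ 21 * G2 ^ 2 - 6003000 * a ^ 5 * b * G1 ^ 22 * G2 + 156600 * a ^ 5 * b * G1 ^ 23 - 775587600 * a ^ 4 * b ^ 2 * G1 ^ 13 * G2 ^ 10 + 3877938000 * a ^ 4 * b ^ 2 * G1 ^ 14 * G2 ^ 9 - 6980288400 * a ^ 4 * b ^ 2 * G1 ^ 15 * G2 ^ 8 + 5816907000 * a ^ 4 * b ^ 2 * G1 ^ 16 * G2 ^ 7 - 2395197000 * a ^ 4 * b ^ 2 * G1 ^ 17 * G2 ^ 6 + 479039400 * a ^ 4 * b ^ 2 * G1 ^ 18 * G2 ^ 5 - 42021000 * a ^ 4 * b ^ 2 * G1 ^ 19 * G2 ^ 4 + 1200600 * a ^ 4 * b ^ 2 * G1 ^ 20 * G2 ^ 3 - 1200600 * a ^ 2 * b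 ^ 4 * G1 ^ 3 * G2 ^ 20 + 42021000 * a ^ 2 * b ^ 4 * G1 ^ 4 * G2 ^ 19 - 479039400 * a ^ 2 * b ^ 4 * G1 ^ 5 * G2 ^ 18 + 2395197000 * a ^ 2 * b ^ 4 * G1 ^ 6 * G2 ^ 17 - 5816907000 * a ^ 2 * b ^ 4 * G1 ^ 7 * G2 ^ 16 + 6980288400 * a ^ 2 * b ^ 4 * G1 ^ 8 * G2 ^ 15 - 3877938000 * a ^ 2 * b ^ 4 * G1 ^ 9 * G2 ^ 14 + 775587600 * a ^ 2 * b ^ 4 * G1 ^ 10 * G2 ^ 13 + 156600 * a * b ^ 5 * G2 ^ 23 - 6003000 * a * b ^ 5 * G1 * G2 ^ 22 + 66033000 * a * b ^ 5 * G1 ^ 2 * G2 ^ 21 - 277338600 * a * b ^ 5 * G1 ^ 3 * G2 ^ 20 + 462231000 * a * b ^ 5 * G1 ^ 4 * G2 ^ 19 - 250925400 * a * b ^ 5 * G1 ^ 5 * G2 ^ 18 - 2035800 * b ^ 6 * G2 ^ 23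

def LL24 (a b G1 G2 : R) : R :=
  593775 * a ^ 6 * G1 ^ 24 - 92446200 * a ^ 5 * b * G1 ^ 19 * G2 ^ 5 + 138669300 * a ^ 5 * b * G1 ^ 20 * G2 ^ 4 - 66033000 * a ^ 5 * b * G1 ^ 21 * G2 ^ 3 + 12006000 * a ^ 5 * b * G1 ^ 22 * G2 ^ 2 - 783000 * a ^ 5 * b * G1 ^ 23 * G2 + 13050 * a ^ 5 * b * G1 ^ 24 - 387793800 * a ^ 4 * b ^ 2 * G1 ^ 14 * G2 ^ 10 + 1551175200 * a ^ 4 * b ^ 2 * G1 ^ 15 * G2 ^ 9 - 2181340125 * a ^ 4 * b ^ 2 * G1 ^ 16 * G2 ^ 8 + 1368684000 * a ^ 4 * b ^ 2 * G1 ^ 17 * G2 ^ 7 - 399199500 * a ^ 4 * b ^ 2 * G1 ^ 18 * G2 ^ 6 + 50425200 * a ^ 4 * b ^ 2 * G1 ^ 19 * G2 ^ 5 - 2101050 * a ^ 4 * b ^ 2 * G1 ^ 20 * G2 ^ 4 - 2101050 * a ^ 2 * b ^ 4 * G1 ^ 4 * G2 ^ 20 + 50425200 * a ^ 2 * b ^ 4 * G1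 ^ 5 * G2 ^ 19 - 399199500 * a ^ 2 * b ^ 4 * G1 ^ 6 * G2 ^ 18 + 1368684000 * a ^ 2 * b ^ 4 * G1 ^ 7 * G2 ^ 17 - 2181340125 * a ^ 2 * b ^ 4 * G1 ^ 8 * G2 ^ 16 + 1551175200 * a ^ 2 * b ^ 4 * G1 ^ 9 * G2 ^ 15 - 387793800 * a ^ 2 * b ^ 4 * G1 ^ 10 * G2 ^ 14 - 13050 * a * b ^ 5 * G2 ^ 24 + 783000 * a * b ^ 5 * G1 * G2 ^ 23 - 12006000 * a * b ^ 5 * G1 ^ 2 * G2 ^ 22 + 66033000 * a * b ^ 5 * G1 ^ 3 * G2 ^ 21 - 138669300 * a * b ^ 5 * G1 ^ 4 * G2 ^ 20 + 92446200 * a * b ^ 5 * G1 ^ 5 * G2 ^ 19 + 593775 * b ^ 6 * G2 ^ 24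

def LL25 (a b G1 G2 : R) : R :=
  142506 * a ^ 6 * G1 ^ 25 - 27733860 * a ^ 5 * b * G1 ^ 20 * G2 ^ 5 + 33016500 * a ^ 5 * b * G1 ^ 21 * G2 ^ 4 - 12006000 * a ^ 5 * b * G1 ^ 22 * G2 ^ 3 + 1566000 * a ^ 5 * b * G1 ^ 23 * G2 ^ 2 - 65250 * a ^ 5 * b * G1 ^ 24 * G2 + 522 * a ^ 5 * b * G1 ^ 25 - 155117520 * a ^ 4 * b ^ 2 * G1 ^ 15 * G2 ^ 10 + 484742250 * a ^ 4 * b ^ 2 * G1 ^ 16 * G2 ^ 9 - 513256500 * a ^ 4 * b ^ 2 * G1 ^ 17 * G2 ^ 8 + 228114000 * a ^ 4 * b ^ 2 * G1 ^ 18 * G2 ^ 7 - 42021000 * a ^ 4 * b ^ 2 * G1 ^ 19 * G2 ^ 6 + 2521260 * a ^ 4 * b ^ 2 * G1 ^ 20 * G2 ^ 5 - 2521260 * a ^ 2 * b ^ 4 * G1 ^ 5 * G2 ^ 20 + 42021000 * a ^ 2 * b ^ 4 * G1 ^ 6 * G2 ^ 19 - 228114000 * a ^ 2 * b ^ 4 * G1 ^ 7 *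 G2 ^ 18 + 513256500 * a ^ 2 * b ^ 4 * G1 ^ 8 * G2 ^ 17 - 484742250 * a ^ 2 * b ^ 4 * G1 ^ 9 * G2 ^ 16 + 155117520 * a ^ 2 * b ^ 4 * G1 ^ 10 * G2 ^ 15 + 522 * a * b ^ 5 * G2 ^ 25 - 65250 * a * b ^ 5 * G1 * G2 ^ 24 + 1566000 * a * b ^ 5 * G1 ^ 2 * G2 ^ 23 - 12006000 * a * b ^ 5 * G1 ^ 3 * G2 ^ 22 + 33016500 * a * b ^ 5 * G1 ^ 4 * G2 ^ 21 - 27733860 * a * b ^ 5 * G1 ^ 5 * G2 ^ 20 - 142506 * b ^ 6 * G2 ^ 25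

def LL26 (a b G1 G2 : R) : R :=
  27405 * a ^ 6 * G1 ^ 26 - 6603300 * a ^ 5 * b * G1 ^ 21 * G2 ^ 5 + 6003000 * a ^ 5 * b * G1 ^ 22 * G2 ^ 4 - 1566000 * a ^ 5 * b * G1 ^ 23 * G2 ^ 3 + 130500 * a ^ 5 * b * G1 ^ 24 * G2 ^ 2 - 2610 * a ^ 5 * b * G1 ^ 25 * G2 - 48474225 * a ^ 4 * b ^ 2 * G1 ^ 16 * G2 ^ 10 + 114057000 * a ^ 4 * b ^ 2 * G1 ^ 17 * G2 ^ 9 - 85542750 * a ^ 4 * b ^ 2 * G1 ^ 18 * G2 ^ 8 + 24012000 * a ^ 4 * b ^ 2 * G1 ^ 19 * G2 ^ 7 - 2101050 * a ^ 4 * b ^ 2 * G1 ^ 20 * G2 ^ 6 - 2101050 * a ^ 2 * b ^ 4 * G1 ^ 6 * G2 ^ 20 + 24012000 * a ^ 2 * b ^ 4 * G1 ^ 7 * G2 ^ 19 - 85542750 * a ^ 2 * b ^ 4 * G1 ^ 8 * G2 ^ 18 + 114057000 * a ^ 2 * b ^ 4 * G1 ^ 9 * G2 ^ 17 - 48474225 * a ^ 2 * b ^ 4 *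 G1 ^ 10 * G2 ^ 16 + 2610 * a * b ^ 5 * G1 * G2 ^ 25 - 130500 * a * b ^ 5 * G1 ^ 2 * G2 ^ 24 + 1566000 * a * b ^ 5 * G1 ^ 3 * G2 ^ 23 - 6003000 * a * b ^ 5 * G1 ^ 4 * G2 ^ 22 + 6603300 * a * b ^ 5 * G1 ^ 5 * G2 ^ 21 + 27405 * b ^ 6 * G2 ^ 26

def LL27 (a b G1 G2 : R) : R :=
  4060 * a ^ 6 * G1 ^ 27 - 1200600 * a ^ 5 * b * G1 ^ 22 * G2 ^ 5 + 783000 * a ^ 5 * b * G1 ^ 23 * G2 ^ 4 - 130500 * a ^ 5 * b * G1 ^ 24 * G2 ^ 3 + 5220 * a ^ 5 * b * G1 ^ 25 * G2 ^ 2 - 11405700 * a ^ 4 * b ^ 2 * G1 ^ 17 * G2 ^ 10 + 19009500 * a ^ 4 * b ^ 2 * G1 ^ 18 * G2 ^ 9 - 9004500 * a ^ 4 * b ^ 2 * G1 ^ 19 * G2 ^ 8 + 1200600 * a ^ 4 * b ^ 2 * G1 ^ 20 * G2 ^ 7 - 1200600 * a ^ 2 * b ^ 4 * G1 ^ 7 * G2 ^ 20 + 9004500 * a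 ^ 2 * b ^ 4 * G1 ^ 8 * G2 ^ 19 - 19009500 * a ^ 2 * b ^ 4 * G1 ^ 9 * G2 ^ 18 + 11405700 * a ^ 2 * b ^ 4 * G1 ^ 10 * G2 ^ 17 + 5220 * a * b ^ 5 * G1 ^ 2 * G2 ^ 25 - 130500 * a * b ^ 5 * G1 ^ 3 * G2 ^ 24 + 783000 * a * b ^ 5 * G1 ^ 4 * G2 ^ 23 - 1200600 * a * b ^ 5 * G1 ^ 5 * G2 ^ 22 - 4060 * b ^ 6 * G2 ^ 27

def LL28 (a b G1 G2 : R) : R :=
  435 * a ^ 6 * G1 ^ 28 - 156600 * a ^ 5 * b * G1 ^ 23 * G2 ^ 5 + 65250 * a ^ 5 * b * G1 ^ 24 * G2 ^ 4 - 5220 * a ^ 5 * b * G1 ^ 25 * G2 ^ 3 - 1900950 * a ^ 4 * b ^ 2 * G1 ^ 18 * G2 ^ 10 + 2001000 * a ^ 4 * b ^ 2 * G1 ^ 19 * G2 ^ 9 - 450225 * a ^ 4 * b ^ 2 * G1 ^ 20 * G2 ^ 8 - 450225 * a ^ 2 * b ^ 4 * G1 ^ 8 * G2 ^ 20 + 2001000 * a ^ 2 * b ^ 4 * G1 ^ 9 * G2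 ^ 19 - 1900950 * a ^ 2 * b ^ 4 * G1 ^ 10 * G2 ^ 18 + 5220 * a * b ^ 5 * G1 ^ 3 * G2 ^ 25 - 65250 * a * b ^ 5 * G1 ^ 4 * G2 ^ 24 + 156600 * a * b ^ 5 * G1 ^ 5 * G2 ^ 23 + 435 * b ^ 6 * G2 ^ 28

def LL29 (a b G1 G2 : R) : R :=
  30 * a ^ 6 * G1 ^ 29 - 13050 * a ^ 5 * b * G1 ^ 24 * G2 ^ 5 + 2610 * a ^ 5 * b * G1 ^ 25 * G2 ^ 4 - 200100 * a ^ 4 * b ^ 2 * G1 ^ 19 * G2 ^ 10 + 100050 * a ^ 4 * b ^ 2 * G1 ^ 20 * G2 ^ 9 - 100050 * a ^ 2 * b ^ 4 * G1 ^ 9 * G2 ^ 20 + 200100 * a ^ 2 * b ^ 4 * G1 ^ 10 * G2 ^ 19 + 2610 * a * b ^ 5 * G1 ^ 4 * G2 ^ 25 - 13050 * a * b ^ 5 * G1 ^ 5 * G2 ^ 24 - 30 * b ^ 6 * G2 ^ 29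

def LL30 (a b G1 G2 : R) : R :=
  1 * a ^ 6 * G1 ^ 30 - 522 * a ^ 5 * b * G1 ^ 25 * G2 ^ 5 - 10005 * a ^ 4 * b ^ 2 * G1 ^ 20 * G2 ^ 10 - 10005 * a ^ 2 * b ^ 4 * G1 ^ 10 * G2 ^ 20 + 522 * a * b ^ 5 * G1 ^ 5 * G2 ^ 25 + 1 * b ^ 6 * G2 ^ 30

end Fermat.Agent.S52.I2B
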