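import Fermat.Agent.S52.I2B_Defs

/-! # S52, identity (B-2), shadow version: expansion in powers of `v`. -/

set_option autoImplicit false
set_option linter.unusedVariables false
set_option linter.unusedSimpArgs false
set_option maxHeartbeats 4000000

namespace Fermat.Agent.S52.I2B

variable {R : Type*} [CommRing R]

theorem expand (a b u v G1 G2 : R) :
    c6F (a * (u + v * G1) ^ 5) (b * (u - v * G2) ^ 5) =
      LL0 a b G1 G2 * u ^ 30 * v ^ 0 +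
      LL1 a b G1 G2 * u ^ 29 * v ^ 1 +
      LL2 a b G1 G2 * u ^ 28 * v ^ 2 +
      LL3 a b G1 G2 * u ^ 27 * v ^ 3 +
      LL4 a b G1 G2 * u ^ 26 * v ^ 4 +
      LL5 a b G1 G2 * u ^ 25 * v ^ 5 +
      LL6 a b G1 G2 * u ^ 24 * v ^ 6 +
      LL7 a b G1 G2 * u ^ 23 * v ^ 7 +
      LL8 a b G1 G2 * u ^ 22 * v ^ 8 +
      LL9 a b G1 G2 * u ^ 21 * v ^ 9 +
      LL10 a b G1 G2 * u ^ 20 * v ^ 10 +
      LL11 a b G1 G2 * u ^ 19 * v ^ 11 +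
      LL12 a b G1 G2 * u ^ 18 * v ^ 12 +
      LL13 a b G1 G2 * u ^ 17 * v ^ 13 +
      LL14 a b G1 G2 * u ^ 16 * v ^ 14 +
      LL15 a b G1 G2 * u ^ 15 * v ^ 15 +
      LL16 a b G1 G2 * u ^ 14 * v ^ 16 +
      LL17 a b G1 G2 * u ^ 13 * v ^ 17 +
      LL18 a b G1 G2 * u ^ 12 * v ^ 18 +
      LL19 a b G1 G2 * u ^ 11 * v ^ 19 +
      LL20 a b G1 G2 * u ^ 10 * v ^ 20 +
      LL21 a b G1 G2 * u ^ 9 * v ^ 21 +
      LL22 a b G1 G2 * u ^ 8 * v ^ 22 +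
      LL23 a b G1 G2 * u ^ 7 * v ^ 23 +
      LL24 a b G1 G2 * u ^ 6 * v ^ 24 +
      LL25 a b G1 G2 * u ^ 5 * v ^ 25 +
      LL26 a b G1 G2 * u ^ 4 * v ^ 26 +
      LL27 a b G1 G2 * u ^ 3 * v ^ 27 +
      LL28 a b G1 G2 * u ^ 2 * v ^ 28 +
      LL29 a b G1 G2 * u ^ 1 * v ^ 29 +
      LL30 a b G1 G2 * u ^ 0 * v ^ 30 := by
  simp only [c6F, LL0, LL1, LL2, LL3, LL4, LL5, LL6, LL7, LL8, LL9, LL10, LL11, LL12, LL13, LL14, LL15, LL16, LL17, LL18, LL19, LL20, LL21, LL22, LL23, LL24, LL25, LL26, LL27, LL28, LL29, LL30]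
  ring

end Fermat.Agent.S52.I2B
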