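import Fermat.Agent.S52.XId

/-! # S52 (RT), slice: the kernel of reduction `E₁ = {O} ∪ {1 < v x}` of an integral Weierstrass
equation (all `aᵢ`, any valuation) is a subgroup without torsion of unit order (helper2).

The proof only uses the `x`-coordinate identities `stmt_XId`. With `u(P) = 1 / x(P)`, `u(O) = 0`:
`(u(P+Q) + u(P-Q)) * D = N`, `u(P+Q) * u(P-Q) * D = (u(P) - u(Q))²`. -/

set_option autoImplicit false

open WeierstrassCurve WeierstrassCurve.Affine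

namespace Fermat.Agent.S52.RTKer

variable {K : Type} [Field K]
variable {Γ₀ : Type*} [LinearOrderedCommGroupWithZero Γ₀] (v : Valuation K Γ₀)

/-- The kernel of reduction. -/
def InE1 {W : Affine K} (P : W.Point) : Prop :=
  match P with
  | .zero => True
  | .some x _ _ => 1 < v x

/-- `1 / x`. -/
def uc {W : Affine K} (P : W.Point) : K :=
  match P with
  | .zero => 0
  | .some x _ _ => x⁻¹

@[simp] theorem InE1_zero {W : Affine K} : InE1 v (0 : W.Point) := trivial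

@[simp] theorem InE1_some {W : Affine K} {x y : K} (h : W.Nonsingular x y) :
    InE1 v (Point.some x y h) ↔ 1 < v x := Iff.rfl

@[simp] theorem uc_zero {W : Affine K} : uc (0 : W.Point) = 0 := rfl

@[simp] theorem uc_some {W : Affine K} {x y : K} (h : W.Nonsingular x y) :
    uc (Point.some x y h) = x⁻¹ := rfl

/-- integrality of the `bᵢ` -/
structure BInt (W : Affine K) : Prop where
  b₂ : v W.b₂ ≤ 1
  b₄ : v W.b₄ ≤ 1
  b₆ : v W.b₆ ≤ 1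
  b₈ : v W.b₈ ≤ 1

theorem v_ofNat_le_one (n : ℕ) : v (n : K) ≤ 1 := by
  induction n with
  | zero => simp
  | succ n ih =>
    rw [Nat.cast_succ]
    exact Valuation.map_add_le v ih (by simp)

theorem bInt_of_a {W : Affine K} (h₁ : v W.a₁ ≤ 1) (h₂ : v W.a₂ ≤ 1) (h₃ : v W.a₃ ≤ 1)
    (h₄ : v W.a₄ ≤ 1) (h₆ : v W.a₆ ≤ 1) : BInt v W := by
  have m₁ : W.a₁ ∈ v.integer := h₁
  have m₂ : W.a₂ ∈ v.integer := h₂
  have m₃ : W.a₃ ∈ v.integer := h₃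
  have m₄ : W.a₄ ∈ v.integer := h₄
  have m₆ : W.a₆ ∈ v.integer := h₆
  have n2 : (2 : K) ∈ v.integer := by exact_mod_cast natCast_mem v.integer 2
  have n4 : (4 : K) ∈ v.integer := by exact_mod_cast natCast_mem v.integer 4
  refine ⟨?_, ?_, ?_, ?_⟩
  · show W.b₂ ∈ v.integer
    rw [WeierstrassCurve.b₂]
    exact add_mem (pow_mem m₁ 2) (mul_mem n4 m₂)
  · show W.b₄ ∈ v.integer
    rw [WeierstrassCurve.b₄]
    exact add_mem (mul_mem n2 m₄) (mul_mem m₁ m₃)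
  · show W.b₆ ∈ v.integer
    rw [WeierstrassCurve.b₆]
    exact add_mem (pow_mem m₃ 2) (mul_mem n4 m₆)
  · show W.b₈ ∈ v.integer
    rw [WeierstrassCurve.b₈]
    exact sub_mem (add_mem (sub_mem (add_mem (mul_mem (pow_mem m₁ 2) m₆)
      (mul_mem (mul_mem n4 m₂) m₆)) (mul_mem (mul_mem m₁ m₃) m₄)) (mul_mem m₂ (pow_mem m₃ 2)))
      (pow_mem m₄ 2)

/-- numerator of `u(P+Q) + u(P-Q)` -/
def Nf (W : Affine K) (s t : K) : K :=
  2 * (s + t) + W.b₂ * s * t + W.b₄ * (s + t) * s * t + W.b₆ * s ^ 2 * t ^ 2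

/-- the correction term of the numerator -/
def Nr (W : Affine K) (s t : K) : K :=
  W.b₂ + W.b₄ * (s + t) + W.b₆ * s * t

/-- the correction term of the denominator -/
def Dr (W : Affine K) (s t : K) : K :=
  W.b₄ + W.b₆ * (s + t) + W.b₈ * s * t

/-- common denominator -/
def Df (W : Affine K) (s t : K) : K := 1 - s * t * Dr W s t

theorem Nf_eq (W : Affine K) (s t : K) : Nf W s t = 2 * (s + t) + s * t * Nr W s t := by
  unfold Nf Nr; ring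

variable {v}

theorem v_mul_lt {a b : K} (ha : v a < 1) (hb : v b ≤ 1) : v (a * b) < 1 := by
  rw [map_mul]
  exact mul_lt_one_of_nonneg_of_lt_one_left zero_le ha hb

theorem v_mul_le {a b : K} (ha : v a ≤ 1) (hb : v b ≤ 1) : v (a * b) ≤ 1 := by
  rw [map_mul]
  exact mul_le_one₀ ha zero_le hb

theorem v_Nr {W : Affine K} (hW : BInt v W) {s t : K} (hs : v s ≤ 1) (ht : v t ≤ 1) :
    v (Nr W s t) ≤ 1 := by
  unfold Nr
  exact Valuation.map_add_le v (Valuation.map_add_le v hW.b₂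
    (v_mul_le hW.b₄ (Valuation.map_add_le v hs ht))) (v_mul_le (v_mul_le hW.b₆ hs) ht)

theorem v_Dr {W : Affine K} (hW : BInt v W) {s t : K} (hs : v s ≤ 1) (ht : v t ≤ 1) :
    v (Dr W s t) ≤ 1 := by
  unfold Dr
  exact Valuation.map_add_le v (Valuation.map_add_le v hW.b₄
    (v_mul_le hW.b₆ (Valuation.map_add_le v hs ht))) (v_mul_le (v_mul_le hW.b₈ hs) ht)

theorem v_Df {W : Affine K} (hW : BInt v W) {s t : K} (hs : v s < 1) (ht : v t < 1) :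
    v (Df W s t) = 1 := by
  unfold Df
  exact Valuation.map_one_sub_of_lt v (v_mul_lt (v_mul_lt hs ht.le) (v_Dr hW hs.le ht.le))

theorem v_two : v (2 : K) ≤ 1 := by exact_mod_cast v_ofNat_le_one v 2

theorem v_Nf {W : Affine K} (hW : BInt v W) {s t : K} (hs : v s < 1) (ht : v t < 1) :
    v (Nf W s t) < 1 := by
  rw [Nf_eq]
  apply Valuation.map_add_lt v
  · rw [mul_comm]
    exact v_mul_lt (Valuation.map_add_lt v hs ht) v_two
  · exact v_mul_lt (v_mul_lt hs ht.le) (v_Nr hW hs.le ht.le)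

theorem both_lt {a b : K} (hs : v (a + b) < 1) (hp : v (a * b) < 1) : v a < 1 ∧ v b < 1 := by
  have aux : ∀ a b : K, v (a + b) < 1 → v (a * b) < 1 → v a < 1 := by
    intro a b hs hp
    by_contra ha
    rw [not_lt] at ha
    have hb : v b < 1 := by
      by_contra hb
      rw [not_lt] at hb
      rw [map_mul] at hp
      exact absurd (one_le_mul_of_one_le_of_one_le ha hb) (not_le.2 hp)
    have : v (a + b) = v a := Valuation.map_add_eq_of_lt_left v (lt_of_lt_of_le hb ha)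
    rw [this] at hs
    exact absurd ha (not_le.2 hs)
  exact ⟨aux a b hs hp, aux b a (by rwa [add_comm]) (by rwa [mul_comm])⟩

theorem one_lt_of_inv_lt {x : K} (hx : x ≠ 0) (h : v x⁻¹ < 1) : 1 < v x := by
  rw [map_inv₀] at h
  exact (inv_lt_one₀ ((Valuation.pos_iff v).mpr hx)).mp h

theorem ne_zero_of_one_lt {x : K} (h : 1 < v x) : x ≠ 0 := by
  rintro rfl
  simp at h

theorem v_uc_lt {W : Affine K} (P : W.Point) (hP : InE1 v P) : v (uc P) < 1 := by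
  rcases P with _ | ⟨x, y, h⟩
  · simp [uc]
  · have hx : 1 < v x := hP
    rw [uc_some, map_inv₀]
    exact inv_lt_one_of_one_lt₀ hx

theorem InE1_neg {W : Affine K} (P : W.Point) (hP : InE1 v P) : InE1 v (-P) := by
  rcases P with _ | ⟨x, y, h⟩
  · exact trivial
  · exact hP

theorem uc_neg {W : Affine K} (P : W.Point) : uc (-P) = uc P := by
  rcases P with _ | ⟨x, y, h⟩
  · rfl
  · rfl

variable [DecidableEq K]

/-- generic case -/
theorem key_ne {W : Affine K} (hW : BInt v W) {x₁ y₁ x₂ y₂ : K} (h₁ : W.Nonsingular x₁ y₁)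
    (h₂ : W.Nonsingular x₂ y₂) (hx₁ : 1 < v x₁) (hx₂ : 1 < v x₂) (hne : x₁ ≠ x₂) :
    InE1 v (Point.some _ _ h₁ + Point.some _ _ h₂) ∧
    InE1 v (Point.some _ _ h₁ - Point.some _ _ h₂) ∧
    (uc (Point.some _ _ h₁ + Point.some _ _ h₂) + uc (Point.some _ _ h₁ - Point.some _ _ h₂))
      * Df W x₁⁻¹ x₂⁻¹ = Nf W x₁⁻¹ x₂⁻¹ := by
  obtain ⟨x₃, y₃, x₄, y₄, h₃, h₄, hadd, hsub, hS, hP⟩ := (stmt_XId K W x₁ y₁ x₂ y₂ h₁ h₂).1 hne
  rw [hadd, hsub]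
  have hx₁0 := ne_zero_of_one_lt hx₁
  have hx₂0 := ne_zero_of_one_lt hx₂
  have hu₁ : v x₁⁻¹ < 1 := by rw [map_inv₀]; exact inv_lt_one_of_one_lt₀ hx₁
  have hu₂ : v x₂⁻¹ < 1 := by rw [map_inv₀]; exact inv_lt_one_of_one_lt₀ hx₂
  have hD := v_Df hW hu₁ hu₂
  have hN := v_Nf hW hu₁ hu₂
  have hD0 : Df W x₁⁻¹ x₂⁻¹ ≠ 0 := by
    intro h
    rw [h] at hD
    simp at hD
  have eP : x₁ ^ 2 * x₂ ^ 2 - W.b₄ * x₁ * x₂ - W.b₆ * (x₁ + x₂) - W.b₈
      = x₁ ^ 2 * x₂ ^ 2 * Df W x₁⁻¹ x₂⁻¹ := by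
    unfold Df Dr
    field_simp
    ring
  have eS : 2 * x₁ * x₂ * (x₁ + x₂) + W.b₂ * x₁ * x₂ + W.b₄ * (x₁ + x₂) + W.b₆
      = x₁ ^ 2 * x₂ ^ 2 * Nf W x₁⁻¹ x₂⁻¹ := by
    unfold Nf
    field_simp
    ring
  rw [eP] at hP
  rw [eS] at hS
  have hd : x₁ - x₂ ≠ 0 := sub_ne_zero.mpr hne
  have h34 : x₃ * x₄ ≠ 0 := by
    intro h
    rw [h, mul_zero] at hP
    exact (mul_ne_zero (mul_ne_zero (pow_ne_zero 2 hx₁0) (pow_ne_zero 2 hx₂0)) hD0) hP.symm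
  have hx₃0 : x₃ ≠ 0 := left_ne_zero_of_mul h34
  have hx₄0 : x₄ ≠ 0 := right_ne_zero_of_mul h34
  have hsum : (x₃⁻¹ + x₄⁻¹) * Df W x₁⁻¹ x₂⁻¹ = Nf W x₁⁻¹ x₂⁻¹ := by
    have h1 : (x₁ - x₂) ^ 2 * (x₁ ^ 2 * x₂ ^ 2) * (x₃ * x₄) ≠ 0 :=
      mul_ne_zero (mul_ne_zero (pow_ne_zero 2 hd)
        (mul_ne_zero (pow_ne_zero 2 hx₁0) (pow_ne_zero 2 hx₂0))) h34
    apply mul_left_cancel₀ h1
    have e1 : (x₃ * x₄) * (x₃⁻¹ + x₄⁻¹) = x₃ + x₄ := by field_simp; ring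
    calc (x₁ - x₂) ^ 2 * (x₁ ^ 2 * x₂ ^ 2) * (x₃ * x₄) * ((x₃⁻¹ + x₄⁻¹) * Df W x₁⁻¹ x₂⁻¹)
        = ((x₁ - x₂) ^ 2 * ((x₃ * x₄) * (x₃⁻¹ + x₄⁻¹))) * (x₁ ^ 2 * x₂ ^ 2 * Df W x₁⁻¹ x₂⁻¹) := by
          ring
      _ = (x₁ ^ 2 * x₂ ^ 2 * Nf W x₁⁻¹ x₂⁻¹) * ((x₁ - x₂) ^ 2 * (x₃ * x₄)) := by
          rw [e1, hS, hP]
      _ = _ := by ring
  have hprod : (x₃⁻¹ * x₄⁻¹) * Df W x₁⁻¹ x₂⁻¹ = (x₁⁻¹ - x₂⁻¹) ^ 2 := by
    have h1 : (x₁ ^ 2 * x₂ ^ 2) * (x₃ * x₄) ≠ 0 :=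
      mul_ne_zero (mul_ne_zero (pow_ne_zero 2 hx₁0) (pow_ne_zero 2 hx₂0)) h34
    apply mul_left_cancel₀ h1
    have e1 : (x₃ * x₄) * (x₃⁻¹ * x₄⁻¹) = 1 := by field_simp
    have e2 : x₁ ^ 2 * x₂ ^ 2 * (x₁⁻¹ - x₂⁻¹) ^ 2 = (x₁ - x₂) ^ 2 := by field_simp; ring
    calc (x₁ ^ 2 * x₂ ^ 2) * (x₃ * x₄) * ((x₃⁻¹ * x₄⁻¹) * Df W x₁⁻¹ x₂⁻¹)
        = ((x₃ * x₄) * (x₃⁻¹ * x₄⁻¹)) * (x₁ ^ 2 * x₂ ^ 2 * Df W x₁⁻¹ x₂⁻¹) := by ring
      _ = (x₁ - x₂) ^ 2 * (x₃ * x₄) := by rw [e1, one_mul, hP]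
      _ = _ := by rw [← e2]; ring
  have hvs : v (x₃⁻¹ + x₄⁻¹) < 1 := by
    have := congrArg v hsum
    rw [map_mul, hD, mul_one] at this
    rw [this]
    exact hN
  have hvp : v (x₃⁻¹ * x₄⁻¹) < 1 := by
    have := congrArg v hprod
    rw [map_mul, hD, mul_one] at this
    rw [this, sq]
    exact v_mul_lt (Valuation.map_sub_lt v hu₁ hu₂) (Valuation.map_sub_lt v hu₁ hu₂).le
  obtain ⟨h3, h4⟩ := both_lt hvs hvp
  exact ⟨one_lt_of_inv_lt hx₃0 h3, one_lt_of_inv_lt hx₄0 h4, hsum⟩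

/-- duplication -/
theorem key_dbl {W : Affine K} (hW : BInt v W) (P : W.Point) (hP : InE1 v P) :
    InE1 v ((2 : ℕ) • P) ∧ uc ((2 : ℕ) • P) * Df W (uc P) (uc P) = Nf W (uc P) (uc P) := by
  rcases P with _ | ⟨x, y, h⟩
  · have : (2 : ℕ) • (Point.zero : W.Point) = 0 := smul_zero _
    rw [this]
    refine ⟨trivial, ?_⟩
    simp [uc, Nf]
  have hx : 1 < v x := hP
  have hx0 := ne_zero_of_one_lt hx
  have hu : v x⁻¹ < 1 := by rw [map_inv₀]; exact inv_lt_one_of_one_lt₀ hx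
  have hD := v_Df hW hu hu
  have hN := v_Nf hW hu hu
  have hD0 : Df W x⁻¹ x⁻¹ ≠ 0 := by
    intro h
    rw [h] at hD
    simp at hD
  have eN : 4 * x ^ 3 + W.b₂ * x ^ 2 + 2 * W.b₄ * x + W.b₆ = x ^ 4 * Nf W x⁻¹ x⁻¹ := by
    unfold Nf
    field_simp
    ring
  have eD : x ^ 4 - W.b₄ * x ^ 2 - 2 * W.b₆ * x - W.b₈ = x ^ 4 * Df W x⁻¹ x⁻¹ := by
    unfold Df Dr
    field_simp
    ring
  obtain ⟨-, hX2, hX3⟩ := stmt_XId K W x y x y h h
  rw [uc_some]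
  rcases hQ : (2 : ℕ) • Point.some x y h with _ | ⟨x₃, y₃, h₃⟩
  · refine ⟨trivial, ?_⟩
    have h0 := hX2.mp hQ
    rw [eN] at h0
    have : Nf W x⁻¹ x⁻¹ = 0 := by
      rcases mul_eq_zero.mp h0 with h | h
      · exact absurd h (pow_ne_zero 4 hx0)
      · exact h
    rw [this]
    simp [uc]
  · have h3 := hX3 x₃ y₃ h₃ hQ
    rw [eN, eD] at h3
    have h3' : x₃ * Nf W x⁻¹ x⁻¹ = Df W x⁻¹ x⁻¹ := by
      apply mul_left_cancel₀ (pow_ne_zero 4 hx0)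
      linear_combination h3
    have hx₃0 : x₃ ≠ 0 := by
      rintro rfl
      rw [zero_mul] at h3'
      exact hD0 h3'.symm
    have e : x₃⁻¹ * Df W x⁻¹ x⁻¹ = Nf W x⁻¹ x⁻¹ := by
      rw [← h3']
      field_simp
    refine ⟨?_, e⟩
    apply one_lt_of_inv_lt hx₃0
    have := congrArg v e
    rw [map_mul, hD, mul_one] at this
    rw [this]
    exact hN

/-- the two identities / closure for arbitrary points of `E₁` -/
theorem key {W : Affine K} (hW : BInt v W) (P Q : W.Point) (hP : InE1 v P) (hQ : InE1 v Q) :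
    InE1 v (P + Q) ∧ InE1 v (P - Q) ∧
      (uc (P + Q) + uc (P - Q)) * Df W (uc P) (uc Q) = Nf W (uc P) (uc Q) := by
  rcases P with _ | ⟨x₁, y₁, h₁⟩
  · have e1 : (Point.zero : W.Point) + Q = Q := zero_add Q
    have e2 : (Point.zero : W.Point) - Q = -Q := zero_sub Q
    rw [e1, e2, uc_neg]
    refine ⟨hQ, InE1_neg Q hQ, ?_⟩
    simp only [uc, Df, Nf]
    ring
  rcases Q with _ | ⟨x₂, y₂, h₂⟩
  · have e1 : Point.some x₁ y₁ h₁ + (Point.zero : W.Point) = Point.some x₁ y₁ h₁ := add_zero _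
    have e2 : Point.some x₁ y₁ h₁ - (Point.zero : W.Point) = Point.some x₁ y₁ h₁ := sub_zero _
    rw [e1, e2]
    refine ⟨hP, hP, ?_⟩
    simp only [uc, Df, Nf]
    ring
  by_cases hne : x₁ = x₂
  · subst hne
    rcases Y_eq_of_X_eq h₁.1 h₂.1 rfl with rfl | hy
    · obtain ⟨d1, d2⟩ := key_dbl hW (Point.some x₁ y₁ h₁) hP
      rw [sub_self, ← two_nsmul]
      refine ⟨d1, trivial, ?_⟩
      rw [uc_zero, add_zero]
      exact d2
    · have hPQ : Point.some x₁ y₁ h₁ = -Point.some x₁ y₂ h₂ := by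
        rw [Point.neg_some]
        simp only [Point.some.injEq, true_and]
        exact hy
      obtain ⟨d1, d2⟩ := key_dbl hW (Point.some x₁ y₂ h₂) hQ
      have e1 : -Point.some x₁ y₂ h₂ - Point.some x₁ y₂ h₂ = -((2 : ℕ) • Point.some x₁ y₂ h₂) := by
        rw [two_nsmul]; abel
      rw [hPQ, neg_add_cancel, e1, uc_neg, uc_neg]
      refine ⟨trivial, InE1_neg _ d1, ?_⟩
      rw [uc_zero, zero_add]
      exact d2
  · exact key_ne hW h₁ h₂ hP hQ hne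

/-- (K1) `E₁` is closed under addition. -/
theorem InE1_add {W : Affine K} (hW : BInt v W) (P Q : W.Point) (hP : InE1 v P)
    (hQ : InE1 v Q) : InE1 v (P + Q) := (key hW P Q hP hQ).1

theorem InE1_sub {W : Affine K} (hW : BInt v W) (P Q : W.Point) (hP : InE1 v P)
    (hQ : InE1 v Q) : InE1 v (P - Q) := (key hW P Q hP hQ).2.1

omit [DecidableEq K] in
theorem alg_step {u U₂ c₀ c₁ ε₀ ε₁ nr dr r : K}
    (hK : (U₂ + u * (c₀ + ε₀)) * (1 - u * (c₁ + ε₁) * u * dr)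
      = 2 * (u * (c₁ + ε₁) + u) + u * (c₁ + ε₁) * u * nr)
    (hr : (1 - u * (c₁ + ε₁) * u * dr) * r = 1) :
    U₂ = u * ((2 * c₁ + 2 - c₀) + (2 * ε₁ + u * (c₁ + ε₁) * nr - ε₀
      + (2 * (c₁ + ε₁ + 1) + u * (c₁ + ε₁) * nr) * (u * (c₁ + ε₁) * u * dr) * r)) := by
  linear_combination r * hK
    - (U₂ + u * (c₀ + ε₀) - u * (2 * (c₁ + ε₁ + 1) + u * (c₁ + ε₁) * nr)) * hr

/-- `u(kP) = u(P) (k² + ε)` -/
def Good {W : Affine K} (v : Valuation K Γ₀) (P : W.Point) (k : ℕ) : Prop :=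
  InE1 v (k • P) ∧ ∃ ε : K, v ε < 1 ∧ uc (k • P) = uc P * ((k : K) ^ 2 + ε)

theorem good_step {W : Affine K} (hW : BInt v W) (P : W.Point) (hP : InE1 v P) (k : ℕ)
    (h0 : Good v P k) (h1 : Good v P (k + 1)) : Good v P (k + 2) := by
  obtain ⟨i0, ε₀, hε₀, e0⟩ := h0
  obtain ⟨i1, ε₁, hε₁, e1⟩ := h1
  obtain ⟨j1, -, hK⟩ := key hW ((k + 1) • P) P i1 hP
  have a1 : (k + 1) • P + P = (k + 2) • P := (succ_nsmul P (k + 1)).symm
  have a2 : (k + 1) • P - P = k • P := by rw [succ_nsmul, add_sub_cancel_right]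
  rw [a1] at j1
  rw [a1, a2] at hK
  have hu := v_uc_lt P hP
  have hu1 := v_uc_lt _ i1
  have hD := v_Df hW hu1 hu
  have hD0 : Df W (uc ((k + 1) • P)) (uc P) ≠ 0 := by
    intro h
    rw [h] at hD
    simp at hD
  have hnr := v_Nr hW hu1.le hu.le
  have hdr := v_Dr hW hu1.le hu.le
  rw [Nf_eq] at hK
  unfold Df at hK hD hD0
  set nr := Nr W (uc ((k + 1) • P)) (uc P) with hnrd
  set dr := Dr W (uc ((k + 1) • P)) (uc P) with hdrd
  rw [e1] at hK hD hD0 hu1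
  rw [e0] at hK
  have hr := mul_inv_cancel₀ hD0
  have hvr : v (1 - uc P * ((((k + 1 : ℕ) : K)) ^ 2 + ε₁) * uc P * dr)⁻¹ = 1 := by
    rw [map_inv₀, hD, inv_one]
  have step := alg_step hK hr
  obtain ⟨ε₂, hε₂⟩ : ∃ ε₂ : K, ε₂ = 2 * ε₁ + uc P * (((k + 1 : ℕ) : K) ^ 2 + ε₁) * nr - ε₀ +
      (2 * (((k + 1 : ℕ) : K) ^ 2 + ε₁ + 1) + uc P * (((k + 1 : ℕ) : K) ^ 2 + ε₁) * nr)
        * (uc P * (((k + 1 : ℕ) : K) ^ 2 + ε₁) * uc P * dr)
        * (1 - uc P * (((k + 1 : ℕ) : K) ^ 2 + ε₁) * uc P * dr)⁻¹ := ⟨_, rfl⟩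
  rw [← hε₂] at step
  refine ⟨j1, ε₂, ?_, ?_⟩
  rotate_left
  · rw [step]
    congr 2
    push_cast
    ring
  · rw [hε₂]
    have hc : v (((k + 1 : ℕ) : K) ^ 2 + ε₁ + 1) ≤ 1 := by
      refine Valuation.map_add_le v (Valuation.map_add_le v ?_ hε₁.le) (by simp)
      rw [map_pow]
      exact pow_le_one₀ zero_le (v_ofNat_le_one v _)
    have hM : v (2 * (((k + 1 : ℕ) : K) ^ 2 + ε₁ + 1)
        + uc P * (((k + 1 : ℕ) : K) ^ 2 + ε₁) * nr) ≤ 1 :=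
      Valuation.map_add_le v (v_mul_le v_two hc) (v_mul_le hu1.le hnr)
    refine Valuation.map_add_lt v (Valuation.map_sub_lt v (Valuation.map_add_lt v ?_ ?_) hε₀) ?_
    · rw [mul_comm]; exact v_mul_lt hε₁ v_two
    · exact v_mul_lt hu1 hnr
    · rw [mul_assoc, mul_comm]
      refine v_mul_lt ?_ hM
      exact v_mul_lt (v_mul_lt (v_mul_lt hu1 hu.le) hdr) hvr.le

theorem good_all {W : Affine K} (hW : BInt v W) (P : W.Point) (hP : InE1 v P) (k : ℕ) :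
    Good v P k ∧ Good v P (k + 1) := by
  induction k with
  | zero =>
    refine ⟨⟨by simp, 0, by simp, by simp⟩, ⟨by simpa using hP, 0, by simp, by simp⟩⟩
  | succ k ih => exact ⟨ih.2, good_step hW P hP k ih.1 ih.2⟩

/-- (K2) `E₁` has no torsion of unit order. -/
theorem torsion_free {W : Affine K} (hW : BInt v W) (P : W.Point) (hP : InE1 v P) (n : ℕ)
    (hn : v (n : K) = 1) (h : n • P = 0) : P = 0 := by
  rcases P with _ | ⟨x, y, hxy⟩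
  · rfl
  exfalso
  obtain ⟨-, ε, hε, e⟩ := (good_all hW _ hP n).1
  have hx : 1 < v x := hP
  have hx0 := ne_zero_of_one_lt hx
  rw [h, uc_zero, uc_some] at e
  have h0 : (n : K) ^ 2 + ε = 0 := by
    rcases mul_eq_zero.mp e.symm with h | h
    · exact absurd h (inv_ne_zero hx0)
    · exact h
  have h1 : (n : K) ^ 2 = -ε := by linear_combination h0
  have h2 := congrArg v h1
  rw [map_pow, hn, one_pow, Valuation.map_neg] at h2
  rw [← h2] at hε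
  exact lt_irrefl _ hε

end Fermat.Agent.S52.RTKer
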