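import Fermat.Agent.S52.Interface2

/-! # S52: top level glue.  Architect: helper52. -/

set_option autoImplicit false

open WeierstrassCurve WeierstrassCurve.Affine WeierstrassCurve.Affine.Point

namespace Fermat.Agent.S52

theorem stmt_Choice1 (hMod : Stmt_Model) (hSS : Stmt_Semistable1) (hC3 : Stmt_Crit3)
    (hH : Stmt_HIT1) (hB : Stmt_Base) : Stmt_Choice1 := by
  intro W hΔ hW _h3
  have hne : W.c₄ ^ 3 ≠ W.c₆ ^ 2 := by
    intro h
    have := W.c_relation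
    rw [h, sub_self] at this
    exact hΔ (by simpa using this)
  obtain ⟨t, hMt, hY⟩ := hH W.c₄ W.c₆ (1728 * (30 * W.Δ)) hne
    (mul_ne_zero (by norm_num) (mul_ne_zero (by norm_num) hΔ))
  obtain ⟨hb4, hb6, -⟩ := hB ℤ W.c₄ W.c₆ t
  have h1728 : (1728 : ℤ) ∣ t := dvd_trans (Dvd.intro _ rfl) hMt
  have h30 : 30 * W.Δ ∣ t := dvd_trans (Dvd.intro_left _ rfl) hMt
  obtain ⟨W', h4, h6⟩ := hMod W (HH W.c₄ W.c₆ 1 t) (TT W.c₄ W.c₆ 1 t)
    (dvd_trans h1728 hb4) (dvd_trans h1728 hb6)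
  obtain ⟨hΔ', hW'⟩ := hSS W W' t hΔ hW h30 h4 h6
  refine ⟨W', t, hΔ', hW', ?_, h4, h6⟩
  by_contra hirr
  obtain ⟨Y, hYY⟩ := hC3 W' hΔ' hirr
  rw [h4, h6] at hYY
  exact hY Y hYY

/-- a point killed by `5` and by `n`, nonzero, forces `5 ∣ n`. -/
theorem Top.five_dvd_of_smul_eq_zero {G : Type*} [AddCommGroup G] {P : G} (h5 : (5 : ℕ) • P = 0)
    (hP : P ≠ 0) {n : ℤ} (hn : n • P = 0) : (5 : ℤ) ∣ n := by
  have hord : addOrderOf P = 5 := by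
    have hd : addOrderOf P ∣ 5 := addOrderOf_dvd_of_nsmul_eq_zero h5
    rcases (Nat.dvd_prime (by norm_num : Nat.Prime 5)).mp hd with h | h
    · exact absurd (AddMonoid.addOrderOf_eq_one_iff.mp h) hP
    · exact h
  have := (addOrderOf_dvd_iff_zsmul_eq_zero (x := P) (i := n)).mpr hn
  rw [hord] at this
  exact_mod_cast this

theorem top (hT : Stmt_Trace) (hC : Stmt_Cong1) (hCh : Stmt_Choice1)
    (W : WeierstrassCurve ℤ) (hΔ : W.Δ ≠ 0) (hW : W.IsSemistableModel) :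
    ∃ W' : WeierstrassCurve ℤ, W'.Δ ≠ 0 ∧ W'.IsSemistableModel ∧ W'.ModRepIsIrreducible 3 ∧
      ∀ ℓ : ℕ, ℓ.Prime → W.IsGoodPrimeFor ℓ → W'.IsGoodPrimeFor ℓ → ℓ ≠ 5 →
        (5 : ℤ) ∣ (W'.apOfModel ℓ - W.apOfModel ℓ) := by
  by_cases h3 : W.ModRepIsIrreducible 3
  · exact ⟨W, hΔ, hW, h3, fun ℓ _ _ _ _ => by simp⟩
  obtain ⟨W', t, hΔ', hW', h3', h4, h6⟩ := hCh W hΔ hW h3
  refine ⟨W', hΔ', hW', h3', fun ℓ hℓ hg hg' hℓ5 => ?_⟩
  obtain ⟨σ, hσ⟩ := hT ℓ hℓ hℓ5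
  obtain ⟨P, P', h5P, h5P', hP', hrel⟩ := hC W W' t hΔ hΔ' h4 h6
  have r1 := hσ W hg P h5P
  have r2 := hσ W' hg' P' h5P'
  have r3 := hrel σ 1 (-(W.apOfModel ℓ)) (ℓ : ℤ) (by
    rw [one_smul, neg_smul, ← sub_eq_add_neg]; exact r1)
  rw [one_smul, neg_smul, ← sub_eq_add_neg] at r3
  have r4 : (W'.apOfModel ℓ - W.apOfModel ℓ) • (σ • P') = 0 := by
    rw [sub_smul]
    have := congrArg₂ (· - ·) r3 r2
    simp only [sub_zero] at this
    rw [← this]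
    abel
  have h5σ : (5 : ℕ) • (σ • P') = 0 := by
    rw [← DistribMulAction.toAddMonoidHom_apply (A := (EQb W').Point) σ P', ← map_nsmul, h5P',
      _root_.map_zero]
  have hσP' : σ • P' ≠ 0 := by
    intro h
    apply hP'
    have := congrArg (fun Q => σ⁻¹ • Q) h
    simp only [inv_smul_smul] at this
    rw [this]
    exact (DistribMulAction.toAddMonoidHom (EQb W').Point σ⁻¹).map_zero
  exact Top.five_dvd_of_smul_eq_zero h5σ hσP' r4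

end Fermat.Agent.S52
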